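-- GENERATED (merged mirror, NOTES/tools/trim/merge3_helper67.py): 9 modules of the originals, bodies verbatim.
import Mathlib
import Fermat.Agent.Zm.S59_L09_000
import Fermat.Agent.Zm.S59_L05_002
import Fermat.Agent.Zm.S59_L02_001
import Fermat.Agent.Zm.S59_L05_000
import Fermat.Agent.Zm.S59_L06_001
import Fermat.Agent.Zm.S59_L02_000
import Fermat.Agent.Zm.S59_L03_000
import Fermat.Agent.Zm.S59_L08_002
import Fermat.Agent.Zm.S59_L03_002
import Fermat.Agent.Zm.S43_L01_003
import Fermat.Agent.Zm.S35_L08_001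

-- ==== BEGIN Fermat.Agent.S27.Char0.H20_EisEx
section

/-!
# S27 char-0 half, leaf EIS-EX (helper20): every function field over an algebraically closed
field has an Eisenstein model.
-/

set_option autoImplicit false
set_option linter.style.haveILetI false

noncomputable section

open AlgebraicCurve IntermediateField Polynomial

namespace Fermat.Agent.S27.Char0.H20

open Fermat.Agent.RED.H51 Fermat.Agent.S24

universe u v

/-- **EIS-EX**. -/
theorem stmt_EisEx : Stmt_EisEx.{u, v} := by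
  classical
  intro K F _ _ _ _ hFF H g c hg
  obtain ⟨P, w, hwtr, hwfin, hd, hord⟩ := exists_single_zero hFF H hg
  haveI := hwfin
  obtain ⟨θ, hθ0, hθ⟩ := exists_uniformizer P
  obtain ⟨hdeg, hcoef, hc0, hc0ord⟩ := minpoly_eisenstein P hd hord hθ
  set d := Module.finrank K⟮w⟯ F with hd_def
  set μ := minpoly K⟮w⟯ θ with hμ
  have hwpos : 0 < P.ord w := by rw [hord]; exact_mod_cast hd
  have hex : ∀ i : Fin d, ∃ (n m : K[X]), m.eval 0 ≠ 0 ∧
      ((μ.coeff i : K⟮w⟯) : F) * aeval w m = w * aeval w n ∧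
      (((μ.coeff i : K⟮w⟯) : F) ≠ 0 → P.ord ((μ.coeff i : K⟮w⟯) : F) = P.ord w →
        n.eval 0 ≠ 0) :=
    fun i => exists_num_den P hwpos (μ.coeff i).2 (hcoef i i.2)
  choose n m hm hrel hn using hex
  -- the relation
  have hsum : θ ^ d + ∑ i : Fin d, ((μ.coeff i : K⟮w⟯) : F) * θ ^ (i : ℕ) = 0 := by
    have h1 := minpoly.aeval K⟮w⟯ θ
    rw [aeval_eq_sum_range, ← hμ, hdeg, Finset.sum_range_succ] at h1
    have hmonic : μ.Monic := minpoly.monic (IsIntegral.of_finite K⟮w⟯ θ)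
    have hlead : μ.coeff d = 1 := by
      rw [← hdeg, coeff_natDegree, hmonic.leadingCoeff]
    rw [hlead, one_smul, Finset.sum_range (fun i => μ.coeff i • θ ^ i)] at h1
    rw [add_comm]
    rw [← h1]
    congr 1
  refine ⟨{
    w := w
    θ := θ
    d := d
    transc := hwtr
    fin := hwfin
    deg := rfl
    a := fun i => n i * ∏ j ∈ Finset.univ.erase i, m j
    b := ∏ j, m j
    hb := ?_
    ha := ?_
    rel := ?_ }⟩
  · rw [eval_prod]
    exact Finset.prod_ne_zero_iff.mpr fun j _ => hm j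
  · intro h
    rw [eval_mul, eval_prod]
    refine mul_ne_zero (hn ⟨0, h⟩ hc0 hc0ord) ?_
    exact Finset.prod_ne_zero_iff.mpr fun j _ => hm j
  · have hterm : ∀ i : Fin d, w * aeval w (n i * ∏ j ∈ Finset.univ.erase i, m j) * θ ^ (i : ℕ)
        = aeval w (∏ j, m j) * (((μ.coeff i : K⟮w⟯) : F) * θ ^ (i : ℕ)) := by
      intro i
      rw [← Finset.mul_prod_erase Finset.univ m (Finset.mem_univ i)]
      simp only [map_mul]
      have := hrel i
      linear_combination (-(aeval w (∏ j ∈ Finset.univ.erase i, m j)) * θ ^ (i : ℕ)) * this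
    rw [Finset.sum_congr rfl fun i _ => hterm i, ← Finset.mul_sum]
    have h2 : ∑ i : Fin d, ((μ.coeff i : K⟮w⟯) : F) * θ ^ (i : ℕ) = -θ ^ d := by
      linear_combination hsum
    rw [h2]
    ring

end Fermat.Agent.S27.Char0.H20

end
end
-- ==== END Fermat.Agent.S27.Char0.H20_EisEx

-- ==== BEGIN Fermat.Agent.S27.Char0.Lift.H20_JacOrd
section

/-!
# S27 LIFT / SOLVE, leaf JAC-ORD (helper20)
-/

set_option autoImplicit false

noncomputable section

open AlgebraicCurve IntermediateField Polynomial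

namespace Fermat.Agent.S27.Char0.Lift.H20

open Fermat.Agent.RED.H51 Fermat.Agent.S27.Char0.H20 Fermat.Agent.S27.Lift.H68

universe u v

variable {k : Type u} {Ft : Type v} [Field k] [Field Ft] [Algebra k Ft]

/-- `(X - α_i)^(n-1)` divides `rootProd n α`. -/
theorem pow_pred_dvd_rootProd {g : ℕ} (n : ℕ) (α : Fin g → k) (i : Fin g) :
    (X - C (α i)) ^ (n - 1) ∣ rootProd n α := by
  unfold rootProd
  exact (pow_dvd_pow _ (Nat.sub_le n 1)).trans
    (Finset.dvd_prod_of_mem (fun i' => (X - C (α i')) ^ n) (Finset.mem_univ i))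

/-- `(X - α_i)^(n-1)` divides `rootProdErase n α i'`. -/
theorem pow_pred_dvd_rootProdErase {g : ℕ} (n : ℕ) (α : Fin g → k) (i i' : Fin g) :
    (X - C (α i)) ^ (n - 1) ∣ rootProdErase n α i' := by
  unfold rootProdErase
  rcases eq_or_ne i i' with rfl | hne
  · exact dvd_mul_right _ _
  · refine Dvd.dvd.mul_left ?_ _
    exact (pow_dvd_pow _ (Nat.sub_le n 1)).trans
      (Finset.dvd_prod_of_mem (fun j => (X - C (α j)) ^ n)
        (Finset.mem_erase.mpr ⟨hne, Finset.mem_univ i⟩))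

/-- **JAC-ORD**. -/
theorem stmt_JacOrd : Solve.Stmt_JacOrd.{u, v} := by
  classical
  intro k Ft _ _ _ xt hxt g n α Qs hα hQ ct dc da T hct hT i
  set Q := Qs i with hQdef
  have hQi : Q.ord (xt - algebraMap k Ft (α i)) = 1 := hQ i
  have hwpos : 0 < Q.ord (xt - algebraMap k Ft (α i)) := by rw [hQi]; norm_num
  have hw0 : xt - algebraMap k Ft (α i) ≠ 0 := ne_zero_of_ord_ne_zero Q (by rw [hQi]; norm_num)
  -- `xt` is regular at `Q`
  have hxreg : OrdGe Q 0 xt := by
    have h1 : OrdGe Q 0 (xt - algebraMap k Ft (α i)) := ordGe_of_le Q hwpos.le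
    have h2 := h1.add (ordGe_algebraMap Q (α i))
    simpa using h2
  -- the order of the left factor is `n`
  have hfac : ∀ i' : Fin g, (xt - algebraMap k Ft (α i')) ^ n ≠ 0 ∧
      Q.ord ((xt - algebraMap k Ft (α i')) ^ n) = if i' = i then (n : ℤ) else 0 := by
    intro i'
    rcases eq_or_ne i' i with rfl | hne
    · refine ⟨pow_ne_zero _ hw0, ?_⟩
      rw [ord_pow, hQi, mul_one, if_pos rfl]
    · have hc : α i - α i' ≠ 0 := sub_ne_zero.mpr fun h => hne (hα h).symm
      have hc' : algebraMap k Ft (α i - α i') ≠ 0 :=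
        (map_ne_zero (algebraMap k Ft)).mpr hc
      have h1 : OrdGe Q (Q.ord (algebraMap k Ft (α i - α i')) + 1)
          (xt - algebraMap k Ft (α i)) := by
        rw [ord_algebraMap]
        exact ordGe_of_le Q (by omega)
      have h2 := ord_add_eq Q hc' h1
      have h3 : algebraMap k Ft (α i - α i') + (xt - algebraMap k Ft (α i))
          = xt - algebraMap k Ft (α i') := by
        rw [map_sub]; ring
      rw [h3, ord_algebraMap] at h2
      refine ⟨pow_ne_zero _ h2.1, ?_⟩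
      rw [ord_pow, h2.2, mul_zero, if_neg hne]
  have hA : aeval xt (rootProd n α) = ∏ i', (xt - algebraMap k Ft (α i')) ^ n := by
    unfold rootProd
    simp [map_prod]
  have hA0 : aeval xt (rootProd n α) ≠ 0 := by
    rw [hA]
    exact Finset.prod_ne_zero_iff.mpr fun i' _ => (hfac i').1
  have hAord : Q.ord (aeval xt (rootProd n α)) = n := by
    rw [hA, ord_prod Q _ _ (fun i' _ => (hfac i').1)]
    rw [Finset.sum_congr rfl fun i' _ => (hfac i').2]
    simp
  have hct' : algebraMap k Ft ct ≠ 0 := by simpa using hct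
  have hP0 : aeval xt (C ct * rootProd n α) ≠ 0 := by
    rw [map_mul, aeval_C]
    exact mul_ne_zero hct' hA0
  have hPord : Q.ord (aeval xt (C ct * rootProd n α)) = n := by
    rw [map_mul, aeval_C, Q.ord_mul hct' hA0, ord_algebraMap, hAord, zero_add]
  -- the right-hand side is divisible by `(X - α_i)^(n-1)`
  set R : k[X] := C dc * rootProd n α -
    C (ct * n) * ∑ i', C (da i') * rootProdErase n α i' with hR
  have hdvd : (X - C (α i)) ^ (n - 1) ∣ R := by
    rw [hR]
    refine dvd_sub (Dvd.dvd.mul_left (pow_pred_dvd_rootProd n α i) _) ?_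
    refine Dvd.dvd.mul_left (Finset.dvd_sum fun i' _ => ?_) _
    exact Dvd.dvd.mul_left (pow_pred_dvd_rootProdErase n α i i') _
  obtain ⟨R', hR'⟩ := hdvd
  have hRord : OrdGe Q ((n : ℤ) - 1) (aeval xt R) := by
    rw [hR', map_mul, map_pow, map_sub, aeval_X, aeval_C]
    have h1 : OrdGe Q (((n - 1 : ℕ) : ℤ)) ((xt - algebraMap k Ft (α i)) ^ (n - 1)) := by
      refine ordGe_of_le Q ?_
      rw [ord_pow, hQi, mul_one]
    have h2 := h1.mul (Fermat.Agent.RED.H51.ordGe_aeval Q hxreg R')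
    exact h2.mono (by omega)
  -- conclusion
  rcases eq_or_ne T 0 with rfl | hT0
  · rw [Place.ord_zero]; norm_num
  have hRne : aeval xt R ≠ 0 := by
    rw [← hT]
    exact mul_ne_zero hP0 hT0
  have h1 := hRord.le hRne
  have h2 : Q.ord (aeval xt R) = Q.ord (aeval xt (C ct * rootProd n α)) + Q.ord T := by
    rw [← hT, Q.ord_mul hP0 hT0]
  rw [hPord] at h2
  omega

end Fermat.Agent.S27.Char0.Lift.H20

end
end
-- ==== END Fermat.Agent.S27.Char0.Lift.H20_JacOrd

-- ==== BEGIN Fermat.Agent.S27.Char0.Lift.H20_PolyCrit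
section

/-!
# S27 LIFT / SOLVE, leaf POLY-CRIT (helper20): an element of `K(x)` which is regular at the
finite places and has a pole of order at most `M` at infinity is a polynomial of degree `≤ M`
in `x`.
-/

set_option autoImplicit false
set_option linter.style.haveILetI false

noncomputable section

open AlgebraicCurve IntermediateField Polynomial

namespace Fermat.Agent.S27.Char0.Lift.H20

open Fermat.Agent.RED.H51 Fermat.Agent.S27.Char0.H20 Fermat.Agent.S24

universe u v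

variable {K : Type u} {F : Type v} [Field K] [Field F] [Algebra K F]

/-- The order of a polynomial in `x` at a pole of `x`. -/
theorem ord_aeval_pole (P : Place K F) {x : F} (hx : P.ord x < 0) {p : K[X]} (hp : p ≠ 0) :
    aeval x p ≠ 0 ∧ P.ord (aeval x p) = p.natDegree * P.ord x := by
  have hx0 : x ≠ 0 := ne_zero_of_ord_ne_zero P hx.ne
  have hw : 0 < P.ord x⁻¹ := by rw [Place.ord_inv]; omega
  have hrev : (reverse p).eval 0 ≠ 0 := by
    rw [← coeff_zero_eq_eval_zero, coeff_zero_reverse]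
    exact leadingCoeff_ne_zero.mpr hp
  obtain ⟨h1, h2⟩ := ord_aeval_of_eval_ne P hw hrev
  have h3 : aeval x p = aeval x⁻¹ (reverse p) * x ^ p.natDegree := by
    haveI : Invertible x := invertibleOfNonzero hx0
    have := eval₂_reverse_mul_pow (algebraMap K F) x p
    rw [invOf_eq_inv] at this
    exact this.symm
  rw [h3]
  refine ⟨mul_ne_zero h1 (pow_ne_zero _ hx0), ?_⟩
  rw [P.ord_mul h1 (pow_ne_zero _ hx0), h2, ord_pow, zero_add]

/-- **POLY-CRIT**. -/
theorem stmt_PolyCrit : Solve.Stmt_PolyCrit.{u, v} := by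
  classical
  intro K F _ _ _ _ H x hx hfin y M hy hreg hpole
  haveI := hfin
  have hfinall : ∀ z : F, Transcendental K z → FiniteDimensional K⟮z⟯ F :=
    fun z hz => ff_finite_of_transcendental x hx z hz
  rcases eq_or_ne y 0 with rfl | hy0
  · exact ⟨0, by simp, by simp⟩
  obtain ⟨r, s, hrs⟩ := (mem_adjoin_simple_iff K y).mp hy
  have hs0 : aeval x s ≠ 0 := by
    intro h
    rw [h, div_zero] at hrs
    exact hy0 hrs
  have hr0 : aeval x r ≠ 0 := by
    intro h
    rw [h, zero_div] at hrs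
    exact hy0 hrs
  have hs : s ≠ 0 := by
    rintro rfl
    simp at hs0
  have hr : r ≠ 0 := by
    rintro rfl
    simp at hr0
  -- coprime representation
  obtain ⟨r', s', hr', hs', hu⟩ := extract_gcd r s
  set g := gcd r s with hg
  have hcop : IsCoprime r' s' := (gcd_isUnit_iff r' s').mp hu
  have hr'0 : r' ≠ 0 := by
    rintro rfl
    rw [mul_zero] at hr'
    exact hr hr'
  have hs'0 : s' ≠ 0 := by
    rintro rfl
    rw [mul_zero] at hs'
    exact hs hs'
  have hgx : aeval x g ≠ 0 := by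
    intro h
    apply hs0
    rw [hs', map_mul, h, zero_mul]
  have hs'x : aeval x s' ≠ 0 := by
    intro h
    apply hs0
    rw [hs', map_mul, h, mul_zero]
  have hr'x : aeval x r' ≠ 0 := by
    intro h
    apply hr0
    rw [hr', map_mul, h, mul_zero]
  have hy' : y = aeval x r' / aeval x s' := by
    rw [hrs]
    conv_lhs => rw [hr', hs']
    rw [map_mul, map_mul, mul_div_mul_left _ _ hgx]
  -- `s'` is constant
  have hsdeg : s'.degree = 0 := by
    by_contra hdeg
    obtain ⟨β, hβ⟩ := IsAlgClosed.exists_root s' hdeg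
    have htr : Transcendental K (x - algebraMap K F β) := by
      intro h
      apply hx
      have := h.add (isAlgebraic_algebraMap (R := K) (A := F) β)
      simpa using this
    obtain ⟨P, hP⟩ := Fermat.Agent.RED.H12.exists_place_ord_pos hfinall _ htr
    have hxP : 0 ≤ P.ord x := by
      by_contra hneg
      have hneg' : P.ord x < 0 := by omega
      have h1 := (ord_aeval_pole P hneg' (p := X - C β) (X_sub_C_ne_zero β)).2
      simp only [map_sub, aeval_X, aeval_C, natDegree_X_sub_C, Nat.cast_one, one_mul] at h1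
      omega
    have h1 := (ord_aeval_center P hP hs'0).2
    have h2 := (ord_aeval_center P hP hr'0).2
    have hmult : 0 < s'.rootMultiplicity β := (rootMultiplicity_pos hs'0).mpr hβ
    have hrβ : r'.rootMultiplicity β = 0 := by
      apply rootMultiplicity_eq_zero
      intro hroot
      obtain ⟨a, b, hab⟩ := hcop
      have := congrArg (eval β) hab
      simp only [eval_add, eval_mul, eval_one] at this
      rw [IsRoot.def.mp hroot, IsRoot.def.mp hβ, mul_zero, mul_zero, add_zero] at this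
      exact zero_ne_one this
    have h3 := hreg P hxP
    rw [hy', ord_div P hr'x hs'x, h1, h2, hrβ] at h3
    have : 0 < P.ord (x - algebraMap K F β) * (s'.rootMultiplicity β : ℤ) :=
      mul_pos hP (by exact_mod_cast hmult)
    simp at h3
    omega
  obtain ⟨c, hc⟩ : ∃ c : K, s' = C c := ⟨s'.coeff 0, eq_C_of_degree_eq_zero hsdeg⟩
  have hc0 : c ≠ 0 := by
    rintro rfl
    rw [map_zero] at hc
    exact hs'0 hc
  set p := r' * C c⁻¹ with hp
  have hp0 : p ≠ 0 := mul_ne_zero hr'0 (by simpa using hc0)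
  have hyp : y = aeval x p := by
    rw [hy', hc, hp]
    simp only [map_mul, aeval_C, map_inv₀]
    rw [div_eq_mul_inv]
  refine ⟨p, ?_, hyp⟩
  -- the degree, at a pole of `x`
  have htr' : Transcendental K x⁻¹ := fun h => hx (IsAlgebraic.inv_iff.mp h)
  obtain ⟨P, hP⟩ := Fermat.Agent.RED.H12.exists_place_ord_pos hfinall _ htr'
  rw [Place.ord_inv] at hP
  have hxP : P.ord x < 0 := by omega
  have h1 := hpole P hxP
  rw [hyp, (ord_aeval_pole P hxP hp0).2] at h1
  by_contra hcon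
  have h2 : (M : ℤ) + 1 ≤ p.natDegree := by
    have : M < p.natDegree := by omega
    exact_mod_cast this
  have h3 : (p.natDegree : ℤ) * P.ord x ≤ ((M : ℤ) + 1) * P.ord x :=
    mul_le_mul_of_nonpos_right h2 hxP.le
  have h4 : ((M : ℤ) + 1) * P.ord x = M * P.ord x + P.ord x := by ring
  omega

end Fermat.Agent.S27.Char0.Lift.H20

end
end
-- ==== END Fermat.Agent.S27.Char0.Lift.H20_PolyCrit

-- ==== BEGIN Fermat.Agent.S27.REDu.H34_Chart
section

/-!
# G-RED package IG (helper34): the chart theorem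

`stmt_chartNormal_of_notDvdDet : Stmt_notDvdDet.{uC, uF, uk, uFt} → Stmt_chartNormal.{uC, uF, uk, uFt}`.

Inputs: `H82.stmt_rootRed` (reduction of roots), `H82.h82_tameDiscr` (tame discriminant bound),
`span_eq_of_discr_bound_order` (IG-core), `exists_good_basis`, `exists_discr_lift` (S6),
`exists_pow_eq_smul` (NIL), and (S5) = `Stmt_notDvdDet.{uC, uF, uk, uFt}`.
-/

set_option autoImplicit false

universe uC uCf uK uR uF uL uE uk ukap uFp uFt uFtp uiot uEp uKp ux3b1

noncomputable section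

open Polynomial IntermediateField Module Matrix
open scoped IntermediateField.algebraAdjoinAdjoin nonZeroDivisors

namespace Fermat.Agent.S27.REDu.H34

variable {C : Type uC} {F : Type uF} {k : Type uk} {Ft : Type uFt} [Field C] [Field F] [Algebra C F] [Field k] [Field Ft] [Algebra k Ft]

section Abstract

variable {x : F}

/-- Finitely many points lie over `x = ρ`. -/
theorem finite_ptsOver (hxC : Transcendental C x) {m : ℕ}
    (c : Module.Basis (Fin m) ↥(Algebra.adjoin C {x}) ↥(Bx (C := C) x)) (ρ : C) :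
    (ptsOver x ρ).Finite := by
  classical
  have : IsPrincipalIdealRing ↥(Algebra.adjoin C {x}) := isPrincipalIdealRing_adjoin hxC
  by_contra hinf
  obtain ⟨t, ht, htc⟩ := Set.Infinite.exists_subset_card_eq hinf (m + 1)
  have h := H82.h82_count (R := ↥(Algebra.adjoin C {x})) (B := ↥(Bx (C := C) x)) c (piRho x ρ)
    (prime_piRho hxC ρ) (∅ : Finset (Fin m)) (fun i hi => absurd hi (Finset.notMem_empty i)) t
    (fun P hP => (mem_ptsOver_iff x ρ P).1 (ht hP))
  rw [htc, Finset.card_empty, Fintype.card_fin] at h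
  omega

theorem not_piRho_dvd_natCast [CharZero C] (hxC : Transcendental C x) (ρ : C) (n : ℕ)
    (hn : n ≠ 0) : ¬ piRho x ρ ∣ (n : ↥(Algebra.adjoin C {x})) := by
  rw [← evAt_eq_zero_iff hxC, map_natCast]
  exact_mod_cast hn

/-- The tame bound at `x = ρ`. -/
theorem not_pow_dvd_discr [CharZero C] (hxC : Transcendental C x) [FiniteDimensional ↥C⟮x⟯ F]
    [Algebra.IsSeparable ↥C⟮x⟯ F] {m : ℕ}
    (c : Module.Basis (Fin m) ↥(Algebra.adjoin C {x}) ↥(Bx (C := C) x)) (ρ : C) :
    ¬ piRho x ρ ^ (m - (ptsOver x ρ).ncard + 1) ∣ Algebra.discr ↥(Algebra.adjoin C {x}) c := by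
  have : IsPrincipalIdealRing ↥(Algebra.adjoin C {x}) := isPrincipalIdealRing_adjoin hxC
  have h := H82.h82_tameDiscr ↥(Algebra.adjoin C {x}) ↥C⟮x⟯ F (Fin m) c (piRho x ρ)
    (prime_piRho hxC ρ) (not_piRho_dvd_natCast hxC ρ)
  have hset : {P : Ideal ↥(integralClosure ↥(Algebra.adjoin C {x}) F) |
      P.IsMaximal ∧ algebraMap ↥(Algebra.adjoin C {x}) ↥(integralClosure ↥(Algebra.adjoin C {x}) F)
        (piRho x ρ) ∈ P} = ptsOver x ρ := by
    ext P
    exact (mem_ptsOver_iff x ρ P).symm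
  rw [hset, Fintype.card_fin] at h
  exact h

end Abstract

/-- (S5), to be supplied: the transition matrix from a basis of `B` to the lifted good basis has
determinant prime to `x - ρ` for `ρ ∈ O`. -/
def Stmt_notDvdDet : Prop :=
  ∀ (C : Type uC) (F : Type uF) (k : Type uk) (Ft : Type uFt) [Field C] [Field F] [Algebra C F] [Field k] [Field Ft] [Algebra k Ft]
    [CharZero C] (S : RedSetting C F k Ft) (x : F) (hx : x ∈ S.V)
    (_ : Transcendental k (S.red ⟨x, hx⟩)) [FiniteDimensional ↥C⟮x⟯ F]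
    (_ : Module.finrank ↥k⟮S.red ⟨x, hx⟩⟯ Ft = Module.finrank ↥C⟮x⟯ F)
    (m : ℕ) (bF : Module.Basis (Fin m) ↥C⟮x⟯ F) (hbV : ∀ i, bF i ∈ S.V)
    (hbB : ∀ i, IsIntegral ↥(Algebra.adjoin C {x}) (bF i))
    (bt : Module.Basis (Fin m) ↥k⟮S.red ⟨x, hx⟩⟯ Ft) (_ : ∀ i, bt i = S.red ⟨bF i, hbV i⟩)
    (_ : ∀ y ∈ S.Bbar hx,
      y ∈ Submodule.span ↥(Algebra.adjoin k {S.red ⟨x, hx⟩}) (Set.range bt))
    (c : Module.Basis (Fin m) ↥(Algebra.adjoin C {x}) ↥(Bx (C := C) x))
    (P : Matrix (Fin m) (Fin m) ↥(Algebra.adjoin C {x}))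
    (_ : ∀ i, (⟨bF i, hbB i⟩ : ↥(Bx (C := C) x)) = ∑ j, P i j • c j)
    (ρ : C) (_ : ρ ∈ S.O), ¬ piRho x ρ ∣ P.det

namespace RedSetting

variable {S : RedSetting C F k Ft} {x : F} (hx : x ∈ S.V)

/-- The chart theorem, from (S5). -/
theorem chartNormal_aux [IsAlgClosed C] [CharZero C] [IsAlgClosed k] (hND : Stmt_notDvdDet.{uC, uF, uk, uFt})
    (hxt : Transcendental k (S.red ⟨x, hx⟩)) [FiniteDimensional ↥C⟮x⟯ F]
    (hdeg : Module.finrank ↥k⟮S.red ⟨x, hx⟩⟯ Ft = Module.finrank ↥C⟮x⟯ F)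
    [Algebra.IsSeparable ↥k⟮S.red ⟨x, hx⟩⟯ Ft]
    (hD : ∀ ρ ρ' : ↥(S.V.comap (algebraMap C F)), IsBranchValue x (ρ : C) →
      IsBranchValue x (ρ' : C) → S.resO ρ = S.resO ρ' → ρ = ρ')
    (y : Ft) (hy : IsIntegral ↥(Algebra.adjoin k {S.red ⟨x, hx⟩}) y) :
    ∃ f : ↥S.V, IsIntegral ↥(Algebra.adjoin C {x}) (f : F) ∧ S.red f = y := by
  classical
  have hxC := transcendental_x hx hxt
  have hfdt := finiteDimensional_red hx hdeg
  have hpidt : IsPrincipalIdealRing ↥(Algebra.adjoin k {S.red ⟨x, hx⟩}) :=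
    isPrincipalIdealRing_adjoin hxt
  have hpid : IsPrincipalIdealRing ↥(Algebra.adjoin C {x}) := isPrincipalIdealRing_adjoin hxC
  have hcz : CharZero ↥C⟮x⟯ := charZero_of_injective_algebraMap (algebraMap C ↥C⟮x⟯).injective
  have hsepC : Algebra.IsSeparable ↥C⟮x⟯ F := inferInstance
  obtain ⟨m, bF, hbV, bt, hbB, hbt, hspan⟩ := exists_good_basis hx hxt hdeg
  obtain ⟨c, P, hP, hdisc⟩ :=
    exists_transition (R := ↥(Algebra.adjoin C {x})) (K := ↥C⟮x⟯) (L := F) bF hbB
  obtain ⟨D₀, hD₀, hd, hD₀ne⟩ := exists_discr_lift hx hxt bF hbV bt hbt _ hdisc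
  have hm : Module.finrank ↥C⟮x⟯ F = m := by
    rw [Module.finrank_eq_card_basis bF, Fintype.card_fin]
  have hdet : ∀ ρ : ↥S.O, ¬ piRho x (ρ : C) ∣ P.det := fun ρ =>
    hND C F k Ft S x hx hxt hdeg m bF hbV hbB bt hbt hspan c P hP ρ ρ.2
  have hD₀0 : D₀ ≠ 0 := by
    rintro rfl
    exact hD₀ne (Polynomial.map_zero _)
  -- roots of `D₀` in `O` are branch values
  have hroot_dvd : ∀ (ρ : ↥S.O) (N : ℕ), (Polynomial.X - Polynomial.C ρ) ^ N ∣ D₀ →
      piRho x (ρ : C) ^ N ∣ Algebra.discr ↥(Algebra.adjoin C {x}) c := by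
    intro ρ N hN
    have h1 : piRho x (ρ : C) ^ N ∣ P.det ^ 2 * Algebra.discr ↥(Algebra.adjoin C {x}) c := by
      rw [← hD₀, psiR_eq, pow_dvd_polyEquiv_iff]
      have h2 := Polynomial.map_dvd S.O.subtype hN
      rwa [Polynomial.map_pow, Polynomial.map_sub, Polynomial.map_X, Polynomial.map_C] at h2
    refine (prime_piRho hxC (ρ : C)).pow_dvd_of_dvd_mul_left N ?_ h1
    intro h3
    exact hdet ρ ((prime_piRho hxC (ρ : C)).dvd_of_dvd_pow h3)
  have hbranch : ∀ ρ : ↥S.O, D₀.IsRoot ρ → IsBranchValue x (ρ : C) := by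
    intro ρ hρ
    have h1 := hroot_dvd ρ 1 (by rw [pow_one]; exact Polynomial.dvd_iff_isRoot.2 hρ)
    have h2 := not_pow_dvd_discr hxC c (ρ : C)
    unfold IsBranchValue
    rw [hm]
    by_contra hlt
    rw [not_lt] at hlt
    rw [Nat.sub_eq_zero_of_le hlt, zero_add] at h2
    exact h2 h1
  have hbtint : ∀ i, IsIntegral ↥(Algebra.adjoin k {S.red ⟨x, hx⟩}) (bt i) := by
    intro i
    rw [hbt i]
    exact red_isIntegral hx hxt hdeg _ (hbB i) (hbV i)
  -- the main claim
  have hmain : ∀ y : Ft, IsIntegral ↥(Algebra.adjoin k {S.red ⟨x, hx⟩}) y →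
      y ∈ Submodule.span ↥(Algebra.adjoin k {S.red ⟨x, hx⟩}) (Set.range bt) := by
    refine span_eq_of_discr_bound_order (R := ↥(Algebra.adjoin k {S.red ⟨x, hx⟩}))
      (K := ↥k⟮S.red ⟨x, hx⟩⟯) (L := Ft) bt hbtint (S.psiT hx D₀) hd ?_
    intro π hπ hπd
    obtain ⟨γ, a, ha, rfl⟩ := exists_eq_of_prime hxt π hπ
    have hdvdπ : piRho (S.red ⟨x, hx⟩) γ ∣
        algebraMap k ↥(Algebra.adjoin k {S.red ⟨x, hx⟩}) a * piRho (S.red ⟨x, hx⟩) γ :=
      Dvd.intro_left _ rfl
    have hγroot : (D₀.map S.resO).IsRoot γ := by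
      rw [← dvd_polyEquiv_iff hxt, ← psiT_eq hx hxt]
      exact hdvdπ.trans hπd
    obtain ⟨ρ₀, rfl, hρroot, hmult⟩ := H82.stmt_rootRed C k S.O S.resO S.resO_surj
      S.resO_eq_zero_iff D₀ hD₀ne γ hγroot
    have hmult' := hmult (fun ρ' hρ' hroot' =>
      hD ρ' ρ₀ (hbranch ρ' hroot') (hbranch ρ₀ hρroot) hρ')
    -- enumerate the points
    have hfin := finite_ptsOver hxC c (ρ₀ : C)
    have : Finite ↥(ptsOver x (ρ₀ : C)) := hfin
    set r := (ptsOver x (ρ₀ : C)).ncard with hr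
    have hcard : Nat.card ↥(ptsOver x (ρ₀ : C)) = r := Nat.card_coe_set_eq _
    let e : ↥(ptsOver x (ρ₀ : C)) ≃ Fin r := (Finite.equivFin _).trans (finCongr hcard)
    let pt : Fin r → Ideal ↥(Bx (C := C) x) := fun t => ((e.symm t : ↥(ptsOver x (ρ₀ : C))) : _)
    have hpt : ∀ t, pt t ∈ ptsOver x (ρ₀ : C) := fun t => (e.symm t).2
    have hall : ∀ Q ∈ ptsOver x (ρ₀ : C), ∃ t, pt t = Q := fun Q hQ =>
      ⟨e ⟨Q, hQ⟩, by simp [pt]⟩
    let Λ : Matrix (Fin r) (Fin m) ↥(Algebra.adjoin k {S.red ⟨x, hx⟩}) :=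
      Matrix.of fun t i => algebraMap k ↥(Algebra.adjoin k {S.red ⟨x, hx⟩})
        (S.resO ⟨evP (hpt t) ⟨bF i, hbB i⟩,
          evP_mem_O hx hxt hdeg ρ₀.2 (hpt t) ⟨bF i, hbB i⟩ (hbV i)⟩)
    refine ⟨r, Λ, ?_, ?_⟩
    · intro v hv
      obtain ⟨n, z, hz, hpow⟩ := exists_pow_eq_smul hx hxt hdeg (fun i => bF i) hbV hbB (ρ₀ : C)
        ρ₀.2 pt hpt hall v (fun t => hdvdπ.trans (hv t))
      refine ⟨n, algebraMap k ↥(Algebra.adjoin k {S.red ⟨x, hx⟩}) a⁻¹ • z, hz.smul _, ?_⟩
      have h1 : (∑ i, v i • bt i) = ∑ i, v i • S.red ⟨bF i, hbV i⟩ :=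
        Finset.sum_congr rfl fun i _ => by rw [hbt i]
      rw [h1, hpow, smul_smul]
      congr 1
      rw [mul_comm, ← mul_assoc, ← map_mul, inv_mul_cancel₀ ha, map_one, one_mul]
    · intro hpow
      rw [Fintype.card_fin] at hpow
      have h1 : piRho (S.red ⟨x, hx⟩) (S.resO ρ₀) ^ (m - r + 1) ∣ S.psiT hx D₀ :=
        (pow_dvd_pow_of_dvd hdvdπ _).trans hpow
      rw [psiT_eq hx hxt, pow_dvd_polyEquiv_iff, ← Polynomial.le_rootMultiplicity_iff hD₀ne,
        hmult', Polynomial.le_rootMultiplicity_iff hD₀0] at h1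
      exact not_pow_dvd_discr hxC c (ρ₀ : C) (hroot_dvd ρ₀ _ h1)
  -- conclusion
  have hle : Submodule.span ↥(Algebra.adjoin k {S.red ⟨x, hx⟩}) (Set.range bt) ≤ S.Bbar hx := by
    rw [Submodule.span_le]
    rintro _ ⟨i, rfl⟩
    exact (mem_Bbar hx _).2 ⟨bF i, hbV i, hbB i, (hbt i).symm⟩
  obtain ⟨f, hf, hfi, hfr⟩ := (mem_Bbar hx y).1 (hle (hmain y hy))
  exact ⟨⟨f, hf⟩, hfi, hfr⟩

end RedSetting

/-- **Chart theorem** (modulo (S5)). -/
theorem stmt_chartNormal_of_notDvdDet (hND : Stmt_notDvdDet.{uC, uF, uk, uFt}) : Stmt_chartNormal.{uC, uF, uk, uFt} := by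
  intro C F k Ft _ _ _ _ _ _ _ _ _ S x hx hxt hfin hdeg hsep hD y hy
  exact RedSetting.chartNormal_aux hx hND hxt hdeg hD y hy

end Fermat.Agent.S27.REDu.H34

end
end
-- ==== END Fermat.Agent.S27.REDu.H34_Chart

-- ==== BEGIN Fermat.Agent.S27.REDu.H42_Gen5
section

/-!
# G-RED package GEN (helper42), part 5: existence of a lifted basis

`exists_isLift` : if the chart `x` is normal (conclusion of helper34's `Stmt_chartNormal.{uC, uF, uk, uFt}`) and
`Ft / k(xt)` is separable of degree `[F : C(x)]`, there is a lifted basis.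
`exists_chart_basis` : the chart `B ∩ V` is the free `O[x]`-module on a lifted basis.
-/

set_option autoImplicit false

universe uC uCf uK uR uF uL uE uk ukap uFp uFt uFtp uiot uEp uKp ux3b1

noncomputable section

open Polynomial IntermediateField Module
open scoped IntermediateField.algebraAdjoinAdjoin

namespace Fermat.Agent.S27.REDu.H42

open Fermat.Agent.S27.REDu.H34 Fermat.Agent.S27.REDu.H34.RedSetting

variable {C : Type uC} {F : Type uF} {k : Type uk} {Ft : Type uFt} [Field C] [Field F] [Algebra C F] [Field k] [Field Ft] [Algebra k Ft]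
variable {S : RedSetting C F k Ft} {x : F} (hx : x ∈ S.V)

/-- A basis of the integral closure of `k[t]` in a finite separable extension of `k(t)`:
linearly independent over `k(t)` and spanning the integral elements over `k[t]`. -/
theorem exists_intClosure_basis {k : Type uk} {Ft : Type uFt} [Field k] [Field Ft] [Algebra k Ft] {t : Ft}
    (ht : Transcendental k t) [FiniteDimensional ↥k⟮t⟯ Ft] [Algebra.IsSeparable ↥k⟮t⟯ Ft]
    {n : ℕ} (hn : Module.finrank ↥k⟮t⟯ Ft = n) :
    ∃ β : Fin n → Ft, (∀ i, IsIntegral ↥(Algebra.adjoin k {t}) (β i)) ∧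
      LinearIndependent ↥k⟮t⟯ β ∧
      ∀ y : Ft, IsIntegral ↥(Algebra.adjoin k {t}) y →
        ∃ c : Fin n → k[X], y = ∑ i, Polynomial.aeval t (c i) * β i := by
  classical
  have hpid : IsPrincipalIdealRing ↥(Algebra.adjoin k {t}) := isPrincipalIdealRing_adjoin ht
  have hinj : Function.Injective (algebraMap ↥(Algebra.adjoin k {t}) Ft) := Subtype.val_injective
  have htf : Module.IsTorsionFree ↥(Algebra.adjoin k {t}) Ft := by
    rw [Module.isTorsionFree_iff_algebraMap_injective]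
    exact hinj
  have hfree : Module.Free ↥(Algebra.adjoin k {t}) ↥(integralClosure ↥(Algebra.adjoin k {t}) Ft) :=
    IsIntegralClosure.module_free ↥(Algebra.adjoin k {t}) ↥k⟮t⟯ Ft
      ↥(integralClosure ↥(Algebra.adjoin k {t}) Ft)
  have hfin : Module.Finite ↥(Algebra.adjoin k {t})
      ↥(integralClosure ↥(Algebra.adjoin k {t}) Ft) :=
    IsIntegralClosure.finite ↥(Algebra.adjoin k {t}) ↥k⟮t⟯ Ft
      ↥(integralClosure ↥(Algebra.adjoin k {t}) Ft)
  have hrank : Module.finrank ↥(Algebra.adjoin k {t})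
      ↥(integralClosure ↥(Algebra.adjoin k {t}) Ft) = n := by
    rw [← hn]
    exact IsIntegralClosure.rank ↥(Algebra.adjoin k {t}) ↥k⟮t⟯ Ft
      ↥(integralClosure ↥(Algebra.adjoin k {t}) Ft)
  let bt : Module.Basis (Fin n) ↥(Algebra.adjoin k {t})
      ↥(integralClosure ↥(Algebra.adjoin k {t}) Ft) :=
    Module.finBasisOfFinrankEq _ _ hrank
  refine ⟨fun i => ((bt i : ↥(integralClosure ↥(Algebra.adjoin k {t}) Ft)) : Ft),
    fun i => (bt i).2, ?_, ?_⟩
  · rw [← LinearIndependent.iff_fractionRing ↥(Algebra.adjoin k {t}) ↥k⟮t⟯]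
    have h1 := bt.linearIndependent.map'
      ((integralClosure ↥(Algebra.adjoin k {t}) Ft).val.toLinearMap)
      (LinearMap.ker_eq_bot.2 Subtype.val_injective)
    exact h1
  · intro y hy
    have hrep := bt.sum_repr (⟨y, hy⟩ : ↥(integralClosure ↥(Algebra.adjoin k {t}) Ft))
    have hc : ∀ i, ∃ c : k[X], Polynomial.aeval t c =
        ((bt.repr (⟨y, hy⟩ : ↥(integralClosure ↥(Algebra.adjoin k {t}) Ft)) i :
          ↥(Algebra.adjoin k {t})) : Ft) := by
      intro i
      have h1 : ((bt.repr (⟨y, hy⟩ : ↥(integralClosure ↥(Algebra.adjoin k {t}) Ft)) i :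
          ↥(Algebra.adjoin k {t})) : Ft) ∈ (Polynomial.aeval t : k[X] →ₐ[k] Ft).range := by
        rw [← Algebra.adjoin_singleton_eq_range_aeval]
        exact Subtype.mem _
      exact h1
    choose c hc using hc
    refine ⟨c, ?_⟩
    have h2 := congrArg (fun b : ↥(integralClosure ↥(Algebra.adjoin k {t}) Ft) => (b : Ft)) hrep
    simp only [AddSubmonoidClass.coe_finsetSum] at h2
    rw [← h2]
    refine Finset.sum_congr rfl fun i _ => ?_
    rw [hc]
    rfl

/-- **Existence of a lifted basis** from normality of the chart. -/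
theorem exists_isLift (hxt : Transcendental k (S.red ⟨x, hx⟩)) [FiniteDimensional ↥C⟮x⟯ F]
    (hdeg : Module.finrank ↥k⟮S.red ⟨x, hx⟩⟯ Ft = Module.finrank ↥C⟮x⟯ F)
    [Algebra.IsSeparable ↥k⟮S.red ⟨x, hx⟩⟯ Ft]
    (hcn : ∀ y : Ft, IsIntegral ↥(Algebra.adjoin k {S.red ⟨x, hx⟩}) y →
      ∃ f : ↥S.V, IsIntegral ↥(Algebra.adjoin C {x}) (f : F) ∧ S.red f = y) :
    ∃ e : Fin (Module.finrank ↥C⟮x⟯ F) → F, IsLift hx e := by
  have hpos : 0 < Module.finrank ↥C⟮x⟯ F := Module.finrank_pos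
  have hfin : FiniteDimensional ↥k⟮S.red ⟨x, hx⟩⟯ Ft :=
    Module.finite_of_finrank_pos (hdeg ▸ hpos)
  obtain ⟨β, hβint, hβlin, hβspan⟩ := exists_intClosure_basis hxt hdeg
  choose f hfint hfred using fun i => hcn (β i) (hβint i)
  have hfun : (fun i => S.red ⟨((f i : ↥S.V) : F), (f i).2⟩) = β := by
    funext i
    exact hfred i
  refine ⟨fun i => ((f i : ↥S.V) : F), fun i => (f i).2, hfint, ?_, ?_⟩
  · rw [hfun]
    exact hβlin
  · intro y hy
    obtain ⟨c, hc⟩ := hβspan y hy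
    refine ⟨c, ?_⟩
    rw [hc]
    refine Finset.sum_congr rfl fun i _ => ?_
    rw [← hfred i]

/-- **The chart is free over `O[x]`**: there is a lifted basis `e` such that every element of
`B ∩ V` is an `O[x]`-combination of the `e i`. -/
theorem exists_chart_basis [IsAlgClosed C] [CharZero C]
    (hxt : Transcendental k (S.red ⟨x, hx⟩)) [FiniteDimensional ↥C⟮x⟯ F]
    (hdeg : Module.finrank ↥k⟮S.red ⟨x, hx⟩⟯ Ft = Module.finrank ↥C⟮x⟯ F)
    [Algebra.IsSeparable ↥k⟮S.red ⟨x, hx⟩⟯ Ft]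
    (hcn : ∀ y : Ft, IsIntegral ↥(Algebra.adjoin k {S.red ⟨x, hx⟩}) y →
      ∃ f : ↥S.V, IsIntegral ↥(Algebra.adjoin C {x}) (f : F) ∧ S.red f = y) :
    ∃ e : Fin (Module.finrank ↥C⟮x⟯ F) → F, IsLift hx e ∧
      ∀ f : F, f ∈ S.V → IsIntegral ↥(Algebra.adjoin C {x}) f →
        ∃ p : Fin (Module.finrank ↥C⟮x⟯ F) → (↥S.O)[X],
          f = ∑ i, ((psi hx (p i) : ↥S.V) : F) * e i := by
  obtain ⟨e, he, hspan⟩ := exists_lift_gspan hx hxt hdeg (by simp)
    (exists_isLift hx hxt hdeg hcn)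
  exact ⟨e, he, fun f hfV hf => exists_repr_psi hx hxt he f hfV (hspan f hf)⟩

end Fermat.Agent.S27.REDu.H42

end
end
-- ==== END Fermat.Agent.S27.REDu.H42_Gen5

-- ==== BEGIN Fermat.Agent.S27.REDu.H51_Final
section

/-!
# FF-B (helper51): final assembly, unconditional

The zeros theorem in any characteristic (`zerosAll`, from helper12's existence of zeros, helper42's
`≥` half and the `≤` half `zerosLeAll`), and with it all six `Stmt_FFB_*`, the three `Stmt_FFR_*`
(helper42's proofs).  `Stmt_HKA` is in `H51_HKA.lean`.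
-/

set_option autoImplicit false

universe uC uCf uK uR uF uL uE uk ukap uFp uFt uFtp uiot uEp uKp ux3b1

noncomputable section

open AlgebraicCurve IntermediateField

namespace Fermat.Agent.S27.REDu.H51

/-- **The zeros theorem** for function fields over algebraically closed fields of any
characteristic: a non-constant `x` has finitely many zeros and `∑ v(x) = [F : K(x)]`. -/
theorem zerosAll : Fermat.Agent.S27.REDu.H42.ZerosAll.{uK, uF} :=
  Fermat.Agent.S27.REDu.H42.zerosAll_of Fermat.Agent.S27.REDu.H12.existsZeroAll zerosLeAll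

/-- Every nonzero function has a divisor, of degree `0`. -/
theorem stmt_FFB_principal : Fermat.Agent.S27.REDu.Stmt_FFB_principal.{uK, uF} :=
  Fermat.Agent.S27.REDu.H42.stmt_FFB_principal_of zerosAll

/-- The fundamental identity. -/
theorem stmt_FFB_fundamental : Fermat.Agent.S27.REDu.Stmt_FFB_fundamental.{uK, uF, uFp} :=
  stmt_FFB_fundamental_of zerosAll zerosAll

/-- The norm formula. -/
theorem stmt_FFB_norm : Fermat.Agent.S27.REDu.Stmt_FFB_norm.{uK, uF, uFp} :=
  stmt_FFB_norm_of zerosAll zerosAll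

/-- `L(D)` is finite dimensional. -/
theorem stmt_FFR_finite : Fermat.Agent.S27.REDu.Stmt_FFR_finite.{uK, uF} :=
  Fermat.Agent.S27.REDu.H42.stmt_FFR_finite_of zerosAll

/-- `l(D) ≤ deg D + 1`. -/
theorem stmt_FFR_le : Fermat.Agent.S27.REDu.Stmt_FFR_le.{uK, uF} :=
  Fermat.Agent.S27.REDu.H42.stmt_FFR_le_of zerosAll

/-- Riemann's theorem. -/
theorem stmt_FFR_riemann : Fermat.Agent.S27.REDu.Stmt_FFR_riemann.{uK, uF} :=
  Fermat.Agent.S27.REDu.H42.stmt_FFR_riemann_of zerosAll

end Fermat.Agent.S27.REDu.H51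

end
end
-- ==== END Fermat.Agent.S27.REDu.H51_Final

-- ==== BEGIN Fermat.Agent.S27.REDu.H79_ConsGlue
section

/-!
# G-RED package CONS, C7 (helper79): glueing of two charts

Charts `x` and `x'` with `x' * (x - c₀) = 1`, `c₀ ∈ O`.  Given reductions `r₁`, `r₂` on the two
charts (`RedTo`) with conservation on each chart (`ChartCons`), the map
`r P := if InChart S x P then r₁ P else r₂ P` satisfies the conservation law `IsRedAbs S r`.
No consistency on the overlap is needed.
-/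

set_option autoImplicit false
set_option linter.style.haveILetI false

universe uC uCf uK uR uF uL uE uk ukap uFp uFt uFtp uiot uEp uKp ux3b1

noncomputable section

open AlgebraicCurve IsDedekindDomain WithZero IntermediateField

namespace Fermat.Agent.S27.REDu.H79

open Fermat.Agent.S27.REDu.H34 Fermat.Agent.S27.REDu.H51

open Classical in
theorem mapDomain_apply_eq_sum {α β : Type*} (r : α → β) (D : α →₀ ℤ) (Q : β) :
    Finsupp.mapDomain r D Q = ∑ P ∈ D.support, if r P = Q then D P else 0 := by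
  classical
  rw [Finsupp.mapDomain, Finsupp.sum, Finsupp.finsetSum_apply]
  refine Finset.sum_congr rfl fun P _ => ?_
  rw [Finsupp.single_apply]

section Glue

variable {C : Type uC} {F : Type uF} {k : Type uk} {Ft : Type uFt} [Field C] [Field F] [Algebra C F] [Field k] [Field Ft] [Algebra k Ft]
variable (S : RedSetting C F k Ft) {x x' : F} (hx : x ∈ S.V) (hx' : x' ∈ S.V) (c₀ : ↥S.O)

/-- (A) A place outside the chart `x` lies in the chart `x'`, with value in `m_O`. -/
theorem inChart_inv_of_not_inChart [IsAlgClosed C] (hxC : Transcendental C x)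
    [FiniteDimensional C⟮x⟯ F] (hxx' : x' * (x - algebraMap C F (c₀ : C)) = 1)
    (P : Place C F) (hP : ¬ InChart S x P) :
    ∃ a' : ↥S.O, S.resO a' = 0 ∧ OrdGe P 1 (x' - algebraMap C F (a' : C)) := by
  have hx'inv : x' = (x - algebraMap C F (c₀ : C))⁻¹ := eq_inv_of_mul_eq_one_left hxx'
  have hne : x - algebraMap C F (c₀ : C) ≠ 0 := by
    intro h
    rw [h, mul_zero] at hxx'
    exact zero_ne_one hxx'
  by_cases hxP : x ∈ P.toValuationSubring
  · have hdeg : P.deg = 1 := Fermat.Agent.S24.ff_deg_eq_one x hxC P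
    obtain ⟨a, ha⟩ := exists_value P hdeg ((ordGe_zero_iff_mem P x).2 hxP)
    have haV : algebraMap C F a ∉ S.V := fun h => hP ⟨a, h, ha⟩
    have haV' : algebraMap C F (a - c₀) ∉ S.V := by
      intro h
      apply haV
      have : algebraMap C F a = algebraMap C F (a - c₀) + algebraMap C F (c₀ : C) := by
        rw [← map_add, sub_add_cancel]
      rw [this]
      exact add_mem h c₀.2
    obtain ⟨b, hb, hb0⟩ := exists_inv_of_not_mem S haV'
    have hac : a - (c₀ : C) ≠ 0 := by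
      intro h
      apply haV'
      rw [h, map_zero]
      exact zero_mem _
    have hacF : algebraMap C F (a - c₀) ≠ 0 := by
      rwa [ne_eq, map_eq_zero_iff _ (algebraMap C F).injective]
    refine ⟨b, hb0, ?_⟩
    -- `ord_P (x - c₀) = 0`
    have h0 : P.ord (x - algebraMap C F (c₀ : C)) = 0 := by
      have e : x - algebraMap C F (c₀ : C)
          = algebraMap C F (a - c₀) + (x - algebraMap C F a) := by
        rw [map_sub]; ring
      rw [e, (ord_add_eq P hacF (by rw [ord_algebraMap]; simpa using ha)).2, ord_algebraMap]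
    have h1 : OrdGe P 0 x' := by
      refine Or.inr ?_
      rw [hx'inv, P.ord_inv, h0]
      simp
    have e : x' - algebraMap C F (b : C)
        = (algebraMap C F (-(b : C)) * x') * (x - algebraMap C F a) := by
      have hb' : algebraMap C F (b : C) * algebraMap C F (a - c₀) = 1 := by
        rw [hb, ← map_mul, inv_mul_cancel₀ hac, map_one]
      rw [map_sub] at hb'
      rw [map_neg]
      linear_combination (algebraMap C F (b : C)) * hxx' - x' * hb'
    rw [e]
    have := ((ordGe_algebraMap P (-(b : C))).mul h1).mul ha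
    simpa using this
  · refine ⟨0, map_zero _, ?_⟩
    have h1 : x - algebraMap C F (c₀ : C) ∉ P.toValuationSubring := by
      intro h
      apply hxP
      have : x = (x - algebraMap C F (c₀ : C)) + algebraMap C F (c₀ : C) := by ring
      rw [this]
      exact add_mem h (P.algebraMap_mem' _)
    have h2 := (not_mem_iff_ord_neg P).1 h1
    refine Or.inr ?_
    simp only [ZeroMemClass.coe_zero, map_zero, sub_zero]
    rw [hx'inv, P.ord_inv]
    omega

/-- `red x' * (xt - c₀~) = 1`. -/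
theorem red_mul_eq_one (hxx' : x' * (x - algebraMap C F (c₀ : C)) = 1) :
    S.red ⟨x', hx'⟩ * (S.red ⟨x, hx⟩ - algebraMap k Ft (S.resO c₀)) = 1 := by
  have h : (⟨x', hx'⟩ : ↥S.V) * (⟨x, hx⟩ - S.inclO c₀) = 1 := Subtype.ext hxx'
  have := congrArg S.red h
  rwa [map_mul, map_sub, S.red_inclO, map_one] at this

/-- (C) If `Q` is not finite over `xt`, then `red x'` vanishes at `Q`. -/
theorem ordGe_red_inv (hxx' : x' * (x - algebraMap C F (c₀ : C)) = 1) (Q : Place k Ft)
    (hQ : S.red ⟨x, hx⟩ ∉ Q.toValuationSubring) : OrdGe Q 1 (S.red ⟨x', hx'⟩) := by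
  have h1 : S.red ⟨x, hx⟩ - algebraMap k Ft (S.resO c₀) ∉ Q.toValuationSubring := by
    intro h
    apply hQ
    have : S.red ⟨x, hx⟩ = (S.red ⟨x, hx⟩ - algebraMap k Ft (S.resO c₀))
        + algebraMap k Ft (S.resO c₀) := by ring
    rw [this]
    exact add_mem h (Q.algebraMap_mem' _)
  have h2 := (not_mem_iff_ord_neg Q).1 h1
  have h3 : S.red ⟨x', hx'⟩ = (S.red ⟨x, hx⟩ - algebraMap k Ft (S.resO c₀))⁻¹ :=
    eq_inv_of_mul_eq_one_left (red_mul_eq_one S hx hx' c₀ hxx')
  refine Or.inr ?_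
  rw [h3, Q.ord_inv]
  omega

/-- (B) If `red x'` vanishes at `Q`, then `Q` is not finite over `xt`. -/
theorem not_mem_of_ordGe_red_inv (hxx' : x' * (x - algebraMap C F (c₀ : C)) = 1)
    (Q : Place k Ft) (hQ : OrdGe Q 1 (S.red ⟨x', hx'⟩)) :
    S.red ⟨x, hx⟩ ∉ Q.toValuationSubring := by
  intro h
  have h1 : OrdGe Q 0 (S.red ⟨x, hx⟩ - algebraMap k Ft (S.resO c₀)) :=
    ((ordGe_zero_iff_mem Q _).2 h).sub (ordGe_algebraMap Q _)
  have h2 := hQ.mul h1
  rw [red_mul_eq_one S hx hx' c₀ hxx'] at h2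
  rcases h2 with h2 | h2
  · exact one_ne_zero h2
  · rw [Q.ord_one] at h2
    omega

/-- (B') The reduction on the chart `x'` of a place outside the chart `x` is not finite
over `xt`. -/
theorem not_mem_of_redTo [IsAlgClosed C] (hxC : Transcendental C x)
    [FiniteDimensional C⟮x⟯ F] (hxx' : x' * (x - algebraMap C F (c₀ : C)) = 1)
    (P : Place C F) (hP : ¬ InChart S x P) (Q : Place k Ft) (hPQ : RedTo S x' hx' P Q) :
    S.red ⟨x, hx⟩ ∉ Q.toValuationSubring := by
  obtain ⟨a', ha'0, ha'⟩ := inChart_inv_of_not_inChart S c₀ hxC hxx' P hP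
  have h1 := hPQ.2 ⟨x', hx'⟩ (isIntegral_gen x') a' ha'
  rw [ha'0, map_zero, sub_zero] at h1
  exact not_mem_of_ordGe_red_inv S hx hx' c₀ hxx' Q h1

/-- (D) A place in both charts does not reduce, on the chart `x'`, to a place which is not
finite over `xt`. -/
theorem mem_of_redTo_of_inChart (hxx' : x' * (x - algebraMap C F (c₀ : C)) = 1)
    (P : Place C F) (hP : InChart S x P) (hP' : InChart S x' P) (Q : Place k Ft)
    (hPQ : RedTo S x' hx' P Q) : S.red ⟨x, hx⟩ ∈ Q.toValuationSubring := by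
  by_contra hQ
  obtain ⟨a, haV, ha⟩ := hP
  obtain ⟨a', haV', ha'⟩ := hP'
  -- `a' (a - c₀) = 1`
  have h1 : OrdGe P 1 (algebraMap C F (1 - a' * (a - (c₀ : C)))) := by
    have e : algebraMap C F (1 - a' * (a - (c₀ : C)))
        = (x' - algebraMap C F a') * (x - algebraMap C F (c₀ : C))
          + algebraMap C F a' * (x - algebraMap C F a) := by
      rw [map_sub, map_one, map_mul, map_sub]
      linear_combination (-1 : F) * hxx'
    rw [e]
    have hx0 : OrdGe P 0 (x - algebraMap C F (c₀ : C)) := by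
      have h1 : OrdGe P 0 (x - algebraMap C F a) := ha.mono (by norm_num)
      have h2 : OrdGe P 0 (algebraMap C F (a - (c₀ : C))) := ordGe_algebraMap P _
      have := h1.add h2
      rw [map_sub] at this
      have e2 : x - algebraMap C F a + (algebraMap C F a - algebraMap C F (c₀ : C))
          = x - algebraMap C F (c₀ : C) := by ring
      rwa [e2] at this
    have t1 := ha'.mul hx0
    have t2 := (ordGe_algebraMap P a').mul ha
    have := t1.add (t2.mono (by norm_num : (1 : ℤ) + 0 ≤ 0 + 1))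
    simpa using this
  have h2 := const_eq_zero_of_ordGe_one P _ h1
  have h3 := hPQ.2 ⟨x', hx'⟩ (isIntegral_gen x') ⟨a', haV'⟩ ha'
  have h4 := ordGe_red_inv S hx hx' c₀ hxx' Q hQ
  have h5 : OrdGe Q 1 (algebraMap k Ft (S.resO ⟨a', haV'⟩)) := by
    have := h4.sub h3
    rwa [sub_sub_cancel] at this
  have h6 := const_eq_zero_of_ordGe_one Q _ h5
  have h7 : (⟨a', haV'⟩ : ↥S.O) * (⟨a, haV⟩ - c₀) = 1 := by
    apply Subtype.ext
    show a' * (a - (c₀ : C)) = 1
    linear_combination -h2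
  have h8 := congrArg S.resO h7
  rw [map_mul, h6, zero_mul, map_one] at h8
  exact zero_ne_one h8

open Classical in
/-- **C7**: glueing of the charts `x` and `x'`, `x' (x - c₀) = 1`. -/
theorem isRedAbs_glue [IsAlgClosed C] (hxC : Transcendental C x)
    [FiniteDimensional C⟮x⟯ F] (hxx' : x' * (x - algebraMap C F (c₀ : C)) = 1)
    (r₁ r₂ : Place C F → Place k Ft)
    (hr₁ : ∀ P, InChart S x P → RedTo S x hx P (r₁ P))
    (hr₂ : ∀ P, InChart S x' P → RedTo S x' hx' P (r₂ P))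
    (hc₁ : ChartCons S x hx r₁) (hc₂ : ChartCons S x' hx' r₂) :
    IsRedAbs S (fun P => if InChart S x P then r₁ P else r₂ P) := by
  intro f hfu D hD Q
  rw [mapDomain_apply_eq_sum, ← Finset.sum_filter]
  have hin2 : ∀ P, ¬ InChart S x P → InChart S x' P := by
    intro P hP
    obtain ⟨a', -, ha'⟩ := inChart_inv_of_not_inChart S c₀ hxC hxx' P hP
    exact ⟨a', a'.2, ha'⟩
  by_cases hQ : S.red ⟨x, hx⟩ ∈ Q.toValuationSubring
  · rw [← hc₁ f hfu D hD Q hQ]
    refine Finset.sum_congr ?_ fun _ _ => rfl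
    ext P
    simp only [Finset.mem_filter]
    constructor
    · rintro ⟨h1, h2⟩
      by_cases hP : InChart S x P
      · rw [if_pos hP] at h2
        exact ⟨h1, hP, h2⟩
      · rw [if_neg hP] at h2
        exfalso
        have := not_mem_of_redTo S hx hx' c₀ hxC hxx' P hP (r₂ P) (hr₂ P (hin2 P hP))
        rw [h2] at this
        exact this hQ
    · rintro ⟨h1, hP, h2⟩
      exact ⟨h1, by rw [if_pos hP]; exact h2⟩
  · have hQ' : S.red ⟨x', hx'⟩ ∈ Q.toValuationSubring :=
      (ordGe_zero_iff_mem Q _).1 ((ordGe_red_inv S hx hx' c₀ hxx' Q hQ).mono (by norm_num))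
    rw [← hc₂ f hfu D hD Q hQ']
    refine Finset.sum_congr ?_ fun _ _ => rfl
    ext P
    simp only [Finset.mem_filter]
    constructor
    · rintro ⟨h1, h2⟩
      by_cases hP : InChart S x P
      · rw [if_pos hP] at h2
        exfalso
        have := (hr₁ P hP).1
        rw [h2] at this
        exact hQ this
      · rw [if_neg hP] at h2
        exact ⟨h1, hin2 P hP, h2⟩
    · rintro ⟨h1, hP', h2⟩
      refine ⟨h1, ?_⟩
      by_cases hP : InChart S x P
      · exfalso
        have := mem_of_redTo_of_inChart S hx hx' c₀ hxx' P hP hP' (r₂ P) (hr₂ P hP')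
        rw [h2] at this
        exact hQ this
      · rw [if_neg hP]
        exact h2

end Glue

end Fermat.Agent.S27.REDu.H79

end
end
-- ==== END Fermat.Agent.S27.REDu.H79_ConsGlue

-- ==== BEGIN Fermat.Agent.S38.H93_Final
section

set_option autoImplicit false

noncomputable section

open WeierstrassCurve WeierstrassCurve.Affine WeierstrassCurve.Affine.Point
open scoped WeierstrassCurve.Affine

namespace Fermat.Agent.S38.H93

/-- PIVOT, Galois form with auxiliary primes, from the core. -/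
theorem pivotGalAux_of_core (hPCA : Fermat.Agent.L.Pivot3.Stmt_PivotCoreBA) :
    Fermat.Agent.L.Pivot3.H75.Stmt_PivotGalAux :=
  Fermat.Agent.L.Pivot3.H13.pivotGalAux_of Fermat.Agent.S59.Asm.H92.stmt_THETAMIN
    Fermat.Agent.S59.Asm.H80.stmt_EXACTb hPCA

/-- **PIVOT, curve form, level prime to `p`, every odd `p`**, from the two cores. -/
theorem pivotWCoreAll_of_cores (hPC : Fermat.Agent.L.Pivot.Stmt_PivotCoreB)
    (hPCA : Fermat.Agent.L.Pivot3.Stmt_PivotCoreBA) :
    Fermat.Agent.S38.P3.Stmt_PivotWCoreAll :=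
  Fermat.Agent.S38.P3.pivotWCoreAll_of
    (Fermat.Agent.L.Pivot.H76.pivotWCore_of_pivotCoreB hPC)
    (Fermat.Agent.L.Pivot3.H75.pivotWCore3_of_aux
      (Fermat.Agent.L.Pivot3.H80.pivotWCoreAux3_of Fermat.Agent.L.Pivot.H3.stmt_CYC
        (pivotGalAux_of_core hPCA))
      Fermat.Agent.S39.H93.stmt_NonExcW)

/-- **PIVOT, curve form, `p ∥ N` and `E[p]` très ramifiée, every odd `p`**, from the two
cores. -/
theorem pivotWCoreSOAll_of_cores (hPC : Fermat.Agent.L.Pivot.Stmt_PivotCoreB)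
    (hPCA : Fermat.Agent.L.Pivot3.Stmt_PivotCoreBA) :
    Fermat.Agent.S38.P3.Stmt_PivotWCoreSOAll :=
  Fermat.Agent.S38.P3.pivotWCoreSOAll_of
    (Fermat.Agent.L.Pivot.H76.pivotWCoreSO_of_pivotCoreB Fermat.Agent.S59.TRes.H49.stmt_TRES hPC)
    (Fermat.Agent.L.Pivot3.H75.pivotWCoreSO3_of_aux
      (Fermat.Agent.L.Pivot3.H34.pivotWCoreSOAux3_of Fermat.Agent.L.Pivot.H3.stmt_CYC
        Fermat.Agent.S59.TRes.H49.stmt_TRES (pivotGalAux_of_core hPCA))
      Fermat.Agent.S39.H93.stmt_NonExcW)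

/-- **S38 (general form, every odd `p`) from the two PIVOT cores.** -/
theorem s38_of_cores (hPC : Fermat.Agent.L.Pivot.Stmt_PivotCoreB)
    (hPCA : Fermat.Agent.L.Pivot3.Stmt_PivotCoreBA) : Fermat.Agent.S59.LL.Stmt_S38 :=
  s38_of_pivot (pivotWCoreAll_of_cores hPC hPCA) (pivotWCoreSOAll_of_cores hPC hPCA)

/-- **The frozen statement S38 from the two PIVOT cores.** -/
theorem result_of_cores (hPC : Fermat.Agent.L.Pivot.Stmt_PivotCoreB)
    (hPCA : Fermat.Agent.L.Pivot3.Stmt_PivotCoreBA)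
    (p : ℕ) [Fact p.Prime] (_hp2 : p ≠ 2) (W : WeierstrassCurve ℤ) (_hΔ : W.Δ ≠ 0)
    (_hW : W.IsSemistableModel)
    (hcard₁ : Nat.card (Submodule.torsionBy ℤ
      ((W.map (Int.castRingHom ℚ))⁄(AlgebraicClosure ℚ)).Point p) = p ^ 2)
    (hker : GaloisFactorsThroughFiniteLevel
      (WeierstrassCurve.Affine.Point.galoisRepModuleEnd (K := AlgebraicClosure ℚ) ℚ
        (W.map (Int.castRingHom ℚ)) p))
    (_hirr : W.ModRepIsIrreducible p) (M q : ℕ) (hq : q.Prime) (hqp : q ≠ p)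
    (hqM : q ∣ M) (hq2 : ¬ q ^ 2 ∣ M) (hM : Squarefree M)
    (hunr : ((W.map (Int.castRingHom ℚ)).residualGaloisRepOf p hcard₁ hker).IsUnramifiedAt q)
    (hres : W.IsResiduallyModularOfLevel p M) :
    W.IsResiduallyModularOfLevel p (M / q) :=
  s38_of_cores hPC hPCA p _hp2 W _hΔ _hW hcard₁ hker _hirr M q hq hqp hqM hq2 hM hunr hres

/-- **LL at `p`** (the form which S59 consumes) from SQ at `p` and the two PIVOT cores. -/
theorem llec0At_of_cores (p : ℕ) (hT : Fermat.Agent.S59.LL.H40.SqNewTameAt p)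
    (h2 : Fermat.Agent.S59.LL.H40.SqNewTwoAt p)
    (hPC : Fermat.Agent.L.Pivot.Stmt_PivotCoreB)
    (hPCA : Fermat.Agent.L.Pivot3.Stmt_PivotCoreBA) : Fermat.Agent.S59.LL.H40.LLec0At p :=
  Fermat.Agent.S59.LL.H40.llec0_at p hT h2 (s38_of_cores hPC hPCA)
    Fermat.Agent.S39.H93.stmt_S39ss

end Fermat.Agent.S38.H93

end
end
-- ==== END Fermat.Agent.S38.H93_Final

-- ==== BEGIN Fermat.Agent.S41.H77_LLiftBase
section

/-!
# S41 / L-LIFT: the lattice of integral cuspidal classes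

* `cuspZ M`             : cuspidal homs `Gamma0 M → ℤ` as a `ℤ`-submodule,
* `redHom p`            : reduction mod `p` of homs,
* `exists_eq_smul_of_red_eq_zero` : the kernel of the reduction is `p • Hom`,
* `cor1_cuspZ, cor2_cuspZ, res2_cuspZ, Tcoh_cuspZ` : the degeneracy maps keep cuspidality over `ℤ`,
* `exists_cusp_lift`    : TORSLIFT in the `IsCuspidalHom` shape,
* `finite_cuspZ`        : `cuspZ M` is a finitely generated `ℤ`-module.
-/

set_option autoImplicit false

open scoped MatrixGroups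
open CongruenceSubgroup ModularCurve.Period

namespace Fermat.Agent.S41.H77

open Fermat.Agent.S41

/-! ### cuspidal versus parabolic over `ℤ` -/

theorem isCuspidal_of_parabolic_int {M : ℕ} {φ : Additive (Gamma0 M) →+ ℤ}
    (h : IsParabolicHom (Gamma0 M) φ) : IsCuspidalHom (Gamma0 M) φ := by
  intro γ hγ
  rcases hγ.lt_or_eq with hlt | heq
  · have h12 : (γ : SL(2, ℤ)) ^ 12 = 1 := Fermat.Agent.S16.H38.pow_twelve_eq_one_of_trace _ hlt
    have h12' : γ ^ 12 = 1 := Subtype.ext h12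
    have : (12 : ℕ) • φ (Additive.ofMul γ) = 0 := by
      rw [← map_nsmul, ← ofMul_pow, h12', ofMul_one, map_zero]
    simpa using this
  · exact h γ heq

theorem isParabolic_of_cuspidal {M : ℕ} {A : Type*} [AddCommGroup A]
    {φ : Additive (Gamma0 M) →+ A}
    (h : IsCuspidalHom (Gamma0 M) φ) : IsParabolicHom (Gamma0 M) φ :=
  fun γ hγ => h γ hγ.le

/-! ### the submodule of cuspidal classes -/

/-- The cuspidal homs `Gamma0 M → ℤ`. -/
def cuspZ (M : ℕ) : Submodule ℤ (Additive (Gamma0 M) →+ ℤ) where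
  carrier := {φ | IsCuspidalHom (Gamma0 M) φ}
  add_mem' := fun {a b} ha hb γ hγ => by
    rw [AddMonoidHom.add_apply, ha γ hγ, hb γ hγ, add_zero]
  zero_mem' := fun _ _ => rfl
  smul_mem' := fun c φ hφ γ hγ => by
    rw [AddMonoidHom.smul_apply, hφ γ hγ, smul_zero]

theorem mem_cuspZ {M : ℕ} {φ : Additive (Gamma0 M) →+ ℤ} :
    φ ∈ cuspZ M ↔ IsCuspidalHom (Gamma0 M) φ := Iff.rfl

/-! ### reduction mod `p` -/

section Red

variable {G : Type*} [Group G]

/-- Reduction mod `p` of a hom to `ℤ`. -/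
def redHom (p : ℕ) (φ : Additive G →+ ℤ) : Additive G →+ ZMod p :=
  (Int.castAddHom (ZMod p)).comp φ

@[simp] theorem redHom_apply (p : ℕ) (φ : Additive G →+ ℤ) (g : Additive G) :
    redHom p φ g = ((φ g : ℤ) : ZMod p) := rfl

theorem redHom_add (p : ℕ) (φ ψ : Additive G →+ ℤ) :
    redHom p (φ + ψ) = redHom p φ + redHom p ψ := by
  ext g; simp

theorem redHom_sub (p : ℕ) (φ ψ : Additive G →+ ℤ) :
    redHom p (φ - ψ) = redHom p φ - redHom p ψ := by
  ext g; simp

theorem redHom_zsmul (p : ℕ) (n : ℤ) (φ : Additive G →+ ℤ) :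
    redHom p (n • φ) = (n : ZMod p) • redHom p φ := by
  ext g; simp

theorem redHom_zero (p : ℕ) : redHom p (0 : Additive G →+ ℤ) = 0 := by
  ext g; simp

/-- The kernel of the reduction mod `p` is `p • Hom`. -/
theorem exists_eq_smul_of_red_eq_zero {p : ℕ} (hp : p ≠ 0) (φ : Additive G →+ ℤ)
    (h : redHom p φ = 0) : ∃ ψ : Additive G →+ ℤ, φ = (p : ℤ) • ψ := by
  have hdvd : ∀ g, (p : ℤ) ∣ φ g := by
    intro g
    have := DFunLike.congr_fun h g
    rw [redHom_apply, AddMonoidHom.zero_apply] at this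
    exact (ZMod.intCast_zmod_eq_zero_iff_dvd _ _).mp this
  have hp' : (p : ℤ) ≠ 0 := by exact_mod_cast hp
  refine ⟨AddMonoidHom.mk' (fun g => φ g / (p : ℤ)) ?_, ?_⟩
  · intro a b
    apply mul_left_cancel₀ hp'
    rw [mul_add, Int.mul_ediv_cancel' (hdvd _), Int.mul_ediv_cancel' (hdvd _),
      Int.mul_ediv_cancel' (hdvd _), map_add]
  · refine AddMonoidHom.ext fun g => ?_
    show φ g = (p : ℤ) • (φ g / (p : ℤ))
    rw [smul_eq_mul, Int.mul_ediv_cancel' (hdvd _)]

end Red

theorem cusp_of_smul_cusp {M : ℕ} {n : ℤ} (hn : n ≠ 0) {ψ : Additive (Gamma0 M) →+ ℤ}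
    (h : IsCuspidalHom (Gamma0 M) (n • ψ)) : IsCuspidalHom (Gamma0 M) ψ := by
  intro γ hγ
  have := h γ hγ
  rw [AddMonoidHom.smul_apply, smul_eq_mul] at this
  rcases mul_eq_zero.mp this with h0 | h0
  · exact absurd h0 hn
  · exact h0

theorem redHom_cusp {M : ℕ} (p : ℕ) {φ : Additive (Gamma0 M) →+ ℤ}
    (h : IsCuspidalHom (Gamma0 M) φ) : IsCuspidalHom (Gamma0 M) (redHom p φ) := by
  intro γ hγ
  rw [redHom_apply, h γ hγ, Int.cast_zero]

/-! ### coefficient change for the degeneracy maps -/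

section Coeff

variable {A B : Type*} [AddCommGroup A] [AddCommGroup B]

theorem cor1_map (N q : ℕ) (f : A →+ B) (φ : Additive (Gamma0 (N * q)) →+ A) :
    cor1 N q B (f.comp φ) = f.comp (cor1 N q A φ) := corAlong_map _ f φ

theorem cor2_map (N q : ℕ) (f : A →+ B) (φ : Additive (Gamma0 (N * q)) →+ A) :
    cor2 N q B (f.comp φ) = f.comp (cor2 N q A φ) := corAlong_map _ f φ

theorem res2_map (N q : ℕ) (f : A →+ B) (φ : Additive (Gamma0 N) →+ A) :
    res2 N q B (f.comp φ) = f.comp (res2 N q A φ) := rfl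

theorem Tcoh_map (N ℓ : ℕ) (f : A →+ B) (φ : Additive (Gamma0 N) →+ A) :
    Tcoh N B ℓ (f.comp φ) = f.comp (Tcoh N A ℓ φ) := by
  unfold Tcoh
  rw [res2_map, cor1_map]

theorem cor1_red (N q p : ℕ) (φ : Additive (Gamma0 (N * q)) →+ ℤ) :
    cor1 N q (ZMod p) (redHom p φ) = redHom p (cor1 N q ℤ φ) := cor1_map N q _ φ

theorem cor2_red (N q p : ℕ) (φ : Additive (Gamma0 (N * q)) →+ ℤ) :
    cor2 N q (ZMod p) (redHom p φ) = redHom p (cor2 N q ℤ φ) := cor2_map N q _ φ

theorem Tcoh_red (N ℓ p : ℕ) (φ : Additive (Gamma0 N) →+ ℤ) :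
    Tcoh N (ZMod p) ℓ (redHom p φ) = redHom p (Tcoh N ℤ ℓ φ) := Tcoh_map N ℓ _ φ

end Coeff

/-! ### the degeneracy maps keep cuspidality over `ℤ` (through `ℚ`) -/

section Cusp

theorem two_ne_zero_rat : (2 : ℚ) ≠ 0 := by norm_num

theorem ratHom_cusp {M : ℕ} {φ : Additive (Gamma0 M) →+ ℤ}
    (h : IsCuspidalHom (Gamma0 M) φ) :
    IsCuspidalHom (Gamma0 M) ((Int.castAddHom ℚ).comp φ) := by
  intro γ hγ
  show ((φ (Additive.ofMul γ) : ℤ) : ℚ) = 0
  rw [h γ hγ, Int.cast_zero]

theorem cusp_of_ratHom_cusp {M : ℕ} {φ : Additive (Gamma0 M) →+ ℤ}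
    (h : IsCuspidalHom (Gamma0 M) ((Int.castAddHom ℚ).comp φ)) :
    IsCuspidalHom (Gamma0 M) φ := by
  intro γ hγ
  have : ((φ (Additive.ofMul γ) : ℤ) : ℚ) = 0 := h γ hγ
  exact_mod_cast this

theorem cor1_cuspZ (N q : ℕ) (hN : N ≠ 0) (hq : q ≠ 0) {ψ : Additive (Gamma0 (N * q)) →+ ℤ}
    (hψ : IsCuspidalHom (Gamma0 (N * q)) ψ) : IsCuspidalHom (Gamma0 N) (cor1 N q ℤ ψ) := by
  apply cusp_of_ratHom_cusp
  rw [← cor1_map]
  exact H94.cor1_cusp H94.leaves two_ne_zero_rat N q hN hq (ratHom_cusp hψ)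

theorem cor2_cuspZ (N q : ℕ) (hN : N ≠ 0) (hq : q ≠ 0) {ψ : Additive (Gamma0 (N * q)) →+ ℤ}
    (hψ : IsCuspidalHom (Gamma0 (N * q)) ψ) : IsCuspidalHom (Gamma0 N) (cor2 N q ℤ ψ) := by
  apply cusp_of_ratHom_cusp
  rw [← cor2_map]
  exact H94.cor2_cusp H94.leaves two_ne_zero_rat N q hN hq (ratHom_cusp hψ)

theorem res2_cuspZ (N q : ℕ) (hN : N ≠ 0) (hq : q ≠ 0) {φ : Additive (Gamma0 N) →+ ℤ}
    (hφ : IsCuspidalHom (Gamma0 N) φ) : IsCuspidalHom (Gamma0 (N * q)) (res2 N q ℤ φ) := by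
  apply cusp_of_ratHom_cusp
  rw [← res2_map]
  exact H94.res2_cusp H94.leaves two_ne_zero_rat N q hN hq (ratHom_cusp hφ)

theorem Tcoh_cuspZ (N ℓ : ℕ) (hN : N ≠ 0) (hℓ : ℓ ≠ 0) {φ : Additive (Gamma0 N) →+ ℤ}
    (hφ : IsCuspidalHom (Gamma0 N) φ) : IsCuspidalHom (Gamma0 N) (Tcoh N ℤ ℓ φ) :=
  cor1_cuspZ N ℓ hN hℓ (res2_cuspZ N ℓ hN hℓ hφ)

end Cusp

/-! ### TORSLIFT -/

/-- TORSLIFT: cuspidal classes mod `p` lift to integral cuspidal classes. -/
theorem exists_cusp_lift (M : ℕ) (hM : M ≠ 0) (p : ℕ) (χ : Additive (Gamma0 M) →+ ZMod p)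
    (hχ : IsCuspidalHom (Gamma0 M) χ) :
    ∃ φ : Additive (Gamma0 M) →+ ℤ, IsCuspidalHom (Gamma0 M) φ ∧ redHom p φ = χ := by
  have : NeZero M := ⟨hM⟩
  obtain ⟨φ, hφ, h⟩ := Fermat.Agent.GTor.H77.stmt_TorsLift_S16 M p χ hχ
  refine ⟨φ, isCuspidal_of_parabolic_int hφ, ?_⟩
  ext g
  exact h (Additive.toMul g)

/-! ### finiteness -/

section Fin

theorem isNoetherian_hom_int (G : Type*) [Group G] [Group.FG G] :
    IsNoetherian ℤ (Additive G →+ ℤ) := by
  obtain ⟨S, hS, hfin⟩ := Group.fg_iff.mp (inferInstance : Group.FG G)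
  have : Finite S := hfin
  let F : (Additive G →+ ℤ) →ₗ[ℤ] (S → ℤ) :=
    { toFun := fun φ s => φ (Additive.ofMul (s : G))
      map_add' := fun _ _ => rfl
      map_smul' := fun _ _ => rfl }
  refine isNoetherian_of_injective F ?_
  intro φ ψ h
  have hmon : AddMonoidHom.toMultiplicativeRight φ = AddMonoidHom.toMultiplicativeRight ψ := by
    apply MonoidHom.eq_of_eqOn_top
    rw [← hS]
    apply MonoidHom.eqOn_closure
    intro s hs
    have := congrFun h ⟨s, hs⟩
    exact congrArg Multiplicative.ofAdd this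
  exact AddMonoidHom.toMultiplicativeRight.injective hmon

theorem finite_cuspZ (M : ℕ) (hM : M ≠ 0) : Module.Finite ℤ (cuspZ M) := by
  have : NeZero M := ⟨hM⟩
  have : Group.FG (Gamma0 M) := H94.fg_Gamma0 M
  have := isNoetherian_hom_int (Gamma0 M)
  infer_instance

end Fin

end Fermat.Agent.S41.H77

end
-- ==== END Fermat.Agent.S41.H77_LLiftBase
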