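-- GENERATED (merged mirror, NOTES/tools/trim/merge3_helper67.py): 8 modules of the originals, bodies verbatim.
import Fermat.Agent.Zm.S59_L08_001
import Fermat.Agent.Zm.S59_L02_003
import Fermat.Agent.Zm.S59_L07_002
import Fermat.Agent.Zm.S59_L03_002
import Fermat.Agent.Zm.S15_L02_000
import Fermat.Agent.Zm.S59_L08_002
import Fermat.Agent.Zm.S36_L18_000
import Fermat.Agent.Zm.S59_L06_003
import Fermat.Agent.Zm.S59_L06_002
import Fermat.Agent.Zm.S59_L03_004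
import Fermat.Agent.Zm.S43_L14_003
import Fermat.Agent.Zm.S59_L03_003
import Fermat.Agent.Zm.S59_L04_005
import Fermat.Agent.Zm.S59_L01_004
import Fermat.Agent.Zm.S35_L04_000
import Fermat.Agent.Zm.S59_L01_002
import Fermat.Agent.Zm.S43_L08_001
import Fermat.Agent.Zm.S43_L08_002
import Fermat.Agent.Zm.S43_L07_001
import Fermat.Agent.Zm.S43_L06_002
import Fermat.Agent.Zm.S33_L02_003
import Fermat.Agent.Zm.S43_L01_004
import Fermat.Agent.Zm.S35_L02_001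

-- ==== BEGIN Fermat.Agent.S59.LL.SQ.H77_UpWire
section

/-!
# S59 / LL / SQ, UP-WIRE (helper77): `SqNewTwoAt p` for `p ≥ 5` from the TAME leaves

Level `M q²`, `q ∤ M`, `A` a valuation ring of `ℚ̄` over `q`.  The geometric leaves **(R)** REG
(`H35.Reg11At`) and **(T′)** TOR-SPAN (`SQ.TorSpanSqAt`) are proved at the TAME levels only
(`q = 2`: `9 ∣ M`).  For `p ≥ 5` they descend from the level `M ℓ`, `ℓ = 3`, to the level `M`:

* `reg11_of_reg11At` : `Reg11At` gives helper94's `Reg11` at a level given up to equality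
  (unit predicate `UnitG` = `IsUnit3` for the function of level `M' q²` with the same series);
* `reg11At_up`       : **REG** at `M ℓ` gives **REG** at `M` (`ℓ` prime, `ℓ + 1 < p`;
  `H94.reg11_up_of_lt`, `H38.isUnit3_up`);
* `torSpanSqAt_up`   : **(T′)** at `M ℓ` gives **(T′)** at `M` (`ℓ ∣ 36`, `p ∤ [F_{Mℓq²} : F_{Mq²}]`;
  `H38.t3_up`, `H50.torSpan_descend`);
* `upLeaves_step3`   : the two leaves at `M · 3` give the two leaves at `M` (`p ≥ 5`, `q ≠ 3`);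
* `upLeaves_all`     : the two leaves at all `M` with `9 ∣ M` give them at all `M`;
* `hasSqNewPartAt_of_up`, `sqNewTwoAt_of_up` : **`LL.H40.SqNewTwoAt p`**, `p ≥ 5`, from the tame
  leaves `RegTameTwo p`, `TorSpanTameTwo p` and `CPowTwo p` (B2, all levels).

Complete (no gaps).
-/

set_option autoImplicit false
set_option synthInstance.maxHeartbeats 400000
set_option maxHeartbeats 1000000
set_option linter.unusedSectionVars false
set_option linter.unusedVariables false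
set_option linter.style.haveILetI false

noncomputable section

open ModularCurve AlgebraicCurve
open Fermat.Agent.S24 Fermat.Agent.S28 Fermat.Agent.S28.H73 Fermat.Agent.RED.H73
open Fermat.Agent.RED Fermat.Agent.S36.NU.H23 Fermat.Agent.S36.NU.H88 Fermat.Agent.S44
open Fermat.Agent.S35.H89 Fermat.Agent.BAD.H88 Fermat.Agent.Lib.HeckeComm

namespace Fermat.Agent.S59.LL.SQ.H77

open Fermat.Agent.S59.LL.SQ.H35

/-! ## REG: from `Reg11At` to `Reg11` at a level given up to equality -/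

section Cast

variable (A : ValuationSubring Kbar) (N q M' : ℕ) (B' k' : ℤ) (hN : N = M' * (q * q))
  (hB' : B' * M' + k' * q = 1) (hq : q.Prime) [NeZero N] [NeZero q] [NeZero M']
  [NeZero (M' * q)] [NeZero (M' * q * q)]
  (hqM' : ¬ q ∣ M') (hA : A.LiesOverPrime q) (hN2 : N = M' * q * q)

/-- **The unit predicate at a level given up to equality**: the function of level `M' q²` with
the same `q`-expansion is a unit for the three valuations. -/
def UnitG (h : ↥(L0 A N)) : Prop :=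
  ∀ h' : ↥(L0 A (M' * q * q)),
    ((h' : FN (M' * q * q)) : LaurentSeries Kbar) = ((h : FN N) : LaurentSeries Kbar) →
    SQ.IsUnit3 A q M' B' k' hB' hq h'

omit [NeZero N] [NeZero (M' * q)] in
/-- A unit for the three valuations is not zero. -/
theorem ne_zero_of_isUnit3 (h : ↥(L0 A (M' * q * q)))
    (hU : SQ.IsUnit3 A q M' B' k' hB' hq h) : (h : FN (M' * q * q)) ≠ 0 := by
  intro h0
  obtain ⟨h20, e⟩ := hU.1
  have hh : h = 0 := Subtype.ext h0
  subst hh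
  exact e (map_zero _)

/-- **`Reg11At` gives `Reg11`** (helper94's shape), at a level given up to equality. -/
theorem reg11_of_reg11At (p : ℕ) (hp : p.Prime)
    (H : Reg11At A q M' B' k' hB' hq hqM' hA p) :
    H94.Reg11 A N q M' B' k' hN hB' hq hqM' hA hN2 p (UnitG A N q M' B' k' hB' hq) := by
  subst hN2
  intro h hord hU h11 Q
  have hU3 : SQ.IsUnit3 A q M' B' k' hB' hq h := hU h rfl
  have hh0 := ne_zero_of_isUnit3 A q M' B' k' hB' hq h hU3
  obtain ⟨Dh, hDh, -⟩ :=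
    (Fermat.Agent.S59.LL.SQ.H40.hasPD_FN (M' * q * q)).exists_divisor (h : FN (M' * q * q)) hh0
  obtain ⟨D, hD⟩ := Fermat.Agent.S43.Old.exists_divisor_div p hp.ne_zero Dh
    (fun P => by rw [hDh P]; exact hord P)
  exact H h D (fun P => by rw [hD P, hDh P]) hU3 h11 Q

end Cast

/-! ## REG-UP for `Reg11At` -/

section RegUp

variable (A : ValuationSubring Kbar) (q M ℓ : ℕ) (B k B' k' : ℤ) (hB : B * M + k * q = 1)
  (hB' : B' * ((M * ℓ : ℕ) : ℤ) + k' * q = 1) (hq : q.Prime)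
  [NeZero M] [NeZero q] [NeZero ℓ] [NeZero (M * ℓ)] [NeZero (M * q)] [NeZero (M * ℓ * q)]
  [NeZero (M * q * q)] [NeZero (M * ℓ * q * q)] [NeZero (M * q * q * ℓ)]
  (hqM : ¬ q ∣ M) (hqMℓ : ¬ q ∣ M * ℓ) (hA : A.LiesOverPrime q)

include hA in
/-- The unit predicate passes to the level `M ℓ` along `α`. -/
theorem unitG_alpha (hℓq : Nat.Coprime ℓ q) (h : ↥(L0 A (M * q * q)))
    (hU : SQ.IsUnit3 A q M B k hB hq h) :
    UnitG A (M * q * q * ℓ) q (M * ℓ) B' k' hB' hq (H94.alphaL0 A q M ℓ h) := by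
  intro h' hh'
  have hup := H38.isUnit3_up A q M ℓ B k B' k' hB hB' hq hA hℓq h hU
  have e : h' = H38.upL0 A M q (M * ℓ) (dvd_mul_right M ℓ) h := by
    apply Subtype.ext
    apply Subtype.ext
    rw [hh', H38.coe_upL0_series]
    show ((heckeAlphaBar Kbar (M * q * q) ℓ (h : FN (M * q * q)) : FN (M * q * q * ℓ)) :
      LaurentSeries Kbar) = _
    rw [coe_heckeAlphaBar]
  rw [e]
  exact hup

/-- **REG-UP**: `Reg11At` at the level `M ℓ` gives `Reg11At` at the level `M`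
(`ℓ ≠ q` prime, `ℓ + 1 < p`). -/
theorem reg11At_up (hℓ : ℓ.Prime) (hℓq : ℓ ≠ q) (p : ℕ) (hp : p.Prime) (hlt : ℓ + 1 < p)
    (H : Reg11At A q (M * ℓ) B' k' hB' hq hqMℓ hA p) :
    Reg11At A q M B k hB hq hqM hA p := by
  have hcop : Nat.Coprime ℓ q := (Nat.coprime_primes hℓ hq).mpr hℓq
  refine reg11At_of_reg11 A q M B k hB hq hqM hA p ?_
  refine H94.reg11_up_of_lt A q M ℓ B k B' k' hB hB' hq hqM hqMℓ hA hℓ hℓq p hp hlt
    (fun h => SQ.IsUnit3 A q M B k hB hq h) (UnitG A (M * q * q * ℓ) q (M * ℓ) B' k' hB' hq)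
    (fun h hU => unitG_alpha A q M ℓ B k B' k' hB hB' hq hA hcop h hU) ?_
  exact reg11_of_reg11At A (M * q * q * ℓ) q (M * ℓ) B' k' (lvlUp q M ℓ) hB' hq hqMℓ hA
    (H94.lvlUp2 q M ℓ) p hp H

end RegUp

/-! ## TOR-SPAN-UP -/

section TorUp

variable (A : ValuationSubring Kbar) (q M ℓ : ℕ) (B k B' k' : ℤ) (hB : B * M + k * q = 1)
  (hB' : B' * ((M * ℓ : ℕ) : ℤ) + k' * q = 1) (hq : q.Prime)
  [NeZero M] [NeZero q] [NeZero ℓ] [NeZero (M * ℓ)] [NeZero (M * q)] [NeZero (M * ℓ * q)]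
  [NeZero (M * q * q)] [NeZero (M * ℓ * q * q)]

/-- **TOR-SPAN-UP**: `TorSpanSqAt` at the level `M ℓ` gives `TorSpanSqAt` at the level `M`
(`ℓ ∣ 36` prime to `q`, `p ∤ [F_{M ℓ q²} : F_{M q²}]`). -/
theorem torSpanSqAt_up (hA : A.LiesOverPrime q) (hℓ : ℓ ∣ 36) (hqℓ : ¬ q ∣ ℓ) (p : ℕ)
    (hp : p.Prime) (hpd : ¬ p ∣ H50.degSq M q (M * ℓ) (dvd_mul_right M ℓ))
    (H : SQ.TorSpanSqAt A q (M * ℓ) B' k' hB' hq p) :
    SQ.TorSpanSqAt A q M B k hB hq p := by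
  intro x hx0 hxp hnew hI hT3
  obtain ⟨h1, h2, h3, h4, h5⟩ :=
    H38.t3_up A q M ℓ B k B' k' hB hB' hq hA hℓ hqℓ p hp.pos x hx0 hxp hnew hI hT3
  have h6 := H (H38.upPull M q (M * ℓ) (dvd_mul_right M ℓ) x) h1 h2 h3 h4 h5
  exact H50.torSpan_descend M q (M * ℓ) hq (dvd_mul_right M ℓ) rfl hqℓ p hp hpd x hxp h6

end TorUp

/-! ## The two leaves, at all Bezout data -/

/-- **The leaves (R) REG and (T′) TOR-SPAN at the level `M q²`**, for all Bezout data and all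
valuation rings over `q`. -/
def UpLeaves (p q M : ℕ) : Prop :=
  ∀ (B k : ℤ) (hB : B * M + k * q = 1) (hq : q.Prime)
    [NeZero M] [NeZero q] [NeZero (M * q)] [NeZero (M * q * q)] (hqM : ¬ q ∣ M)
    (A : ValuationSubring Kbar) (hA : A.LiesOverPrime q),
    Reg11At A q M B k hB hq hqM hA p ∧ SQ.TorSpanSqAt A q M B k hB hq p

/-- `p ≥ 5` prime does not divide `[F_{M·3·q²} : F_{M q²}] ∈ {3, 4}`. -/
theorem not_dvd_degSq_three (p : ℕ) (h5 : 5 ≤ p) (q M : ℕ) (hq : q.Prime) (hq3 : q ≠ 3)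
    [NeZero M] [NeZero q] [NeZero (M * 3)] [NeZero (M * q)] [NeZero (M * 3 * q)] :
    ¬ p ∣ H50.degSq M q (M * 3) (dvd_mul_right M 3) := by
  intro hdvd
  by_cases h3 : 3 ∣ M
  · rw [H50.degSq_of_dvd M q (M * 3) (dvd_mul_right M 3) Nat.prime_three rfl h3] at hdvd
    have := Nat.le_of_dvd (by norm_num) hdvd
    omega
  · rw [H50.degSq_of_not_dvd M q (M * 3) (dvd_mul_right M 3) Nat.prime_three rfl h3
      (fun h => hq3 h.symm) hq] at hdvd
    have := Nat.le_of_dvd (by norm_num) hdvd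
    omega

/-- **The step `M · 3 → M`** for the two leaves (`p ≥ 5`, `q ≠ 3`). -/
theorem upLeaves_step3 (p : ℕ) (hp : p.Prime) (h5 : 5 ≤ p) (q M : ℕ) (hq3 : q ≠ 3)
    (H : UpLeaves p q (M * 3)) : UpLeaves p q M := by
  intro B k hB hq _ _ _ _ hqM A hA
  have hM0 : M ≠ 0 := NeZero.ne M
  have hq0 : q ≠ 0 := hq.ne_zero
  haveI : NeZero (M * 3) := ⟨mul_ne_zero hM0 (by norm_num)⟩
  haveI : NeZero (M * 3 * q) := ⟨mul_ne_zero (mul_ne_zero hM0 (by norm_num)) hq0⟩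
  haveI : NeZero (M * 3 * q * q) :=
    ⟨mul_ne_zero (mul_ne_zero (mul_ne_zero hM0 (by norm_num)) hq0) hq0⟩
  haveI : NeZero (M * q * q * 3) :=
    ⟨mul_ne_zero (mul_ne_zero (mul_ne_zero hM0 hq0) hq0) (by norm_num)⟩
  have hq3' : ¬ q ∣ 3 := fun h => hq3 ((Nat.prime_dvd_prime_iff_eq hq Nat.prime_three).1 h)
  have hqM3 : ¬ q ∣ M * 3 := by
    intro h
    rcases (Nat.Prime.dvd_mul hq).1 h with h | h
    · exact hqM h
    · exact hq3' h
  have hcop : IsCoprime (((M * 3 : ℕ) : ℤ)) (q : ℤ) :=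
    Nat.isCoprime_iff_coprime.2 ((Nat.Prime.coprime_iff_not_dvd hq).2 hqM3).symm
  obtain ⟨B', k', hB'⟩ := hcop
  obtain ⟨hR, hT⟩ := H B' k' hB' hq hqM3 A hA
  refine ⟨?_, ?_⟩
  · exact reg11At_up A q M 3 B k B' k' hB hB' hq hqM hqM3 hA Nat.prime_three
      (fun h => hq3 h.symm) p hp (by omega) hR
  · exact torSpanSqAt_up A q M 3 B k B' k' hB hB' hq hA (by norm_num) hq3' p hp
      (not_dvd_degSq_three p h5 q M hq hq3) hT

/-- **All levels from the tame levels** (`9 ∣ M`), for `p ≥ 5` and `q ≠ 3`. -/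
theorem upLeaves_all (p : ℕ) (hp : p.Prime) (h5 : 5 ≤ p) (q : ℕ) (hq3 : q ≠ 3)
    (H : ∀ M : ℕ, 9 ∣ M → UpLeaves p q M) (M : ℕ) : UpLeaves p q M := by
  refine upLeaves_step3 p hp h5 q M hq3 (upLeaves_step3 p hp h5 q (M * 3) hq3 (H _ ?_))
  exact ⟨M, by ring⟩

/-! ## The tame leaves at `q = 2` and the wiring -/

/-- **(R) REG at the tame levels of `q = 2`** (`9 ∣ M`). -/
def RegTameTwo (p : ℕ) : Prop :=
  ∀ (q M : ℕ) (B k : ℤ) (hB : B * M + k * q = 1) (hq : q.Prime)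
    [NeZero M] [NeZero q] [NeZero (M * q)] [NeZero (M * q * q)] (hqM : ¬ q ∣ M)
    (A : ValuationSubring Kbar) (hA : A.LiesOverPrime q), q = 2 → 9 ∣ M →
    Reg11At A q M B k hB hq hqM hA p

/-- **(T′) TOR-SPAN at the tame levels of `q = 2`** (`9 ∣ M`). -/
def TorSpanTameTwo (p : ℕ) : Prop :=
  ∀ (q M : ℕ) (B k : ℤ) (hB : B * M + k * q = 1) (hq : q.Prime)
    [NeZero M] [NeZero q] [NeZero (M * q)] [NeZero (M * q * q)] (hqM : ¬ q ∣ M)
    (A : ValuationSubring Kbar) (hA : A.LiesOverPrime q), q = 2 → 9 ∣ M →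
    SQ.TorSpanSqAt A q M B k hB hq p

/-- **B2 for the components `20` and `02` at `q = 2`**, all levels. -/
def CPowTwo (p : ℕ) : Prop :=
  ∀ (q M : ℕ) (B k : ℤ) (hB : B * M + k * q = 1) (hq : q.Prime)
    [NeZero M] [NeZero q] [NeZero (M * q)] [NeZero (M * q * q)] (hqM : ¬ q ∣ M)
    (A : ValuationSubring Kbar) (hA : A.LiesOverPrime q), q = 2 →
    CPow2002At A q M B k hB hq p

/-- The two leaves at `q = 2`, all levels, from the tame levels (`p ≥ 5`). -/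
theorem upLeaves_two (p : ℕ) (hp : p.Prime) (h5 : 5 ≤ p) (hregT : RegTameTwo p)
    (hTT : TorSpanTameTwo p) (M : ℕ) : UpLeaves p 2 M := by
  refine upLeaves_all p hp h5 2 (by norm_num) (fun M₂ h9 => ?_) M
  intro B k hB hq _ _ _ _ hqM A hA
  exact ⟨hregT 2 M₂ B k hB hq hqM A hA rfl h9, hTT 2 M₂ B k hB hq hqM A hA rfl h9⟩

/-- **"BAD at `q²`" at one level `M' · 2 · 2`**, `M'` odd, `p ≥ 5`, from the tame leaves. -/
theorem hasSqNewPartAt_of_up (p : ℕ) (hp : p.Prime) (h5 : 5 ≤ p) (hregT : RegTameTwo p)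
    (hcp : CPowTwo p) (hTT : TorSpanTameTwo p)
    (M' : ℕ) (B k : ℤ) (hB : B * M' + k * (2 : ℕ) = 1)
    [NeZero M'] [NeZero (M' * 2)] [NeZero (M' * 2 * 2)] (hqM' : ¬ 2 ∣ M')
    (A : ValuationSubring Kbar) (hA : A.LiesOverPrime 2) :
    H40.HasSqNewPartAt p (M' * 2) 2 A := by
  have hp2 : p ≠ 2 := by omega
  have hqp : (2 : ℕ) ≠ p := fun h => hp2 h.symm
  obtain ⟨hR, hT⟩ := upLeaves_two p hp h5 hregT hTT M' B k hB Nat.prime_two hqM' A hA
  exact SQ.hasSqNewPartAt_of Fermat.Agent.RED.H78.stmt_HRcore p hp 2 M' B k hB Nat.prime_two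
    hqM' A hA
    (H33.stmt_CompEisSq p hp hp2 2 M' B k hB Nat.prime_two hqp hqM' A hA)
    (oldRedSqAt_of A 2 M' B k hB Nat.prime_two hqM' hA p hp hR
      (hcp 2 M' B k hB Nat.prime_two hqM' A hA rfl))
    (SQ.torSqAt_of_span A 2 M' B k hB Nat.prime_two hp hT)

/-- **`SqNewTwoAt p` for `p ≥ 5`**, from the tame leaves at `q = 2` (`9 ∣ M`): (R) REG,
(T′) TOR-SPAN, and B2 at all levels. -/
theorem sqNewTwoAt_of_up (p : ℕ) (hp : p.Prime) (h5 : 5 ≤ p) (hregT : RegTameTwo p)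
    (hcp : CPowTwo p) (hTT : TorSpanTameTwo p) : Fermat.Agent.S59.LL.H40.SqNewTwoAt p := by
  intro M _ h2M h4M A hA
  obtain ⟨M', rfl⟩ : ∃ M', M = M' * 2 := ⟨M / 2, (Nat.div_mul_cancel h2M).symm⟩
  have hqM' : ¬ 2 ∣ M' := by
    rintro ⟨c, rfl⟩
    exact h4M ⟨c, by ring⟩
  have hM'0 : M' ≠ 0 := by
    rintro rfl
    exact hqM' (dvd_zero 2)
  haveI : NeZero M' := ⟨hM'0⟩
  haveI : NeZero (M' * 2 * 2) := ⟨mul_ne_zero (mul_ne_zero hM'0 (by norm_num)) (by norm_num)⟩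
  have hcop : IsCoprime (M' : ℤ) ((2 : ℕ) : ℤ) :=
    Nat.isCoprime_iff_coprime.2 ((Nat.Prime.coprime_iff_not_dvd Nat.prime_two).2 hqM').symm
  obtain ⟨B, k, hB⟩ := hcop
  exact hasSqNewPartAt_of_up p hp h5 hregT hcp hTT M' B k hB hqM' A hA

end Fermat.Agent.S59.LL.SQ.H77

end
end
-- ==== END Fermat.Agent.S59.LL.SQ.H77_UpWire

-- ==== BEGIN Fermat.Agent.S59.LL.SQ.H84_GenFinal
section
attribute [local instance 10000] SubalgebraClass.toAlgebra
attribute [local instance 10000] HahnSeries.powerSeriesAlgebra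

/-!
# S59, package LL / SQ, step (T′) tame assembly, leaf G2 GEN-MOD, unconditional form (helper84)

`genMod` : at every tame level `M q²` (`(5 ≤ q ∧ 4 ∣ M) ∨ (q = 3 ∧ 4 ∣ M) ∨ (q = 2 ∧ 9 ∣ M)`), for
every modular datum `D` (`H79.IsNuM`): `Stmt_GenMod A q M D`, i.e. every `I`-fixed unit `H` of the
three valuations with `n ∣ div H` has a local generator at every triple point.

The point data are helper10's `H10.stmt_Pt0All_of H10.stmt_MidSmall H10.stmt_PtHypsAll`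
(unconditional since `H10_Core`).
-/

set_option autoImplicit false
set_option synthInstance.maxHeartbeats 400000
set_option maxHeartbeats 1000000
set_option linter.style.haveILetI false
set_option linter.unusedSectionVars false

noncomputable section

open ModularCurve AlgebraicCurve IntermediateField

attribute [local instance] Classical.propDecidable

namespace Fermat.Agent.S59.LL.SQ.H84

open Fermat.Agent.S24 Fermat.Agent.BAD Fermat.Agent.BAD.H88 Fermat.Agent.S28 Fermat.Agent.S28.H73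
  Fermat.Agent.S36.NU.H23
  Fermat.Agent.S36.NU.H41 Fermat.Agent.S36.NU.H88 Fermat.Agent.S36.NU.H16
  Fermat.Agent.S36.NU.H17 Fermat.Agent.S36.NU.H24 Fermat.Agent.S36.NU.H79
  Fermat.Agent.S36.NU.H65 Fermat.Agent.S36.NU.H74 Fermat.Agent.S36.NU.H10
  Fermat.Agent.Lib.HeckeComm

section GenFinal

variable (A : ValuationSubring Kbar) (q M : ℕ) (B k : ℤ) (hB : B * M + k * q = 1) (hq : q.Prime)
  [NeZero M] [NeZero q] [NeZero (M * q)] [NeZero (M * q * q)]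
  (hqM : ¬ q ∣ M) (hA : A.LiesOverPrime q) (ht : H91.TameAt M q)

attribute [local instance] algkM

/-- The point data of the chart of `j`, unconditionally (helper10 and his leaves). -/
theorem pointData_chart0_final
    (hc : (5 ≤ q ∧ 4 ∣ M) ∨ (q = 3 ∧ 4 ∣ M) ∨ (q = 2 ∧ 9 ∣ M))
    (D : NUDataM A q M) (hD : IsNuM A q M B k hB hq hqM hA ht D) :
    PointData (chart0 A q M B k hB hq hqM hA ht) D ((q : ℕ) : ↥(Rur A)) :=
  stmt_Pt0All_of stmt_MidSmall stmt_PtHypsAll A q M B k hB hq hqM hA ht hc D hD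

/-- **GEN-MOD, unconditionally**: local generators at the triple points, at every tame level. -/
theorem genMod (hc : (5 ≤ q ∧ 4 ∣ M) ∨ (q = 3 ∧ 4 ∣ M) ∨ (q = 2 ∧ 9 ∣ M))
    (D : NUDataM A q M) (hD : IsNuM A q M B k hB hq hqM hA ht D) : Stmt_GenMod A q M D :=
  fun n hn H hu hdiv z hz =>
    genMod_of_pt0 A q M B k hB hq hqM hA ht D hD
      (pointData_chart0_final A q M B k hB hq hqM hA ht hc D hD) n hn H hu hdiv z hz

/-- **GEN-MOD, unconditionally, for units of the three valuations** (`H10.IsUnit3`). -/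
theorem genMod_isUnit3 (hc : (5 ≤ q ∧ 4 ∣ M) ∨ (q = 3 ∧ 4 ∣ M) ∨ (q = 2 ∧ 9 ∣ M))
    (D : NUDataM A q M) (hD : IsNuM A q M B k hB hq hqM hA ht D)
    (n : ℕ) (hn : 0 < n) (H : ↥(L0 A (M * q * q))) (H0 : H ≠ 0)
    (hU : _root_.Fermat.Agent.S36.NU.H10.IsUnit3 A q M B k hB hq H)
    (hdiv : ∀ P : Place Kbar (FN (M * q * q)), (n : ℤ) ∣ P.ord (H : FN (M * q * q)))
    (z : Place (kV A) (FM A M)) (hz : z ∈ D.SS) : ∃ s, D.IsGen n z H s :=
  genMod_unit3 A q M B k hB hq hqM hA ht D hD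
    (pointData_chart0_final A q M B k hB hq hqM hA ht hc D hD) n hn H H0 hU hdiv z hz

end GenFinal

end Fermat.Agent.S59.LL.SQ.H84

end
end
-- ==== END Fermat.Agent.S59.LL.SQ.H84_GenFinal

-- ==== BEGIN Fermat.Agent.S59.LL.SQ23.H63_S3
section

/-!
# S59 / LL / SQ23: the final statements (helper63)

* `stmt_S3 : Stmt_S3` — at every level `M = 2M'`, `M'` odd, there is an `S3Act M` with Hilbert 90
  (S3-GAL helper72, S3-PIC helper89, S3-HECKE helper6, S3-H90 helper36 + helper63);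
* `sqNewTwo3 : LL.H40.SqNewTwoAt 3` — SQUARE removal at `q = 2`, `p = 3` (S3-ALG + S3-WIRE helper40).
-/

set_option autoImplicit false

namespace Fermat.Agent.S59.LL.SQ23.H63

/-- **The geometric content of SQ23**, unconditionally. -/
theorem stmt_S3 : Stmt_S3 :=
  stmt_S3_of_gal Fermat.Agent.S59.LL.SQ23.H72.stmt_S3Gal

/-- **SQ-TWO at `p = 3`**, unconditionally. -/
theorem sqNewTwo3 : Fermat.Agent.S59.LL.H40.SqNewTwoAt 3 :=
  Fermat.Agent.S59.LL.SQ23.H40.sqNewTwo3_of stmt_S3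

end Fermat.Agent.S59.LL.SQ23.H63

end
-- ==== END Fermat.Agent.S59.LL.SQ23.H63_S3

-- ==== BEGIN Fermat.Agent.S59.NonMin.Geom.H78_Ihara3Inv
section

/-!
# S59 / NMGEOM, leaf IHARA3 (helper78): period functions over a field `k`, part 3

`F` a period function of the cuspidal class `x` on `Γ₀(N)` which is `1/q`-periodic on `X_N`.

* `exists_tau3` : `F(q² r) = F(r) + τ` (explicit matrices: with `q² u + N w = 1`, `q e = w (1 - u)`,
  `M' = [q² + N w, e; -N q, u]`, `a₁ = [q u, -w; N, q]` one has `a₁ (M' r + w / q) = q² r`);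
* `per_q2` : `F(q² r) = F(r)`;
* `per_Zq` : `F(r + t) = F(r)` for `t ∈ ℤ[1/q]`.
This file contains no `sorry`.
-/

set_option autoImplicit false

open scoped MatrixGroups
open CongruenceSubgroup Matrix

namespace Fermat.Agent.S59.NonMin.Geom.H78

open Fermat.Agent.S41 Fermat.Agent.S41.H19 Fermat.Agent.S41.Ihara

section Inv

variable {k : Type*} [Field k] {N q : ℕ}

/-- The arithmetic input: `q² u + N w = 1` with `q ∣ w (1 - u)`. -/
theorem exists_uwe (hqN : q.Coprime N) :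
    ∃ u w e : ℤ, (q : ℤ) ^ 2 * u + (N : ℤ) * w = 1 ∧ (q : ℤ) * e = w * (1 - u) := by
  have hcop : IsCoprime (N : ℤ) ((q : ℤ) ^ 3) :=
    ((Nat.isCoprime_iff_coprime.2 hqN).pow_left).symm
  obtain ⟨α, β, hαβ⟩ := hcop
  refine ⟨1 + β * (q : ℤ) - β * (q : ℤ) ^ 3, α * (1 - (q : ℤ) ^ 2),
    -(α * (1 - (q : ℤ) ^ 2)) * β * (1 - (q : ℤ) ^ 2), ?_, ?_⟩
  · linear_combination (1 - (q : ℤ) ^ 2) * hαβ
  · ring

/-- The Möbius identity `a₁ (M' r + w / q) = q² r` in coordinates. -/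
theorem mob_key3 (q N u w e r : ℚ) (hq : q ≠ 0) (heQ : q * e = w * (1 - u)) (D : ℚ)
    (hD0 : D ≠ 0) (hDdef : D = u - N * q * r)
    (hne : N * (((q ^ 2 + N * w) * r + e) / D + w * q⁻¹) + q ≠ 0) :
    (q * u * (((q ^ 2 + N * w) * r + e) / D + w * q⁻¹) + -w) /
      (N * (((q ^ 2 + N * w) * r + e) / D + w * q⁻¹) + q) = q ^ 2 * r := by
  rw [div_eq_iff hne]
  field_simp
  subst hDdef
  linear_combination (u - N * q * r) * heQ

/-- `F(q² r) = F(r) + τ` with `τ` independent of `r`. -/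
theorem exists_tau3 (hN : 2 ≤ N) (hqN : q.Coprime N) (hq0 : q ≠ 0)
    (x : Additive (Gamma0 N) →+ k) (F : ℚ → k) (hF : IsPer x F)
    (hper : ∀ (z : ℤ) (r : ℚ), InX N r → F (r + (z : ℚ) * (q : ℚ)⁻¹) = F r) :
    ∃ τ : k, ∀ r, InX N r → F ((q : ℚ) ^ 2 * r) = F r + τ := by
  obtain ⟨u, w, e, huw, he⟩ := exists_uwe (N := N) (q := q) hqN
  set M' : Gamma0 N :=
    mkG0 N ((q : ℤ) ^ 2 + (N : ℤ) * w) e (-((N : ℤ) * (q : ℤ))) u
      (by linear_combination huw + (N : ℤ) * he)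
      (dvd_neg.mpr (Dvd.intro _ rfl)) with hM'
  set a₁ : Gamma0 N := mkG0 N ((q : ℤ) * u) (-w) N q (by linear_combination huw) dvd_rfl with ha₁
  refine ⟨x (Additive.ofMul M') + x (Additive.ofMul a₁), fun r hr => ?_⟩
  have hq0' : (q : ℚ) ≠ 0 := by exact_mod_cast hq0
  have hN0 : (N : ℚ) ≠ 0 := by
    have : N ≠ 0 := by omega
    exact_mod_cast this
  have huwQ : (q : ℚ) ^ 2 * (u : ℚ) + (N : ℚ) * (w : ℚ) = 1 := by exact_mod_cast huw
  have heQ : (q : ℚ) * (e : ℚ) = (w : ℚ) * (1 - (u : ℚ)) := by exact_mod_cast he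
  have hw : (w : ℚ) = (1 - (q : ℚ) ^ 2 * (u : ℚ)) / (N : ℚ) := by
    rw [eq_div_iff hN0]; linear_combination huwQ
  have he' : (e : ℚ) = (w : ℚ) * (1 - (u : ℚ)) / (q : ℚ) := by
    rw [eq_div_iff hq0']; linear_combination heQ
  -- the point `s₁ = M' r`
  have hD := denom_ne_zero hN M' hr
  have hs₁ : InX N (mob (mat M') r) := inX_mob M' hr
  have e1 : F (mob (mat M') r) = F r + x (Additive.ofMul M') := hF M' r hr
  set s₁ : ℚ := mob (mat M') r with hs₁def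
  -- the point `s = s₁ + w / q`
  set s : ℚ := s₁ + (w : ℚ) * (q : ℚ)⁻¹ with hsdef
  have hs : InX N s :=
    H37.inX_add hs₁ (H37.inX_mul (H37.inX_intCast N w) (inX_inv_nat hqN))
  have e2 : F s = F s₁ := hper w s₁ hs₁
  have hD' := denom_ne_zero hN a₁ hs
  have e3 : F (mob (mat a₁) s) = F s + x (Additive.ofMul a₁) := hF a₁ s hs
  have hDq : (-((N : ℚ) * (q : ℚ))) * r + (u : ℚ) ≠ 0 := by
    have := hD
    rw [hM', mat_mkG0] at this
    simpa using this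
  have hs₁v : s₁ = (((q : ℚ) ^ 2 + (N : ℚ) * (w : ℚ)) * r + (e : ℚ))
      / ((-((N : ℚ) * (q : ℚ))) * r + (u : ℚ)) := by
    rw [hs₁def]; unfold mob; rw [hM', mat_mkG0]; simp
  have hD'q : (N : ℚ) * s + (q : ℚ) ≠ 0 := by
    have := hD'
    rw [ha₁, mat_mkG0] at this
    simpa using this
  have e5 : mob (mat a₁) s = (q : ℚ) ^ 2 * r := by
    unfold mob
    rw [ha₁, mat_mkG0]
    simp only [Matrix.of_apply, Matrix.cons_val', Matrix.cons_val_zero, Matrix.cons_val_one,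
      Matrix.empty_val', Matrix.cons_val_fin_one, Int.cast_mul, Int.cast_natCast, Int.cast_neg]
    have hDq' : (u : ℚ) - (N : ℚ) * (q : ℚ) * r ≠ 0 := by
      intro h; apply hDq; linear_combination h
    have hs₁v' : s₁ = (((q : ℚ) ^ 2 + (N : ℚ) * (w : ℚ)) * r + (e : ℚ))
        / ((u : ℚ) - (N : ℚ) * (q : ℚ) * r) := by
      rw [hs₁v]; congr 1; ring
    have hsv : s = (((q : ℚ) ^ 2 + (N : ℚ) * (w : ℚ)) * r + (e : ℚ))
        / ((u : ℚ) - (N : ℚ) * (q : ℚ) * r) + (w : ℚ) * (q : ℚ)⁻¹ := by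
      rw [hsdef, hs₁v']
    rw [hsv] at hD'q ⊢
    exact mob_key3 (q : ℚ) (N : ℚ) (u : ℚ) (w : ℚ) (e : ℚ) r hq0' heQ _ hDq' rfl hD'q
  rw [e5] at e3
  rw [e3, e2, e1]
  ring

/-- **`q²`-invariance.** -/
theorem per_q2 (hN : 2 ≤ N) (hq : q.Prime) (hqN : ¬ q ∣ N)
    (x : Additive (Gamma0 N) →+ k) (F : ℚ → k) (hF : IsPer x F)
    (h1 : ∀ r, InX N r → F (r + (q : ℚ)⁻¹) = F r) {r : ℚ} (hr : InX N r) :
    F ((q : ℚ) ^ 2 * r) = F r := by
  have hqNc : q.Coprime N := (Nat.Prime.coprime_iff_not_dvd hq).2 hqN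
  obtain ⟨τ, hτ⟩ := exists_tau3 hN hqNc hq.ne_zero x F hF
    (fun z r hr => per_int_div_q hq hqN F h1 z hr)
  have hτ0 : τ = 0 := by
    have := hτ 0 (inX_zero N)
    simpa using this
  rw [hτ r hr, hτ0, add_zero]

/-- **`ℤ[1/q]`-translation invariance.** -/
theorem per_Zq (hq : q.Prime) (hqN : ¬ q ∣ N)
    (x : Additive (Gamma0 N) →+ k) (hx : IsCuspidalHom (Gamma0 N) x) (F : ℚ → k) (hF : IsPer x F)
    (hq2 : ∀ r, InX N r → F ((q : ℚ) ^ 2 * r) = F r) {r t : ℚ} (hr : InX N r) (ht : InZq q t) :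
    F (r + t) = F r := by
  have hqNc : q.Coprime N := (Nat.Prime.coprime_iff_not_dvd hq).2 hqN
  have htX : InX N t := H37.inZq_inX hq.ne_zero hqNc ht
  obtain ⟨j, z, rfl⟩ := H37.inZq_exists hq.ne_zero ht
  have hq0' : (q : ℚ) ≠ 0 := by exact_mod_cast hq.ne_zero
  have hpow := inv_powk hqNc F hq2 j
  have h1 : (q : ℚ) ^ (2 * j) * (r + (z : ℚ) / (q : ℚ) ^ j)
      = (q : ℚ) ^ (2 * j) * r + (((q : ℤ) ^ j * z : ℤ) : ℚ) := by
    push_cast
    have hqk : (q : ℚ) ^ j ≠ 0 := pow_ne_zero _ hq0'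
    rw [two_mul, pow_add]
    field_simp
  have hX : InX N ((q : ℚ) ^ (2 * j) * r) := by
    have : InX N (((q ^ (2 * j) : ℕ) : ℚ)) := H37.inX_natCast N _
    rw [Nat.cast_pow] at this
    exact H37.inX_mul this hr
  rw [← hpow (r + (z : ℚ) / (q : ℚ) ^ j) (H37.inX_add hr htX), h1, hF.add_int hx hX, hpow r hr]

end Inv

end Fermat.Agent.S59.NonMin.Geom.H78

end
-- ==== END Fermat.Agent.S59.NonMin.Geom.H78_Ihara3Inv

-- ==== BEGIN Fermat.Agent.S59.NonMin.Geom.H98_Adj3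
section

set_option autoImplicit false
set_option linter.style.haveILetI false
set_option linter.unusedSectionVars false

open scoped MatrixGroups
open CongruenceSubgroup Matrix

namespace Fermat.Agent.S59.NonMin.Geom.H98

open Fermat.Agent.S41 Fermat.Agent.S41.H19 ModularCurve.Period

section Entries

variable {N M' : ℕ}

/-- The entries of the image under a degeneracy map of degree `c`. -/
theorem isDeg_entries {ι : Gamma0 M' →* Gamma0 N} {c : ℕ} (hι : H12.IsDeg ι c) (hc : c ≠ 0)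
    (γ : Gamma0 M') :
    mat (ι γ) 0 0 = mat γ 0 0 ∧ mat (ι γ) 0 1 = (c : ℤ) * mat γ 0 1 ∧
      mat γ 1 0 = (c : ℤ) * mat (ι γ) 1 0 ∧ mat (ι γ) 1 1 = mat γ 1 1 := by
  have h := hι γ
  have hc0 : (c : ℤ) ≠ 0 := by exact_mod_cast hc
  have h00 := congrFun (congrFun h 0) 0
  have h01 := congrFun (congrFun h 0) 1
  have h10 := congrFun (congrFun h 1) 0
  have h11 := congrFun (congrFun h 1) 1
  simp only [Dq, Matrix.mul_apply, Fin.sum_univ_two, Matrix.of_apply, Matrix.cons_val',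
    Matrix.cons_val_zero, Matrix.cons_val_one, Matrix.empty_val', Matrix.cons_val_fin_one,
    mul_zero, mul_one, zero_mul, one_mul, add_zero, zero_add] at h00 h01 h10 h11
  refine ⟨?_, h01, ?_, h11⟩
  · exact mul_right_cancel₀ hc0 (by rw [h00, mul_comm])
  · rw [← h10, mul_comm]

theorem isDeg_trace {ι : Gamma0 M' →* Gamma0 N} {c : ℕ} (hι : H12.IsDeg ι c) (hc : c ≠ 0)
    (γ : Gamma0 M') : (mat (ι γ)).trace = (mat γ).trace := by
  obtain ⟨h00, -, -, h11⟩ := isDeg_entries hι hc γ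
  rw [Matrix.trace_fin_two, Matrix.trace_fin_two, h00, h11]

/-- the composite `Γ₀(M') → Γ₀(N) ⊆ SL(2,ℤ)` -/
abbrev jd (ι : Gamma0 M' →* Gamma0 N) : Gamma0 M' →* SL(2, ℤ) := (Gamma0 N).subtype.comp ι

theorem jd_injective {ι : Gamma0 M' →* Gamma0 N} {c : ℕ} (hι : H12.IsDeg ι c) (hc : c ≠ 0) :
    Function.Injective (jd ι) :=
  (Gamma0 N).subtype_injective.comp (hι.injective hc)

theorem trace_jd {ι : Gamma0 M' →* Gamma0 N} {c : ℕ} (hι : H12.IsDeg ι c) (hc : c ≠ 0)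
    (h : Gamma0 M') :
    ((jd ι h : SL(2, ℤ)) : Matrix (Fin 2) (Fin 2) ℤ).trace
      = (((Gamma0 M').subtype h : SL(2, ℤ)) : Matrix (Fin 2) (Fin 2) ℤ).trace :=
  isDeg_trace hι hc h

theorem neg_one_mem_range_jd {ι : Gamma0 M' →* Gamma0 N} {c : ℕ} (hι : H12.IsDeg ι c)
    (hc : c ≠ 0) : (-1 : SL(2, ℤ)) ∈ (jd ι).range := by
  refine ⟨⟨-1, H94.neg_one_mem_Gamma0 M'⟩, ?_⟩
  obtain ⟨h00, h01, h10, h11⟩ := isDeg_entries hι hc (⟨-1, H94.neg_one_mem_Gamma0 M'⟩ : Gamma0 M')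
  have hc0 : (c : ℤ) ≠ 0 := by exact_mod_cast hc
  apply Subtype.ext
  show mat (ι ⟨-1, H94.neg_one_mem_Gamma0 M'⟩) = ((-1 : SL(2, ℤ)) : Matrix _ _ ℤ)
  have e00 : mat (⟨-1, H94.neg_one_mem_Gamma0 M'⟩ : Gamma0 M') 0 0 = -1 := by simp [mat]
  have e01 : mat (⟨-1, H94.neg_one_mem_Gamma0 M'⟩ : Gamma0 M') 0 1 = 0 := by simp [mat]
  have e10 : mat (⟨-1, H94.neg_one_mem_Gamma0 M'⟩ : Gamma0 M') 1 0 = 0 := by simp [mat]
  have e11 : mat (⟨-1, H94.neg_one_mem_Gamma0 M'⟩ : Gamma0 M') 1 1 = -1 := by simp [mat]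
  rw [e00] at h00
  rw [e01, mul_zero] at h01
  rw [e10] at h10
  rw [e11] at h11
  have h10' : mat (ι ⟨-1, H94.neg_one_mem_Gamma0 M'⟩) 1 0 = 0 := by
    rcases mul_eq_zero.mp h10.symm with h | h
    · exact absurd h hc0
    · exact h
  ext i j
  fin_cases i <;> fin_cases j
  · simpa using h00
  · simpa using h01
  · simpa using h10'
  · simpa using h11

theorem isPosPar_jd_iff {ι : Gamma0 M' →* Gamma0 N} {c : ℕ} (hι : H12.IsDeg ι c) (hc : c ≠ 0)
    (h : Gamma0 M') :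
    H94.IsPosPar ((Gamma0 M').subtype h) ↔ H94.IsPosPar (jd ι h) := by
  have hc0 : (0 : ℤ) < c := by exact_mod_cast Nat.pos_of_ne_zero hc
  obtain ⟨-, e01, e10, -⟩ := isDeg_entries hι hc h
  have hne : ((Gamma0 M').subtype h = 1) ↔ (jd ι h = 1) := by
    constructor
    · intro h1
      have : h = 1 := (Gamma0 M').subtype_injective (by rw [h1, map_one])
      rw [this, map_one]
    · intro h1
      have : h = 1 := jd_injective hι hc (by rw [h1, map_one])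
      rw [this, map_one]
  have e01' : (jd ι h : SL(2, ℤ)) 0 1 = (c : ℤ) * ((Gamma0 M').subtype h : SL(2, ℤ)) 0 1 := e01
  have e10' : ((Gamma0 M').subtype h : SL(2, ℤ)) 1 0 = (c : ℤ) * (jd ι h : SL(2, ℤ)) 1 0 := e10
  unfold H94.IsPosPar
  rw [trace_jd hι hc]
  constructor
  · rintro ⟨h1, h2, h3, h4⟩
    refine ⟨h1, fun h' => h2 (hne.mpr h'), ?_, ?_⟩
    · rw [e01']; exact mul_nonneg hc0.le h3
    · rw [e10'] at h4; nlinarith
  · rintro ⟨h1, h2, h3, h4⟩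
    refine ⟨h1, fun h' => h2 (hne.mp h'), ?_, ?_⟩
    · rw [e01'] at h3; nlinarith
    · rw [e10']; nlinarith

theorem finiteIndex_range_jd [NeZero N] {ι : Gamma0 M' →* Gamma0 N}
    (hfi : ι.range.FiniteIndex) : (jd ι).range.FiniteIndex := by
  have h1 : ((Gamma0 N).subtype).range.FiniteIndex := by
    rw [Subgroup.range_subtype]; infer_instance
  exact H13.finiteIndex_comp ι (Gamma0 N).subtype (Gamma0 N).subtype_injective hfi h1

end Entries

section Adjunction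

variable {k : Type} [Field k] {N M' : ℕ}

theorem isCuspVia_jd_iff {ι : Gamma0 M' →* Gamma0 N} {c : ℕ} (hι : H12.IsDeg ι c) (hc : c ≠ 0)
    (ψ : Additive (Gamma0 M') →+ k) :
    H94.IsCuspVia (jd ι) ψ ↔ IsCuspidalHom (Gamma0 M') ψ := by
  unfold H94.IsCuspVia IsCuspidalHom
  refine forall_congr' fun h => ?_
  rw [trace_jd hι hc]
  rfl

/-- Adjointness of `ι^*` and `ι_*` for a degeneracy map `ι` of degree `c`. -/
theorem Bform_adj_deg (L : H94.Leaves) (h2 : (2 : k) ≠ 0) (hN : N ≠ 0) (hM' : M' ≠ 0)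
    {ι : Gamma0 M' →* Gamma0 N} {c : ℕ} (hι : H12.IsDeg ι c) (hc : c ≠ 0)
    (hfi : ι.range.FiniteIndex)
    {φ : Additive (Gamma0 N) →+ k} {ψ : Additive (Gamma0 M') →+ k}
    (hφ : IsCuspidalHom (Gamma0 N) φ) (hψ : IsCuspidalHom (Gamma0 M') ψ) :
    IsCuspidalHom (Gamma0 M') (resAlong k ι φ) ∧ IsCuspidalHom (Gamma0 N) (corAlong k ι ψ) ∧
      H94.Bform k M' (resAlong k ι φ) ψ = H94.Bform k N φ (corAlong k ι ψ) := by
  haveI : NeZero N := ⟨hN⟩
  haveI : NeZero M' := ⟨hM'⟩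
  haveI : Fintype (SL(2, ℤ) ⧸ (Gamma0 N).subtype.range) := Fintype.ofFinite _
  haveI : Fintype (SL(2, ℤ) ⧸ (Gamma0 M').subtype.range) := Fintype.ofFinite _
  have hfi2 : (jd ι).range.FiniteIndex := finiteIndex_range_jd hfi
  haveI : Finite (SL(2, ℤ) ⧸ ((Gamma0 N).subtype.comp ι).range) :=
    Subgroup.finite_quotient_of_finiteIndex
  haveI : Fintype (SL(2, ℤ) ⧸ ((Gamma0 N).subtype.comp ι).range) := Fintype.ofFinite _
  have hneg2 : (-1 : SL(2, ℤ)) ∈ (jd ι).range := neg_one_mem_range_jd hι hc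
  have hz2 : (ModularGroup.S : SL(2, ℤ)) ^ 2 ∈ ((Gamma0 N).subtype.comp ι).range := by
    rw [H94.S_sq]; exact hneg2
  obtain ⟨P⟩ := H94.nonempty_potTriple_of_cuspidal L h2 _ (H94.neg_one_mem_range N) hφ
  obtain ⟨Q⟩ := H94.nonempty_potTriple_of_cuspidal L h2 _ (H94.neg_one_mem_range M') hψ
  obtain ⟨Q₂⟩ := H94.nonempty_potTriple_of_cuspidal L h2 (jd ι) hneg2
    ((isCuspVia_jd_iff hι hc ψ).mpr hψ)
  obtain ⟨P', Q', hPQ⟩ := L.adj1 SL(2, ℤ) (Gamma0 N) (Gamma0 M') k ModularGroup.S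
    ModularGroup.T (Gamma0 N).subtype ι (Gamma0 N).subtype_injective
    (hι.injective hc) hfi L.ml hz2 h2 φ ψ P Q₂
  have hres : IsCuspidalHom (Gamma0 M') (resAlong k ι φ) :=
    (isCuspVia_jd_iff hι hc _).mp (H94.cuspidal_of_potTriple L h2 (jd ι) hneg2 P')
  have hcor : IsCuspidalHom (Gamma0 N) (corAlong k ι ψ) :=
    H94.cuspidal_of_potTriple L h2 _ (H94.neg_one_mem_range N) Q'
  refine ⟨hres, hcor, ?_⟩
  obtain ⟨P₀⟩ := H94.nonempty_potTriple_of_cuspidal L h2 _ (H94.neg_one_mem_range M') hres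
  rw [H94.Bform_eq L h2 M' P₀ Q, H94.Bform_eq L h2 N P Q', ← hPQ]
  have hfi1 : ((Gamma0 M').subtype).range.FiniteIndex := by
    rw [Subgroup.range_subtype]; infer_instance
  exact H94.pairingOf_inv L.b1 L.b2 L.b3 L.psl L.ml L.c3 L.par h2 (Gamma0 M').subtype (jd ι)
    (Gamma0 M').subtype_injective (jd_injective hι hc) hfi1 hfi2
    (H94.neg_one_mem_range M') hneg2 (fun h => (trace_jd hι hc h).symm)
    (fun h => isPosPar_jd_iff hι hc h) P₀ Q P' Q₂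

end Adjunction

section Instances

variable (N q : ℕ)

theorem finiteIndex_range_j1 (hN : N ≠ 0) (hq : q ≠ 0) : (j1 N q).range.FiniteIndex := by
  rw [H72R.j1_eq]
  exact H13.finiteIndex_comp _ _ (H19.inclG_injective N q)
    (H72R.finiteIndex_kap1 (Nat.pos_of_ne_zero hN) (Nat.pos_of_ne_zero hq))
    (H94.finiteIndex_range_inclG N q hN hq)

theorem finiteIndex_range_j2 (hN : N ≠ 0) (hq : q ≠ 0) : (j2 N q).range.FiniteIndex := by
  rw [H72R.j2_eq]
  exact H13.finiteIndex_comp _ _ (H19.conjG_injective N q hq)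
    (H72R.finiteIndex_kap1 (Nat.pos_of_ne_zero hN) (Nat.pos_of_ne_zero hq))
    (H94.finiteIndex_range_conjG N q hN hq)

theorem finiteIndex_range_j3 (hN : N ≠ 0) (hq : q ≠ 0) : (j3 N q).range.FiniteIndex := by
  haveI : NeZero q := ⟨hq⟩
  rw [H72R.j3_eq]
  exact H13.finiteIndex_comp _ _ (H19.conjG_injective N q hq)
    (H92.finiteIndex_kap2 N)
    (H94.finiteIndex_range_conjG N q hN hq)

variable {N q}

/-- **ADJ3**: `A_a` and `C_a` are adjoint for `Bform`, `a = 1, 2, 3`. -/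
theorem adj3 (L : S41.H94.Leaves) {k : Type} [Field k] (h2 : (2 : k) ≠ 0) (N q : ℕ) (hN : N ≠ 0)
    (hq : q ≠ 0)
    {φ : Additive (Gamma0 N) →+ k} {ψ : Additive (Gamma0 (N * q ^ 2)) →+ k}
    (hφ : IsCuspidalHom (Gamma0 N) φ) (hψ : IsCuspidalHom (Gamma0 (N * q ^ 2)) ψ) :
    S41.H94.Bform k (N * q ^ 2) (resA1 N q k φ) ψ = S41.H94.Bform k N φ (corC1 N q k ψ) ∧
    S41.H94.Bform k (N * q ^ 2) (resA2 N q k φ) ψ = S41.H94.Bform k N φ (corC2 N q k ψ) ∧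
    S41.H94.Bform k (N * q ^ 2) (resA3 N q k φ) ψ = S41.H94.Bform k N φ (corC3 N q k ψ) := by
  have hM' : N * q ^ 2 ≠ 0 := Nat.mul_ne_zero hN (pow_ne_zero 2 hq)
  exact ⟨(Bform_adj_deg L h2 hN hM' (H12.isDeg_j1 N q) one_ne_zero
      (finiteIndex_range_j1 N q hN hq) hφ hψ).2.2,
    (Bform_adj_deg L h2 hN hM' (H12.isDeg_j2 N q) hq
      (finiteIndex_range_j2 N q hN hq) hφ hψ).2.2,
    (Bform_adj_deg L h2 hN hM' (H12.isDeg_j3 N hq) (pow_ne_zero 2 hq)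
      (finiteIndex_range_j3 N q hN hq) hφ hψ).2.2⟩

/-- Cuspidality of `A_a φ` and `C_a ψ` (by-product of the adjunction). -/
theorem adj3_cusp (L : S41.H94.Leaves) {k : Type} [Field k] (h2 : (2 : k) ≠ 0) (N q : ℕ)
    (hN : N ≠ 0) (hq : q ≠ 0)
    {φ : Additive (Gamma0 N) →+ k} {ψ : Additive (Gamma0 (N * q ^ 2)) →+ k}
    (hφ : IsCuspidalHom (Gamma0 N) φ) (hψ : IsCuspidalHom (Gamma0 (N * q ^ 2)) ψ) :
    (IsCuspidalHom (Gamma0 (N * q ^ 2)) (resA1 N q k φ) ∧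
      IsCuspidalHom (Gamma0 (N * q ^ 2)) (resA2 N q k φ) ∧
      IsCuspidalHom (Gamma0 (N * q ^ 2)) (resA3 N q k φ)) ∧
    (IsCuspidalHom (Gamma0 N) (corC1 N q k ψ) ∧ IsCuspidalHom (Gamma0 N) (corC2 N q k ψ) ∧
      IsCuspidalHom (Gamma0 N) (corC3 N q k ψ)) := by
  have hM' : N * q ^ 2 ≠ 0 := Nat.mul_ne_zero hN (pow_ne_zero 2 hq)
  have h1 := Bform_adj_deg L h2 hN hM' (H12.isDeg_j1 N q) one_ne_zero
      (finiteIndex_range_j1 N q hN hq) hφ hψ
  have h2' := Bform_adj_deg L h2 hN hM' (H12.isDeg_j2 N q) hq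
      (finiteIndex_range_j2 N q hN hq) hφ hψ
  have h3 := Bform_adj_deg L h2 hN hM' (H12.isDeg_j3 N hq) (pow_ne_zero 2 hq)
      (finiteIndex_range_j3 N q hN hq) hφ hψ
  exact ⟨⟨h1.1, h2'.1, h3.1⟩, h1.2.1, h2'.2.1, h3.2.1⟩

end Instances

end Fermat.Agent.S59.NonMin.Geom.H98

end
-- ==== END Fermat.Agent.S59.NonMin.Geom.H98_Adj3

-- ==== BEGIN Fermat.Agent.S59.NonMin.Geom.H98_KerU
section

/-!
# S59 / NMGEOM (helper98): `ker U² = ker U` at the level `N q²`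

For a prime `q ∤ N` and an abelian group `A` without `q`-torsion:

* `cor1_UB'` : `c₁ U = q c₂` at the level `N q` (any `A`);
* `UB_injective_of_torsionFree` : `U_q` of level `N q` is injective on `Hom(Γ₀(N q), A)`;
* `keru` : **KERU**, `U (U ψ) = 0 → U ψ = 0` for `ψ : Γ₀(N q²) → A`, `U = U_q` of level `N q²`.
-/

set_option autoImplicit false
set_option linter.style.haveILetI false
set_option linter.unusedSectionVars false

open scoped MatrixGroups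
open CongruenceSubgroup Matrix ModularForm

namespace Fermat.Agent.S59.NonMin.Geom.H98

open Fermat.Agent.S41 Fermat.Agent.S41.H19 Fermat.Agent.S41.H77 Fermat.Agent.S41.H39
open Fermat.Agent.S41.H20 Fermat.Agent.Betti Fermat.Agent.S59.NonMin.Geom
open Fermat.Agent.S59.NonMin.Geom.H72R

section KerU

variable {N q : ℕ} {A : Type*} [AddCommGroup A]

theorem corAlong_zero' {H G : Type*} [Group H] [Group G] (ι : H →* G) :
    corAlong A ι (0 : Additive H →+ A) = 0 := by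
  have h := corAlong_sub (A := A) ι 0 0
  rwa [sub_self, sub_self] at h

theorem hom_torsionFree {G : Type*} [AddGroup G] (hA : ∀ a : A, q • a = 0 → a = 0)
    (φ : G →+ A) (h : q • φ = 0) : φ = 0 := by
  refine AddMonoidHom.ext fun x => hA _ ?_
  have := congrArg (fun f : G →+ A => f x) h
  simpa using this

/-- `c₁ U = q c₂` at the level `N q`. -/
theorem cor1_UB' [NeZero (N * q)] (hN : 0 < N) (hq : q.Prime) (hqN : ¬ q ∣ N)
    (ψ : Additive (Gamma0 (N * q)) →+ A) :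
    cor1 N q A (UB (N * q) A (dvd_mul_left q N) ψ) = q • cor2 N q A ψ := by
  obtain ⟨u, v, huv⟩ := exists_bezout hq hqN
  rw [UB_eq_sub huv hN hq hqN ψ]
  have e1 : cor1 N q A (res1 N q A (cor2 N q A ψ) - resAlong A (alG huv hq.ne_zero) ψ)
      = cor1 N q A (res1 N q A (cor2 N q A ψ))
        - cor1 N q A (resAlong A (alG huv hq.ne_zero) ψ) := corAlong_sub _ _ _
  rw [e1, cor1_res1 hN hq hqN, ← cor2_eq_cor1_alG huv hN hq hqN ψ, add_smul, one_smul]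
  abel

/-- `U_q` of level `N q` is injective on `Hom(Γ₀(N q), A)` when `A` has no `q`-torsion. -/
theorem UB_injective_of_torsionFree [NeZero (N * q)] (hN : 0 < N) (hq : q.Prime)
    (hqN : ¬ q ∣ N) (hA : ∀ a : A, q • a = 0 → a = 0) (ψ : Additive (Gamma0 (N * q)) →+ A)
    (h : UB (N * q) A (dvd_mul_left q N) ψ = 0) : ψ = 0 := by
  have h2 : cor2 N q A ψ = 0 := by
    apply hom_torsionFree hA
    rw [← cor1_UB' hN hq hqN ψ, h]
    exact corAlong_zero' _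
  have h3 := UB_UB hN hq hqN ψ
  rw [h, map_zero, h2, map_zero] at h3
  have z1 : res1 N q A (0 : Additive (Gamma0 N) →+ A) = 0 := rfl
  have z2 : res2 N q A (0 : Additive (Gamma0 N) →+ A) = 0 := rfl
  rw [z1, z2, add_zero, sub_zero] at h3
  have h4 : ψ = res1 N q A (cor1 N q A ψ) := (sub_eq_zero.mp h3.symm)
  have h5 : cor1 N q A ψ = (q + 1) • cor1 N q A ψ := by
    conv_lhs => rw [h4]
    exact cor1_res1 hN hq hqN _
  have h6 : q • cor1 N q A ψ = 0 := by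
    rw [add_smul, one_smul] at h5
    have := congrArg (fun t => t - cor1 N q A ψ) h5
    simpa using this.symm
  have h7 : cor1 N q A ψ = 0 := hom_torsionFree hA _ h6
  rw [h4, h7]
  rfl

/-- **KERU**: `ker U² = ker U` at the level `N q²`. -/
theorem keru [NeZero (N * q ^ 2)] (hN : 0 < N) (hq : q.Prime) (hqN : ¬ q ∣ N)
    (hd : q ∣ N * q ^ 2) (hA : ∀ a : A, q • a = 0 → a = 0)
    (ψ : Additive (Gamma0 (N * q ^ 2)) →+ A)
    (h : UB (N * q ^ 2) A hd (UB (N * q ^ 2) A hd ψ) = 0) : UB (N * q ^ 2) A hd ψ = 0 := by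
  haveI : NeZero (N * q) := ⟨Nat.mul_ne_zero hN.ne' hq.ne_zero⟩
  have hd' : q ∣ N * q := dvd_mul_left q N
  set χ := corAlong A (kap2 N q) ψ with hχ
  have e1 : UB (N * q ^ 2) A hd ψ = resAlong A (kap1 N q) χ := UB_eq_res_cor hq hd ψ
  have e2 : UB (N * q ^ 2) A hd (resAlong A (kap1 N q) χ)
      = resAlong A (kap1 N q) (UB (N * q) A hd' χ) := by
    rw [UB_eq_res_cor hq hd, ← UB_eq_cor_res hq hd']
  rw [e1, e2] at h
  have h2 : q • UB (N * q) A hd' χ = 0 := by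
    rw [← cor_kap1_res_kap1 hN hq.pos (UB (N * q) A hd' χ), h]
    exact corAlong_zero' _
  have h3 : UB (N * q) A hd' χ = 0 := hom_torsionFree hA _ h2
  have h4 : χ = 0 := UB_injective_of_torsionFree hN hq hqN hA χ h3
  rw [e1, h4]
  rfl

/-- **KERU** for a module over a ring in which `q` is invertible. -/
theorem keru_of_isUnit {R : Type*} [CommRing R] [Module R A] [NeZero (N * q ^ 2)] (hN : 0 < N)
    (hq : q.Prime) (hqN : ¬ q ∣ N) (hd : q ∣ N * q ^ 2) (hu : IsUnit (q : R))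
    (ψ : Additive (Gamma0 (N * q ^ 2)) →+ A)
    (h : UB (N * q ^ 2) A hd (UB (N * q ^ 2) A hd ψ) = 0) : UB (N * q ^ 2) A hd ψ = 0 := by
  refine keru hN hq hqN hd ?_ ψ h
  intro a ha
  have h1 : (q : R) • a = 0 := by rw [Nat.cast_smul_eq_nsmul]; exact ha
  have h2 := congrArg (fun t => ((hu.unit⁻¹ : Rˣ) : R) • t) h1
  simp only [smul_smul, IsUnit.val_inv_mul, one_smul, smul_zero] at h2
  exact h2

end KerU

end Fermat.Agent.S59.NonMin.Geom.H98

end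
-- ==== END Fermat.Agent.S59.NonMin.Geom.H98_KerU

-- ==== BEGIN Fermat.Agent.S59.NonMin.Geom.H98_RelSplit
section

/-!
# S59 / NMGEOM leaf RELSPLIT (helper98)

At the level `N q²` (`q ∤ N`, `q` invertible in `R`), with `U = U_q`:

  `e = 1 - U² + A₁ C₃ - q⁻¹ A₂ C₂`,   `g = U - q⁻¹ A₂ C₃ + q⁻² A₃ C₂`.

* `e + U g = 1` by `U A₂ = q A₁`, `U A₃ = q A₂` (`Stmt_REL1`);
* `U e = U - U³ + (A₁ T_q - A₂) C₃ - A₁ C₂ = 0` by `H98.rel4`;
* `e`, `g` commute with `T_ℓ` and `U_r` by `Stmt_RELT`, `Stmt_RELU` and `H98.UB_comm_TB`,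
  `H98.UB_comm_UB`; they preserve parabolic homomorphisms by `Stmt_RELPAR`.

Main results:
* `relsplit_of : Stmt_REL1 → Stmt_RELT → Stmt_RELU → Stmt_RELPAR → Stmt_RELSPLIT`;
* `UB_injective_of_torsionFree` : `U_q` of level `N q` is injective on `Hom(Γ₀(N q), A)`, `A` without
  `q`-torsion;
* `keru` : **KERU**, `U (U ψ) = 0 → U ψ = 0` at the level `N q²`, `A` without `q`-torsion.
-/

set_option autoImplicit false
set_option linter.style.haveILetI false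
set_option linter.unusedSectionVars false

open scoped MatrixGroups
open CongruenceSubgroup Matrix ModularForm

namespace Fermat.Agent.S59.NonMin.Geom.H98

open Fermat.Agent.S41 Fermat.Agent.S41.H19 Fermat.Agent.S41.H77 Fermat.Agent.S41.H39
open Fermat.Agent.S41.H20 Fermat.Agent.Betti Fermat.Agent.S59.NonMin.Geom
open Fermat.Agent.S59.NonMin.Geom.H72R ModularCurve.Period

/-! ### Linearity and parabolicity of the operators -/

section Lin

variable {M : ℕ} {R : Type*} [CommRing R]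

theorem UB_smul [NeZero M] {p : ℕ} (hp : p ∣ M) (c : R) (φ : Additive (Gamma0 M) →+ R) :
    UB M R hp (c • φ) = c • UB M R hp φ := by
  haveI : NeZero p := neZero_of_dvd hp
  exact ((isHeckeFamily_U M hp).heckeOpLin (incl_injective M) R).map_smul c φ

theorem TB_smul {p : ℕ} (hp : p.Prime) (hpM : ¬ p ∣ M) (c : R) (φ : Additive (Gamma0 M) →+ R) :
    TB M R hp hpM (c • φ) = c • TB M R hp hpM φ := by
  haveI : Fact p.Prime := ⟨hp⟩
  exact ((isHeckeFamily_T M hpM).heckeOpLin (incl_injective M) R).map_smul c φ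

variable {A : Type*} [AddCommGroup A]

theorem UB_par [NeZero M] {p : ℕ} (hp : p ∣ M) {φ : Additive (Gamma0 M) →+ A}
    (hφ : IsParabolicHom (Gamma0 M) φ) : IsParabolicHom (Gamma0 M) (UB M A hp φ) := by
  haveI : NeZero p := neZero_of_dvd hp
  exact Fermat.Agent.Betti.H76.heckeOp_isParabolicHom_gen (isHeckeFamily_U M hp) hφ

theorem par_add {Γ : Subgroup SL(2, ℤ)} {φ ψ : Additive Γ →+ A} (hφ : IsParabolicHom Γ φ)
    (hψ : IsParabolicHom Γ ψ) : IsParabolicHom Γ (φ + ψ) := by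
  intro γ hγ
  rw [AddMonoidHom.add_apply, hφ γ hγ, hψ γ hγ, add_zero]

theorem par_sub {Γ : Subgroup SL(2, ℤ)} {φ ψ : Additive Γ →+ A} (hφ : IsParabolicHom Γ φ)
    (hψ : IsParabolicHom Γ ψ) : IsParabolicHom Γ (φ - ψ) := by
  intro γ hγ
  rw [AddMonoidHom.sub_apply, hφ γ hγ, hψ γ hγ, sub_zero]

theorem par_smul {Γ : Subgroup SL(2, ℤ)} (c : R) {φ : Additive Γ →+ R}
    (hφ : IsParabolicHom Γ φ) : IsParabolicHom Γ (c • φ) := by
  intro γ hγ
  rw [AddMonoidHom.smul_apply, hφ γ hγ, smul_zero]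

end Lin

/-! ### The operators `e` and `g` -/

section Ops

variable {R : Type} [CommRing R] (N q : ℕ) [NeZero (N * q ^ 2)]

/-- `e = 1 - U² + A₁ C₃ - u A₂ C₂` (`u = q⁻¹`). -/
noncomputable def eOp (u : R) (hd : q ∣ N * q ^ 2) :
    (Additive (Gamma0 (N * q ^ 2)) →+ R) →+ (Additive (Gamma0 (N * q ^ 2)) →+ R) :=
  AddMonoidHom.mk'
    (fun ψ => ψ - UB (N * q ^ 2) R hd (UB (N * q ^ 2) R hd ψ)
      + resA1 N q R (corC3 N q R ψ) - u • resA2 N q R (corC2 N q R ψ))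
    (fun ψ χ => by
      unfold resA1 resA2 corC2 corC3
      simp only [map_add, corAlong_add, resAlong_add', smul_add]
      abel)

/-- `g = U - u A₂ C₃ + u² A₃ C₂` (`u = q⁻¹`). -/
noncomputable def gOp (u : R) (hd : q ∣ N * q ^ 2) :
    (Additive (Gamma0 (N * q ^ 2)) →+ R) →+ (Additive (Gamma0 (N * q ^ 2)) →+ R) :=
  AddMonoidHom.mk'
    (fun ψ => UB (N * q ^ 2) R hd ψ - u • resA2 N q R (corC3 N q R ψ)
      + (u * u) • resA3 N q R (corC2 N q R ψ))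
    (fun ψ χ => by
      unfold resA2 resA3 corC2 corC3
      simp only [map_add, corAlong_add, resAlong_add', smul_add]
      abel)

variable {N q}

theorem eOp_apply (u : R) (hd : q ∣ N * q ^ 2) (ψ : Additive (Gamma0 (N * q ^ 2)) →+ R) :
    eOp N q u hd ψ = ψ - UB (N * q ^ 2) R hd (UB (N * q ^ 2) R hd ψ)
      + resA1 N q R (corC3 N q R ψ) - u • resA2 N q R (corC2 N q R ψ) := rfl

theorem gOp_apply (u : R) (hd : q ∣ N * q ^ 2) (ψ : Additive (Gamma0 (N * q ^ 2)) →+ R) :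
    gOp N q u hd ψ = UB (N * q ^ 2) R hd ψ - u • resA2 N q R (corC3 N q R ψ)
      + (u * u) • resA3 N q R (corC2 N q R ψ) := rfl

theorem resA_smul (c : R) (φ : Additive (Gamma0 N) →+ R) :
    resA1 N q R (c • φ) = c • resA1 N q R φ ∧ resA2 N q R (c • φ) = c • resA2 N q R φ ∧
      resA3 N q R (c • φ) = c • resA3 N q R φ := ⟨rfl, rfl, rfl⟩

theorem corC_smul (c : R) (ψ : Additive (Gamma0 (N * q ^ 2)) →+ R) :
    corC2 N q R (c • ψ) = c • corC2 N q R ψ ∧ corC3 N q R (c • ψ) = c • corC3 N q R ψ :=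
  ⟨corAlong_smul _ _ _, corAlong_smul _ _ _⟩

theorem nsmul_cancel {X : Type*} [AddCommGroup X] [Module R X] {u : R} (hu : u * (q : R) = 1)
    (x : X) : u • (q • x) = x := by
  rw [← Nat.cast_smul_eq_nsmul R q x, smul_smul, hu, one_smul]

end Ops

/-! ### The theorem -/

/-- **RELSPLIT** from the relations. -/
theorem relsplit_of (h1 : Stmt_REL1) (hT : Stmt_RELT) (hU : Stmt_RELU) (hP : Stmt_RELPAR) :
    Stmt_RELSPLIT := by
  intro R _ _ _ N q _ _ hq hqN hqu hd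
  have hN : 0 < N := Nat.pos_of_ne_zero (NeZero.ne N)
  obtain ⟨u, hu⟩ : ∃ u : R, u * (q : R) = 1 := ⟨↑hqu.unit⁻¹, IsUnit.val_inv_mul hqu⟩
  obtain ⟨r1a, r1b, r1c⟩ :
      (∀ φ, UB (N * q ^ 2) R hd (resA1 N q R φ)
          = resA1 N q R (TB N R hq hqN φ) - resA2 N q R φ) ∧
      (∀ φ, UB (N * q ^ 2) R hd (resA2 N q R φ) = q • resA1 N q R φ) ∧
      (∀ φ, UB (N * q ^ 2) R hd (resA3 N q R φ) = q • resA2 N q R φ) :=
    ⟨fun φ => (h1 N q hq hqN hd R φ).1, fun φ => (h1 N q hq hqN hd R φ).2.1,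
      fun φ => (h1 N q hq hqN hd R φ).2.2⟩
  obtain ⟨pA, pC, -, -⟩ := hP N q hq hqN R
  refine ⟨eOp N q u hd, gOp N q u hd, ?_, ?_, ?_, ?_, ?_, ?_⟩
  · -- linearity
    intro c ψ
    constructor
    · rw [eOp_apply, eOp_apply, _root_.Fermat.Agent.S59.NonMin.Geom.H98.UB_smul, _root_.Fermat.Agent.S59.NonMin.Geom.H98.UB_smul, (corC_smul c ψ).1, (corC_smul c ψ).2,
        (resA_smul c _).1, (resA_smul c _).2.1, smul_comm u c]
      simp only [smul_add, smul_sub]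
    · rw [gOp_apply, gOp_apply, _root_.Fermat.Agent.S59.NonMin.Geom.H98.UB_smul, (corC_smul c ψ).1, (corC_smul c ψ).2,
        (resA_smul c _).2.1, (resA_smul c _).2.2, smul_comm u c, smul_comm (u * u) c]
      simp only [smul_add, smul_sub]
  · -- `U e = 0`
    intro ψ
    have h4 := rel4 hN hq hqN hd ψ
    rw [eOp_apply, map_sub, map_add, map_sub, r1a, _root_.Fermat.Agent.S59.NonMin.Geom.H98.UB_smul, r1b, nsmul_cancel hu]
    have h5 : UB (N * q ^ 2) R hd (UB (N * q ^ 2) R hd (UB (N * q ^ 2) R hd ψ))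
        = UB (N * q ^ 2) R hd ψ + (resA1 N q R (TB N R hq hqN (corC3 N q R ψ))
          - resA1 N q R (corC2 N q R ψ) - resA2 N q R (corC3 N q R ψ)) := by
      rw [← h4]; abel
    rw [h5]
    abel
  · -- `1 = e + U g`
    intro ψ
    rw [eOp_apply, gOp_apply, map_add, map_sub, _root_.Fermat.Agent.S59.NonMin.Geom.H98.UB_smul, _root_.Fermat.Agent.S59.NonMin.Geom.H98.UB_smul, r1b, r1c, nsmul_cancel hu,
      mul_smul, nsmul_cancel hu]
    abel
  · -- parabolic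
    intro ψ hψ
    obtain ⟨-, c2, c3⟩ := pC ψ hψ
    have a13 := (pA _ c3).1
    have a23 := (pA _ c3).2.1
    have a22 := (pA _ c2).2.1
    have a32 := (pA _ c2).2.2
    constructor
    · rw [eOp_apply]
      exact par_sub (par_add (par_sub hψ (UB_par hd (UB_par hd hψ))) a13) (par_smul u a22)
    · rw [gOp_apply]
      exact par_add (par_sub (UB_par hd hψ) (par_smul u a23)) (par_smul (u * u) a32)
  · -- `T_ℓ`
    intro ℓ hℓ hℓN' ψ
    have hℓN : ¬ ℓ ∣ N := fun h => hℓN' (Dvd.dvd.mul_right h _)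
    obtain ⟨tA, tC⟩ := hT N q hq hqN ℓ hℓ hℓN hℓN' R
    have k1 : UB (N * q ^ 2) R hd (TB (N * q ^ 2) R hℓ hℓN' ψ)
        = TB (N * q ^ 2) R hℓ hℓN' (UB (N * q ^ 2) R hd ψ) := UB_comm_TB hd hℓ hℓN' ψ
    have k2 : UB (N * q ^ 2) R hd (UB (N * q ^ 2) R hd (TB (N * q ^ 2) R hℓ hℓN' ψ))
        = TB (N * q ^ 2) R hℓ hℓN' (UB (N * q ^ 2) R hd (UB (N * q ^ 2) R hd ψ)) := by
      rw [k1, UB_comm_TB hd hℓ hℓN']
    have k13 : resA1 N q R (corC3 N q R (TB (N * q ^ 2) R hℓ hℓN' ψ))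
        = TB (N * q ^ 2) R hℓ hℓN' (resA1 N q R (corC3 N q R ψ)) := by
      rw [(tC ψ).2.2, (tA (corC3 N q R ψ)).1]
    have k22 : resA2 N q R (corC2 N q R (TB (N * q ^ 2) R hℓ hℓN' ψ))
        = TB (N * q ^ 2) R hℓ hℓN' (resA2 N q R (corC2 N q R ψ)) := by
      rw [(tC ψ).2.1, (tA (corC2 N q R ψ)).2.1]
    have k23 : resA2 N q R (corC3 N q R (TB (N * q ^ 2) R hℓ hℓN' ψ))
        = TB (N * q ^ 2) R hℓ hℓN' (resA2 N q R (corC3 N q R ψ)) := by
      rw [(tC ψ).2.2, (tA (corC3 N q R ψ)).2.1]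
    have k32 : resA3 N q R (corC2 N q R (TB (N * q ^ 2) R hℓ hℓN' ψ))
        = TB (N * q ^ 2) R hℓ hℓN' (resA3 N q R (corC2 N q R ψ)) := by
      rw [(tC ψ).2.1, (tA (corC2 N q R ψ)).2.2]
    constructor
    · rw [eOp_apply, eOp_apply, k2, k13, k22, map_sub, map_add, map_sub, _root_.Fermat.Agent.S59.NonMin.Geom.H98.TB_smul]
    · rw [gOp_apply, gOp_apply, k1, k23, k32, map_add, map_sub, _root_.Fermat.Agent.S59.NonMin.Geom.H98.TB_smul, _root_.Fermat.Agent.S59.NonMin.Geom.H98.TB_smul]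
  · -- `U_r`
    intro r hrN' hr hrq ψ
    have hrN : r ∣ N := by
      rcases (Nat.Prime.dvd_mul hr).mp hrN' with h | h
      · exact h
      · exact absurd ((Nat.prime_dvd_prime_iff_eq hr hq).mp (hr.dvd_of_dvd_pow h)) hrq
    obtain ⟨uA, uC⟩ := hU N q hq hqN r hr hrN hrN' R
    have k1 : UB (N * q ^ 2) R hd (UB (N * q ^ 2) R hrN' ψ)
        = UB (N * q ^ 2) R hrN' (UB (N * q ^ 2) R hd ψ) := UB_comm_UB hd hrN' ψ
    have k2 : UB (N * q ^ 2) R hd (UB (N * q ^ 2) R hd (UB (N * q ^ 2) R hrN' ψ))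
        = UB (N * q ^ 2) R hrN' (UB (N * q ^ 2) R hd (UB (N * q ^ 2) R hd ψ)) := by
      rw [k1, UB_comm_UB hd hrN']
    have k13 : resA1 N q R (corC3 N q R (UB (N * q ^ 2) R hrN' ψ))
        = UB (N * q ^ 2) R hrN' (resA1 N q R (corC3 N q R ψ)) := by
      rw [(uC ψ).2.2, (uA (corC3 N q R ψ)).1]
    have k22 : resA2 N q R (corC2 N q R (UB (N * q ^ 2) R hrN' ψ))
        = UB (N * q ^ 2) R hrN' (resA2 N q R (corC2 N q R ψ)) := by
      rw [(uC ψ).2.1, (uA (corC2 N q R ψ)).2.1]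
    have k23 : resA2 N q R (corC3 N q R (UB (N * q ^ 2) R hrN' ψ))
        = UB (N * q ^ 2) R hrN' (resA2 N q R (corC3 N q R ψ)) := by
      rw [(uC ψ).2.2, (uA (corC3 N q R ψ)).2.1]
    have k32 : resA3 N q R (corC2 N q R (UB (N * q ^ 2) R hrN' ψ))
        = UB (N * q ^ 2) R hrN' (resA3 N q R (corC2 N q R ψ)) := by
      rw [(uC ψ).2.1, (uA (corC2 N q R ψ)).2.2]
    constructor
    · rw [eOp_apply, eOp_apply, k2, k13, k22, map_sub, map_add, map_sub, _root_.Fermat.Agent.S59.NonMin.Geom.H98.UB_smul]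
    · rw [gOp_apply, gOp_apply, k1, k23, k32, map_add, map_sub, _root_.Fermat.Agent.S59.NonMin.Geom.H98.UB_smul, _root_.Fermat.Agent.S59.NonMin.Geom.H98.UB_smul]

end Fermat.Agent.S59.NonMin.Geom.H98

end
-- ==== END Fermat.Agent.S59.NonMin.Geom.H98_RelSplit

-- ==== BEGIN Fermat.Agent.S59.NonMin.H90_Step
section

/-!
# S59, RT-NONMIN, leaf STEP (helper90)

`stmt_STEP_of : Stmt_DEF → Datum.Stmt_DATUM → Asm.Stmt_SELMERq → Stmt_TAU2 → Stmt_PRES →
  Stmt_ETANE → Stmt_CQNE → Asm.Stmt_COND → Stmt_STEP`,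
following `NOTES/plan/S59_NONMIN.md` §3.  The compatibility `res ∘ φ' = φ ∘ τ` is proved with
target `D.R` (`compat_of_bijective`), so nothing is needed about the representation over `T`
beyond the fields of `RTProp`.  The inputs `Stmt_DEF` (`H99.stmt_DEF`) and `Stmt_DATUM`
(`Datum.stmt_DATUM`) are hypotheses in order to keep the closure of this file small.
-/

set_option autoImplicit false
set_option linter.unusedSectionVars false
set_option linter.unusedVariables false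
set_option linter.style.haveILetI false

open Polynomial CuspForm IsLocalRing

namespace Fermat.Agent.S59.NonMin.H90

open Fermat.Agent.S59 Fermat.Agent.S59.Asm

set_option maxHeartbeats 6400000 in
set_option synthInstance.maxHeartbeats 400000 in
/-- **STEP**. -/
theorem stmt_STEP_of (hDEF : Fermat.Agent.S59.Stmt_DEF)
    (hDATUM : Fermat.Agent.S59.Datum.Stmt_DATUM) (hSEL : Asm.Stmt_SELMERq) (hTAU2 : Stmt_TAU2)
    (hPRES : Stmt_PRES) (hETANE : Stmt_ETANE) (hCQNE : Stmt_CQNE) (hCOND : Asm.Stmt_COND) :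
    Stmt_STEP := by
  intro 𝒪 _ _ _ _ _ _ p _ hp2 hp𝒪 fl ρbar Smin hyp hbar hnfl Sig s _ hL hF x hx d hd hRT q hq hqp
    hqN hqS _ st _
  obtain ⟨hrk, D, H, φ, hφ, ηhat, πx, hHπ, hφb, hφe, hηhat, hπx, hfin, hcard⟩ := hRT
  have hp : p.Prime := Fact.out
  obtain ⟨hlev1, hlev2⟩ := level_facts (N := s.N) hq
  -- the sets of primes
  have hqS' : q ∉ s.S := fun h => hqS (Finset.mem_coe.2 h)
  have hqSmin : q ∉ Smin := fun h => hqS' (by rw [hL.hS]; exact Finset.mem_union_left _ h)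
  have hqSig : q ∉ Sig := fun h => hqS' (by rw [hL.hS]; exact Finset.mem_union_right _ h)
  have hS' : insert q s.S = Smin ∪ insert q Sig := by rw [hL.hS, Finset.union_insert]
  have hpS : p ∈ s.S := by rw [hL.hS]; exact Finset.mem_union_left _ hyp.hpSmin
  have hpS' : p ∈ insert q s.S := Finset.mem_insert_of_mem hpS
  have hprimes : ∀ q' ∈ Smin ∪ Sig, q'.Prime := by
    intro q' hq'
    rcases Finset.mem_union.1 hq' with h | h
    · exact hyp.hS q' h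
    · exact (hL.hSig q' h).1
  have hprimes' : ∀ q' ∈ Smin ∪ insert q Sig, q'.Prime := by
    intro q' hq'
    rcases Finset.mem_union.1 hq' with h | h
    · exact hyp.hS q' h
    · rcases Finset.mem_insert.1 h with h | h
      · rw [h]; exact hq
      · exact (hL.hSig q' h).1
  -- the level
  have hdvd' : ∀ q' : ℕ, q'.Prime → q' ∣ s.N * q ^ 2 → q' ∈ insert q s.S := by
    intro q' hq' h
    rcases hlev1 q' hq' h with h1 | h1
    · exact Finset.mem_insert_of_mem (hL.dvd_mem q' hq' h1)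
    · rw [h1]; exact Finset.mem_insert_self _ _
  have hmin' : ∀ q' ∈ Smin, q' ≠ p → q' ∣ s.N * q ^ 2 ∧ ¬ q' ^ 2 ∣ s.N * q ^ 2 := by
    intro q' hq' hne
    obtain ⟨h1, h2⟩ := hL.hmin q' hq' hne
    refine ⟨Dvd.dvd.mul_right h1 _, fun h => h2 (hlev2 q' (hyp.hS q' hq') ?_ h)⟩
    rintro rfl
    exact hqSmin hq'
  have hfl' : fl = true → ¬ p ∣ s.N * q ^ 2 := by
    intro h hdiv
    rcases hlev1 p hp hdiv with h1 | h1
    · exact hL.hfl h h1
    · exact hqp h1.symm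
  have hso' : fl = false → p ∣ s.N * q ^ 2 ∧ ¬ p ^ 2 ∣ s.N * q ^ 2 := by
    intro h
    obtain ⟨h1, h2⟩ := hL.hso h
    exact ⟨Dvd.dvd.mul_right h1 _, fun h3 => h2 (hlev2 p hp (fun h4 => hqp h4.symm) h3)⟩
  have hF' : Fermat.Agent.S59.Datum.FrobHyp ρbar (s.N * q ^ 2) (insert q s.S)
      (s.θ.comp st.rest) := by
    intro ℓ hℓ hℓN' hℓS' A hA σ hσ
    have hℓN : ¬ ℓ ∣ s.N := fun h => hℓN' (Dvd.dvd.mul_right h _)
    have hℓS : ℓ ∉ (↑s.S : Set ℕ) := fun h => hℓS' (by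
      rw [Finset.coe_insert]
      exact Set.mem_insert_of_mem _ h)
    rw [RingHom.comp_apply, st.rest_T ℓ hℓ hℓN' hℓS' hℓN hℓS]
    exact hF ℓ hℓ hℓN hℓS A hA σ hσ
  -- Step 1: the objects at the next level
  obtain ⟨D'⟩ := hDEF 𝒪 p hp2 hp𝒪 fl ρbar hyp.habs Smin (insert q Sig) hyp.hpSmin
    hprimes' (cond_mono (Finset.empty_subset _) hbar)
  obtain ⟨H', hH'π, hH'det, hH'res⟩ := hDATUM 𝒪 p hp2 hp𝒪
    (s.N * q ^ 2) (insert q s.S) hpS' hdvd' ρbar hyp.habs (s.θ.comp st.rest) hF'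
  have hcond' : cond 𝒪 p fl Smin (insert q Sig) H'.ρ :=
    hCOND 𝒪 p hp2 hp𝒪 fl ρbar Smin hyp hbar hnfl (insert q Sig) (s.N * q ^ 2) (insert q s.S)
      hS' hdvd' hmin' hfl' hso' (s.θ.comp st.rest) hF' H' hH'π hH'det hH'res
  obtain ⟨φ', hφ's, hφ'l, hφ'e⟩ := Fermat.Agent.S54.surjective_of_frobExists
    (fun ℓ hℓ => Fermat.Agent.Lib.FrobExists.exists_place_and_frobenius ℓ hℓ) D' H'
    (fun q' hq' h => Finset.mem_coe.2 (hdvd' q' hq' h)) hcond' hH'res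
  obtain ⟨ηhat', hηhat'⟩ := H85.stmt_LOCMOD 𝒪 (s.N * q ^ 2) (↑(insert q s.S) : Set ℕ)
    (s.θ.comp st.rest) st.M'
  obtain ⟨res, hres⟩ := H85.stmt_RESLOC 𝒪 s.N (s.N * q ^ 2) (↑s.S : Set ℕ)
    (↑(insert q s.S) : Set ℕ) s.θ st.rest
  obtain ⟨τ, hτs, hτl, hτe⟩ := hTAU2 𝒪 p hp2 hp𝒪 fl ρbar Smin Sig (insert q Sig)
    (Finset.subset_insert _ _) hyp.hpSmin hprimes' D D'
  obtain ⟨n, γ', hγ'⟩ := hPRES 𝒪 ρbar (cond 𝒪 p fl Smin (insert q Sig)) D'
  -- generators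
  have hadj : Algebra.adjoin 𝒪 (Set.range (CuspForm.heckeLocal.π s.N (↑s.S : Set ℕ) 𝒪 s.θ))
      = ⊤ := by
    rw [← hHπ]
    exact H.adjoin_range_π
  have hadj' : Algebra.adjoin 𝒪 (Set.range (CuspForm.heckeLocal.π (s.N * q ^ 2)
      (↑(insert q s.S) : Set ℕ) 𝒪 (s.θ.comp st.rest))) = ⊤ := by
    rw [← hH'π]
    exact H'.adjoin_range_π
  -- Step 2: compatibility
  have hbad : ∀ ℓ : ℕ, ℓ.Prime → ℓ ∉ insert q s.S ∪ (s.N * q ^ 2).primeFactors →
      (¬ ℓ ∣ s.N * q ^ 2) ∧ ℓ ∉ (↑(insert q s.S) : Set ℕ) ∧ (¬ ℓ ∣ s.N) ∧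
        ℓ ∉ (↑s.S : Set ℕ) := by
    intro ℓ hℓ hℓS
    have h1 : ¬ ℓ ∣ s.N * q ^ 2 := fun h => hℓS (Finset.mem_union_right _
      (Nat.mem_primeFactors.2 ⟨hℓ, h, NeZero.ne _⟩))
    have h2 : ℓ ∉ (↑(insert q s.S) : Set ℕ) := fun h => hℓS (Finset.mem_union_left _
      (Finset.mem_coe.1 h))
    refine ⟨h1, h2, fun h => h1 (Dvd.dvd.mul_right h _), fun h => h2 ?_⟩
    rw [Finset.coe_insert]
    exact Set.mem_insert_of_mem _ h
  have hcompat : res.comp φ' = φ.comp τ := by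
    refine compat_of_bijective ρbar (cond 𝒪 p fl Smin Sig) (cond 𝒪 p fl Smin (insert q Sig))
      D D' (cond_mono (Finset.subset_insert _ _) D.isOfType) H.ρ H'.ρ τ hτl hτe φ hφb hφ hφe
      φ' hφ'l hφ'e res (insert q s.S ∪ (s.N * q ^ 2).primeFactors) ?_
    intro ℓ hℓ hℓS B hB σ hσ
    obtain ⟨h1, h2, h3, h4⟩ := hbad ℓ hℓ hℓS
    rw [H.charpoly_frob ℓ hℓ h3 h4 B hB σ hσ]
    refine H77.map_charpoly_frob (res : CuspForm.heckeLocal (s.N * q ^ 2)
      (↑(insert q s.S) : Set ℕ) 𝒪 (s.θ.comp st.rest) →+*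
        CuspForm.heckeLocal s.N (↑s.S : Set ℕ) 𝒪 s.θ)
      (H'.π (CuspForm.heckeAlgebra.T hℓ h1 h2)) _ ℓ ?_ _
      (H'.charpoly_frob ℓ hℓ h1 h2 B hB σ hσ)
    rw [hH'π, hHπ, ← st.rest_T ℓ hℓ h1 h2 h3 h4]
    exact hres _
  -- Step 3: the Selmer bound
  obtain ⟨A, σ, hA, hσ⟩ := Fermat.Agent.Lib.FrobExists.exists_place_and_frobenius q hq
  have htr : (πx.comp φ) (D.ρ.trace σ) = x (CuspForm.heckeAlgebra.T hq hqN hqS) := by
    have h1 := map_trace_of_isEquiv (φ : D.R →+* CuspForm.heckeLocal s.N (↑s.S : Set ℕ) 𝒪 s.θ)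
      hφ D.ρ H.ρ hφe σ (H.charpoly_frob q hq hqN hqS A hA σ hσ)
    have h2 : φ (D.ρ.trace σ) = H.π (CuspForm.heckeAlgebra.T hq hqN hqS) := h1
    rw [AlgHom.comp_apply, h2, hHπ, hπx]
  have hq1 : ((q : 𝒪) - 1) ≠ 0 := by
    intro h
    have h1 : (q : 𝒪) = ((1 : ℕ) : 𝒪) := by rw [Nat.cast_one]; exact sub_eq_zero.mp h
    exact hq.one_lt.ne' (Nat.cast_injective h1)
  have hcq : x (CuspForm.heckeAlgebra.T hq hqN hqS) ^ 2 ≠ ((q : 𝒪) + 1) ^ 2 := by
    intro h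
    apply hCQNE s.N (↑s.S : Set ℕ) q hq hqN hqS (FractionRing 𝒪)
      ((algebraMap 𝒪 (FractionRing 𝒪)).comp x)
    rw [RingHom.comp_apply, ← map_pow, h, map_pow, map_add, map_natCast, map_one]
  have hc0 : ((q : 𝒪) - 1) * ((πx.comp φ) (D.ρ.trace σ) ^ 2 - ((q : 𝒪) + 1) ^ 2) ≠ 0 := by
    rw [htr]
    exact mul_ne_zero hq1 (sub_ne_zero.mpr hcq)
  have hsel := hSEL 𝒪 p hp2 hp𝒪 fl ρbar Smin Sig q hq hqp hqSmin hqSig hyp.hpSmin hprimes D D'
    τ hτl hτe (πx.comp φ) A hA σ hσ hc0 hfin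
  -- the element `e`
  have hspan : Ideal.span {(st.u : 𝒪) * (((q : 𝒪) - 1) *
        ((πx.comp φ) (D.ρ.trace σ) ^ 2 - ((q : 𝒪) + 1) ^ 2))}
      = Ideal.span {((q : 𝒪) - 1) *
        ((πx.comp φ) (D.ρ.trace σ) ^ 2 - ((q : 𝒪) + 1) ^ 2)} :=
    Ideal.span_singleton_eq_span_singleton.mpr (associated_unit_mul_left _ _ st.u.isUnit)
  rw [← hspan] at hsel
  -- Step 4: the maps `α`, `α'`
  have hα : ∀ (t : CuspForm.heckeLocal (s.N * q ^ 2) (↑(insert q s.S) : Set ℕ) 𝒪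
      (s.θ.comp st.rest)) (v : s.M.V), st.α (ηhat (res t) v) = ηhat' t (st.α v) :=
    intertwine_of_gen_left hadj' ηhat ηhat' res st.α fun t v => by
      rw [hres, hηhat, hηhat']
      exact st.α_η t v
  have hα' : ∀ (t : CuspForm.heckeLocal (s.N * q ^ 2) (↑(insert q s.S) : Set ℕ) 𝒪
      (s.θ.comp st.rest)) (w : st.M'.V), st.α' (ηhat' t w) = ηhat (res t) (st.α' w) :=
    intertwine_of_gen_right hadj' ηhat ηhat' res st.α' fun t w => by
      rw [hres, hηhat, hηhat']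
      exact st.α'_η t w
  -- eigenspaces
  have hπx' : ∀ t, (πx.comp res) (CuspForm.heckeLocal.π (s.N * q ^ 2)
      (↑(insert q s.S) : Set ℕ) 𝒪 (s.θ.comp st.rest) t) = (x.comp st.rest) t := by
    intro t
    rw [AlgHom.comp_apply, hres, hπx]
    rfl
  have hT1 : torsP ηhat πx = s.eigen x := torsP_eq_eigen s x ηhat πx hadj hηhat hπx
  have hT2 : torsP ηhat' (πx.comp res) = NMState.eigen
      (⟨s.N * q ^ 2, insert q s.S, s.θ.comp st.rest, st.M'⟩ : NMState 𝒪) (x.comp st.rest) :=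
    torsP_eq_eigen (⟨s.N * q ^ 2, insert q s.S, s.θ.comp st.rest, st.M'⟩ : NMState 𝒪)
      (x.comp st.rest) ηhat' (πx.comp res) hadj' hηhat' hπx'
  have hc : ∀ v ∈ torsP ηhat πx, st.α' (st.α v) = ((st.u : 𝒪) * (((q : 𝒪) - 1) *
      ((πx.comp φ) (D.ρ.trace σ) ^ 2 - ((q : 𝒪) + 1) ^ 2))) • v := by
    intro v hv
    rw [hT1] at hv
    rw [htr]
    exact comp_eq_smul_of_mem_eigen s hq hqN hqS st x v hv
  have hrkP : Module.finrank 𝒪 (torsP ηhat πx) = d := by rw [hT1]; exact hrk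
  have hrk' := st.rank x hx
  rw [hrk] at hrk'
  have hrkP' : Module.finrank 𝒪 (torsP ηhat' (πx.comp res)) ≤ d := by rw [hT2]; exact hrk'
  -- congruence ideals
  have hη := hETANE 𝒪 s.N s.S hL.dvd_mem s.θ πx
  have hη' := hETANE 𝒪 (s.N * q ^ 2) (insert q s.S) hdvd' (s.θ.comp st.rest) (πx.comp res)
  -- Step 5: the numerical criterion
  obtain ⟨hφ'b, hfin', hcard'⟩ := step_core τ φ φ' hφ's res hcompat πx γ' hγ' ηhat ηhat' hη hη'
    st.α hα st.α' hα' st.α_inj st.α_sat st.α'_surj _ hc d hd hrkP hrkP' hcard hsel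
  -- Step 6: the rank of the new eigenspace
  have hge : d ≤ Module.finrank 𝒪 (NMState.eigen
      (⟨s.N * q ^ 2, insert q s.S, s.θ.comp st.rest, st.M'⟩ : NMState 𝒪)
      (x.comp st.rest)) := by
    rw [← hrk]
    exact finrank_eigen_le_of_injective s
      (⟨s.N * q ^ 2, insert q s.S, s.θ.comp st.rest, st.M'⟩ : NMState 𝒪) st.rest x st.α
      st.α_η st.α_inj
  exact ⟨le_antisymm hrk' hge, D', H', φ', hφ'l, ηhat', πx.comp res, hH'π, hφ'b, hφ'e, hηhat',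
    hπx', hfin', hcard'⟩

end Fermat.Agent.S59.NonMin.H90

end
-- ==== END Fermat.Agent.S59.NonMin.H90_Step
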