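-- GENERATED (merged mirror, NOTES/tools/trim/merge3_helper67.py): 8 modules of the originals, bodies verbatim.
import Mathlib
import Fermat.Agent.Zm.S59_L01_002
import Fermat.Agent.Zm.S59_L01_004
import Fermat.Agent.Zm.S43_L15_001
import Fermat.Agent.Zm.S59_L03_004
import Fermat.Agent.Zm.S59_L09_001
import Fermat.Agent.Zm.S59_L05_003
import Fermat.Agent.Zm.S59_L09_000
import Fermat.Agent.Zm.S35_L04_000
import Fermat.Agent.Zm.S59_L08_002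
import Fermat.Agent.Zm.S33_L02_003
import Fermat.Agent.Zm.S43_L08_001
import Fermat.Agent.Zm.S59_L01_005
import Fermat.Agent.Zm.S43_L08_002
import Fermat.Agent.Zm.S43_L02_004
import Fermat.Agent.Zm.S43_L02_003
import Fermat.Agent.Zm.S35_L02_001
import Fermat.Agent.Zm.S33_L01_005
import Fermat.Agent.Zm.S59_L04_002
import Fermat.Agent.Zm.S59_L02_002
import Fermat.Agent.Zm.S43_L14_002
import Fermat.Agent.Zm.S43_L17_002
import Fermat.Agent.Zm.S58_L01_000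
import Fermat.Agent.Zm.S43_L05_002
import Fermat.Agent.Zm.S59_L07_002
import Fermat.Agent.Zm.S59_L02_005
import Fermat.Agent.Zm.S59_L03_005
import Fermat.Agent.Zm.S59_L06_002
import Fermat.Agent.Zm.S43_L07_002
import Fermat.Agent.Zm.S59_L04_004
import Fermat.Agent.Zm.S43_L05_003
import Fermat.Agent.Zm.S59_L08_001
import Fermat.Agent.Zm.S59_L02_004
import Fermat.Agent.Zm.S59_L03_003
import Fermat.Agent.Zm.S44_L05_001

-- ==== BEGIN Fermat.Agent.S59.CaseC.Geom.H85_PDualOps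
section

/-!
# S59, case C, PGEOM leaf P-DUAL (helper85): the Hecke operators on cuspidal classes

* `TB_cusp`, `UB_cusp` : the Betti Hecke operators preserve cuspidal homomorphisms (any
  coefficient group);
* `TLk`, `ULk` : `T_ℓ`, `U_r` as endomorphisms of `S41.H94.cuspSub k M`;
* commutation, self-adjointness of `TLk` for `S41.H94.BL`, compatibility with `corL1`, `corL2`;
* `keru_gen`, `keru_pow` : `U_r^n ψ = 0 → U_r ψ = 0` at a level `M = M₀ r²`.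

No `sorry`.
-/

set_option autoImplicit false

open CuspForm CongruenceSubgroup
open scoped MatrixGroups

namespace Fermat.Agent.S59.CaseC.Geom.H85

open Fermat.Agent.S41 Fermat.Agent.S41.H94 Fermat.Agent.Betti Fermat.Agent.S59.NonMin.Geom

/-! ## Cuspidal homomorphisms are preserved by the Hecke operators -/

section Cusp

variable {N : ℕ} {A : Type*} [AddCommGroup A]

/-- The class of elements of trace `t` with `t² ≤ 4` satisfies the hypothesis of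
`heckeOp_vanishes_gen`. -/
theorem cuspidal_stable (N : ℕ) {ι : Type*} (rep : ι → GL (Fin 2) ℝ) (γ : Gamma0 N)
    (hγ : ((γ : SL(2, ℤ)) : Matrix (Fin 2) (Fin 2) ℤ).trace ^ 2 ≤ 4) (n : ℕ) (i : ι)
    (κ : Gamma0 N) (h : rep i * incl N (γ ^ n) = incl N κ * rep i) :
    ((κ : SL(2, ℤ)) : Matrix (Fin 2) (Fin 2) ℤ).trace ^ 2 ≤ 4 := by
  have h1 : incl N κ = rep i * incl N (γ ^ n) * (rep i)⁻¹ := by
    rw [h, mul_inv_cancel_right]
  have h2 : ((incl N κ : GL (Fin 2) ℝ) : Matrix (Fin 2) (Fin 2) ℝ).trace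
      = ((incl N (γ ^ n) : GL (Fin 2) ℝ) : Matrix (Fin 2) (Fin 2) ℝ).trace := by
    rw [h1]
    exact Matrix.trace_units_conj (rep i) _
  rw [incl_apply, incl_apply, trace_mapGL, trace_mapGL] at h2
  have h3 : ((κ : SL(2, ℤ)) : Matrix (Fin 2) (Fin 2) ℤ).trace
      = (((γ ^ n : Gamma0 N) : SL(2, ℤ)) : Matrix (Fin 2) (Fin 2) ℤ).trace := by
    exact_mod_cast h2
  rw [h3]
  exact Fermat.Agent.S59.NonMin.Geom.H94.trG_pow_sq_le γ n hγ

theorem heckeOp_isCuspidalHom {ι : Type*} [Fintype ι] {rep : ι → GL (Fin 2) ℝ}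
    (H : IsHeckeFamily (incl N) rep) {φ : Additive (Gamma0 N) →+ A}
    (hφ : IsCuspidalHom (Gamma0 N) φ) :
    IsCuspidalHom (Gamma0 N) (H.heckeOp (incl_injective N) φ) := by
  intro γ hγ
  exact Fermat.Agent.Betti.H76.heckeOp_vanishes_gen H (incl_injective N)
    {γ : Gamma0 N | ((γ : SL(2, ℤ)) : Matrix (Fin 2) (Fin 2) ℤ).trace ^ 2 ≤ 4}
    (fun γ hγ n _ i κ h => cuspidal_stable N rep γ hγ n i κ h) φ (fun γ hγ => hφ γ hγ) γ hγ

/-- `T_ℓ` preserves cuspidal homomorphisms. -/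
theorem TB_cusp {ℓ : ℕ} (hℓ : ℓ.Prime) (hℓN : ¬ ℓ ∣ N) {φ : Additive (Gamma0 N) →+ A}
    (hφ : IsCuspidalHom (Gamma0 N) φ) : IsCuspidalHom (Gamma0 N) (TB N A hℓ hℓN φ) := by
  have : Fact ℓ.Prime := ⟨hℓ⟩
  exact heckeOp_isCuspidalHom (isHeckeFamily_T N hℓN) hφ

/-- `U_r` preserves cuspidal homomorphisms. -/
theorem UB_cusp [NeZero N] {r : ℕ} (hr : r ∣ N) {φ : Additive (Gamma0 N) →+ A}
    (hφ : IsCuspidalHom (Gamma0 N) φ) : IsCuspidalHom (Gamma0 N) (UB N A hr φ) := by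
  have : NeZero r := neZero_of_dvd hr
  exact heckeOp_isCuspidalHom (isHeckeFamily_U N hr) hφ

end Cusp

/-! ## `KERU` at a level `M = M₀ r²` -/

section KerU

variable {k : Type*} [Field k]

/-- `Stmt_KERU` at a level `M` with `M = M₀ r²`. -/
theorem keru_gen (M : ℕ) [NeZero M] {r : ℕ} (hr : r.Prime) (M₀ : ℕ) (hM : M = M₀ * r ^ 2)
    (hrM₀ : ¬ r ∣ M₀) (hrk : (r : k) ≠ 0) (hd : r ∣ M) (ψ : Additive (Gamma0 M) →+ k)
    (h : UB M k hd (UB M k hd ψ) = 0) : UB M k hd ψ = 0 := by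
  subst hM
  have hM₀ : 0 < M₀ := by
    rcases Nat.eq_zero_or_pos M₀ with h0 | h0
    · exact absurd (by rw [h0, zero_mul]) (NeZero.ne (M₀ * r ^ 2))
    · exact h0
  exact Fermat.Agent.S59.NonMin.Geom.H98.keru_of_isUnit (R := k) hM₀ hr hrM₀ hd
    (isUnit_iff_ne_zero.mpr hrk) ψ h

/-- `U_r^[n+1] ψ = 0 → U_r ψ = 0` at a level `M = M₀ r²`. -/
theorem keru_iterate (M : ℕ) [NeZero M] {r : ℕ} (hr : r.Prime) (M₀ : ℕ) (hM : M = M₀ * r ^ 2)
    (hrM₀ : ¬ r ∣ M₀) (hrk : (r : k) ≠ 0) (hd : r ∣ M) :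
    ∀ (n : ℕ) (ψ : Additive (Gamma0 M) →+ k), (⇑(UB M k hd))^[n + 1] ψ = 0 →
      UB M k hd ψ = 0 := by
  intro n
  induction n with
  | zero => intro ψ h; simpa using h
  | succ n IH =>
    intro ψ h
    apply IH
    rw [Function.iterate_succ_apply'] at h ⊢
    rw [Function.iterate_succ_apply'] at h
    exact keru_gen M hr M₀ hM hrM₀ hrk hd _ h

end KerU

/-! ## The operators on the cuspidal classes -/

section Ops

variable (k : Type) [Field k]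

/-- `T_ℓ` on the cuspidal classes of level `M`. -/
noncomputable def TLk (M : ℕ) {ℓ : ℕ} (hℓ : ℓ.Prime) (hℓM : ¬ ℓ ∣ M) :
    Module.End k (cuspSub k M) where
  toFun x := ⟨TB M k hℓ hℓM x.1, TB_cusp hℓ hℓM x.2⟩
  map_add' x y := Subtype.ext (map_add (TB M k hℓ hℓM) x.1 y.1)
  map_smul' c x := Subtype.ext (by
    have : Fact ℓ.Prime := ⟨hℓ⟩
    exact ((isHeckeFamily_T M hℓM).heckeOpLin (incl_injective M) k).map_smul c x.1)

/-- `U_r` on the cuspidal classes of level `M`. -/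
noncomputable def ULk (M : ℕ) [NeZero M] {r : ℕ} (hr : r ∣ M) :
    Module.End k (cuspSub k M) where
  toFun x := ⟨UB M k hr x.1, UB_cusp hr x.2⟩
  map_add' x y := Subtype.ext (map_add (UB M k hr) x.1 y.1)
  map_smul' c x := Subtype.ext (by
    have : NeZero r := neZero_of_dvd hr
    exact ((isHeckeFamily_U M hr).heckeOpLin (incl_injective M) k).map_smul c x.1)

variable {k}

@[simp] theorem TLk_coe (M : ℕ) {ℓ : ℕ} (hℓ : ℓ.Prime) (hℓM : ¬ ℓ ∣ M) (x : cuspSub k M) :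
    (TLk k M hℓ hℓM x : Additive (Gamma0 M) →+ k) = TB M k hℓ hℓM x.1 := rfl

@[simp] theorem ULk_coe (M : ℕ) [NeZero M] {r : ℕ} (hr : r ∣ M) (x : cuspSub k M) :
    (ULk k M hr x : Additive (Gamma0 M) →+ k) = UB M k hr x.1 := rfl

theorem TLk_comm_TLk (M : ℕ) [NeZero M] {ℓ ℓ' : ℕ} (hℓ : ℓ.Prime) (hℓM : ¬ ℓ ∣ M)
    (hℓ' : ℓ'.Prime) (hℓ'M : ¬ ℓ' ∣ M) : Commute (TLk k M hℓ hℓM) (TLk k M hℓ' hℓ'M) := by
  refine LinearMap.ext fun x => Subtype.ext ?_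
  exact Fermat.Agent.S59.NonMin.Geom.H98.TB_comm_TB hℓ hℓM hℓ' hℓ'M x.1

theorem ULk_comm_TLk (M : ℕ) [NeZero M] {r ℓ : ℕ} (hr : r ∣ M) (hℓ : ℓ.Prime)
    (hℓM : ¬ ℓ ∣ M) : Commute (ULk k M hr) (TLk k M hℓ hℓM) := by
  refine LinearMap.ext fun x => Subtype.ext ?_
  exact Fermat.Agent.S59.NonMin.Geom.H98.UB_comm_TB hr hℓ hℓM x.1

theorem ULk_comm_ULk (M : ℕ) [NeZero M] {r r' : ℕ} (hr : r ∣ M) (hr' : r' ∣ M) :
    Commute (ULk k M hr) (ULk k M hr') := by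
  refine LinearMap.ext fun x => Subtype.ext ?_
  exact Fermat.Agent.S59.NonMin.Geom.H98.UB_comm_UB hr hr' x.1

variable (L : Leaves) (h2 : (2 : k) ≠ 0)

/-- `TLk` is the operator `S41.H94.TL`. -/
theorem TLk_eq_TL (N : ℕ) (hN : 0 < N) {ℓ : ℕ} (hℓ : ℓ.Prime) (hℓN : ¬ ℓ ∣ N) :
    TLk k N hℓ hℓN = TL L h2 N ℓ hN.ne' hℓ.ne_zero := by
  refine LinearMap.ext fun x => Subtype.ext ?_
  rw [TL_coe, Fermat.Agent.S41.H20.Tcoh_eq_TB hN hℓ hℓN]
  rfl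

/-- `T_ℓ` is self-adjoint for the pairing. -/
theorem BL_TLk (N : ℕ) [NeZero N] {ℓ : ℕ} (hℓ : ℓ.Prime) (hℓN : ¬ ℓ ∣ N)
    (x y : cuspSub k N) :
    BL L h2 N x (TLk k N hℓ hℓN y) = BL L h2 N (TLk k N hℓ hℓN x) y := by
  have hN : 0 < N := Nat.pos_of_ne_zero (NeZero.ne N)
  rw [TLk_eq_TL L h2 N hN hℓ hℓN]
  exact BL_TL L h2 N ℓ hN hℓ hℓN x y

variable {N q : ℕ}

theorem corL1_TLk (hN : N ≠ 0) (hq : q.Prime) (hqN : ¬ q ∣ N) {ℓ : ℕ} (hℓ : ℓ.Prime)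
    (hℓN : ¬ ℓ ∣ N) (hℓN' : ¬ ℓ ∣ N * q) (y : cuspSub k (N * q)) :
    corL1 L h2 N q hN hq.ne_zero (TLk k (N * q) hℓ hℓN' y)
      = TLk k N hℓ hℓN (corL1 L h2 N q hN hq.ne_zero y) :=
  Subtype.ext (Fermat.Agent.S59.CaseC.Geom.H80.cor1_TB hq hqN hℓ hℓN hℓN' y.1)

theorem corL2_TLk (hN : N ≠ 0) (hq : q.Prime) (hqN : ¬ q ∣ N) {ℓ : ℕ} (hℓ : ℓ.Prime)
    (hℓN : ¬ ℓ ∣ N) (hℓN' : ¬ ℓ ∣ N * q) (y : cuspSub k (N * q)) :
    corL2 L h2 N q hN hq.ne_zero (TLk k (N * q) hℓ hℓN' y)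
      = TLk k N hℓ hℓN (corL2 L h2 N q hN hq.ne_zero y) :=
  Subtype.ext (Fermat.Agent.S59.CaseC.Geom.H80.cor2_TB hq hqN hℓ hℓN hℓN' y.1)

theorem corL1_ULk [NeZero N] [NeZero (N * q)] (hN : N ≠ 0) (hq : q.Prime) (hqN : ¬ q ∣ N) {r : ℕ} (hr : r.Prime)
    (hrN : r ∣ N) (hrN' : r ∣ N * q) (y : cuspSub k (N * q)) :
    corL1 L h2 N q hN hq.ne_zero (ULk k (N * q) hrN' y)
      = ULk k N hrN (corL1 L h2 N q hN hq.ne_zero y) :=
  Subtype.ext (Fermat.Agent.S59.CaseC.Geom.H80.cor1_UB hq hqN hr hrN hrN' y.1)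

theorem corL2_ULk [NeZero N] [NeZero (N * q)] (hN : N ≠ 0) (hq : q.Prime) (hqN : ¬ q ∣ N) {r : ℕ} (hr : r.Prime)
    (hrN : r ∣ N) (hrN' : r ∣ N * q) (y : cuspSub k (N * q)) :
    corL2 L h2 N q hN hq.ne_zero (ULk k (N * q) hrN' y)
      = ULk k N hrN (corL2 L h2 N q hN hq.ne_zero y) :=
  Subtype.ext (Fermat.Agent.S59.CaseC.Geom.H80.cor2_UB hq hqN hr hrN hrN' y.1)

end Ops

end Fermat.Agent.S59.CaseC.Geom.H85

end
-- ==== END Fermat.Agent.S59.CaseC.Geom.H85_PDualOps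

-- ==== BEGIN Fermat.Agent.S59.CaseC.H47_StepP
section

/-!
# S59, case C (helper47): the wiring of the step at `p`

* `stepP_core`     : the step at `p`, with the geometric input in the weakest (pointwise) form;
  `Datum.Stmt_DATUM` and the frozen S31, S34 (`Asm.H7.Stmt_UnrDatum`, `Asm.H7.Stmt_UnipDatum`) are
  hypotheses, to keep the closure of this file small.
* `steppwire_of`   : `CaseC.Stmt_STEPPWIRE` from these three.
The unconditional wirings `stmt_STEPPWIRE : CaseC.Stmt_STEPPWIRE` and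
`stmt_STEPPptWIRE : Geom.Stmt_STEPPptWIRE` are in `CaseC/Geom/H47_StepPpt.lean`.

From `R = T` at a state `s` of level `N` prime to `p` (flat condition):
1. `H.ρ` has cyclotomic determinant and residual representation `ρbar`; it is ordinary at `p`
   (`Stmt_ORDT`), hence so is `D.ρ` (`φ` is bijective: `isOrdinaryAt_of_bijective`).
2. `D'` := the ordinary deformation ring (`Stmt_DEFord`), `τ : D'.R ↠ D.R` (`Stmt_TAUP`).
3. A place `P` over `p`, a Frobenius element `g`, the ordinary line of `D.ρ` at `P` and the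
   eigenvalue `z_D` of `g` on the quotient; transport to `H.ρ` (`z := φ z_D`).
4. The geometry gives the step `NMStepP s p (ηhat (t (z² - 1)))`.
5. The datum `H'` at level `N p` (`Datum.stmt_DATUM`), of type `condOrd` (`S31`, `S34`,
   `Stmt_S33`), `φ' : D'.R ↠ T'` (`S54`), `res : T' → T`, `res ∘ φ' = φ ∘ τ`
   (`NonMin.H90.compat_of_bijective`).
6. The Selmer bound (`Stmt_SELMERp`, `Stmt_CPNE`) and the algebraic core
   (`NonMin.H90.step_core`): `φ'` is bijective.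
7. `eigenform_of_RT`.
-/

set_option autoImplicit false
set_option linter.unusedSectionVars false
set_option linter.style.haveILetI false
set_option linter.unusedVariables false
set_option maxHeartbeats 8000000

open Polynomial CuspForm CongruenceSubgroup ModularFormClass IsLocalRing

namespace Fermat.Agent.S59.CaseC.H47

open Fermat.Agent.S59 Fermat.Agent.S59.Asm Fermat.Agent.S59.NonMin
  Fermat.Agent.S59.NonMin.H47

/-- a prime power prime to `p` divides `N p` iff it divides `N` -/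
theorem pow_dvd_mul_prime_iff {N p q : ℕ} (hp : p.Prime) (hq : q.Prime) (hne : q ≠ p) (k : ℕ) :
    q ^ k ∣ N * p ↔ q ^ k ∣ N := by
  have hcop : Nat.Coprime (q ^ k) p :=
    Nat.Coprime.pow_left k ((Nat.coprime_primes hq hp).mpr hne)
  exact ⟨fun h => hcop.dvd_of_dvd_mul_right h, fun h => Dvd.dvd.mul_right h _⟩

/-- **The step at `p`**, with the geometric input in pointwise form: for every Hecke–Galois
datum `H`, ordinary line, Frobenius element, eigenvalue `z` and point `πx` there are the data of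
the step `NMStepP s p c` whose constant `c` acts on the eigenspace of `πx` as
`w (πx(z)² - 1)`, `w` a unit. -/
theorem stepP_core (hDATUM : Fermat.Agent.S59.Datum.Stmt_DATUM)
    (hUnr : Fermat.Agent.S59.Asm.H7.Stmt_UnrDatum)
    (hUnip : Fermat.Agent.S59.Asm.H7.Stmt_UnipDatum)
    (hS33 : Stmt_S33) (hDEF : _root_.Fermat.Agent.S59.CaseC.Stmt_DEFord) (hORDT : Stmt_ORDT)
    (hTAUP : Stmt_TAUP) (hSEL : _root_.Fermat.Agent.S59.CaseC.Stmt_SELMERp) (hCPNE : Stmt_CPNE)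
    (𝒪 : Type) [CommRing 𝒪] [IsDomain 𝒪] [IsDiscreteValuationRing 𝒪]
    [IsAdicComplete (maximalIdeal 𝒪) 𝒪] [Finite (ResidueField 𝒪)] [CharZero 𝒪]
    (p : ℕ) [Fact p.Prime] (hp2 : p ≠ 2) (hp𝒪 : (p : 𝒪) ∈ maximalIdeal 𝒪)
    (ρbar : ResidualGaloisRep (ResidueField 𝒪)) (Smin : Finset ℕ)
    (hyp : ResHyp p ρbar Smin)
    (hbar : cond 𝒪 p true Smin ∅ (GaloisRepAdic.ofResidualGaloisRep ρbar))
    (hord : (GaloisRepAdic.ofResidualGaloisRep ρbar).IsOrdinaryAt p)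
    (Sig : Finset ℕ) (s : NMState 𝒪) [Fact (CuspForm.HasIntegralStructure s.N 2)]
    (hLev : LevelHyp 𝒪 p true Smin Sig s)
    (hF : Fermat.Agent.S59.Datum.FrobHyp ρbar s.N s.S s.θ)
    (x : CuspForm.heckeAlgebra s.N 2 (↑s.S : Set ℕ) →+* 𝒪)
    (hx : ∀ t, residue 𝒪 (x t) = s.θ t)
    (d : ℕ) (hd : 0 < d) (hRT : RTProp 𝒪 p true ρbar Smin Sig s x d)
    [NeZero (s.N * p)] [Fact (CuspForm.HasIntegralStructure (s.N * p) 2)]
    (hgeom : ∀ (H : CuspForm.HeckeGaloisRepDatum s.N (↑s.S : Set ℕ) 𝒪 s.θ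
          (CuspForm.heckeLocal s.N (↑s.S : Set ℕ) 𝒪 s.θ))
        (ηhat : CuspForm.heckeLocal s.N (↑s.S : Set ℕ) 𝒪 s.θ →ₐ[𝒪] Module.End 𝒪 s.M.V),
        H.π = CuspForm.heckeLocal.π s.N (↑s.S : Set ℕ) 𝒪 s.θ →
        (∀ t, ηhat (CuspForm.heckeLocal.π s.N (↑s.S : Set ℕ) 𝒪 s.θ t) = s.M.η t) →
        H.ρ.DetIsCyclotomic p →
        H.ρ.residual.IsEquiv (ρbar.baseChangeAlong
          (ResidueField.map (algebraMap 𝒪 (CuspForm.heckeLocal s.N (↑s.S : Set ℕ) 𝒪 s.θ)))) →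
        ∀ (P : ValuationSubring (AlgebraicClosure ℚ)), P.LiesOverPrime p →
        ∀ (ℒ : OrdLine H.ρ P) (g : AlgebraicClosure ℚ ≃ₐ[ℚ] AlgebraicClosure ℚ),
        P.IsFrobeniusAt g p →
        ∀ z : CuspForm.heckeLocal s.N (↑s.S : Set ℕ) 𝒪 s.θ, ℒ.IsQuotEigen g z →
        ∀ πx : CuspForm.heckeLocal s.N (↑s.S : Set ℕ) 𝒪 s.θ →ₐ[𝒪] 𝒪,
        ∃ (c : Module.End 𝒪 s.M.V) (_ : NMStepP s p c) (w : 𝒪ˣ),
          ∀ v : s.M.V, (∀ t, ηhat t v = πx t • v) →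
            c v = ((w : 𝒪) * (πx z ^ 2 - 1)) • v)
    (ρ : GaloisRepAdic 𝒪) (hρ : _root_.Fermat.Agent.S59.CaseC.condOrd 𝒪 p Smin Sig ρ)
    (hres : ρ.residual.IsEquiv (ρbar.baseChangeAlong (ResidueField.map (algebraMap 𝒪 𝒪))))
    (a : ℕ → ℤ)
    (hfrob : ∀ ℓ : ℕ, ℓ.Prime → ℓ ∉ Smin ∪ Sig →
      ∀ A : ValuationSubring (AlgebraicClosure ℚ), A.LiesOverPrime ℓ →
        ∀ σ : AlgebraicClosure ℚ ≃ₐ[ℚ] AlgebraicClosure ℚ, A.IsFrobeniusAt σ ℓ →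
          LinearMap.charpoly (ρ.ρ σ) = X ^ 2 - C (((a ℓ : ℤ) : 𝒪)) * X + C ((ℓ : 𝒪))) :
    ∃ g : CuspForm (Gamma0 (s.N * p)) 2, g.IsNormalizedEigenform ∧
      ∀ ℓ : ℕ, ℓ.Prime → ¬ ℓ ∣ s.N * p → ℓ ∉ Smin ∪ Sig → qCoeff ⇑g ℓ = (a ℓ : ℂ) := by
  have hpP : p.Prime := Fact.out
  obtain ⟨hrk, D, H, φ, hφ, ηhat, πx, hHπ, hφb, hφe, hηhat, hπx, hfinΦ, hcard⟩ := hRT
  -- arithmetic of the level
  have hpS : p ∈ s.S := by
    rw [hLev.hS]
    exact Finset.mem_union_left _ hyp.hpSmin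
  have hpN : ¬ p ∣ s.N := hLev.hfl rfl
  have hNS : ∀ q : ℕ, q.Prime → q ∣ s.N → q ∈ s.S := hLev.dvd_mem
  have hSprime : ∀ q ∈ Smin ∪ Sig, q.Prime := by
    intro q hq
    rcases Finset.mem_union.mp hq with h | h
    · exact hyp.hS q h
    · exact (hLev.hSig q h).1
  have hN'S : ∀ q : ℕ, q.Prime → q ∣ s.N * p → q ∈ s.S := by
    intro q hq h
    rcases (Nat.Prime.dvd_mul hq).mp h with h1 | h1
    · exact hNS q hq h1
    · rw [(Nat.prime_dvd_prime_iff_eq hq hpP).mp h1]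
      exact hpS
  obtain ⟨hnsq, -⟩ := Fermat.Agent.S59.NonMin.H2.level_mul_p hpP hpN hLev.hcube
  -- 1. the representations at the level `N`
  have hDtype : cond 𝒪 p true Smin Sig D.ρ := D.isOfType
  have hHdet : H.ρ.DetIsCyclotomic p :=
    Fermat.Agent.S59.H99.detIsCyclotomic_of_isEquiv hφe p
      (Fermat.Agent.S56.H92.detIsCyclotomic_baseChangeAlong _ hφ D.ρ p hDtype.1.1)
  have hHres := residual_isEquiv_of_datum H hNS ρbar hyp.habs hF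
  have hHord : H.ρ.IsOrdinaryAt p :=
    hORDT 𝒪 p hp2 hp𝒪 ρbar hyp.habs hyp.hdet hord s.N s.S hpS hNS hpN s.θ H hHπ hHdet hHres
  have hDord : D.ρ.IsOrdinaryAt p :=
    isOrdinaryAt_of_bijective (φ : D.R →+* _) hφb hφ D.ρ H.ρ hφe H.residual_absIrr p hHord
  have hbarOrd : _root_.Fermat.Agent.S59.CaseC.condOrd 𝒪 p Smin Sig (GaloisRepAdic.ofResidualGaloisRep ρbar) :=
    ⟨⟨hbar.1.1, hord, fun q hq hqS => hbar.1.2.2 q hq fun h => hqS
      (Finset.union_subset_union_right (Finset.empty_subset Sig) h)⟩, hbar.2⟩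
  have hDcondOrd : _root_.Fermat.Agent.S59.CaseC.condOrd 𝒪 p Smin Sig D.ρ := ⟨⟨hDtype.1.1, hDord, hDtype.1.2.2⟩, hDtype.2⟩
  -- 2. the ordinary deformation ring
  obtain ⟨D'⟩ := hDEF 𝒪 p hp2 hp𝒪 ρbar hyp.habs Smin Sig hyp.hpSmin hSprime hbarOrd
  obtain ⟨τ, hτs, hτl, hτe⟩ :=
    hTAUP 𝒪 p hp2 hp𝒪 ρbar Smin Sig hyp.hpSmin hSprime D D' hDord
  -- 3. the ordinary line and the eigenvalue of Frobenius
  obtain ⟨P, g, hP, hg⟩ := Fermat.Agent.Lib.FrobExists.exists_place_and_frobenius p hpP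
  have hgD : g ∈ P.decompositionSubgroup ℚ := hg.mem_decompositionSubgroup
  obtain ⟨L, hL⟩ := hDord P hP
  obtain ⟨zD, hzD⟩ := exists_eigen (ρ := D.ρ) (P := P) (L := L) hL g hgD
  obtain ⟨ℒD, hℒD⟩ := exists_ordLine hzD
  obtain ⟨LH, hLH⟩ :=
    exists_isOrdLineEig_of_baseChange_isEquiv (φ : D.R →+* _) hφ D.ρ H.ρ hφe hzD
  obtain ⟨ℒH, hℒH⟩ := exists_ordLine hLH
  -- 4. the geometry of the step
  obtain ⟨c, st, w, hw⟩ := hgeom H ηhat hHπ hηhat hHdet hHres P hP ℒH g hg (φ zD) hℒH πx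
  have hne : πx (φ zD) ^ 2 - 1 ≠ 0 :=
    hCPNE 𝒪 p hp2 hp𝒪 s.N s.S hpS hNS hpN s.θ H hHπ hHdet H.residual_absIrr P hP ℒH g hg
      (φ zD) hℒH πx
  -- 5. the data at the level `N p`
  have hF' : Fermat.Agent.S59.Datum.FrobHyp ρbar (s.N * p) s.S (s.θ.comp st.rest) :=
    Fermat.Agent.S59.NonMin.H2.frobHyp_comp (N := s.N) (N' := s.N * p) (S := s.S) (S' := s.S)
      hF (Dvd.intro _ rfl) (Finset.Subset.refl _) st.rest
      (fun ℓ hℓ hℓN' hℓS' hℓN hℓS => st.rest_T ℓ hℓ hℓN' hℓS' hℓN)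
  obtain ⟨H', hH'π, hH'det, hH'res⟩ := hDATUM 𝒪 p hp2 hp𝒪
    (s.N * p) s.S hpS hN'S ρbar hyp.habs (s.θ.comp st.rest) hF'
  have hH'ord : H'.ρ.IsOrdinaryAt p :=
    hS33 hpP hp2 hp𝒪 ⟨Dvd.intro_left _ rfl, hnsq⟩ hN'S H'
      (ofResidual_isOrdinaryAt_of_residual_isEquiv _ ρbar _ hH'res p hord)
  have hH'cond : _root_.Fermat.Agent.S59.CaseC.condOrd 𝒪 p Smin Sig H'.ρ := by
    refine ⟨⟨hH'det, hH'ord, fun q hq hqS => ?_⟩, fun q hq hqP hqp => ?_⟩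
    · refine hUnr 𝒪 p hpP hp𝒪 (s.N * p) s.S hpS hN'S (s.θ.comp st.rest) H' q hq ?_
      rw [hLev.hS]
      exact hqS
    · have h1 := pow_dvd_mul_prime_iff (N := s.N) hpP hqP hqp 1
      have h2 := pow_dvd_mul_prime_iff (N := s.N) hpP hqP hqp 2
      rw [pow_one] at h1
      exact hUnip 𝒪 p hpP hp𝒪 (s.N * p) s.S hpS hN'S (s.θ.comp st.rest) H' q hqP hqp
        (h1.mpr (hLev.hmin q hq hqp).1) (fun h => (hLev.hmin q hq hqp).2 (h2.mp h))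
  obtain ⟨φ', hφ's, hφ'l, hφ'e⟩ := Fermat.Agent.S54.result D' H'
    (fun q hq hqN => Finset.mem_coe.mpr (hN'S q hq hqN)) hH'cond hH'res
  obtain ⟨res, hres'⟩ := Fermat.Agent.S59.Asm.H85.stmt_RESLOC 𝒪 s.N (s.N * p)
    (↑s.S : Set ℕ) (↑s.S : Set ℕ) s.θ st.rest
  obtain ⟨ηhat', hηhat'⟩ := Fermat.Agent.S59.Asm.H85.stmt_LOCMOD 𝒪 (s.N * p) (↑s.S : Set ℕ)
    (s.θ.comp st.rest) st.M'
  obtain ⟨n, γ', hγ'⟩ := Fermat.Agent.S59.NonMin.H92.stmt_PRES 𝒪 ρbar _ D'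
  have hadj : Algebra.adjoin 𝒪
      (Set.range (CuspForm.heckeLocal.π s.N (↑s.S : Set ℕ) 𝒪 s.θ)) = ⊤ := by
    rw [← hHπ]
    exact H.adjoin_range_π
  have hadj' : Algebra.adjoin 𝒪
      (Set.range (CuspForm.heckeLocal.π (s.N * p) (↑s.S : Set ℕ) 𝒪 (s.θ.comp st.rest))) = ⊤ := by
    rw [← hH'π]
    exact H'.adjoin_range_π
  have hcompat : res.comp φ' = φ.comp τ := by
    refine Fermat.Agent.S59.NonMin.H90.compat_of_bijective ρbar _ _ D D' hDcondOrd H.ρ H'.ρ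
      τ hτl hτe φ hφb hφ hφe φ' hφ'l hφ'e res s.S ?_
    intro ℓ hℓ hℓS B hB σ hσ
    have hℓN : ¬ ℓ ∣ s.N := fun h => hℓS (hNS ℓ hℓ h)
    have hℓN' : ¬ ℓ ∣ s.N * p := fun h => hℓS (hN'S ℓ hℓ h)
    have hℓS' : ℓ ∉ (↑s.S : Set ℕ) := fun h => hℓS (Finset.mem_coe.mp h)
    rw [H'.charpoly_frob ℓ hℓ hℓN' hℓS' B hB σ hσ, H.charpoly_frob ℓ hℓ hℓN hℓS' B hB σ hσ,
      hH'π, hHπ]
    simp only [Polynomial.map_add, Polynomial.map_sub, Polynomial.map_mul, Polynomial.map_pow,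
      Polynomial.map_X, Polynomial.map_C, map_natCast, Polynomial.map_natCast, RingHom.coe_coe]
    rw [hres', st.rest_T ℓ hℓ hℓN' hℓS' hℓN]
  -- 6. the Selmer bound and the algebraic core
  have hsel := hSEL 𝒪 p hp2 hp𝒪 ρbar Smin Sig hyp.habs hyp.hpSmin hSprime D D' τ hτl hτe
    (πx.comp φ) P hP ℒD g hgD zD hℒD hne hfinΦ
  have hsel' : Finite (RingHom.ker (((πx.comp φ).comp τ : D'.R →ₐ[𝒪] 𝒪) :
        D'.R →+* 𝒪)).Cotangent ∧
      Nat.card (RingHom.ker (((πx.comp φ).comp τ : D'.R →ₐ[𝒪] 𝒪) : D'.R →+* 𝒪)).Cotangent ≤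
        Nat.card (RingHom.ker ((πx.comp φ : D.R →ₐ[𝒪] 𝒪) : D.R →+* 𝒪)).Cotangent *
          Nat.card (𝒪 ⧸ Ideal.span {(w : 𝒪) * (πx (φ zD) ^ 2 - 1)}) := by
    rw [card_quot_span_unit_mul _ _ w.isUnit]
    exact hsel
  have hη : Fermat.Agent.S59.NumCrit.eta πx ≠ ⊥ :=
    Fermat.Agent.S59.NonMin.H92.stmt_ETANE 𝒪 s.N s.S hNS s.θ πx
  have hη' : Fermat.Agent.S59.NumCrit.eta (πx.comp res) ≠ ⊥ :=
    Fermat.Agent.S59.NonMin.H92.stmt_ETANE 𝒪 (s.N * p) s.S hN'S (s.θ.comp st.rest)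
      (πx.comp res)
  have hα : ∀ (t' : CuspForm.heckeLocal (s.N * p) (↑s.S : Set ℕ) 𝒪 (s.θ.comp st.rest))
      (v : s.M.V), st.α (ηhat (res t') v) = ηhat' t' (st.α v) := by
    intro t'
    refine Fermat.Agent.S59.NonMin.H90.intertwine_of_gen_left hadj' ηhat ηhat' res st.α ?_ t'
    intro t₀ v
    rw [hres', hηhat, hηhat']
    exact st.α_η t₀ v
  have hα' : ∀ (t' : CuspForm.heckeLocal (s.N * p) (↑s.S : Set ℕ) 𝒪 (s.θ.comp st.rest))
      (w : st.M'.V), st.α' (ηhat' t' w) = ηhat (res t') (st.α' w) := by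
    intro t'
    refine Fermat.Agent.S59.NonMin.H90.intertwine_of_gen_right hadj' ηhat ηhat' res st.α' ?_ t'
    intro t₀ w
    rw [hres', hηhat, hηhat']
    exact st.α'_η t₀ w
  have hc : ∀ v ∈ Fermat.Agent.S59.NonMin.H90.torsP ηhat πx,
      st.α' (st.α v) = ((w : 𝒪) * (πx (φ zD) ^ 2 - 1)) • v := by
    intro v hv
    rw [st.comp v]
    exact hw v fun t' => Fermat.Agent.S59.NonMin.H90.apply_eq_smul_of_mem_torsP hv t'
  have hπx' : ∀ t₀, (πx.comp res)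
      (CuspForm.heckeLocal.π (s.N * p) (↑s.S : Set ℕ) 𝒪 (s.θ.comp st.rest) t₀) =
      (x.comp st.rest) t₀ := by
    intro t₀
    rw [AlgHom.comp_apply, hres', hπx]
    rfl
  have hT1 : Fermat.Agent.S59.NonMin.H90.torsP ηhat πx = s.eigen x :=
    Fermat.Agent.S59.NonMin.H90.torsP_eq_eigen s x ηhat πx hadj hηhat hπx
  have hT2 : Fermat.Agent.S59.NonMin.H90.torsP ηhat' (πx.comp res) = NMState.eigen
      (⟨s.N * p, s.S, s.θ.comp st.rest, st.M'⟩ : NMState 𝒪) (x.comp st.rest) :=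
    Fermat.Agent.S59.NonMin.H90.torsP_eq_eigen
      (⟨s.N * p, s.S, s.θ.comp st.rest, st.M'⟩ : NMState 𝒪)
      (x.comp st.rest) ηhat' (πx.comp res) hadj' hηhat' hπx'
  have hrkT : Module.finrank 𝒪 (Fermat.Agent.S59.NonMin.H90.torsP ηhat πx) = d := by
    rw [hT1]
    exact hrk
  have hrk' := st.rank x hx
  rw [hrk] at hrk'
  have hrkT' : Module.finrank 𝒪
      (Fermat.Agent.S59.NonMin.H90.torsP ηhat' (πx.comp res)) ≤ d := by
    rw [hT2]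
    exact hrk'
  obtain ⟨hφ'b, -, -⟩ := Fermat.Agent.S59.NonMin.H90.step_core τ φ φ' hφ's res hcompat πx γ' hγ'
    ηhat ηhat' hη hη' st.α hα st.α' hα' st.α_inj st.α_sat st.α'_surj
    ((w : 𝒪) * (πx (φ zD) ^ 2 - 1)) hc d hd hrkT hrkT' hcard hsel'
  -- 7. the eigenform
  have hmem : ∀ ℓ : ℕ, ℓ ∉ (↑s.S : Set ℕ) → ℓ ∉ Smin ∪ Sig := by
    intro ℓ hℓ h
    apply hℓ
    rw [Finset.mem_coe, hLev.hS]
    exact h
  have hmem' : ∀ ℓ : ℕ, ℓ ∉ Smin ∪ Sig → ℓ ∉ (↑s.S : Set ℕ) := by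
    intro ℓ hℓ h
    apply hℓ
    rw [Finset.mem_coe, hLev.hS] at h
    exact h
  obtain ⟨gf, hgf, hga⟩ := eigenform_of_RT D' H' φ' hφ's hφ'b.1 hφ'l hφ'e ρ hρ hres a
    (fun ℓ hℓ hℓN hℓS A hA σ hσ => hfrob ℓ hℓ (hmem ℓ hℓS) A hA σ hσ)
  exact ⟨gf, hgf, fun ℓ hℓ hℓN hℓS => hga ℓ hℓ hℓN (hmem' ℓ hℓS)⟩

/-- **STEP-p**, the wiring (form of `CaseC/Defs.lean`: the constant is `ηhat (t (z² - 1))`, `t` a
unit of the Hecke ring). -/
theorem steppwire_of (hDATUM : Fermat.Agent.S59.Datum.Stmt_DATUM)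
    (hUnr : Fermat.Agent.S59.Asm.H7.Stmt_UnrDatum)
    (hUnip : Fermat.Agent.S59.Asm.H7.Stmt_UnipDatum) : Stmt_STEPPWIRE := by
  intro hS33 hDEF hORDT hTAUP hSEL hCPNE
  intro 𝒪 _ _ _ _ _ _ p _ hp2 hp𝒪 ρbar Smin hyp hbar hord Sig s _ hLev hF x hx d hd hRT _ _
    hgeom ρ hρ hres a hfrob
  refine stepP_core hDATUM hUnr hUnip hS33 hDEF hORDT hTAUP hSEL hCPNE 𝒪 p hp2 hp𝒪 ρbar Smin
    hyp hbar hord Sig s hLev hF x hx d hd hRT ?_ ρ hρ hres a hfrob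
  intro H ηhat hHπ hηhat hHdet hHres P hP ℒ g hg z hz πx
  obtain ⟨t, ht, ⟨st⟩⟩ := hgeom H ηhat hHπ hηhat hHdet hHres P hP ℒ g hg z hz
  refine ⟨_, st, (ht.map πx).unit, fun v hv => ?_⟩
  rw [hv, IsUnit.unit_spec, map_mul, map_sub, map_pow, map_one]

end Fermat.Agent.S59.CaseC.H47

end
-- ==== END Fermat.Agent.S59.CaseC.H47_StepP

-- ==== BEGIN Fermat.Agent.S59.Final.H53_Top
section

/-!
# S59: the top of the chain (helper53)

`s59_of` : the frozen statement S59 from the inputs which are still open: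

* `Stmt_S58`                      (row 52; from S36),
* `LL.Stmt_LLec`                  (level lowering to the conductor: `SQ`, frozen S38, frozen S39),
  or `∀ p ∈ {3, 5}, LL.H40.LLec0At p` (the same with auxiliary level raising; `s59_of0`),
* `CaseC.Geom.Stmt_NMGEOMB`       (the geometry of the induction `N ↦ N q²`, class `G` exposed),
* `CaseC.Geom.Stmt_PSTEPB`        (the geometry of the step at `p`),
* `CaseC.Geom.Stmt_STEPPpt`       (the algebra of the step at `p`).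

Everything else is landed and plugged in here.

No `sorry`.
-/

set_option autoImplicit false

namespace Fermat.Agent.S59.Final.H53

open Fermat.Agent.S59 Fermat.Agent.S59.Asm Fermat.Agent.S59.NonMin Fermat.Agent.S59.CaseC

/-- `NMGEOM-B` contains `Geom.Stmt_NMGEOM2`. -/
theorem nmgeom2_of_B (hB : CaseC.Geom.Stmt_NMGEOMB) : NonMin.Geom.Stmt_NMGEOM2 := by
  intro 𝒪 _ _ _ _ _ _ p _ hp2 hp𝒪 ρbar Smin hyp N _ _ hN hsq hpN θ hθ
  obtain ⟨M, G, h1, h2, h3, h4, -⟩ := hB 𝒪 p hp2 hp𝒪 ρbar Smin hyp N hN hsq hpN θ hθ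
  exact ⟨M, G, h1, h2, h3, h4⟩

/-- `STEP` (RT-NONMIN), unconditional. -/
theorem stmt_STEP : NonMin.Stmt_STEP :=
  NonMin.H90.stmt_STEP_of Fermat.Agent.S59.H99.stmt_DEF Fermat.Agent.S59.Datum.stmt_DATUM
    Asm.H80.stmt_SELMERq NonMin.H92.stmt_TAU2 NonMin.H92.stmt_PRES NonMin.H92.stmt_ETANE
    NonMin.H56.stmt_CQNE Asm.H7.stmt_COND

/-- The induction of RT-NONMIN, unconditional. -/
theorem stmt_RTALL : CaseC.Stmt_RTALL :=
  CaseC.H2.rtall_of stmt_STEP NonMin.H12.stmt_BASE Asm.H7.stmt_COND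
    Fermat.Agent.S59.Datum.stmt_DATUM Fermat.Agent.S59.H47.stmt_TWprimes Asm.H77.stmt_ASM

/-- Modularity lifting in the cases A, B from the geometry. -/
theorem mltnm_of (hB : CaseC.Geom.Stmt_NMGEOMB) : NonMin.Stmt_MLTnm :=
  CaseC.H2.mltnm_of_geom2 (nmgeom2_of_B hB) stmt_STEP NonMin.H12.stmt_BASE Asm.H7.stmt_COND
    Fermat.Agent.S59.Datum.stmt_DATUM Fermat.Agent.S59.H47.stmt_TWprimes Asm.H77.stmt_ASM

/-- Modularity lifting in case C from the geometry and the step at `p`. -/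
theorem mltc_of (hB : CaseC.Geom.Stmt_NMGEOMB) (hP : CaseC.Geom.Stmt_PSTEPB)
    (hSP : CaseC.Geom.Stmt_STEPPpt) : CaseC.Stmt_MLTc :=
  CaseC.H2.stmt_CWIREp (CaseC.Geom.nmgeomp_of hB hP) stmt_RTALL hSP

/-- Modularity lifting, general form with a point. -/
theorem mltgenPt_of (hB : CaseC.Geom.Stmt_NMGEOMB) (hP : CaseC.Geom.Stmt_PSTEPB)
    (hSP : CaseC.Geom.Stmt_STEPPpt) : CaseC.Stmt_MLTgenPt :=
  CaseC.H2.stmt_GENPTWIRE (mltnm_of hB) (mltc_of hB hP hSP)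

/-- Modularity lifting, reduced form. -/
theorem mltred_of (hB : CaseC.Geom.Stmt_NMGEOMB) (hP : CaseC.Geom.Stmt_PSTEPB)
    (hSP : CaseC.Geom.Stmt_STEPPpt) : Asm.Stmt_MLTred :=
  Asm.H8.stmt_REDSPLIT2 Asm.H92.stmt_THETAMIN
    (Asm.H77.stmt_REDWIRE2 Asm.H92.stmt_THETAMIN Asm.H80.stmt_EXACTb (mltgenPt_of hB hP hSP))

/-- `Stmt_Lift` from the open inputs. -/
theorem lift_of (hLL : Fermat.Agent.S59.LL.Stmt_LLec) (hB : CaseC.Geom.Stmt_NMGEOMB)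
    (hP : CaseC.Geom.Stmt_PSTEPB) (hSP : CaseC.Geom.Stmt_STEPPpt) : Stmt_Lift :=
  Asm.H71.stmt_LIFTWIRE Fermat.Agent.Tate.stmt_Tate hLL Asm.H71.stmt_CARDKER
    Asm.H77.stmt_BRIDGERES Fermat.Agent.S59.TRes.H49.stmt_TRES (mltred_of hB hP hSP)
    Fermat.Agent.S59.H61.stmt_Stab

/-- `Stmt_Lift` from the open inputs, with `LLec0At` (level optimisation with auxiliary level
raising, helper40). -/
theorem lift_of0 (hLL : ∀ p : ℕ, p = 3 ∨ p = 5 → Fermat.Agent.S59.LL.H40.LLec0At p)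
    (hB : CaseC.Geom.Stmt_NMGEOMB)
    (hP : CaseC.Geom.Stmt_PSTEPB) (hSP : CaseC.Geom.Stmt_STEPPpt) : Stmt_Lift :=
  Asm.H40.stmt_LIFTWIRE0 Fermat.Agent.Tate.stmt_Tate hLL Asm.H71.stmt_CARDKER
    Asm.H77.stmt_BRIDGERES Fermat.Agent.S59.TRes.H49.stmt_TRES (mltred_of hB hP hSP)
    Fermat.Agent.S59.H61.stmt_Stab

/-- **S59** from the inputs which are still open (form with `LLec0At`). -/
theorem s59_of0 (h58 : Stmt_S58)
    (hLL : ∀ p : ℕ, p = 3 ∨ p = 5 → Fermat.Agent.S59.LL.H40.LLec0At p)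
    (hB : CaseC.Geom.Stmt_NMGEOMB) (hP : CaseC.Geom.Stmt_PSTEPB)
    (hSP : CaseC.Geom.Stmt_STEPPpt)
    (p : ℕ) (hp : p = 3 ∨ p = 5)
    (W : WeierstrassCurve ℤ) (hΔ : W.Δ ≠ 0) (hW : W.IsSemistableModel)
    (hirr : W.ModRepIsIrreducible p)
    (M₀ : ℕ) [NeZero M₀] (hres₀ : W.IsResiduallyModularOfLevel p M₀)
    (hM₀ : ¬ p ^ 2 ∣ M₀)
    (hM₀3 : ∀ q : ℕ, q.Prime → q ≠ p → ¬ q ^ 3 ∣ M₀) :
    Mlc1IsModularModelOfExactConductorLevel W :=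
  S59_of_lift h58 (lift_of0 hLL hB hP hSP) p hp W hΔ hW hirr M₀ hres₀ hM₀ hM₀3

/-- **S59** from the inputs which are still open. -/
theorem s59_of (h58 : Stmt_S58) (hLL : Fermat.Agent.S59.LL.Stmt_LLec)
    (hB : CaseC.Geom.Stmt_NMGEOMB) (hP : CaseC.Geom.Stmt_PSTEPB)
    (hSP : CaseC.Geom.Stmt_STEPPpt)
    (p : ℕ) (hp : p = 3 ∨ p = 5)
    (W : WeierstrassCurve ℤ) (hΔ : W.Δ ≠ 0) (hW : W.IsSemistableModel)
    (hirr : W.ModRepIsIrreducible p)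
    (M₀ : ℕ) [NeZero M₀] (hres₀ : W.IsResiduallyModularOfLevel p M₀)
    (hM₀ : ¬ p ^ 2 ∣ M₀)
    (hM₀3 : ∀ q : ℕ, q.Prime → q ≠ p → ¬ q ^ 3 ∣ M₀) :
    Mlc1IsModularModelOfExactConductorLevel W :=
  S59_of_lift h58 (_root_.Fermat.Agent.S59.Final.H53.lift_of hLL hB hP hSP) p hp W hΔ hW hirr M₀ hres₀ hM₀ hM₀3

end Fermat.Agent.S59.Final.H53

end
-- ==== END Fermat.Agent.S59.Final.H53_Top

-- ==== BEGIN Fermat.Agent.S59.LL.SQ.H77_UpWireTop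
section

/-!
# S59 / LL / SQ, UP-WIRE (helper77): `SqNewTwoAt p`, `p ≥ 5`, from **(T′)** at the tame levels

The hypotheses of `H77.sqNewTwoAt_of_up` with the landed leaves plugged:

* `regTameTwo`  : REG at the tame levels of `q = 2` (helper16's `H16.reg11At_tame`);
* `cpowTwo`     : B2 at all levels (helper87's `H87.stmt_CPow2002All`);
* `torSpanTameTwo_of` : **(T′)** at the tame levels of `q = 2` from helper58's
  `H58.Stmt_TorSpanSqTame`;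
* `sqNewTwoAt_of_torSpanTame : H58.Stmt_TorSpanSqTame → ∀ p, p.Prime → 5 ≤ p →
    LL.H40.SqNewTwoAt p`.

Complete (no gaps).
-/

set_option autoImplicit false
set_option synthInstance.maxHeartbeats 400000
set_option maxHeartbeats 1000000
set_option linter.unusedVariables false

noncomputable section

namespace Fermat.Agent.S59.LL.SQ.H77

/-- **REG at the tame levels of `q = 2`** (helper16). -/
theorem regTameTwo (p : ℕ) (hp : 0 < p) : RegTameTwo p := by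
  intro q M B k hB hq _ _ _ _ hqM A hA hq2 h9
  exact Fermat.Agent.S59.LL.SQ.H16.reg11At_tame A q M B k hB hq hqM hA
    (Or.inr ⟨hq2, Dvd.dvd.mul_right h9 q⟩) p hp

/-- **B2 at `q = 2`, all levels** (helper87). -/
theorem cpowTwo (p : ℕ) (hp : 0 < p) : CPowTwo p := by
  intro q M B k hB hq _ _ _ _ hqM A hA _
  exact Fermat.Agent.S59.LL.SQ.H87.stmt_CPow2002All p hp q M B k hB hq hqM A hA

/-- **(T′) at the tame levels of `q = 2`** from helper58's statement. -/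
theorem torSpanTameTwo_of (hT : Fermat.Agent.S59.LL.SQ.H58.Stmt_TorSpanSqTame) (p : ℕ)
    (hp : p.Prime) (hp2 : p ≠ 2) : TorSpanTameTwo p := by
  intro q M B k hB hq _ _ _ _ hqM A hA hq2 h9
  have hqp : q ≠ p := by
    rw [hq2]
    exact fun h => hp2 h.symm
  exact hT p hp hp2 q M B k hB hq hqp (Or.inr ⟨hq2, Dvd.dvd.mul_right h9 q⟩) hqM A hA

/-- **`SqNewTwoAt p` for `p ≥ 5`** from **(T′)** at the tame levels (all the other leaves are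
landed: (E) helper33, (R) helper35 with REG helper16 and B2 helper87, `HRcore` helper78, and the
leaves UP: U1 helper38, U2 helper50, U3 helper94). -/
theorem sqNewTwoAt_of_torSpanTame (hT : Fermat.Agent.S59.LL.SQ.H58.Stmt_TorSpanSqTame) (p : ℕ)
    (hp : p.Prime) (h5 : 5 ≤ p) : Fermat.Agent.S59.LL.H40.SqNewTwoAt p :=
  sqNewTwoAt_of_up p hp h5 (regTameTwo p hp.pos) (cpowTwo p hp.pos)
    (torSpanTameTwo_of hT p hp (by omega))

end Fermat.Agent.S59.LL.SQ.H77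

end
end
-- ==== END Fermat.Agent.S59.LL.SQ.H77_UpWireTop

-- ==== BEGIN Fermat.Agent.S59.NonMin.Geom.H72_DualKOps
section

/-!
# S59 / NMGEOM, leaf DUAL-k (helper72): the operators on the cuspidal classes

* `TB_cusp`, `UB_cusp` : the Betti Hecke operators preserve cuspidal homomorphisms (any
  coefficient group);
* `TBc`, `UBc`, `A1c..A3c`, `C1c..C3c` : the operators as linear maps on `S41.H94.cuspSub`;
* `alphaPc` (`= alphaB'`), `alphaDc` (`= alphaD`) and their relations with `TBc`, `UBc`;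
* `keru_cast` : KERU at a level `M = M₁ r²`;
* `iter_coe` : function iterates versus powers of endomorphisms.
-/

set_option autoImplicit false
set_option linter.unusedSectionVars false
set_option linter.style.haveILetI false

open CuspForm CongruenceSubgroup IsLocalRing
open scoped MatrixGroups

namespace Fermat.Agent.S59.NonMin.Geom.H72K

open Fermat.Agent.S41 Fermat.Agent.Betti Fermat.Agent.S59 Fermat.Agent.S59.NonMin.Geom
open ModularCurve.Period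

/-! ### Cuspidal homomorphisms are stable under the Hecke operators -/

section Cusp

variable {N : ℕ} {A : Type*} [AddCommGroup A]

theorem cuspidal_stable (N : ℕ) {ι : Type*} (rep : ι → GL (Fin 2) ℝ) (γ : Gamma0 N)
    (hγ : ((γ : SL(2, ℤ)) : Matrix (Fin 2) (Fin 2) ℤ).trace ^ 2 ≤ 4) (n : ℕ) (i : ι)
    (κ : Gamma0 N) (h : rep i * incl N (γ ^ n) = incl N κ * rep i) :
    ((κ : SL(2, ℤ)) : Matrix (Fin 2) (Fin 2) ℤ).trace ^ 2 ≤ 4 := by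
  have h1 : incl N κ = rep i * incl N (γ ^ n) * (rep i)⁻¹ := by
    rw [h, mul_inv_cancel_right]
  have h2 : ((incl N κ : GL (Fin 2) ℝ) : Matrix (Fin 2) (Fin 2) ℝ).trace
      = ((incl N (γ ^ n) : GL (Fin 2) ℝ) : Matrix (Fin 2) (Fin 2) ℝ).trace := by
    rw [h1]
    exact Matrix.trace_units_conj (rep i) _
  rw [incl_apply, incl_apply, trace_mapGL, trace_mapGL] at h2
  have h3 : ((κ : SL(2, ℤ)) : Matrix (Fin 2) (Fin 2) ℤ).trace
      = (((γ ^ n : Gamma0 N) : SL(2, ℤ)) : Matrix (Fin 2) (Fin 2) ℤ).trace := by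
    exact_mod_cast h2
  rw [h3]
  exact H94.trG_pow_sq_le γ n hγ

theorem heckeOp_cusp {ι : Type*} [Fintype ι] {rep : ι → GL (Fin 2) ℝ}
    (H : IsHeckeFamily (incl N) rep) {φ : Additive (Gamma0 N) →+ A}
    (hφ : IsCuspidalHom (Gamma0 N) φ) :
    IsCuspidalHom (Gamma0 N) (H.heckeOp (incl_injective N) φ) := by
  intro γ hγ
  exact H76.heckeOp_vanishes_gen H (incl_injective N)
    {γ : Gamma0 N | ((γ : SL(2, ℤ)) : Matrix (Fin 2) (Fin 2) ℤ).trace ^ 2 ≤ 4}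
    (fun γ hγ n _ i κ h => cuspidal_stable N rep γ hγ n i κ h) φ (fun γ hγ => hφ γ hγ) γ hγ

/-- `T_ℓ` preserves cuspidal homomorphisms. -/
theorem TB_cusp {ℓ : ℕ} (hℓ : ℓ.Prime) (hℓN : ¬ ℓ ∣ N) {φ : Additive (Gamma0 N) →+ A}
    (hφ : IsCuspidalHom (Gamma0 N) φ) : IsCuspidalHom (Gamma0 N) (TB N A hℓ hℓN φ) := by
  have : Fact ℓ.Prime := ⟨hℓ⟩
  exact heckeOp_cusp (isHeckeFamily_T N hℓN) hφ

/-- `U_r` preserves cuspidal homomorphisms. -/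
theorem UB_cusp [NeZero N] {r : ℕ} (hr : r ∣ N) {φ : Additive (Gamma0 N) →+ A}
    (hφ : IsCuspidalHom (Gamma0 N) φ) : IsCuspidalHom (Gamma0 N) (UB N A hr φ) := by
  have : NeZero r := neZero_of_dvd hr
  exact heckeOp_cusp (isHeckeFamily_U N hr) hφ

/-- KERU at a level `M = M₁ r²`. -/
theorem keru_cast (M M₁ r : ℕ) [NeZero M] (hM : M = M₁ * r ^ 2) (hr : r.Prime)
    (hrM : ¬ r ∣ M₁) (hd : r ∣ M) (hA : ∀ a : A, r • a = 0 → a = 0)
    (ψ : Additive (Gamma0 M) →+ A) (h : UB M A hd (UB M A hd ψ) = 0) : UB M A hd ψ = 0 := by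
  subst hM
  have hM₁ : 0 < M₁ := by
    rcases Nat.eq_zero_or_pos M₁ with h0 | h0
    · exfalso
      exact NeZero.ne (M₁ * r ^ 2) (by rw [h0, zero_mul])
    · exact h0
  exact H98.keru hM₁ hr hrM hd hA ψ h

end Cusp

/-! ### The operators on the cuspidal subspace -/

section Ops

/-- the additive group structure of the cuspidal subspace (a shortcut for the instance
search) -/
instance cuspACG (k : Type) [Field k] (M : ℕ) : AddCommGroup (H94.cuspSub k M) :=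
  inferInstance

variable (k : Type) [Field k]

/-- `T_ℓ` on the cuspidal classes. -/
noncomputable def TBc (M : ℕ) {ℓ : ℕ} (hℓ : ℓ.Prime) (hℓM : ¬ ℓ ∣ M) :
    Module.End k (H94.cuspSub k M) where
  toFun x := ⟨TB M k hℓ hℓM x.1, TB_cusp hℓ hℓM x.2⟩
  map_add' x y := Subtype.ext (map_add (TB M k hℓ hℓM) x.1 y.1)
  map_smul' c x := Subtype.ext (H98.TB_smul hℓ hℓM c x.1)

/-- `U_r` on the cuspidal classes. -/
noncomputable def UBc (M : ℕ) [NeZero M] {r : ℕ} (hr : r ∣ M) :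
    Module.End k (H94.cuspSub k M) where
  toFun x := ⟨UB M k hr x.1, UB_cusp hr x.2⟩
  map_add' x y := Subtype.ext (map_add (UB M k hr) x.1 y.1)
  map_smul' c x := Subtype.ext (H98.UB_smul hr c x.1)

variable {k}

@[simp] theorem TBc_coe (M : ℕ) {ℓ : ℕ} (hℓ : ℓ.Prime) (hℓM : ¬ ℓ ∣ M) (x : H94.cuspSub k M) :
    (TBc k M hℓ hℓM x : Additive (Gamma0 M) →+ k) = TB M k hℓ hℓM x.1 := rfl

@[simp] theorem UBc_coe (M : ℕ) [NeZero M] {r : ℕ} (hr : r ∣ M) (x : H94.cuspSub k M) :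
    (UBc k M hr x : Additive (Gamma0 M) →+ k) = UB M k hr x.1 := rfl

variable (k)

/-- `A₁` on the cuspidal classes -/
def A1c (N q : ℕ) : H94.cuspSub k N →ₗ[k] H94.cuspSub k (N * q ^ 2) where
  toFun x := ⟨resA1 N q k x.1, H94.resAlong_cusp (j1 N q) (H94.trG_j1 N q) x.2⟩
  map_add' _ _ := Subtype.ext rfl
  map_smul' _ _ := Subtype.ext rfl

/-- `A₂` on the cuspidal classes -/
def A2c (N q : ℕ) : H94.cuspSub k N →ₗ[k] H94.cuspSub k (N * q ^ 2) where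
  toFun x := ⟨resA2 N q k x.1, H94.resAlong_cusp (j2 N q) (H94.trG_j2 N q) x.2⟩
  map_add' _ _ := Subtype.ext rfl
  map_smul' _ _ := Subtype.ext rfl

/-- `A₃` on the cuspidal classes -/
def A3c (N q : ℕ) : H94.cuspSub k N →ₗ[k] H94.cuspSub k (N * q ^ 2) where
  toFun x := ⟨resA3 N q k x.1, H94.resAlong_cusp (j3 N q) (H94.trG_j3 N q) x.2⟩
  map_add' _ _ := Subtype.ext rfl
  map_smul' _ _ := Subtype.ext rfl

/-- `C₁` on the cuspidal classes -/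
noncomputable def C1c (N q : ℕ) : H94.cuspSub k (N * q ^ 2) →ₗ[k] H94.cuspSub k N where
  toFun y := ⟨corC1 N q k y.1, H94.corAlong_cusp (j1 N q) (H94.trG_j1 N q) y.2⟩
  map_add' x y := Subtype.ext (H19.corAlong_add _ x.1 y.1)
  map_smul' c x := Subtype.ext (H19.corAlong_smul _ c x.1)

/-- `C₂` on the cuspidal classes -/
noncomputable def C2c (N q : ℕ) : H94.cuspSub k (N * q ^ 2) →ₗ[k] H94.cuspSub k N where
  toFun y := ⟨corC2 N q k y.1, H94.corAlong_cusp (j2 N q) (H94.trG_j2 N q) y.2⟩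
  map_add' x y := Subtype.ext (H19.corAlong_add _ x.1 y.1)
  map_smul' c x := Subtype.ext (H19.corAlong_smul _ c x.1)

/-- `C₃` on the cuspidal classes -/
noncomputable def C3c (N q : ℕ) : H94.cuspSub k (N * q ^ 2) →ₗ[k] H94.cuspSub k N where
  toFun y := ⟨corC3 N q k y.1, H94.corAlong_cusp (j3 N q) (H94.trG_j3 N q) y.2⟩
  map_add' x y := Subtype.ext (H19.corAlong_add _ x.1 y.1)
  map_smul' c x := Subtype.ext (H19.corAlong_smul _ c x.1)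

/-- `α' = C₁ - T_q C₂ + q C₃` on the cuspidal classes -/
noncomputable def alphaPc (N : ℕ) {q : ℕ} (hq : q.Prime) (hqN : ¬ q ∣ N) :
    H94.cuspSub k (N * q ^ 2) →ₗ[k] H94.cuspSub k N :=
  C1c k N q - (TBc k N hq hqN).comp (C2c k N q) + (q : k) • C3c k N q

/-- `α† = A₁ - A₂ T_q + q A₃` on the cuspidal classes -/
noncomputable def alphaDc (N : ℕ) {q : ℕ} (hq : q.Prime) (hqN : ¬ q ∣ N) :
    H94.cuspSub k N →ₗ[k] H94.cuspSub k (N * q ^ 2) :=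
  A1c k N q - (A2c k N q).comp (TBc k N hq hqN) + (q : k) • A3c k N q

variable {k}

theorem natCast_smul_hom {G : Type*} [AddZeroClass G] (n : ℕ) (φ : G →+ k) :
    (n : k) • φ = n • φ := by
  ext g
  simp [nsmul_eq_mul]

theorem alphaPc_coe (N : ℕ) {q : ℕ} (hq : q.Prime) (hqN : ¬ q ∣ N)
    (y : H94.cuspSub k (N * q ^ 2)) :
    (alphaPc k N hq hqN y : Additive (Gamma0 N) →+ k) = alphaB' N k hq hqN y.1 := by
  show corC1 N q k y.1 - TB N k hq hqN (corC2 N q k y.1) + (q : k) • corC3 N q k y.1 = _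
  unfold alphaB'
  congr 1
  exact natCast_smul_hom q (corC3 N q k y.1)

theorem alphaDc_coe (N : ℕ) {q : ℕ} (hq : q.Prime) (hqN : ¬ q ∣ N)
    (x : H94.cuspSub k N) :
    (alphaDc k N hq hqN x : Additive (Gamma0 (N * q ^ 2)) →+ k) = alphaD N k hq hqN x.1 := by
  show resA1 N q k x.1 - resA2 N q k (TB N k hq hqN x.1) + (q : k) • resA3 N q k x.1 = _
  unfold alphaD
  congr 1
  exact natCast_smul_hom q (resA3 N q k x.1)

/-- function iterates versus powers -/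
theorem iter_coe (M : ℕ) {ℓ : ℕ} (hℓ : ℓ.Prime) (hℓM : ¬ ℓ ∣ M) (a : k) (n : ℕ)
    (x : H94.cuspSub k M) :
    ((((TBc k M hℓ hℓM - a • (1 : Module.End k (H94.cuspSub k M))) ^ n) x :
        H94.cuspSub k M) : Additive (Gamma0 M) →+ k)
      = (fun χ : Additive (Gamma0 M) →+ k => TB M k hℓ hℓM χ - a • χ)^[n] x.1 := by
  induction n generalizing x with
  | zero => rfl
  | succ n ih =>
    rw [pow_succ, Module.End.mul_apply, ih, Function.iterate_succ_apply]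
    rfl

end Ops

end Fermat.Agent.S59.NonMin.Geom.H72K

end
-- ==== END Fermat.Agent.S59.NonMin.Geom.H72_DualKOps

-- ==== BEGIN Fermat.Agent.S59.NonMin.Geom.H78_Ihara3vCore
section

/-!
# S59 / NMGEOM, leaf IHARA3 (helper78): the three-vector form, core

`x₁, x₂, x₃ : Γ₀(N) → k` cuspidal, `F_i = Pfn x_i` their period functions on `X_N`,
`G(r) = F₁(r) + F₂(q r) + F₃(q² r)`.

* `TT_add_one`, `TT_add_nat` : `TT ℓ f` is `ℤ`-periodic on `X_N` if `f` is;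
* `g3_inv` : `G` is `Γ₀(N q²)`-invariant if `x₁∘j₁ + x₂∘j₂ + x₃∘j₃ = 0`;
* `g3_TT` : `TT ℓ G (r) = TT ℓ F₁ (r) + TT ℓ F₂ (q r) + TT ℓ F₃ (q² r)`;
* `first_per` : if moreover `x₁` is an eigenvector of `T_ℓ`, `ℓ ≡ 1 mod N q²`, with eigenvalue
  `a ≠ ℓ + 1`, then `F₁` is `1/q`-periodic (NO hypothesis on `x₂, x₃` besides cuspidality);
* `core_zero` : a cuspidal eigen-homomorphism (non-Eisenstein system of eigenvalues) with
  `1/q`-periodic period function is zero.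
This file contains no `sorry`.
-/

set_option autoImplicit false

open scoped MatrixGroups
open CongruenceSubgroup Matrix

namespace Fermat.Agent.S59.NonMin.Geom.H78

open Fermat.Agent.S41 Fermat.Agent.S41.H19 Fermat.Agent.S41.Ihara

section TTper

variable {N : ℕ} {A : Type*} [AddCommGroup A]

/-- `TT ℓ f` is `1`-periodic on `X_N` if `f` is `ℤ`-periodic on `X_N`. -/
theorem TT_add_one {ℓ : ℕ} (hℓ : ℓ.Prime) (hℓN : ℓ.Coprime N) (f : ℚ → A)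
    (hf : ∀ r, InX N r → ∀ n : ℤ, f (r + (n : ℚ)) = f r) {r : ℚ} (hr : InX N r) :
    TT ℓ f (r + 1) = TT ℓ f r := by
  have hℓ0 : (ℓ : ℚ) ≠ 0 := by exact_mod_cast hℓ.ne_zero
  unfold TT
  have e2 : f ((ℓ : ℚ) * (r + 1)) = f ((ℓ : ℚ) * r) := by
    have e : (ℓ : ℚ) * (r + 1) = (ℓ : ℚ) * r + (((ℓ : ℤ) : ℤ) : ℚ) := by
      push_cast
      ring
    rw [e]
    exact hf _ (inX_nat_mul hr ℓ) _
  have e1 : ∀ j : ℕ, f ((r + 1 + (j : ℚ)) / (ℓ : ℚ)) = f ((r + ((j + 1 : ℕ) : ℚ)) / (ℓ : ℚ)) := by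
    intro j
    have e : r + 1 + (j : ℚ) = r + ((j + 1 : ℕ) : ℚ) := by
      push_cast
      ring
    rw [e]
  have e3 : f ((r + ((ℓ : ℕ) : ℚ)) / (ℓ : ℚ)) = f ((r + ((0 : ℕ) : ℚ)) / (ℓ : ℚ)) := by
    have e : (r + ((ℓ : ℕ) : ℚ)) / (ℓ : ℚ) = r / (ℓ : ℚ) + ((1 : ℤ) : ℚ) := by
      push_cast
      field_simp
    rw [e, hf _ (inX_div_nat hℓN hr) 1]
    simp
  have e4 : ∑ j ∈ Finset.range ℓ, f ((r + ((j + 1 : ℕ) : ℚ)) / (ℓ : ℚ))
      = ∑ j ∈ Finset.range ℓ, f ((r + (j : ℚ)) / (ℓ : ℚ)) := by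
    have h1 := Finset.sum_range_succ' (fun j : ℕ => f ((r + (j : ℚ)) / (ℓ : ℚ))) ℓ
    have h2 := Finset.sum_range_succ (fun j : ℕ => f ((r + (j : ℚ)) / (ℓ : ℚ))) ℓ
    rw [h1] at h2
    rw [e3] at h2
    exact add_right_cancel h2
  rw [Finset.sum_congr rfl (fun j _ => e1 j), e4, e2]

/-- `TT ℓ f` is `ℕ`-periodic on `X_N` if `f` is `ℤ`-periodic on `X_N`. -/
theorem TT_add_nat {ℓ : ℕ} (hℓ : ℓ.Prime) (hℓN : ℓ.Coprime N) (f : ℚ → A)
    (hf : ∀ r, InX N r → ∀ n : ℤ, f (r + (n : ℚ)) = f r) (n : ℕ) :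
    ∀ r, InX N r → TT ℓ f (r + (n : ℚ)) = TT ℓ f r := by
  induction n with
  | zero => intro r _; simp
  | succ n ih =>
    intro r hr
    have e : r + ((n + 1 : ℕ) : ℚ) = (r + (n : ℚ)) + 1 := by
      push_cast
      ring
    have hrn : InX N (r + (n : ℚ)) := by
      have := inX_add_int hr (n : ℤ)
      simpa using this
    rw [e, TT_add_one hℓ hℓN f hf hrn, ih r hr]

end TTper

section G3

variable {k : Type*} [Field k] {N q : ℕ}

/-- `G(r) = F₁(r) + F₂(q r) + F₃(q² r)`. -/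
def g3fn (q : ℕ) (F₁ F₂ F₃ : ℚ → k) (r : ℚ) : k :=
  F₁ r + F₂ ((q : ℚ) * r) + F₃ ((q : ℚ) * ((q : ℚ) * r))

/-- `G` is `Γ₀(N q²)`-invariant. -/
theorem g3_inv (hN : 2 ≤ N) (hq : q.Prime) (x₁ x₂ x₃ : Additive (Gamma0 N) →+ k)
    (F₁ F₂ F₃ : ℚ → k) (hF₁ : IsPer x₁ F₁) (hF₂ : IsPer x₂ F₂) (hF₃ : IsPer x₃ F₃)
    (g₁ g₂ g₃ : Gamma0 (N * q ^ 2) → Gamma0 N)
    (hg₁ : ∀ h, mat (g₁ h) = mat h) (hg₂ : ∀ h, mat (g₂ h) = conjMat q (mat h))
    (hg₃ : ∀ h, mat (g₃ h) = conjMat q (conjMat q (mat h)))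
    (hrel : ∀ h : Gamma0 (N * q ^ 2), x₁ (Additive.ofMul (g₁ h))
      + x₂ (Additive.ofMul (g₂ h)) + x₃ (Additive.ofMul (g₃ h)) = 0)
    (h : Gamma0 (N * q ^ 2)) {r : ℚ} (hr : InX N r) :
    g3fn q F₁ F₂ F₃ (mob (mat h) r) = g3fn q F₁ F₂ F₃ r := by
  have hq0 : q ≠ 0 := hq.ne_zero
  have hd2 := q_sq_dvd (N := N) (q := q) h
  have hd1 : (q : ℤ) ∣ mat h 1 0 := Dvd.dvd.trans (Dvd.intro_left _ (by ring)) hd2
  have hd1' : (q : ℤ) ∣ conjMat q (mat h) 1 0 := by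
    obtain ⟨c, hc⟩ := hd2
    rw [conjMat_10, hc]
    have hq0' : (q : ℤ) ≠ 0 := by exact_mod_cast hq0
    refine ⟨c, ?_⟩
    rw [show (q : ℤ) ^ 2 * c = (q : ℤ) * ((q : ℤ) * c) by ring, Int.mul_ediv_cancel_left _ hq0']
  have hden : (mat h 1 0 : ℚ) * r + (mat h 1 1 : ℚ) ≠ 0 := by
    have := denom_ne_zero hN (g₁ h) hr
    rwa [hg₁] at this
  have hden' : ((conjMat q (mat h) 1 0 : ℤ) : ℚ) * ((q : ℚ) * r)
      + ((conjMat q (mat h) 1 1 : ℤ) : ℚ) ≠ 0 := by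
    rw [conjMat_denom hq0 _ hd1]
    exact hden
  have hqr : InX N ((q : ℚ) * r) := inX_nat_mul hr q
  have hqqr : InX N ((q : ℚ) * ((q : ℚ) * r)) := inX_nat_mul hqr q
  have e1 : F₁ (mob (mat h) r) = F₁ r + x₁ (Additive.ofMul (g₁ h)) := by
    have := hF₁ (g₁ h) r hr
    rwa [hg₁] at this
  have e2 : F₂ ((q : ℚ) * mob (mat h) r) = F₂ ((q : ℚ) * r) + x₂ (Additive.ofMul (g₂ h)) := by
    rw [mul_mob_conj _ hd1 r hden, ← hg₂]
    exact hF₂ (g₂ h) _ hqr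
  have e3 : F₃ ((q : ℚ) * ((q : ℚ) * mob (mat h) r))
      = F₃ ((q : ℚ) * ((q : ℚ) * r)) + x₃ (Additive.ofMul (g₃ h)) := by
    rw [mul_mob_conj _ hd1 r hden, mul_mob_conj _ hd1' _ hden', ← hg₃]
    exact hF₃ (g₃ h) _ hqqr
  unfold g3fn
  rw [e1, e2, e3]
  linear_combination hrel h

/-- `TT ℓ G (r) = TT ℓ F₁ (r) + TT ℓ F₂ (q r) + TT ℓ F₃ (q² r)`. -/
theorem g3_TT (hq : q.Prime) (F₁ F₂ F₃ : ℚ → k)
    (hp₂ : ∀ r, InX N r → ∀ n : ℤ, F₂ (r + (n : ℚ)) = F₂ r)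
    (hp₃ : ∀ r, InX N r → ∀ n : ℤ, F₃ (r + (n : ℚ)) = F₃ r)
    {ℓ : ℕ} (hℓ : ℓ.Prime) (hℓN : ¬ ℓ ∣ N) (hℓq : ℓ ≠ q) {r : ℚ} (hr : InX N r) :
    TT ℓ (g3fn q F₁ F₂ F₃) r
      = TT ℓ F₁ r + TT ℓ F₂ ((q : ℚ) * r) + TT ℓ F₃ ((q : ℚ) * ((q : ℚ) * r)) := by
  have hcopN : ℓ.Coprime N := (Nat.Prime.coprime_iff_not_dvd hℓ).mpr hℓN
  have hcopq : q.Coprime ℓ := (Nat.coprime_primes hq hℓ).mpr (Ne.symm hℓq)
  have hp₃' : ∀ r, InX N r → ∀ n : ℤ,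
      (fun s => F₃ ((q : ℚ) * s)) (r + (n : ℚ)) = (fun s => F₃ ((q : ℚ) * s)) r := by
    intro r hr n
    show F₃ ((q : ℚ) * (r + (n : ℚ))) = F₃ ((q : ℚ) * r)
    have e : (q : ℚ) * (r + (n : ℚ)) = (q : ℚ) * r + (((q : ℤ) * n : ℤ) : ℚ) := by
      push_cast
      ring
    rw [e]
    exact hp₃ _ (inX_nat_mul hr q) _
  have hqr : InX N ((q : ℚ) * r) := inX_nat_mul hr q
  have t2 : TT ℓ (fun s => F₂ ((q : ℚ) * s)) r = TT ℓ F₂ ((q : ℚ) * r) :=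
    TT_comp_mul hℓ hcopN hcopq F₂ hp₂ hr
  have t3 : TT ℓ (fun s => F₃ ((q : ℚ) * ((q : ℚ) * s))) r
      = TT ℓ F₃ ((q : ℚ) * ((q : ℚ) * r)) := by
    rw [TT_comp_mul hℓ hcopN hcopq (fun s => F₃ ((q : ℚ) * s)) hp₃' hr,
      TT_comp_mul hℓ hcopN hcopq F₃ hp₃ hqr]
  have key : TT ℓ (fun s => (fun s => F₁ s + (fun s => F₂ ((q : ℚ) * s)) s) s
      + (fun s => F₃ ((q : ℚ) * ((q : ℚ) * s))) s) r
      = TT ℓ F₁ r + TT ℓ F₂ ((q : ℚ) * r) + TT ℓ F₃ ((q : ℚ) * ((q : ℚ) * r)) := by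
    rw [TT_add, TT_add, t2, t3]
  exact key

end G3

section First

variable {k : Type} [Field k] {N q : ℕ}

/-- **The first component is `1/q`-periodic.**  Only `x₁` is assumed to be an eigenvector. -/
theorem first_per (hO : Stmt_ORB3) (hN : 2 ≤ N) (hq : q.Prime) (hqN : ¬ q ∣ N)
    (x₁ x₂ x₃ : Additive (Gamma0 N) →+ k)
    (hx₁ : IsCuspidalHom (Gamma0 N) x₁) (hx₂ : IsCuspidalHom (Gamma0 N) x₂)
    (hx₃ : IsCuspidalHom (Gamma0 N) x₃)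
    (g₁ g₂ g₃ : Gamma0 (N * q ^ 2) → Gamma0 N)
    (hg₁ : ∀ h, mat (g₁ h) = mat h) (hg₂ : ∀ h, mat (g₂ h) = conjMat q (mat h))
    (hg₃ : ∀ h, mat (g₃ h) = conjMat q (conjMat q (mat h)))
    (hrel : ∀ h : Gamma0 (N * q ^ 2), x₁ (Additive.ofMul (g₁ h))
      + x₂ (Additive.ofMul (g₂ h)) + x₃ (Additive.ofMul (g₃ h)) = 0)
    {ℓ : ℕ} (hℓ : ℓ.Prime) (hℓNq : ¬ ℓ ∣ N * q) (hℓ1 : ℓ % (N * q ^ 2) = 1 % (N * q ^ 2))
    (a : k) (ha : a ≠ (ℓ : k) + 1) (hT : Tcoh N k ℓ x₁ = a • x₁) {r : ℚ} (hr : InX N r) :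
    Pfn x₁ (r + (q : ℚ)⁻¹) = Pfn x₁ r := by
  have hℓN : ¬ ℓ ∣ N := fun h => hℓNq (Dvd.dvd.mul_right h q)
  have hℓq : ℓ ≠ q := fun h => hℓNq (h ▸ Dvd.intro_left N rfl)
  have hcopN : ℓ.Coprime N := (Nat.Prime.coprime_iff_not_dvd hℓ).mpr hℓN
  have hq0 : (q : ℚ) ≠ 0 := by exact_mod_cast hq.ne_zero
  have hF₁ := isPer_Pfn hN x₁ hx₁
  have hF₂ := isPer_Pfn hN x₂ hx₂
  have hF₃ := isPer_Pfn hN x₃ hx₃
  have hp₂ : ∀ r, InX N r → ∀ n : ℤ, Pfn x₂ (r + (n : ℚ)) = Pfn x₂ r :=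
    fun r hr n => hF₂.add_int hx₂ hr n
  have hp₃ : ∀ r, InX N r → ∀ n : ℤ, Pfn x₃ (r + (n : ℚ)) = Pfn x₃ r :=
    fun r hr n => hF₃.add_int hx₃ hr n
  -- the key equation at every point of `X_N`
  have hE : ∀ s, InX N s → a * Pfn x₁ s + TT ℓ (Pfn x₁) 0 + TT ℓ (Pfn x₂) ((q : ℚ) * s)
      + TT ℓ (Pfn x₃) ((q : ℚ) * ((q : ℚ) * s))
      = ((ℓ : k) + 1) * (Pfn x₁ s + Pfn x₂ ((q : ℚ) * s) + Pfn x₃ ((q : ℚ) * ((q : ℚ) * s))) := by
    intro s hs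
    have h1 := hO N q hN hq hqN k (g3fn q (Pfn x₁) (Pfn x₂) (Pfn x₃))
      (fun h r hr => g3_inv hN hq x₁ x₂ x₃ _ _ _ hF₁ hF₂ hF₃ g₁ g₂ g₃ hg₁ hg₂ hg₃ hrel h hr)
      ℓ hℓ hℓNq hℓ1 s hs
    rw [g3_TT hq _ _ _ hp₂ hp₃ hℓ hℓN hℓq hs, TT_Pfn hN hℓ hℓN x₁ hx₁ a hT hs, smul_eq_mul,
      nsmul_eq_mul] at h1
    push_cast at h1
    exact h1
  have hr' : InX N (r + (q : ℚ)⁻¹) := inX_add_inv_q hq hqN hr
  have hqr : InX N ((q : ℚ) * r) := inX_nat_mul hr q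
  have hqqr : InX N ((q : ℚ) * ((q : ℚ) * r)) := inX_nat_mul hqr q
  have c1 : (q : ℚ) * (r + (q : ℚ)⁻¹) = (q : ℚ) * r + 1 := by
    field_simp
  have c2 : (q : ℚ) * ((q : ℚ) * r + 1) = (q : ℚ) * ((q : ℚ) * r) + ((q : ℕ) : ℚ) := by
    ring
  have E1 := hE r hr
  have E2 := hE _ hr'
  rw [c1, c2, TT_add_one hℓ hcopN _ hp₂ hqr, TT_add_nat hℓ hcopN _ hp₃ q _ hqqr] at E2
  have p2 : Pfn x₂ ((q : ℚ) * r + 1) = Pfn x₂ ((q : ℚ) * r) := by
    have := hp₂ _ hqr 1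
    simpa using this
  have p3 : Pfn x₃ ((q : ℚ) * ((q : ℚ) * r) + ((q : ℕ) : ℚ)) = Pfn x₃ ((q : ℚ) * ((q : ℚ) * r)) := by
    have := hp₃ _ hqqr (q : ℤ)
    simpa using this
  rw [p2, p3] at E2
  have h3 : (a - ((ℓ : k) + 1)) * (Pfn x₁ (r + (q : ℚ)⁻¹) - Pfn x₁ r) = 0 := by
    linear_combination E2 - E1
  exact sub_eq_zero.mp ((mul_eq_zero.mp h3).resolve_left (sub_ne_zero.mpr ha))

end First

section Core

/-- **Core**: a cuspidal eigen-homomorphism for a non-Eisenstein system of eigenvalues whose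
period function is `1/q`-periodic vanishes.  (No hypothesis `q ≠ p`.) -/
theorem core_zero (k : Type) [Field k] (p : ℕ) [Fact p.Prime] [CharP k p] {N q : ℕ}
    (hN : 2 ≤ N) (hq : q.Prime) (hqN : ¬ q ∣ N)
    (P : ℕ → Prop) (a : ℕ → k) (hP : ∀ ℓ, P ℓ → ℓ.Prime ∧ ¬ ℓ ∣ N * q ∧ ℓ ≠ p)
    (hex : ∀ M : ℕ, 0 < M → p ∣ M →
      ∃ ℓ, P ℓ ∧ ℓ % M = 1 % M ∧ (q : ZMod ℓ) ^ ((ℓ - 1) / p) ≠ 1 ∧ a ℓ ≠ 2)
    (x : Additive (Gamma0 N) →+ k) (hx : IsCuspidalHom (Gamma0 N) x)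
    (heig : ∀ ℓ, P ℓ → Tcoh N k ℓ x = a ℓ • x)
    (h1 : ∀ r, InX N r → Pfn x (r + (q : ℚ)⁻¹) = Pfn x r) : x = 0 := by
  have hp : p.Prime := Fact.out
  have hF := isPer_Pfn hN x hx
  have hinv : ∀ r, InX N r → Pfn x ((q : ℚ) ^ 2 * r) = Pfn x r :=
    fun r hr => per_q2 hN hq hqN x (Pfn x) hF h1 hr
  have hper : ∀ r t, InX N r → InZq q t → Pfn x (r + t) = Pfn x r :=
    fun r t hr ht => per_Zq hq hqN x hx (Pfn x) hF hinv hr ht
  -- the key claim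
  have key : ∀ r, InX N r → Pfn x r = Pfn x 0 := by
    intro r hr
    obtain ⟨m, hm0, hmr, hmq⟩ := exists_prime_to_q_part hq r
    have hk0 : 0 < m.totient := Nat.totient_pos.mpr hm0
    have hM0 : 0 < m * (2 * m.totient) * p := by
      have := hp.pos
      positivity
    obtain ⟨ℓ, hPℓ, hℓM, hqℓ, haℓ⟩ := hex (m * (2 * m.totient) * p) hM0 (dvd_mul_left _ _)
    obtain ⟨hℓ, hℓNq, hℓp⟩ := hP ℓ hPℓ
    have hℓN : ¬ ℓ ∣ N := fun h => hℓNq (dvd_mul_of_dvd_left h q)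
    have hℓq : ¬ ℓ ∣ q := fun h => hℓNq (dvd_mul_of_dvd_right h N)
    have hMdvd : m * (2 * m.totient) * p ∣ ℓ - 1 :=
      (Nat.modEq_iff_dvd' hℓ.one_le).mp (Nat.ModEq.symm hℓM)
    have hℓm : ℓ % m = 1 % m :=
      Nat.ModEq.of_dvd (Dvd.intro _ (mul_assoc m (2 * m.totient) p).symm) hℓM
    have h2kp : 2 * m.totient * p ∣ ℓ - 1 :=
      dvd_trans ⟨m, by ring⟩ hMdvd
    have hpℓ : p ∣ ℓ - 1 := dvd_trans (dvd_mul_left _ _) hMdvd
    have hℓ1 : (ℓ : k) = 1 := by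
      have h0 : ((ℓ - 1 : ℕ) : k) = 0 := (CharP.cast_eq_zero_iff k p _).mpr hpℓ
      rw [Nat.cast_sub hℓ.one_le, Nat.cast_one, sub_eq_zero] at h0
      exact h0
    have hord : p ∣ orderOf ((q : ZMod ℓ) ^ (2 * m.totient)) :=
      dvd_orderOf_of_pow_ne_one hp hℓ hℓq h2kp hqℓ
    have ha : a ℓ ≠ (ℓ : k) + 1 := by
      rw [hℓ1]
      intro h
      apply haℓ
      rw [h]
      norm_num
    have hTa : Tcoh N k ℓ x = a ℓ • x := heig ℓ hPℓ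
    have hTT : ∀ s, InX N s → TT ℓ (Pfn x) s = a ℓ * Pfn x s + TT ℓ (Pfn x) 0 := by
      intro s hs
      rw [TT_Pfn hN hℓ hℓN x hx (a ℓ) hTa hs, smul_eq_mul]
    obtain ⟨κ', hκ'⟩ := exists_const_eig_k ℓ (a ℓ) (TT ℓ (Pfn x) 0) ha
    have hE' : ∀ s, InX N s → TT ℓ (fun s => Pfn x s + κ') s = a ℓ * (Pfn x s + κ') :=
      fun s hs => hκ' (Pfn x) s (hTT s hs)
    have hinv' : ∀ s, InX N s → (fun s => Pfn x s + κ') ((q : ℚ) ^ 2 * s)
        = (fun s => Pfn x s + κ') s := by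
      intro s hs
      have := hinv s hs
      simp only at this ⊢
      rw [this]
    have hper' : ∀ s t, InX N s → InZq q t → (fun s => Pfn x s + κ') (s + t)
        = (fun s => Pfn x s + κ') s := by
      intro s t hs ht
      have := hper s t hs ht
      simp only at this ⊢
      rw [this]
    have hmod := pow_two_mul_totient_mod hmq
    have hCr := ihCk_gen k p N q hN hq hqN (fun s => Pfn x s + κ') hinv' hper' ℓ (a ℓ) hℓ hℓNq
      hE' r m m.totient hr hm0 hmr hmq hmod hℓm hord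
    have hC0 := ihCk_gen k p N q hN hq hqN (fun s => Pfn x s + κ') hinv' hper' ℓ (a ℓ) hℓ hℓNq
      hE' 0 m m.totient (inX_zero N) hm0 ⟨0, by simp⟩ hmq hmod hℓm hord
    have ha2 : a ℓ - 2 ≠ 0 := sub_ne_zero.mpr haℓ
    have e1 := (mul_eq_zero.mp hCr).resolve_left ha2
    have e2 := (mul_eq_zero.mp hC0).resolve_left ha2
    beta_reduce at e1 e2
    linear_combination e1 - e2
  -- conclusion
  apply AddMonoidHom.ext
  intro g
  have h5 := Pfn_mob_zero hN x hx (Additive.toMul g)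
  rw [key _ (inX_mob (Additive.toMul g) (inX_zero N)), Pfn_zero hN x hx] at h5
  exact h5.symm

end Core

end Fermat.Agent.S59.NonMin.Geom.H78

end
-- ==== END Fermat.Agent.S59.NonMin.Geom.H78_Ihara3vCore

-- ==== BEGIN Fermat.Agent.S59.NonMin.Geom.H98_KerUStmt
section

/-!
# S59 / NMGEOM (helper98): `Stmt_KERU`

`stmt_KERU : Stmt_KERU` (interface of helper94's `H94_DualDefs.lean`), from `H98.keru_of_isUnit`.
-/

set_option autoImplicit false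

namespace Fermat.Agent.S59.NonMin.Geom.H98

open Fermat.Agent.S59.NonMin.Geom

/-- **KERU**. -/
theorem stmt_KERU : Stmt_KERU := by
  intro k _ N r _ hr hrN hrk hd ψ h
  have hN : 0 < N :=
    Nat.pos_of_ne_zero fun h0 => NeZero.ne (N * r ^ 2) (by rw [h0, zero_mul])
  exact keru_of_isUnit (R := k) hN hr hrN hd (IsUnit.mk0 _ hrk) ψ h

end Fermat.Agent.S59.NonMin.Geom.H98

end
-- ==== END Fermat.Agent.S59.NonMin.Geom.H98_KerUStmt

-- ==== BEGIN Fermat.Agent.S59.NonMin.Geom.H98_RelSplitFinal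
section

/-!
# S59 / NMGEOM leaf RELSPLIT (helper98): wiring with the landed relations

`relsplit_of_RELT : Stmt_RELT → Stmt_RELSPLIT` (`Stmt_REL1`, `Stmt_RELU`: helper12;
`Stmt_RELPAR`: helper94).
-/

set_option autoImplicit false

namespace Fermat.Agent.S59.NonMin.Geom.H98

open Fermat.Agent.S59.NonMin.Geom

/-- **RELSPLIT**, from `Stmt_RELT` only. -/
theorem relsplit_of_RELT (hT : Stmt_RELT) : Stmt_RELSPLIT :=
  relsplit_of Fermat.Agent.S59.NonMin.Geom.H12.stmt_REL1 hT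
    Fermat.Agent.S59.NonMin.Geom.H12.stmt_RELU Fermat.Agent.S59.NonMin.Geom.H94.stmt_RELPAR

end Fermat.Agent.S59.NonMin.Geom.H98

end
-- ==== END Fermat.Agent.S59.NonMin.Geom.H98_RelSplitFinal
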