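-- GENERATED (merged mirror, NOTES/tools/trim/merge3_helper67.py): 11 modules of the originals, bodies verbatim.
import Mathlib
import Fermat.Agent.Zm.S59_L01_000
import Fermat.Agent.Zm.S59_L10_000
import Fermat.Agent.Zm.S59_L07_000
import Fermat.Agent.Zm.S59_L05_002
import Fermat.Agent.Zm.S59_L05_001
import Fermat.Agent.Zm.S59_L03_002
import Fermat.Agent.Zm.S59_L05_000
import Fermat.Agent.Zm.S59_L08_001
import Fermat.Agent.Zm.S59_L01_002
import Fermat.Agent.Zm.S59_L10_001
import Fermat.Agent.Zm.S43_L05_002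
import Fermat.Agent.Zm.S43_L09_001
import Fermat.Agent.Zm.S59_L09_000
import Fermat.Agent.Zm.S59_L07_002
import Fermat.Agent.Zm.S59_L09_001
import Fermat.Agent.Zm.S59_L01_004
import Fermat.Agent.Zm.S59_L06_003
import Fermat.Agent.Zm.S44_L05_001
import Fermat.Agent.Zm.S59_L02_004

-- ==== BEGIN Fermat.Agent.S27.Char0.H20_FFH
section

/-!
# S27 char-0 half, leaf FF-H (helper20): the zeros theorem and Riemann's theorem, universe
polymorphic, from the polymorphic copy `S27/REDu` of FF-B / FF-R.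
-/

set_option autoImplicit false

noncomputable section

open AlgebraicCurve IntermediateField

namespace Fermat.Agent.S27.Char0.H20

open Fermat.Agent.RED.H17

universe u v

/-- `IsFFu` is the polymorphic `IsFF` of the copy. -/
theorem isFFu_iff (K : Type u) (F : Type v) [Field K] [Field F] [Algebra K F] :
    IsFFu K F ↔ Fermat.Agent.S27.REDu.IsFF K F := Iff.rfl

/-- FF-B and FF-R for a function field over an algebraically closed field. -/
theorem ffHyp_of_isFFu (K : Type u) (F : Type v) [Field K] [Field F] [Algebra K F]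
    [IsAlgClosed K] (hFF : IsFFu K F) : FFHyp K F where
  principal := Fermat.Agent.S27.REDu.H51.stmt_FFB_principal K F hFF
  deg_one := Fermat.Agent.S27.REDu.H51.stmt_FFB_deg K F hFF
  finite := Fermat.Agent.S27.REDu.H51.stmt_FFR_finite K F hFF
  le := fun D hD => (Fermat.Agent.S27.REDu.H51.stmt_FFR_le K F hFF D).2 hD
  transc := by
    obtain ⟨x, hx, -⟩ := hFF
    exact ⟨x, hx⟩

/-- Riemann's theorem for a function field over an algebraically closed field. -/
theorem exists_isGenus_u (K : Type u) (F : Type v) [Field K] [Field F] [Algebra K F]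
    [IsAlgClosed K] (hFF : IsFFu K F) : ∃ (g : ℕ) (c : ℤ), IsGenus K F g c :=
  Fermat.Agent.S27.REDu.H51.stmt_FFR_riemann K F hFF

/-- **FF-H**. -/
theorem stmt_FFH : Stmt_FFH.{u, v} := fun K F _ _ _ _ hFF =>
  ⟨ffHyp_of_isFFu K F hFF, exists_isGenus_u K F hFF⟩

end Fermat.Agent.S27.Char0.H20

end
end
-- ==== END Fermat.Agent.S27.Char0.H20_FFH

-- ==== BEGIN Fermat.Agent.S27.Char0.H38_BranchFin
section

/-!
# S27 (row 26), characteristic-0 half, package RED-EX, leaf BRANCH-FIN (helper38)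

`stmt_BranchFin : Stmt_BranchFin` : a chart `x` of a function field `F / K` (`K` algebraically
closed of characteristic `0`, `x` transcendental, `[F : K(x)] = n` finite) has finitely many
branch values.

Proof.  `R = K[x]`, `B` the integral closure of `R` in `F`, `c` an `R`-basis of `B` (`n` elements),
`disc = disc(c) ≠ 0`.  If fewer than `n` maximal ideals of `B` contain `π = x - ρ`, the `K`-linear
map `Kⁿ → K^r`, `k ↦ (Σ k_i c_i (P))_P` has a nonzero kernel vector; the corresponding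
`w = Σ k_i c_i` lies in all points over `ρ`, so it is nilpotent modulo `π`, but `π ∤ w`.  Then the
trace form of `B / π B` is degenerate (`bf_dvd_discr`), i.e. `π ∣ disc`: `ρ` is a root of the
nonzero polynomial `disc`.
-/

set_option autoImplicit false

universe u v

noncomputable section

open Polynomial IntermediateField Module
open scoped IntermediateField.algebraAdjoinAdjoin

namespace Fermat.Agent.S27.Char0.H38

open Fermat.Agent.S27.REDu Fermat.Agent.S27.REDu.H34

section Abstract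

variable {R B ι : Type*} [CommRing R] [IsDomain R] [IsPrincipalIdealRing R] [CommRing B]
  [Algebra R B] [Fintype ι] [DecidableEq ι]

/-- An element of `B` that is nilpotent modulo `π` but not divisible by `π` forces `π ∣ disc`
(the trace form of `B / π B` is degenerate). -/
theorem bf_dvd_discr (c : Module.Basis ι R B) (π : R) (hπ : Prime π) (w : B)
    (hnil : ∃ k, algebraMap R B π ∣ w ^ k) (hw : ¬ algebraMap R B π ∣ w) :
    π ∣ Algebra.discr R c := by
  have hmax : (Ideal.span {π}).IsMaximal :=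
    PrincipalIdealRing.isMaximal_of_irreducible hπ.irreducible
  let _ := Ideal.Quotient.field (Ideal.span {π})
  have hmkπ : Ideal.Quotient.mk (Ideal.span {π}) π = 0 :=
    Ideal.Quotient.eq_zero_iff_mem.2 (Ideal.mem_span_singleton_self π)
  set φ : B →+* Matrix ι ι (R ⧸ Ideal.span {π}) :=
    (Ideal.Quotient.mk (Ideal.span {π})).mapMatrix.comp (Algebra.leftMulMatrix c).toRingHom
    with hφ
  have htr : ∀ x : B, (φ x).trace = Ideal.Quotient.mk (Ideal.span {π}) (Algebra.trace R B x) := by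
    intro x
    rw [Algebra.trace_eq_matrix_trace c, AddMonoidHom.map_trace]; rfl
  have hφπ0 : φ (algebraMap R B π) = 0 := by
    have h1 : (Algebra.leftMulMatrix c) (algebraMap R B π) = algebraMap R (Matrix ι ι R) π :=
      AlgHom.commutes _ π
    ext i j
    simp only [hφ, RingHom.coe_comp, Function.comp_apply, AlgHom.toRingHom_eq_coe,
      RingHom.coe_coe, h1, RingHom.mapMatrix_apply, Matrix.map_apply, Matrix.zero_apply,
      Matrix.algebraMap_matrix_apply]
    split_ifs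
    · simp [hmkπ]
    · simp
  obtain ⟨k, b', hk⟩ := hnil
  have htrace : ∀ b : B, Ideal.Quotient.mk (Ideal.span {π}) (Algebra.trace R B (w * b)) = 0 := by
    intro b
    rw [← htr]
    have hn : IsNilpotent (φ (w * b)) := by
      refine ⟨k, ?_⟩
      rw [← map_pow, mul_pow, hk, mul_assoc, map_mul, hφπ0, zero_mul]
    exact (Matrix.isNilpotent_trace_of_isNilpotent hn).eq_zero
  -- the kernel vector of the reduced trace matrix
  set a : ι → R ⧸ Ideal.span {π} := fun i => Ideal.Quotient.mk (Ideal.span {π}) (c.repr w i)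
    with ha
  have ha0 : a ≠ 0 := by
    intro h0
    apply hw
    refine H82.h82_dvd_of_repr c π w fun i => ?_
    have := congrFun h0 i
    rw [ha] at this
    simp only [Pi.zero_apply] at this
    rwa [Ideal.Quotient.eq_zero_iff_mem, Ideal.mem_span_singleton] at this
  have hvec : Matrix.vecMul a ((Ideal.Quotient.mk (Ideal.span {π})).mapMatrix
      (Algebra.traceMatrix R c)) = 0 := by
    ext j
    rw [Pi.zero_apply, ← htrace (c j)]
    simp only [Matrix.vecMul, dotProduct, ha, RingHom.mapMatrix_apply, Matrix.map_apply,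
      Algebra.traceMatrix_apply, Algebra.traceForm_apply]
    have hwj : w * c j = ∑ i, c.repr w i • (c i * c j) := by
      conv_lhs => rw [← c.sum_repr w, Finset.sum_mul]
      exact Finset.sum_congr rfl fun i _ => smul_mul_assoc _ _ _
    rw [hwj, map_sum, map_sum]
    refine Finset.sum_congr rfl fun i _ => ?_
    rw [map_smul, smul_eq_mul, RingHom.map_mul]
  have hdet := (Matrix.exists_vecMul_eq_zero_iff (M := (Ideal.Quotient.mk (Ideal.span {π})).mapMatrix
      (Algebra.traceMatrix R c))).1 ⟨a, ha0, hvec⟩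
  rw [← RingHom.map_det, ← Algebra.discr_def, Ideal.Quotient.eq_zero_iff_mem,
    Ideal.mem_span_singleton] at hdet
  exact hdet

end Abstract

section Chart

variable {K : Type u} {F : Type v} [Field K] [Field F] [Algebra K F] {x : F}

theorem bf_evAt_algebraMap (hx : Transcendental K x) (ρ a : K) :
    evAt hx ρ (algebraMap K ↥(Algebra.adjoin K {x}) a) = a := by
  rw [← polyEquiv_C hx, evAt_polyEquiv, Polynomial.eval_C]

/-- If fewer than `n` points lie over `ρ`, some element of `B` lies in all of them without being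
divisible by `x - ρ`. -/
theorem bf_exists_w [IsAlgClosed K] (hx : Transcendental K x) {n : ℕ}
    (c : Module.Basis (Fin n) ↥(Algebra.adjoin K {x}) ↥(Bx (C := K) x)) (ρ : K)
    (hlt : (ptsOver x ρ).ncard < n) :
    ∃ w : ↥(Bx (C := K) x), (∀ P ∈ ptsOver x ρ, w ∈ P) ∧
      ¬ algebraMap ↥(Algebra.adjoin K {x}) ↥(Bx (C := K) x) (piRho x ρ) ∣ w := by
  classical
  have hpid : IsPrincipalIdealRing ↥(Algebra.adjoin K {x}) := isPrincipalIdealRing_adjoin hx
  have hfin := finite_ptsOver hx c ρ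
  let _ : Fintype ↥(ptsOver x ρ) := hfin.fintype
  let Φ : (Fin n → K) →ₗ[K] (↥(ptsOver x ρ) → K) :=
    { toFun := fun k P => ∑ i, k i * evP P.2 (c i)
      map_add' := by
        intro k k'
        ext P
        simp only [Pi.add_apply, add_mul, Finset.sum_add_distrib]
      map_smul' := by
        intro a k
        ext P
        simp only [Pi.smul_apply, smul_eq_mul, RingHom.id_apply, Finset.mul_sum, mul_assoc] }
  have hninj : ¬ Function.Injective Φ := by
    intro hinj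
    have h1 := LinearMap.finrank_le_finrank_of_injective hinj
    rw [Module.finrank_fintype_fun_eq_card, Module.finrank_fintype_fun_eq_card,
      Fintype.card_fin, ← Nat.card_eq_fintype_card, Nat.card_coe_set_eq] at h1
    omega
  obtain ⟨k, hk0, hk⟩ : ∃ k : Fin n → K, k ≠ 0 ∧ Φ k = 0 := by
    by_contra hcon
    push Not at hcon
    apply hninj
    rw [injective_iff_map_eq_zero]
    intro k hk
    by_contra hk0
    exact hcon k hk0 hk
  refine ⟨∑ i, algebraMap K ↥(Algebra.adjoin K {x}) (k i) • c i, ?_, ?_⟩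
  · intro P hP
    rw [← evP_eq_zero_iff hP, map_sum]
    have := congrFun hk ⟨P, hP⟩
    simp only [Pi.zero_apply] at this
    rw [← this]
    refine Finset.sum_congr rfl fun i _ => ?_
    rw [Algebra.smul_def, map_mul]
    congr 1
    exact evP_algebraMap hP (k i)
  · intro hdvd
    apply hk0
    ext i
    have h1 := H82.h82_repr_dvd c (piRho x ρ) _ hdvd i
    rw [c.repr_sum_self, ← evAt_eq_zero_iff hx, bf_evAt_algebraMap] at h1
    exact h1

end Chart

/-- **BRANCH-FIN**: a chart has finitely many branch values. -/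
theorem stmt_BranchFin : Stmt_BranchFin.{u, v} := by
  intro K F _ _ _ _ _ x hx hfin
  classical
  have hfd : FiniteDimensional ↥K⟮x⟯ F := hfin
  have hpid : IsPrincipalIdealRing ↥(Algebra.adjoin K {x}) := isPrincipalIdealRing_adjoin hx
  have hcz : CharZero ↥K⟮x⟯ := charZero_of_injective_algebraMap (algebraMap K ↥K⟮x⟯).injective
  have hsep : Algebra.IsSeparable ↥K⟮x⟯ F := inferInstance
  have hinj : Function.Injective (algebraMap ↥(Algebra.adjoin K {x}) F) := Subtype.val_injective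
  have htf : Module.IsTorsionFree ↥(Algebra.adjoin K {x}) F := by
    rw [Module.isTorsionFree_iff_algebraMap_injective]
    exact hinj
  have hfree : Module.Free ↥(Algebra.adjoin K {x}) ↥(integralClosure ↥(Algebra.adjoin K {x}) F) :=
    IsIntegralClosure.module_free ↥(Algebra.adjoin K {x}) ↥K⟮x⟯ F
      ↥(integralClosure ↥(Algebra.adjoin K {x}) F)
  have hfinB : Module.Finite ↥(Algebra.adjoin K {x})
      ↥(integralClosure ↥(Algebra.adjoin K {x}) F) :=
    IsIntegralClosure.finite ↥(Algebra.adjoin K {x}) ↥K⟮x⟯ F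
      ↥(integralClosure ↥(Algebra.adjoin K {x}) F)
  have hrank : Module.finrank ↥(Algebra.adjoin K {x})
      ↥(integralClosure ↥(Algebra.adjoin K {x}) F) = Module.finrank ↥K⟮x⟯ F :=
    IsIntegralClosure.rank ↥(Algebra.adjoin K {x}) ↥K⟮x⟯ F
      ↥(integralClosure ↥(Algebra.adjoin K {x}) F)
  let c : Module.Basis (Fin (Module.finrank ↥K⟮x⟯ F)) ↥(Algebra.adjoin K {x})
      ↥(Bx (C := K) x) :=
    Module.finBasisOfFinrankEq _ _ hrank
  have hdisc : Algebra.discr ↥(Algebra.adjoin K {x}) c ≠ 0 :=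
    H82.h82_discr_ne_zero ↥(Algebra.adjoin K {x}) ↥K⟮x⟯ F (Fin (Module.finrank ↥K⟮x⟯ F)) c
  obtain ⟨D, hD⟩ := (polyEquiv hx).surjective (Algebra.discr ↥(Algebra.adjoin K {x}) c)
  have hD0 : D ≠ 0 := by
    rintro rfl
    exact hdisc (by rw [← hD, map_zero])
  refine (Polynomial.finite_setOfPred_isRoot hD0).subset ?_
  intro ρ hρ
  obtain ⟨w, hw1, hw2⟩ := bf_exists_w hx c ρ hρ
  obtain ⟨e, he⟩ := pow_mem_of_forall_mem w hw1
  have h1 := bf_dvd_discr c (piRho x ρ) (prime_piRho hx ρ) w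
    ⟨e, Ideal.mem_span_singleton.1 he⟩ hw2
  rw [← hD, dvd_polyEquiv_iff] at h1
  exact h1

end Fermat.Agent.S27.Char0.H38

end
end
-- ==== END Fermat.Agent.S27.Char0.H38_BranchFin

-- ==== BEGIN Fermat.Agent.S27.Char0.Lift.H45_NormPoly
section

/-!
# S27 LIFT / SOLVE, leaf NORM-POLY (helper45)

`stmt_NormPoly : Solve.Stmt_NormPoly`: `Dfin(x) ∈ K(x)` and `Dfin(x) · N_{F/K(x)}(h)` is a
polynomial of degree `≤ n g` in `x` for every `h ∈ L(n E')`.  Assembly of NORM-ORD (helper64) and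
POLY-CRIT (helper20).
-/

set_option autoImplicit false

noncomputable section

open AlgebraicCurve IntermediateField

namespace Fermat.Agent.S27.Char0.Lift.H45

open Fermat.Agent.RED.H17 Fermat.Agent.S27.Char0 Fermat.Agent.S27.Char0.Lift

attribute [local instance] Classical.propDecidable

local notation "L" => riemannRochSpace

universe u v u' v'

/-- `Dfin(x)` lies in `K(x)`. -/
theorem dfinX_mem {K : Type u} {F : Type v} [Field K] [Field F] [Algebra K F] (x : F) (n : ℕ)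
    (E' : Divisor K F) (b : Place K F → K) : Solve.dfinX x n E' b ∈ K⟮x⟯ := by
  unfold Solve.dfinX
  refine prod_mem fun P _ => pow_mem (sub_mem (mem_adjoin_simple_self K x) ?_) _
  exact K⟮x⟯.algebraMap_mem (b P)

/-- **NORM-POLY** from NORM-ORD and POLY-CRIT. -/
theorem stmt_NormPoly_of (hNO : Solve.Stmt_NormOrd.{u, v}) (hPC : Solve.Stmt_PolyCrit.{u, v}) :
    Solve.Stmt_NormPoly.{u, v, u', v'} := by
  intro K F k Ft _ _ _ _ _ _ _ _ G H H' g n E Gd N Ld
  classical
  have hxtr : Transcendental K G.x := x_transc G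
  have hfin : Module.Finite ↥K⟮G.x⟯ F := G.fin
  have hD : dfin G n Ld.E' Ld.b ∈ K⟮G.x⟯ := by
    rw [Solve.dfin_eq_dfinX]
    exact dfinX_mem G.x n Ld.E' Ld.b
  refine ⟨hD, fun h hh => ?_⟩
  -- the degree of `E'`
  have hdeg : Divisor.degree Ld.E' = g := by
    have h1 := degree_mapDomain H.deg_one H'.deg_one G.S.r Ld.E'
    rw [Ld.push, Gd.deg] at h1
    exact h1.symm
  -- the hypothesis on `b`
  have hb : ∀ P ∈ Ld.E'.support, 0 ≤ P.ord G.x →
      0 < P.ord (G.x - algebraMap K F (Ld.b P)) := by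
    intro P hP hx
    refine Ld.value P hP ?_
    by_contra hneg
    have := Ld.pole P hP (not_le.mp hneg)
    omega
  obtain ⟨hreg, hpole⟩ := hNO K F H G.x hxtr hfin n Ld.E' Ld.b Ld.eff hb h hh
  rw [Solve.dfin_eq_dfinX]
  have hmem : Solve.dfinX G.x n Ld.E' Ld.b *
      algebraMap ↥K⟮G.x⟯ F (Algebra.norm ↥K⟮G.x⟯ h) ∈ K⟮G.x⟯ :=
    mul_mem (dfinX_mem G.x n Ld.E' Ld.b) (Algebra.norm ↥K⟮G.x⟯ h).2
  obtain ⟨p, hp, hpe⟩ := hPC K F H G.x hxtr hfin _ (n * g) hmem hreg (by
    intro P hPx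
    have := hpole P hPx
    rw [hdeg] at this
    push_cast
    exact this)
  exact ⟨p, hp, hpe⟩

/-- **NORM-POLY**, unconditional. -/
theorem stmt_NormPoly : Solve.Stmt_NormPoly.{u, v, u', v'} :=
  stmt_NormPoly_of H64.stmt_NormOrd H20.stmt_PolyCrit

end Fermat.Agent.S27.Char0.Lift.H45

end
end
-- ==== END Fermat.Agent.S27.Char0.Lift.H45_NormPoly

-- ==== BEGIN Fermat.Agent.S27.REDu.H10_ConsFibre
section

/-!
# G-RED package CONS (helper10), DICT (a): the norm formula on the fibres of a coordinate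

`F / K` a function field over an algebraically closed field (any characteristic), `x ∈ F`
transcendental with `[F : K(x)] < ∞`.

* `adjoin_gen_eq_top` : `K(x)` is generated by `x`, as a field of its own;
* `exists_unique_zero_of_top` : a generator of a rational function field has exactly one zero,
  and it is simple (char-free version of helper72's `h72_exists_unique_zero`);
* `fibre_norm` : for `ρ ∈ K` there is a finite set `T` of places, `P ∈ T ↔ x(P) = ρ`, with
  `∑_{P ∈ T} ord_P f = rootMultiplicity ρ p` whenever `N_{F/K(x)} f = p(x)`.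
-/

set_option autoImplicit false

universe uC uCf uK uR uF uL uE uk ukap uFp uFt uFtp uiot uEp uKp ux3b1

noncomputable section

open AlgebraicCurve Polynomial IntermediateField

namespace Fermat.Agent.S27.REDu.H10

open Fermat.Agent.S27.REDu.H51 Fermat.Agent.S24

section Gen

variable {K : Type uK} {F : Type uF} [Field K] [Field F] [Algebra K F]

theorem adjoin_gen_eq_top (x : F) :
    K⟮AdjoinSimple.gen K x⟯ = (⊤ : IntermediateField K ↥K⟮x⟯) := by
  have h1 : (K⟮AdjoinSimple.gen K x⟯ : IntermediateField K ↥K⟮x⟯).map (K⟮x⟯.val) =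
      (⊤ : IntermediateField K ↥K⟮x⟯).map (K⟮x⟯.val) := by
    rw [IntermediateField.adjoin_map, Set.image_singleton]
    rw [← AlgHom.fieldRange_eq_map, IntermediateField.fieldRange_val]
    rfl
  exact IntermediateField.map_injective _ h1

theorem finrank_of_eq_top (S : IntermediateField K F) (hS : S = ⊤) :
    FiniteDimensional ↥S F ∧ Module.finrank ↥S F = 1 := by
  subst hS
  exact ⟨Module.finite_of_finrank_pos (by rw [IntermediateField.finrank_top]; exact one_pos),
    IntermediateField.finrank_top⟩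

/-- A generator of a rational function field has exactly one zero, and it is simple. -/
theorem exists_unique_zero_of_top (hz : H59.ZerosStmt K F) (y : F) (hy : Transcendental K y)
    (htop : K⟮y⟯ = ⊤) :
    ∃ v : Place K F, v.ord y = 1 ∧ ∀ v' : Place K F, 0 < v'.ord y → v' = v := by
  classical
  obtain ⟨hfd, hrank⟩ := finrank_of_eq_top K⟮y⟯ htop
  obtain ⟨hfin, hsum⟩ := hz y hy
  rw [hrank, finsum_mem_eq_finite_toFinset_sum _ hfin] at hsum
  have hpos : ∀ v ∈ hfin.toFinset, 0 < v.ord y := fun v hv => by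
    simpa using hv
  have hne : hfin.toFinset.Nonempty := by
    by_contra hemp
    rw [Finset.not_nonempty_iff_eq_empty] at hemp
    rw [hemp, Finset.sum_empty] at hsum
    norm_num at hsum
  obtain ⟨v, hv⟩ := hne
  have hle : ∀ v' ∈ hfin.toFinset, v' ≠ v → False := by
    intro v' hv' hne'
    have h2 : v.ord y + v'.ord y ≤ ∑ u ∈ hfin.toFinset, u.ord y := by
      have hsub : ({v, v'} : Finset (Place K F)) ⊆ hfin.toFinset := by
        intro u hu
        rcases Finset.mem_insert.mp hu with rfl | hu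
        · exact hv
        · rw [Finset.mem_singleton.mp hu]; exact hv'
      calc v.ord y + v'.ord y = ∑ u ∈ ({v, v'} : Finset (Place K F)), u.ord y := by
            rw [Finset.sum_pair (Ne.symm hne')]
        _ ≤ ∑ u ∈ hfin.toFinset, u.ord y :=
            Finset.sum_le_sum_of_subset_of_nonneg hsub
              (fun u hu _ => (hpos u hu).le)
    have := hpos v hv
    have := hpos v' hv'
    rw [hsum] at h2
    push_cast at h2
    omega
  refine ⟨v, ?_, ?_⟩
  · have h1 : v.ord y ≤ ∑ u ∈ hfin.toFinset, u.ord y :=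
      Finset.single_le_sum (f := fun u : Place K F => u.ord y)
        (fun u hu => (hpos u hu).le) hv
    have := hpos v hv
    rw [hsum] at h1
    push_cast at h1
    omega
  · intro v' hv'
    by_contra hne'
    exact hle v' (by simpa using hv') hne'

/-- **The norm formula on the fibre `x = ρ`.** -/
theorem fibre_norm [IsAlgClosed K] (hFF : IsFF K F) (x : F) (hx : Transcendental K x)
    [FiniteDimensional ↥K⟮x⟯ F] (ρ : K) :
    ∃ T : Finset (Place K F), (∀ P, P ∈ T ↔ OrdGe P 1 (x - algebraMap K F ρ)) ∧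
      ∀ (f : F) (p : K[X]), f ≠ 0 →
        ((Algebra.norm ↥K⟮x⟯ f : ↥K⟮x⟯) : F) = Polynomial.aeval x p →
        ∑ P ∈ T, P.ord f = (p.rootMultiplicity ρ : ℤ) := by
  classical
  -- the rational function field `E = K(x)` and its generator `y = x - ρ`
  set g : ↥K⟮x⟯ := AdjoinSimple.gen K x with hg
  have hgx : algebraMap ↥K⟮x⟯ F g = x := rfl
  have hgtr : Transcendental K g :=
    (transcendental_algebraMap_iff (algebraMap ↥K⟮x⟯ F).injective).mp (by rw [hgx]; exact hx)
  have hgtop : K⟮g⟯ = (⊤ : IntermediateField K ↥K⟮x⟯) := adjoin_gen_eq_top x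
  have hfinE : FiniteDimensional ↥K⟮g⟯ ↥K⟮x⟯ := (finrank_of_eq_top K⟮g⟯ hgtop).1
  have hFFE : IsFF K ↥K⟮x⟯ := ⟨g, hgtr, hfinE⟩
  have hzE : H59.ZerosStmt K ↥K⟮x⟯ := zerosAll K ↥K⟮x⟯ hFFE
  have hzF : H59.ZerosStmt K F := zerosAll K F hFF
  have : HasPrincipalDivisors K F := stmt_FFB_principal K F hFF
  set y : ↥K⟮x⟯ := g - algebraMap K ↥K⟮x⟯ ρ with hy
  have hytr : Transcendental K y := by
    intro halg
    apply hgtr
    have h1 : g = y + algebraMap K ↥K⟮x⟯ ρ := by rw [hy]; ring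
    rw [h1]
    exact halg.add (isAlgebraic_algebraMap ρ)
  have hytop : K⟮y⟯ = (⊤ : IntermediateField K ↥K⟮x⟯) := by
    rw [eq_top_iff, ← hgtop, adjoin_simple_le_iff]
    have h1 : g = y + algebraMap K ↥K⟮x⟯ ρ := by rw [hy]; ring
    rw [h1]
    exact add_mem (mem_adjoin_simple_self K y) (IntermediateField.algebraMap_mem _ ρ)
  obtain ⟨v₀, hv₀, huniq⟩ := exists_unique_zero_of_top hzE y hytr hytop
  have hyx : algebraMap ↥K⟮x⟯ F y = x - algebraMap K F ρ := by
    rw [hy, map_sub, hgx, ← IsScalarTower.algebraMap_apply]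
  have hxρ : x - algebraMap K F ρ ≠ 0 := by
    rw [← hyx]
    intro h0
    have : y = 0 := (map_eq_zero (algebraMap ↥K⟮x⟯ F)).mp h0
    rw [this] at hv₀
    simp at hv₀
  refine ⟨v₀.fiber F, ?_, ?_⟩
  · intro P
    rw [Place.mem_fiber]
    constructor
    · intro hP
      refine Or.inr ?_
      rw [← hyx, P.ord_restrict y, hP, hv₀, mul_one]
      have := P.ramificationIndex_pos (F := ↥K⟮x⟯)
      omega
    · rintro (h0 | h1)
      · exact absurd h0 hxρ
      · apply huniq
        rw [← hyx, P.ord_restrict y] at h1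
        have hepos := P.ramificationIndex_pos (F := ↥K⟮x⟯)
        by_contra hneg
        rw [not_lt] at hneg
        have : (P.ramificationIndex ↥K⟮x⟯ : ℤ) * (P.restrict ↥K⟮x⟯).ord y ≤ 0 :=
          mul_nonpos_of_nonneg_of_nonpos (by omega) hneg
        omega
  · intro f p hf hN
    have hdegF : ∀ w : Place K F, w.deg = 1 := fun w => ff_deg_eq_one x hx w
    have hsum := sum_ramificationIndex_eq hzE hzF hgtr hx v₀ (v₀.fiber F)
      (fun w => Place.mem_fiber)
    rw [← norm_ord v₀ (v₀.fiber F) (fun w hw => Place.mem_fiber.mp hw) hsum hdegF hf]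
    have hNE : Algebra.norm ↥K⟮x⟯ f = Polynomial.aeval g p := by
      apply (algebraMap ↥K⟮x⟯ F).injective
      rw [← Polynomial.aeval_algebraMap_apply, hgx]
      exact hN
    have hp : p ≠ 0 := by
      rintro rfl
      rw [map_zero] at hNE
      exact hf (Algebra.norm_eq_zero_iff.mp hNE)
    have hcomp : Polynomial.aeval g p = Polynomial.aeval y (p.comp (X + C ρ)) := by
      rw [Polynomial.aeval_comp, map_add, Polynomial.aeval_X, Polynomial.aeval_C, hy,
        sub_add_cancel]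
    have hp' : p.comp (X + C ρ) ≠ 0 := by
      intro h0
      apply hp
      have := congrArg (fun q : K[X] => q.comp (X - C ρ)) h0
      simpa [Polynomial.comp_assoc] using this
    rw [hNE, hcomp, (ord_aeval v₀ (by omega) hp').2, hv₀, mul_one,
      ← Polynomial.rootMultiplicity_eq_rootMultiplicity]

end Gen

end Fermat.Agent.S27.REDu.H10

end
end
-- ==== END Fermat.Agent.S27.REDu.H10_ConsFibre

-- ==== BEGIN Fermat.Agent.S27.REDu.H42_Gen6
section

/-!
# G-RED package GEN (helper42), part 6: scaling of integral equations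

* `aeval_inv_reflect` : `p(x) * x⁻¹ ^ N = (reflect N p)(x⁻¹)` for `deg p ≤ N`.
* `exists_scale_isIntegral` : `f` integral over `C[x]`  ⟹  `x⁻¹ ^ m * f` integral over `C[x⁻¹]`
  for all large `m`.
-/

set_option autoImplicit false

universe uC uCf uK uR uF uL uE uk ukap uFp uFt uFtp uiot uEp uKp ux3b1

noncomputable section

open Polynomial IntermediateField Module

namespace Fermat.Agent.S27.REDu.H42

open Fermat.Agent.S27.REDu.H34 Fermat.Agent.S27.REDu.H34.RedSetting

variable {C : Type uC} {F : Type uF} [Field C] [Field F] [Algebra C F]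

theorem aeval_inv_reflect {x : F} (hx0 : x ≠ 0) (p : C[X]) (N : ℕ) (h : p.natDegree ≤ N) :
    Polynomial.aeval x⁻¹ (Polynomial.reflect N p) = Polynomial.aeval x p * x⁻¹ ^ N := by
  letI := invertibleOfNonzero hx0
  have h1 := Polynomial.eval₂_reflect_mul_pow (algebraMap C F) x N p h
  rw [invOf_eq_inv] at h1
  rw [Polynomial.aeval_def, Polynomial.aeval_def, ← h1, mul_assoc, ← mul_pow,
    mul_inv_cancel₀ hx0, one_pow, mul_one]

theorem aeval_mul_inv_pow_mem {x : F} (hx0 : x ≠ 0) (p : C[X]) (N : ℕ) (h : p.natDegree ≤ N) :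
    Polynomial.aeval x p * x⁻¹ ^ N ∈ Algebra.adjoin C {x⁻¹} := by
  rw [← aeval_inv_reflect hx0 p N h]
  exact Polynomial.aeval_mem_adjoin_singleton C _

theorem exists_aeval_eq {x : F} (r : ↥(Algebra.adjoin C {x})) :
    ∃ q : C[X], Polynomial.aeval x q = (r : F) := by
  have h1 : (r : F) ∈ (Polynomial.aeval x : C[X] →ₐ[C] F).range := by
    rw [← Algebra.adjoin_singleton_eq_range_aeval]
    exact r.2
  exact h1

/-- **Scaling**: an element integral over `C[x]` becomes integral over `C[x⁻¹]` after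
multiplication by a large power of `x⁻¹`. -/
theorem exists_scale_isIntegral {x : F} (hx0 : x ≠ 0) {f : F}
    (hf : IsIntegral ↥(Algebra.adjoin C {x}) f) :
    ∃ c : ℕ, ∀ m, c ≤ m → IsIntegral ↥(Algebra.adjoin C {x⁻¹}) (x⁻¹ ^ m * f) := by
  obtain ⟨P, hP, hroot⟩ := hf
  choose p hp using fun i => exists_aeval_eq (P.coeff i)
  refine ⟨(Finset.range P.natDegree).sup fun i => (p i).natDegree, fun m hm => ?_⟩
  have hPF : (P.map (algebraMap ↥(Algebra.adjoin C {x}) F)).Monic := hP.map _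
  have hdeg : (P.map (algebraMap ↥(Algebra.adjoin C {x}) F)).natDegree = P.natDegree :=
    hP.natDegree_map _
  have hQ : ((P.map (algebraMap ↥(Algebra.adjoin C {x}) F)).scaleRoots (x⁻¹ ^ m)).Monic :=
    (Polynomial.monic_scaleRoots_iff _).2 hPF
  have hroot' : Polynomial.eval (x⁻¹ ^ m * f)
      ((P.map (algebraMap ↥(Algebra.adjoin C {x}) F)).scaleRoots (x⁻¹ ^ m)) = 0 := by
    have h1 : Polynomial.eval₂ (RingHom.id F) f (P.map (algebraMap ↥(Algebra.adjoin C {x}) F))
        = 0 := by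
      rw [Polynomial.eval₂_map]
      exact hroot
    have h2 := Polynomial.scaleRoots_eval₂_eq_zero (RingHom.id F) (s := x⁻¹ ^ m) h1
    rw [Polynomial.eval₂_id] at h2
    exact h2
  have hlifts : (P.map (algebraMap ↥(Algebra.adjoin C {x}) F)).scaleRoots (x⁻¹ ^ m) ∈
      Polynomial.lifts (algebraMap ↥(Algebra.adjoin C {x⁻¹}) F) := by
    rw [Polynomial.lifts_iff_coeff_lifts]
    intro i
    rw [Polynomial.coeff_scaleRoots, hdeg, Polynomial.coeff_map]
    rcases lt_trichotomy i P.natDegree with hi | hi | hi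
    · have h1 : (p i).natDegree ≤ m * (P.natDegree - i) := by
        have h2 : (p i).natDegree ≤ (Finset.range P.natDegree).sup fun i => (p i).natDegree :=
          Finset.le_sup (f := fun i => (p i).natDegree) (Finset.mem_range.2 hi)
        have h3 : 1 ≤ P.natDegree - i := by omega
        calc (p i).natDegree ≤ m := h2.trans hm
          _ = m * 1 := (mul_one m).symm
          _ ≤ m * (P.natDegree - i) := Nat.mul_le_mul_left m h3
      have h4 := aeval_mul_inv_pow_mem (C := C) hx0 (p i) _ h1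
      rw [hp i, pow_mul] at h4
      exact ⟨⟨_, h4⟩, rfl⟩
    · rw [hi, Nat.sub_self, pow_zero, mul_one, Polynomial.coeff_natDegree, hP.leadingCoeff]
      exact ⟨1, by simp⟩
    · rw [Polynomial.coeff_eq_zero_of_natDegree_lt hi]
      exact ⟨0, by simp⟩
  obtain ⟨q, hq, -, hqm⟩ := Polynomial.lifts_and_degree_eq_and_monic hlifts hQ
  refine ⟨q, hqm, ?_⟩
  rw [← Polynomial.eval_map, hq]
  exact hroot'

end Fermat.Agent.S27.REDu.H42

end
end
-- ==== END Fermat.Agent.S27.REDu.H42_Gen6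

-- ==== BEGIN Fermat.Agent.S27.REDu.H82_ChartFinal
section

/-!
# G-RED package IG: the chart theorem, unconditional

`stmt_notDvdDet : H34.Stmt_notDvdDet.{uC, uF, uk, uFt}` (from `H82.not_dvd_det`) and
`stmt_chartNormal : H34.Stmt_chartNormal.{uC, uF, uk, uFt}` (helper34's `stmt_chartNormal_of_notDvdDet`).
-/

set_option autoImplicit false

universe uC uCf uK uR uF uL uE uk ukap uFp uFt uFtp uiot uEp uKp ux3b1

namespace Fermat.Agent.S27.REDu.H82

/-- (S5) in the packaged form of `RED/H34_Chart.lean`. -/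
theorem stmt_notDvdDet : H34.Stmt_notDvdDet.{uC, uF, uk, uFt} := by
  intro C F k Ft _ _ _ _ _ _ _ S x hx hxt _ hdeg m bF hbV hbB bt hbt hspan c P hP ρ hρ
  exact not_dvd_det hx hxt hdeg bF hbV hbB bt hbt hspan c P hP ρ hρ

/-- **The chart theorem** (helper34), unconditional. -/
theorem stmt_chartNormal : H34.Stmt_chartNormal.{uC, uF, uk, uFt} :=
  H34.stmt_chartNormal_of_notDvdDet stmt_notDvdDet

end Fermat.Agent.S27.REDu.H82

end
-- ==== END Fermat.Agent.S27.REDu.H82_ChartFinal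

-- ==== BEGIN Fermat.Agent.S59.CaseC.Geom.H47_StepPpt
section

/-!
# S59, case C, package PGEOM (helper47): the wiring of the step at `p`

* `stmt_STEPPptWIRE : Geom.Stmt_STEPPptWIRE`, i.e.
  `Stmt_S33 → Stmt_DEFord → Stmt_ORDT → Stmt_TAUP → Stmt_SELMERp → Stmt_CPNE → Stmt_STEPPpt`
  (pointwise form of the constant), from `CaseC.H47.stepP_core`;
* `stmt_STEPPWIRE : CaseC.Stmt_STEPPWIRE` (the form of `CaseC/Defs.lean`).

`Datum.stmt_DATUM` and the frozen S31, S34 (`Asm.H7.stmt_UnrDatum`, `Asm.H7.stmt_UnipDatum`) are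
plugged in here.
-/

set_option autoImplicit false
set_option linter.unusedSectionVars false
set_option linter.style.haveILetI false
set_option linter.unusedVariables false
set_option maxHeartbeats 1000000

open Polynomial CuspForm CongruenceSubgroup ModularFormClass IsLocalRing

namespace Fermat.Agent.S59.CaseC.Geom.H47

open Fermat.Agent.S59 Fermat.Agent.S59.Asm Fermat.Agent.S59.NonMin Fermat.Agent.S59.CaseC

/-- **STEP-p, pointwise form**, from DATUM and the frozen S31, S34. -/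
theorem stepppt_of (hDATUM : Fermat.Agent.S59.Datum.Stmt_DATUM)
    (hUnr : Fermat.Agent.S59.Asm.H7.Stmt_UnrDatum)
    (hUnip : Fermat.Agent.S59.Asm.H7.Stmt_UnipDatum) :
    Fermat.Agent.S59.CaseC.Geom.Stmt_STEPPptWIRE := by
  intro hS33 hDEF hORDT hTAUP hSEL hCPNE
  intro 𝒪 _ _ _ _ _ _ p _ hp2 hp𝒪 ρbar Smin hyp hbar hord Sig s _ hLev hF x hx d hd hRT _ _
    hgeom ρ hρ hres a hfrob
  obtain ⟨c, st, hc⟩ := hgeom
  refine Fermat.Agent.S59.CaseC.H47.stepP_core hDATUM hUnr hUnip hS33 hDEF hORDT hTAUP hSEL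
    hCPNE 𝒪 p hp2 hp𝒪 ρbar Smin hyp hbar hord Sig s hLev hF x hx d hd hRT ?_ ρ hρ hres a hfrob
  intro H ηhat hHπ hηhat hHdet hHres P hP ℒ g hg z hz πx
  obtain ⟨w, hw⟩ := hc H ηhat hHπ hηhat hHdet hHres P hP ℒ g hg z hz πx
  exact ⟨c, st, w, hw⟩

/-- **STEP-p, pointwise form**: the wiring. -/
theorem stmt_STEPPptWIRE : Fermat.Agent.S59.CaseC.Geom.Stmt_STEPPptWIRE :=
  stepppt_of Fermat.Agent.S59.Datum.stmt_DATUM Fermat.Agent.S59.Asm.H7.stmt_UnrDatum
    Fermat.Agent.S59.Asm.H7.stmt_UnipDatum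

/-- **STEP-p**, the wiring in the form of `CaseC/Defs.lean`. -/
theorem stmt_STEPPWIRE : Fermat.Agent.S59.CaseC.Stmt_STEPPWIRE :=
  Fermat.Agent.S59.CaseC.H47.steppwire_of Fermat.Agent.S59.Datum.stmt_DATUM
    Fermat.Agent.S59.Asm.H7.stmt_UnrDatum Fermat.Agent.S59.Asm.H7.stmt_UnipDatum

end Fermat.Agent.S59.CaseC.Geom.H47

end
-- ==== END Fermat.Agent.S59.CaseC.Geom.H47_StepPpt

-- ==== BEGIN Fermat.Agent.S59.LL.H40_LLChain
section

set_option autoImplicit false

namespace Fermat.Agent.S59.LL.H40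

/-- **B2 for the components `20`, `02` at the tame levels**: DONE (helper87, at all levels). -/
theorem stmt_CPow2002Tame : Fermat.Agent.S59.LL.SQ.H58.Stmt_CPow2002Tame := by
  intro p hp _ q M B k hB hq _ _ _ _ _ _ hqM A hA
  exact Fermat.Agent.S59.LL.SQ.H87.stmt_CPow2002All p hp.pos q M B k hB hq hqM A hA

/-- **SQ at the tame levels, `q` odd**, from (T′) at the tame levels. -/
theorem sqNewTameAt_of_torSpan (hT : Fermat.Agent.S59.LL.SQ.H58.Stmt_TorSpanSqTame)
    (p : ℕ) (hp : p.Prime) (hp2 : p ≠ 2) : SqNewTameAt p :=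
  Fermat.Agent.S59.LL.SQ.H58.sqNewTameAt_of Fermat.Agent.S59.LL.SQ.H16.stmt_Reg11Tame
    stmt_CPow2002Tame hT p hp hp2

/-- **Level lowering at `p = 3`** from (T′) at the tame levels and the PIVOT cores. -/
theorem llec0_three_of (hT : Fermat.Agent.S59.LL.SQ.H58.Stmt_TorSpanSqTame)
    (hPC : Fermat.Agent.L.Pivot.Stmt_PivotCoreB)
    (hPCA : Fermat.Agent.L.Pivot3.Stmt_PivotCoreBA) : LLec0At 3 :=
  Fermat.Agent.S38.H93.llec0At_of_cores 3
    (sqNewTameAt_of_torSpan hT 3 Nat.prime_three (by norm_num))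
    Fermat.Agent.S59.LL.SQ23.H63.sqNewTwo3 hPC hPCA

/-- **Level lowering at `p = 5`** from (T′) at the tame levels, SQ at `q = 2` and the PIVOT
cores. -/
theorem llec0_five_of (hT : Fermat.Agent.S59.LL.SQ.H58.Stmt_TorSpanSqTame)
    (hTwo5 : SqNewTwoAt 5)
    (hPC : Fermat.Agent.L.Pivot.Stmt_PivotCoreB)
    (hPCA : Fermat.Agent.L.Pivot3.Stmt_PivotCoreBA) : LLec0At 5 :=
  Fermat.Agent.S38.H93.llec0At_of_cores 5
    (sqNewTameAt_of_torSpan hT 5 Nat.prime_five (by norm_num)) hTwo5 hPC hPCA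

/-- **Level lowering at `p = 3` and `p = 5`** from the open packages. -/
theorem llec0_all_of (hT : Fermat.Agent.S59.LL.SQ.H58.Stmt_TorSpanSqTame)
    (hTwo5 : SqNewTwoAt 5)
    (hPC : Fermat.Agent.L.Pivot.Stmt_PivotCoreB)
    (hPCA : Fermat.Agent.L.Pivot3.Stmt_PivotCoreBA) :
    ∀ p : ℕ, p = 3 ∨ p = 5 → LLec0At p := by
  rintro p (rfl | rfl)
  · exact llec0_three_of hT hPC hPCA
  · exact llec0_five_of hT hTwo5 hPC hPCA

end Fermat.Agent.S59.LL.H40

end
-- ==== END Fermat.Agent.S59.LL.H40_LLChain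

-- ==== BEGIN Fermat.Agent.S59.NonMin.Geom.H78_Ihara3v
section

/-!
# S59 / NMGEOM, leaf IHARA3 (helper78): Ihara's lemma for three degeneracy maps over a field

All statements for a field `k` of characteristic `p`, a prime `q ∤ N` (`q = p` allowed), a
non-Eisenstein system of eigenvalues `(P, a)`:

* `ihara3_first` : `x₁` eigen, `x₂, x₃` cuspidal, `A₁ x₁ + A₂ x₂ + A₃ x₃ = 0` ⟹ `x₁ = 0`;
* `ihara2_gen`   : `x₁` eigen, `x₂` cuspidal, `res1 x₁ + res2 x₂ = 0` ⟹ `x₁ = 0 ∧ x₂ = 0`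
                   (this is `CaseC.Geom.Stmt_IHARA2k`);
* `ihara3v_gen`  : `x₁, x₂` eigen, `x₃` cuspidal, `A₁ x₁ + A₂ x₂ + A₃ x₃ = 0` ⟹ all vanish;
* `stmt_IHARA3v : Stmt_IHARA3v`, `stmt_IHARA3 : Geom.Stmt_IHARA3`.
This file contains no `sorry`.
-/

set_option autoImplicit false

open scoped MatrixGroups
open CongruenceSubgroup Matrix

namespace Fermat.Agent.S59.NonMin.Geom.H78

open Fermat.Agent.S41 Fermat.Agent.S41.H19 Fermat.Agent.S41.Ihara Fermat.Agent.Betti
  Fermat.Agent.S59.NonMin.Geom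

section Mats

theorem mat_j1 (N q : ℕ) (h : Gamma0 (N * q ^ 2)) : mat (j1 N q h) = mat h := rfl

theorem mat_j2 (N q : ℕ) (h : Gamma0 (N * q ^ 2)) : mat (j2 N q h) = conjMat q (mat h) := rfl

theorem mat_j3 (N q : ℕ) (h : Gamma0 (N * q ^ 2)) :
    mat (j3 N q h) = conjMat q (conjMat q (mat h)) := rfl

end Mats

section Main

variable (k : Type) [Field k] (p : ℕ) [Fact p.Prime] [CharP k p] (N q : ℕ)

/-- **First component**: only `x₁` is assumed to be an eigenvector; `q = p` allowed. -/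
theorem ihara3_first (hN : 0 < N) (hq : q.Prime) (hqN : ¬ q ∣ N)
    (P : ℕ → Prop) (a : ℕ → k) (hP : ∀ ℓ, P ℓ → ℓ.Prime ∧ ¬ ℓ ∣ N * q ∧ ℓ ≠ p)
    (hex : ∀ M : ℕ, 0 < M → p ∣ M →
      ∃ ℓ, P ℓ ∧ ℓ % M = 1 % M ∧ (q : ZMod ℓ) ^ ((ℓ - 1) / p) ≠ 1 ∧ a ℓ ≠ 2)
    (x₁ x₂ x₃ : Additive (Gamma0 N) →+ k)
    (hx₁ : IsCuspidalHom (Gamma0 N) x₁) (hx₂ : IsCuspidalHom (Gamma0 N) x₂)
    (hx₃ : IsCuspidalHom (Gamma0 N) x₃)
    (heig : ∀ (ℓ : ℕ) (hℓ : ℓ.Prime) (hℓN : ¬ ℓ ∣ N), P ℓ → TB N k hℓ hℓN x₁ = a ℓ • x₁)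
    (hrel : ∀ h : Gamma0 (N * q ^ 2), x₁ (Additive.ofMul (j1 N q h))
      + x₂ (Additive.ofMul (j2 N q h)) + x₃ (Additive.ofMul (j3 N q h)) = 0) : x₁ = 0 := by
  rcases Nat.lt_or_ge N 2 with hN1 | hN2
  · have h1 : N = 1 := by omega
    subst h1
    exact eq_zero_of_level_one x₁ hx₁
  have hp : p.Prime := Fact.out
  have heigT : ∀ ℓ, P ℓ → Tcoh N k ℓ x₁ = a ℓ • x₁ := by
    intro ℓ hPℓ
    obtain ⟨hℓ, hℓNq, -⟩ := hP ℓ hPℓ
    have hℓN : ¬ ℓ ∣ N := fun h => hℓNq (dvd_mul_of_dvd_left h q)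
    rw [Fermat.Agent.S41.H20.Tcoh_eq_TB hN hℓ hℓN]
    exact heig ℓ hℓ hℓN hPℓ
  have hM0 : 0 < N * q ^ 2 * p := by
    have := hp.pos
    have := hq.pos
    positivity
  obtain ⟨ℓ₀, hPℓ₀, hℓ₀M, -, haℓ₀⟩ := hex (N * q ^ 2 * p) hM0 (dvd_mul_left _ _)
  obtain ⟨hℓ₀, hℓ₀Nq, -⟩ := hP ℓ₀ hPℓ₀
  have hℓ₀1 : ℓ₀ % (N * q ^ 2) = 1 % (N * q ^ 2) :=
    Nat.ModEq.of_dvd (Dvd.intro _ rfl) hℓ₀M
  have hMdvd : N * q ^ 2 * p ∣ ℓ₀ - 1 :=
    (Nat.modEq_iff_dvd' hℓ₀.one_le).mp (Nat.ModEq.symm hℓ₀M)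
  have hpℓ : p ∣ ℓ₀ - 1 := dvd_trans (dvd_mul_left _ _) hMdvd
  have hℓk : (ℓ₀ : k) = 1 := by
    have h0 : ((ℓ₀ - 1 : ℕ) : k) = 0 := (CharP.cast_eq_zero_iff k p _).mpr hpℓ
    rw [Nat.cast_sub hℓ₀.one_le, Nat.cast_one, sub_eq_zero] at h0
    exact h0
  have ha : a ℓ₀ ≠ (ℓ₀ : k) + 1 := by
    rw [hℓk]
    intro h
    apply haℓ₀
    rw [h]
    norm_num
  exact core_zero k p hN2 hq hqN P a hP hex x₁ hx₁ heigT
    (fun r hr => first_per Fermat.Agent.S59.NonMin.Geom.H11.stmt_ORB3 hN2 hq hqN x₁ x₂ x₃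
      hx₁ hx₂ hx₃ (j1 N q) (j2 N q) (j3 N q) (mat_j1 N q) (mat_j2 N q) (mat_j3 N q) hrel
      hℓ₀ hℓ₀Nq hℓ₀1 (a ℓ₀) ha (heigT ℓ₀ hPℓ₀) hr)

omit [Field k] [Fact p.Prime] [CharP k p] in
/-- The zero homomorphism is cuspidal. -/
theorem isCuspidal_zero' {A : Type*} [AddCommGroup A] :
    IsCuspidalHom (Gamma0 N) (0 : Additive (Gamma0 N) →+ A) :=
  fun _ _ => rfl

/-- **Two degeneracy maps** (`= CaseC.Geom.Stmt_IHARA2k`): only `x₁` is assumed to be an
eigenvector; `q = p` allowed. -/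
theorem ihara2_gen (hN : 0 < N) (hq : q.Prime) (hqN : ¬ q ∣ N)
    (P : ℕ → Prop) (a : ℕ → k) (hP : ∀ ℓ, P ℓ → ℓ.Prime ∧ ¬ ℓ ∣ N * q ∧ ℓ ≠ p)
    (hex : ∀ M : ℕ, 0 < M → p ∣ M →
      ∃ ℓ, P ℓ ∧ ℓ % M = 1 % M ∧ (q : ZMod ℓ) ^ ((ℓ - 1) / p) ≠ 1 ∧ a ℓ ≠ 2)
    (x₁ x₂ : Additive (Gamma0 N) →+ k)
    (hx₁ : IsCuspidalHom (Gamma0 N) x₁) (hx₂ : IsCuspidalHom (Gamma0 N) x₂)
    (heig : ∀ (ℓ : ℕ) (hℓ : ℓ.Prime) (hℓN : ¬ ℓ ∣ N), P ℓ → TB N k hℓ hℓN x₁ = a ℓ • x₁)
    (hrel : res1 N q k x₁ + res2 N q k x₂ = 0) : x₁ = 0 ∧ x₂ = 0 := by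
  have hrel3 : ∀ h : Gamma0 (N * q ^ 2), x₁ (Additive.ofMul (j1 N q h))
      + x₂ (Additive.ofMul (j2 N q h))
      + (0 : Additive (Gamma0 N) →+ k) (Additive.ofMul (j3 N q h)) = 0 := by
    intro h
    have h0 := DFunLike.congr_fun hrel (Additive.ofMul (inclG (N * q) q (castG N q h)))
    rw [AddMonoidHom.zero_apply, add_zero]
    exact h0
  have h1 : x₁ = 0 := ihara3_first k p N q hN hq hqN P a hP hex x₁ x₂ 0 hx₁ hx₂
    (isCuspidal_zero' N) heig hrel3
  refine ⟨h1, ?_⟩
  have hres2 : ∀ h : Gamma0 (N * q), x₂ (Additive.ofMul (conjG N q h)) = 0 := by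
    intro h
    have h0 := DFunLike.congr_fun hrel (Additive.ofMul h)
    rw [h1] at h0
    have h2 : (res1 N q k (0 : Additive (Gamma0 N) →+ k) + res2 N q k x₂) (Additive.ofMul h)
        = x₂ (Additive.ofMul (conjG N q h)) := by
      show (0 : k) + x₂ (Additive.ofMul (conjG N q h)) = _
      rw [zero_add]
    rw [h2] at h0
    exact h0
  exact eq_zero_of_conjG hq x₂ hres2 (hx₂ (uMat N 1) (trace_uMat N 1))

omit [Field k] [Fact p.Prime] [CharP k p] in
/-- Descent of a relation between `A₂` and `A₃` to the level `N q`. -/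
theorem rel23_descend {A : Type*} [AddCommGroup A] (hq : q.Prime)
    (x₂ x₃ : Additive (Gamma0 N) →+ A)
    (hx₂ : IsCuspidalHom (Gamma0 N) x₂) (hx₃ : IsCuspidalHom (Gamma0 N) x₃)
    (hrel : ∀ h : Gamma0 (N * q ^ 2),
      x₂ (Additive.ofMul (j2 N q h)) + x₃ (Additive.ofMul (j3 N q h)) = 0) :
    res1 N q A x₂ + res2 N q A x₃ = 0 := by
  apply eq_zero_of_conjG (N := N * q) hq
  · intro h''
    have hle : Gamma0 (N * q * q) ≤ Gamma0 (N * q ^ 2) :=
      le_of_eq (congrArg (fun M => Gamma0 M) (by ring))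
    have hmem : (h'' : SL(2, ℤ)) ∈ Gamma0 (N * q ^ 2) := hle h''.2
    have e2 : inclG N q (conjG (N * q) q h'') = j2 N q ⟨h''.1, hmem⟩ := mat_injective rfl
    have e3 : conjG N q (conjG (N * q) q h'') = j3 N q ⟨h''.1, hmem⟩ := mat_injective rfl
    show x₂ (Additive.ofMul (inclG N q (conjG (N * q) q h'')))
      + x₃ (Additive.ofMul (conjG N q (conjG (N * q) q h''))) = 0
    rw [e2, e3]
    exact hrel _
  · show x₂ (Additive.ofMul (inclG N q (uMat (N * q) 1)))
      + x₃ (Additive.ofMul (conjG N q (uMat (N * q) 1))) = 0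
    have t2 : x₂ (Additive.ofMul (inclG N q (uMat (N * q) 1))) = 0 :=
      hx₂ _ (trace_uMat (N * q) 1)
    have t3 : x₃ (Additive.ofMul (conjG N q (uMat (N * q) 1))) = 0 := by
      apply hx₃
      show (mat (conjG N q (uMat (N * q) 1))).trace ^ 2 ≤ 4
      rw [mat_conjG, trace_conjMat]
      exact trace_uMat (N * q) 1
    rw [t2, t3, add_zero]

/-- **Three degeneracy maps, three vectors**: `x₁, x₂` eigen, `x₃` cuspidal; `q = p` allowed. -/
theorem ihara3v_gen (hN : 0 < N) (hq : q.Prime) (hqN : ¬ q ∣ N)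
    (P : ℕ → Prop) (a : ℕ → k) (hP : ∀ ℓ, P ℓ → ℓ.Prime ∧ ¬ ℓ ∣ N * q ∧ ℓ ≠ p)
    (hex : ∀ M : ℕ, 0 < M → p ∣ M →
      ∃ ℓ, P ℓ ∧ ℓ % M = 1 % M ∧ (q : ZMod ℓ) ^ ((ℓ - 1) / p) ≠ 1 ∧ a ℓ ≠ 2)
    (x₁ x₂ x₃ : Additive (Gamma0 N) →+ k)
    (hx₁ : IsCuspidalHom (Gamma0 N) x₁) (hx₂ : IsCuspidalHom (Gamma0 N) x₂)
    (hx₃ : IsCuspidalHom (Gamma0 N) x₃)
    (heig₁ : ∀ (ℓ : ℕ) (hℓ : ℓ.Prime) (hℓN : ¬ ℓ ∣ N), P ℓ → TB N k hℓ hℓN x₁ = a ℓ • x₁)
    (heig₂ : ∀ (ℓ : ℕ) (hℓ : ℓ.Prime) (hℓN : ¬ ℓ ∣ N), P ℓ → TB N k hℓ hℓN x₂ = a ℓ • x₂)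
    (hrel : resA1 N q k x₁ + resA2 N q k x₂ + resA3 N q k x₃ = 0) :
    x₁ = 0 ∧ x₂ = 0 ∧ x₃ = 0 := by
  have hrel' : ∀ h : Gamma0 (N * q ^ 2), x₁ (Additive.ofMul (j1 N q h))
      + x₂ (Additive.ofMul (j2 N q h)) + x₃ (Additive.ofMul (j3 N q h)) = 0 :=
    fun h => DFunLike.congr_fun hrel (Additive.ofMul h)
  have h1 : x₁ = 0 :=
    ihara3_first k p N q hN hq hqN P a hP hex x₁ x₂ x₃ hx₁ hx₂ hx₃ heig₁ hrel'
  have hrel23 : ∀ h : Gamma0 (N * q ^ 2),
      x₂ (Additive.ofMul (j2 N q h)) + x₃ (Additive.ofMul (j3 N q h)) = 0 := by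
    intro h
    have h0 := hrel' h
    rw [h1, AddMonoidHom.zero_apply, zero_add] at h0
    exact h0
  have hy := rel23_descend N q hq x₂ x₃ hx₂ hx₃ hrel23
  obtain ⟨h2, h3⟩ := ihara2_gen k p N q hN hq hqN P a hP hex x₂ x₃ hx₂ hx₃ heig₂ hy
  exact ⟨h1, h2, h3⟩

/-- **IHARA3, three-vector form.** -/
theorem stmt_IHARA3v : Stmt_IHARA3v := by
  intro k _ p _ _ _ N q hN hq hqN _ P a hP hex x₁ x₂ x₃ hx₁ hx₂ hx₃ heig hrel
  exact ihara3v_gen k p N q hN hq hqN P a hP hex x₁ x₂ x₃ hx₁ hx₂ hx₃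
    (fun ℓ hℓ hℓN hPℓ => (heig ℓ hℓ hℓN hPℓ).1) (fun ℓ hℓ hℓN hPℓ => (heig ℓ hℓ hℓN hPℓ).2.1) hrel

omit [Field k] [Fact p.Prime] [CharP k p] in
/-- A scalar multiple of a cuspidal homomorphism is cuspidal. -/
theorem isCuspidal_smul' {k : Type*} [Field k] (c : k) (x : Additive (Gamma0 N) →+ k)
    (hx : IsCuspidalHom (Gamma0 N) x) : IsCuspidalHom (Gamma0 N) (c • x) := by
  intro g hg
  show c • x (Additive.ofMul g) = 0
  rw [hx g hg, smul_zero]

/-- **IHARA3** (single vector, constants). -/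
theorem stmt_IHARA3 : Stmt_IHARA3 := by
  intro k _ p _ _ _ N q hN hq hqN _ P a hP hex x hx heig c₁ c₂ c₃ hc hrel
  have hrel' : ∀ h : Gamma0 (N * q ^ 2), c₁ * x (Additive.ofMul (j1 N q h))
      + c₂ * x (Additive.ofMul (j2 N q h)) + c₃ * x (Additive.ofMul (j3 N q h)) = 0 :=
    fun h => DFunLike.congr_fun hrel (Additive.ofMul h)
  by_cases h1 : c₁ = 0
  · by_cases h2 : c₂ = 0
    · have h3 : c₃ ≠ 0 := by
        rcases hc with h | h | h
        · exact absurd h1 h
        · exact absurd h2 h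
        · exact h
      have hr3 : ∀ h : Gamma0 (N * q ^ 2),
          (0 : Additive (Gamma0 N) →+ k) (Additive.ofMul (j2 N q h))
            + x (Additive.ofMul (j3 N q h)) = 0 := by
        intro h
        have h0 := hrel' h
        rw [h1, h2, zero_mul, zero_mul, zero_add, zero_add] at h0
        rw [AddMonoidHom.zero_apply, zero_add]
        exact (mul_eq_zero.mp h0).resolve_left h3
      have hy := rel23_descend N q hq 0 x (isCuspidal_zero' N) hx hr3
      have hres2 : ∀ h : Gamma0 (N * q), x (Additive.ofMul (conjG N q h)) = 0 := by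
        intro h
        have h0 := DFunLike.congr_fun hy (Additive.ofMul h)
        have h4 : (res1 N q k (0 : Additive (Gamma0 N) →+ k) + res2 N q k x) (Additive.ofMul h)
            = x (Additive.ofMul (conjG N q h)) := by
          show (0 : k) + x (Additive.ofMul (conjG N q h)) = _
          rw [zero_add]
        rw [h4] at h0
        exact h0
      exact eq_zero_of_conjG hq x hres2 (hx (uMat N 1) (trace_uMat N 1))
    · have hr23 : ∀ h : Gamma0 (N * q ^ 2), x (Additive.ofMul (j2 N q h))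
          + ((c₃ / c₂) • x) (Additive.ofMul (j3 N q h)) = 0 := by
        intro h
        have h0 := hrel' h
        rw [h1, zero_mul, zero_add] at h0
        show x (Additive.ofMul (j2 N q h)) + (c₃ / c₂) * x (Additive.ofMul (j3 N q h)) = 0
        field_simp
        linear_combination h0
      have hy := rel23_descend N q hq x ((c₃ / c₂) • x) hx (isCuspidal_smul' N _ x hx) hr23
      exact (ihara2_gen k p N q hN hq hqN P a hP hex x ((c₃ / c₂) • x) hx
        (isCuspidal_smul' N _ x hx) heig hy).1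
  · have hr : ∀ h : Gamma0 (N * q ^ 2), x (Additive.ofMul (j1 N q h))
        + ((c₂ / c₁) • x) (Additive.ofMul (j2 N q h))
        + ((c₃ / c₁) • x) (Additive.ofMul (j3 N q h)) = 0 := by
      intro h
      have h0 := hrel' h
      show x (Additive.ofMul (j1 N q h)) + (c₂ / c₁) * x (Additive.ofMul (j2 N q h))
        + (c₃ / c₁) * x (Additive.ofMul (j3 N q h)) = 0
      field_simp
      linear_combination h0
    exact ihara3_first k p N q hN hq hqN P a hP hex x ((c₂ / c₁) • x) ((c₃ / c₁) • x) hx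
      (isCuspidal_smul' N _ x hx) (isCuspidal_smul' N _ x hx) heig hr

end Main

end Fermat.Agent.S59.NonMin.Geom.H78

end
-- ==== END Fermat.Agent.S59.NonMin.Geom.H78_Ihara3v

-- ==== BEGIN Fermat.Agent.S59.NonMin.Geom.H94_LiftTors
section

/-!
# S59 / NMGEOM, leaf DUAL, part LIFT-B (helper94): TORSLIFT with values in the residue field

`exists_par_lift` : a cuspidal homomorphism `Γ₀(M) → k`, `k` the (finite) residue field of `𝒪`, is
the reduction of a cuspidal homomorphism `Γ₀(M) → 𝒪`.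
[Coordinates in a basis of `k` over `𝔽_p` and `S41.H77.exists_cusp_lift`.]

No `sorry`.
-/

set_option autoImplicit false
set_option linter.unusedSectionVars false
set_option linter.style.haveILetI false

open CuspForm CongruenceSubgroup IsLocalRing
open scoped MatrixGroups

namespace Fermat.Agent.S59.NonMin.Geom.H94

open Fermat.Agent.S41 Fermat.Agent.Betti Fermat.Agent.S59.NonMin.Geom
open ModularCurve.Period

/-- TORSLIFT with values in the residue field. -/
theorem exists_par_lift {𝒪 : Type} [CommRing 𝒪] [IsLocalRing 𝒪] [Finite (ResidueField 𝒪)]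
    (p : ℕ) [Fact p.Prime] (hp : (p : 𝒪) ∈ maximalIdeal 𝒪) (M : ℕ) (hM : M ≠ 0)
    (χ : Additive (Gamma0 M) →+ ResidueField 𝒪) (hχ : IsCuspidalHom (Gamma0 M) χ) :
    ∃ φ : Additive (Gamma0 M) →+ 𝒪, IsCuspidalHom (Gamma0 M) φ ∧ redB 𝒪 φ = χ := by
  classical
  have hp0 : ((p : ℕ) : ResidueField 𝒪) = 0 := by
    have h1 : residue 𝒪 (p : 𝒪) = 0 := (residue_eq_zero_iff _).mpr hp
    rwa [map_natCast] at h1
  haveI : CharP (ResidueField 𝒪) p :=
    (CharP.charP_iff_prime_eq_zero (Fact.out : p.Prime)).mpr hp0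
  letI : Algebra (ZMod p) (ResidueField 𝒪) := ZMod.algebra _ p
  haveI : Module.Finite (ZMod p) (ResidueField 𝒪) := Module.Finite.of_finite
  let B := Module.finBasis (ZMod p) (ResidueField 𝒪)
  -- the coordinates of `χ`
  let χc : Fin (Module.finrank (ZMod p) (ResidueField 𝒪)) → (Additive (Gamma0 M) →+ ZMod p) :=
    fun i => (B.coord i).toAddMonoidHom.comp χ
  have hχc : ∀ i, IsCuspidalHom (Gamma0 M) (χc i) := by
    intro i γ hγ
    show B.coord i (χ (Additive.ofMul γ)) = 0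
    rw [hχ γ hγ, map_zero]
  have hlift : ∀ i, ∃ φ : Additive (Gamma0 M) →+ ℤ, IsCuspidalHom (Gamma0 M) φ ∧
      Fermat.Agent.S41.H77.redHom p φ = χc i :=
    fun i => Fermat.Agent.S41.H77.exists_cusp_lift M hM p (χc i) (hχc i)
  choose φc hφc hφred using hlift
  have hβ : ∀ i, ∃ β : 𝒪, residue 𝒪 β = B i := fun i => residue_surjective (B i)
  choose β hβ using hβ
  refine ⟨∑ i, β i • (Int.castAddHom 𝒪).comp (φc i), ?_, ?_⟩
  · intro γ hγ
    rw [AddMonoidHom.finsetSum_apply]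
    refine Finset.sum_eq_zero fun i _ => ?_
    show β i • ((φc i (Additive.ofMul γ) : ℤ) : 𝒪) = 0
    rw [hφc i γ hγ, Int.cast_zero, smul_zero]
  · refine AddMonoidHom.ext fun γ => ?_
    rw [redB_apply, AddMonoidHom.finsetSum_apply, map_sum]
    have h1 : χ γ = ∑ i, B.repr (χ γ) i • B i := (B.sum_repr (χ γ)).symm
    rw [h1]
    refine Finset.sum_congr rfl fun i _ => ?_
    show residue 𝒪 (β i • ((φc i γ : ℤ) : 𝒪)) = _
    rw [smul_eq_mul, map_mul, hβ i, map_intCast]
    have h2 : B.repr (χ γ) i = ((φc i γ : ℤ) : ZMod p) := by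
      have := congrArg (fun f : Additive (Gamma0 M) →+ ZMod p => f γ) (hφred i)
      exact this.symm
    rw [h2, Algebra.smul_def, map_intCast, mul_comm]

end Fermat.Agent.S59.NonMin.Geom.H94

end
-- ==== END Fermat.Agent.S59.NonMin.Geom.H94_LiftTors

-- ==== BEGIN Fermat.Agent.S59.NonMin.Geom.H98_RelSplitStmt
section

/-!
# S59 / NMGEOM leaf RELSPLIT (helper98): the statement

`stmt_RELSPLIT : Stmt_RELSPLIT`, from `H98.relsplit_of` and the landed relations
(`Stmt_REL1`, `Stmt_RELU`: helper12; `Stmt_RELT`: helper13; `Stmt_RELPAR`: helper94).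
-/

set_option autoImplicit false

namespace Fermat.Agent.S59.NonMin.Geom.H98

open Fermat.Agent.S59.NonMin.Geom

/-- **RELSPLIT**. -/
theorem stmt_RELSPLIT : Stmt_RELSPLIT :=
  relsplit_of_RELT Fermat.Agent.S59.NonMin.Geom.H13.stmt_RELT

end Fermat.Agent.S59.NonMin.Geom.H98

end
-- ==== END Fermat.Agent.S59.NonMin.Geom.H98_RelSplitStmt
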