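-- GENERATED (merged mirror, NOTES/tools/trim/merge3_helper67.py): 10 modules of the originals, bodies verbatim.
import Mathlib
import Fermat.Agent.Zm.S59_L01_000
import Fermat.Agent.Zm.S59_L11_000
import Fermat.Agent.Zm.S59_L03_000
import Fermat.Agent.Zm.S59_L08_000
import Fermat.Agent.Zm.S59_L10_000
import Fermat.Agent.Zm.S59_L07_000
import Fermat.Agent.Zm.S59_L09_000
import Fermat.Agent.Zm.S59_L02_001
import Fermat.Agent.Zm.S59_L04_001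
import Fermat.Agent.Zm.S59_L03_001
import Fermat.Agent.Zm.S59_L06_000
import Fermat.Agent.Zm.S59_L05_000
import Fermat.Agent.Zm.S59_L01_002
import Fermat.Agent.Zm.S59_L02_004
import Fermat.Agent.Zm.S59_L01_004
import Fermat.Agent.Zm.S59_L05_004
import Fermat.Agent.Zm.S35_L03_003
import Fermat.Agent.Zm.S59_L10_001
import Fermat.Agent.Zm.S59_L03_003
import Fermat.Agent.Zm.S59_L03_004

-- ==== BEGIN Fermat.Agent.S27.Char0.H20_Wire
section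

/-!
# S27 char-0 half: the wiring (helper20)

`s27_of` : the frozen statement S27 from the four open packages
`Stmt_FFX` (frozen hypotheses ⇒ function field), `Stmt_REDEX` (good reduction exists),
`Stmt_LIFT` (torsion lifts), `Stmt_CountPu` (count over `F̄_p`, helper62's half).
Plugged in: FF-H (`H20.stmt_FFH`), GFF, TI-PIC, GENUS-EQ (helper52).
-/

set_option autoImplicit false

noncomputable section

open AlgebraicCurve IntermediateField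

namespace Fermat.Agent.S27.Char0.H20

open Fermat.Agent.RED.H17

universe u v

/-- A class of `Pic0` killed by `n` is the class of a divisor `E` of degree `0` with `n E`
principal. -/
theorem exists_divisor_of_torsion {K : Type u} {F : Type v} [Field K] [Field F] [Algebra K F]
    (n : ℕ) (y : Pic0 K F) (hy : (n : ℤ) • y = 0) :
    ∃ (E : Divisor K F) (hE : E ∈ Divisor.degZero (K := K) (F := F)),
      y = Pic0.mk ⟨E, hE⟩ ∧ (n : ℤ) • E ∈ Divisor.principal (K := K) (F := F) := by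
  obtain ⟨⟨E, hE⟩, rfl⟩ := Pic0.mk_surjective y
  refine ⟨E, hE, rfl, ?_⟩
  have h1 : Pic0.mk ((n : ℤ) • (⟨E, hE⟩ : Divisor.degZero (K := K) (F := F))) = 0 := hy
  have h2 := (QuotientAddGroup.eq_zero_iff _).mp h1
  exact h2

/-- The class of a divisor of degree `0` is zero iff the divisor is principal. -/
theorem mk_eq_zero_iff' {K : Type u} {F : Type v} [Field K] [Field F] [Algebra K F]
    (E : Divisor K F) (hE : E ∈ Divisor.degZero (K := K) (F := F)) :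
    Pic0.mk ⟨E, hE⟩ = 0 ↔ E ∈ Divisor.principal (K := K) (F := F) :=
  QuotientAddGroup.eq_zero_iff _

/-- **S27** from the open packages. -/
theorem s27_of (hFFX : Stmt_FFX.{u, v}) (hREDEX : Stmt_REDEX.{u, v})
    (hLIFT : Stmt_LIFT.{u, v, u, v}) (hCount : Stmt_CountPu.{u, v})
    (K : Type u) (F : Type v) [Field K] [Field F] [Algebra K F] [IsAlgClosed K] [CharZero K]
    [IsCurveOver K F] [Algebra.EssFiniteType K F]
    (ℓ : ℕ) [Fact ℓ.Prime] (j : ℕ) :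
    Nat.card (Pic0.torsion K F (ℓ ^ j)) = ℓ ^ (2 * genusFF K F * j) := by
  have hℓ : ℓ.Prime := Fact.out
  have hFF : IsFFu K F := hFFX K F
  obtain ⟨H, g, c, hg⟩ := stmt_FFH K F hFF
  have hgenus : genusFF K F = g := Fermat.Agent.S27.Char0.H52.stmt_GFF K F H g c hg
  obtain ⟨p, k, Ft, _, _, _, _, _, hp, hpℓ, halg, ⟨G⟩⟩ := hREDEX K F hFF ℓ
  have hFFt : IsFFu k Ft := ⟨G.S.rd G.x, G.transc, G.fin'⟩
  obtain ⟨H', g', c', hg'⟩ := stmt_FFH k Ft hFFt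
  have hgg : g' = g :=
    Fermat.Agent.S27.Char0.H52.stmt_GenusEq K F k Ft G.S H H' g c g' c' hg hg' G.genusLE
  subst hgg
  obtain ⟨ρ, hρmk, -, hρinj⟩ :=
    Fermat.Agent.S27.Char0.H52.stmt_TIPic K F k Ft G.S H H' g' c g' c' hg hg' G.genusLE
  have hn : ((ℓ ^ j : ℕ) : k) ≠ 0 := by
    intro h0
    have h1 : p ∣ ℓ ^ j := (CharP.cast_eq_zero_iff k p (ℓ ^ j)).mp h0
    have h2 : p ∣ ℓ := hp.dvd_of_dvd_pow h1
    exact hpℓ ((Nat.prime_dvd_prime_iff_eq hp hℓ).mp h2)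
  -- the bijection on torsion
  have hmaps : ∀ x : Pic0 K F, x ∈ Pic0.torsion K F (ℓ ^ j) → ρ x ∈ Pic0.torsion k Ft (ℓ ^ j) := by
    intro x hx
    rw [Pic0.mem_torsion] at hx ⊢
    rw [← map_zsmul, hx, map_zero]
  let φ : Pic0.torsion K F (ℓ ^ j) → Pic0.torsion k Ft (ℓ ^ j) := fun x => ⟨ρ x, hmaps x x.2⟩
  have hφinj : Function.Injective φ := by
    intro x y hxy
    have h1 : ρ (x : Pic0 K F) = ρ (y : Pic0 K F) := congrArg Subtype.val hxy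
    have h2 : ρ ((x : Pic0 K F) - y) = 0 := by rw [map_sub, h1, sub_self]
    have h3 : ((ℓ ^ j : ℕ) : ℤ) • ((x : Pic0 K F) - y) = 0 := by
      have hx := Pic0.mem_torsion.mp x.2
      have hy := Pic0.mem_torsion.mp y.2
      rw [zsmul_sub, hx, hy, sub_self]
    have h4 := hρinj (ℓ ^ j) hn _ h3 h2
    exact Subtype.ext (sub_eq_zero.mp h4)
  have hφsurj : Function.Surjective φ := by
    rintro ⟨y, hy⟩
    rw [Pic0.mem_torsion] at hy
    obtain ⟨E, hE, rfl, hEn⟩ := exists_divisor_of_torsion (ℓ ^ j) y hy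
    obtain ⟨D, hD, hDn, hDE⟩ := hLIFT K F k Ft G H H' g' c c' hg hg' (ℓ ^ j) hn E hE hEn
    have hD' : D ∈ Divisor.degZero (K := K) (F := F) := hD
    have hx : Pic0.mk ⟨D, hD'⟩ ∈ Pic0.torsion K F (ℓ ^ j) := by
      rw [Pic0.mem_torsion]
      have : ((ℓ ^ j : ℕ) : ℤ) • Pic0.mk ⟨D, hD'⟩
          = Pic0.mk (((ℓ ^ j : ℕ) : ℤ) • (⟨D, hD'⟩ : Divisor.degZero (K := K) (F := F))) := rfl
      rw [this]
      exact (QuotientAddGroup.eq_zero_iff _).mpr hDn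
    refine ⟨⟨_, hx⟩, Subtype.ext ?_⟩
    show ρ (Pic0.mk ⟨D, hD'⟩) = Pic0.mk ⟨E, hE⟩
    obtain ⟨hD'', hρD⟩ := hρmk D hD'
    rw [hρD, ← sub_eq_zero]
    have : Pic0.mk ⟨Finsupp.mapDomain G.S.r D, hD''⟩ - Pic0.mk ⟨E, hE⟩
        = Pic0.mk (⟨Finsupp.mapDomain G.S.r D, hD''⟩ - ⟨E, hE⟩) := rfl
    rw [this]
    exact (QuotientAddGroup.eq_zero_iff _).mpr hDE
  have hcard : Nat.card (Pic0.torsion K F (ℓ ^ j)) = Nat.card (Pic0.torsion k Ft (ℓ ^ j)) :=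
    Nat.card_congr (Equiv.ofBijective φ ⟨hφinj, hφsurj⟩)
  rw [hcard, hgenus]
  exact hCount k Ft p hp halg hFFt g' c' hg' ℓ hℓ hpℓ.symm j

end Fermat.Agent.S27.Char0.H20

end
end
-- ==== END Fermat.Agent.S27.Char0.H20_Wire

-- ==== BEGIN Fermat.Agent.S27.Char0.Lift.H68_SolveFinal
section

/-!
# S27 LIFT (helper68): SOLVE and LIFT, unconditional

`stmt_Solve : Stmt_Solve` from NORM-POLY (helper45, from NORM-ORD helper64 and POLY-CRIT
helper20), JAC-ORD (helper20), JAC-CONST (helper45, from TRACEPOLE) and EVAL-ID (helper64);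
`stmt_LIFT : Char0.Stmt_LIFT` by helper45's assembly.
-/

set_option autoImplicit false

namespace Fermat.Agent.S27.Char0.Lift.H68

universe u v u' v'

/-- **SOLVE**, unconditional. -/
theorem stmt_Solve : Stmt_Solve.{u, v, u', v'} :=
  stmt_Solve_of H45.stmt_NormPoly H20.stmt_JacOrd H45.stmt_JacConst H64.stmt_EvalID

/-- **LIFT**, unconditional. -/
theorem stmt_LIFT : Fermat.Agent.S27.Char0.Stmt_LIFT.{u, v, u', v'} :=
  H45.stmt_LIFT_of_solve stmt_Solve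

end Fermat.Agent.S27.Char0.Lift.H68

end
-- ==== END Fermat.Agent.S27.Char0.Lift.H68_SolveFinal

-- ==== BEGIN Fermat.Agent.S27.CharP.H62_Final
section

set_option autoImplicit false

noncomputable section

open AlgebraicCurve IntermediateField

namespace Fermat.Agent.S27.CharP.H62F

open Fermat.Agent.RED.H17 Fermat.Agent.S27 Fermat.Agent.S27.CharP

universe u v

theorem stmt_Z_Main_of_logDer (hLog : Zeta.Stmt_Z_LogDer.{v, 0}) : Zeta.Stmt_Z_Main.{v} :=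
  Zeta.H62.stmt_Z_Main_of Zeta.H97.stmt_Z_Fin
    (Zeta.H8.z_ext_of (Zeta.H52.stmt_Z_Rat_of Zeta.H97.stmt_Z_Fin) hLog)
    (Zeta.H30.z_norm_of Zeta.H97.stmt_Z_Fin hLog) Zeta.H57.stmt_Z_DivP
    IW.H68.stmt_IW_Fin IW.H68.stmt_IW_Card

theorem stmt_CountP_of_logDer (hLog : Zeta.Stmt_Z_LogDer.{v, 0}) : Stmt_CountP.{u, v} :=
  H62.stmt_CountP_of H41.stmt_FrobEx H38.stmt_PhiOrb H41S.stmt_Sys (stmt_Z_Main_of_logDer hLog)

theorem stmt_CountPu_of_logDer (hLog : Zeta.Stmt_Z_LogDer.{v, 0}) :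
    Char0.Stmt_CountPu.{u, v} := by
  intro k Ft _ _ _ _ p _ hp halg hFF g c hg ℓ hℓ hℓp j
  obtain ⟨H, -⟩ := Char0.H20.stmt_FFH k Ft hFF
  exact stmt_CountP_of_logDer hLog k Ft p hp halg hFF H g c hg ℓ hℓ hℓp j

end Fermat.Agent.S27.CharP.H62F

end
end
-- ==== END Fermat.Agent.S27.CharP.H62_Final

-- ==== BEGIN Fermat.Agent.S27.REDu.H10_ConsChart
section

/-!
# G-RED package CONS (helper10), part C3: fibre-wise conservation on a chart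

`S : RedSetting C F k Ft`, chart `x ∈ V` with `[Ft : k(xt)] = [F : C(x)]`.

* `exists_norm_poly` : for `f ∈ R = B ∩ V` the norm `N f` is `p(x)` with `p ∈ O[X]`, and
  `N (red f) = (p mod m)(xt)`.
* `fibre_conservation` (C3) : for a Gauss unit `f ∈ R` and `γ ∈ k`:
  `∑_{P : x(P) ∈ O, x(P) mod m = γ} ord_P f = ∑_{Q : xt(Q) = γ} ord_Q (red f)`.
-/

set_option autoImplicit false

universe uC uCf uK uR uF uL uE uk ukap uFp uFt uFtp uiot uEp uKp ux3b1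

noncomputable section

open AlgebraicCurve Polynomial IntermediateField

namespace Fermat.Agent.S27.REDu.H10

open Fermat.Agent.S27.REDu.H34 Fermat.Agent.S27.REDu.H34.RedSetting Fermat.Agent.S27.REDu.H51
  Fermat.Agent.S27.REDu.H79

open scoped IntermediateField.algebraAdjoinAdjoin

variable {C : Type uC} {F : Type uF} {k : Type uk} {Ft : Type uFt} [Field C] [Field F] [Algebra C F] [Field k] [Field Ft] [Algebra k Ft]
variable {S : RedSetting C F k Ft} {x : F} (hx : x ∈ S.V)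

/-- The norm of an element of `R = B ∩ V` is a polynomial in `x` over `O`, and it reduces to the
norm of the reduction. -/
theorem exists_norm_poly (hxt : Transcendental k (S.red ⟨x, hx⟩)) [FiniteDimensional ↥C⟮x⟯ F]
    (hdeg : Module.finrank ↥k⟮S.red ⟨x, hx⟩⟯ Ft = Module.finrank ↥C⟮x⟯ F)
    (f : ↥S.V) (hfi : IsIntegral ↥(Algebra.adjoin C {x}) (f : F)) :
    ∃ p₀ : (↥S.O)[X],
      ((Algebra.norm ↥C⟮x⟯ (f : F) : ↥C⟮x⟯) : F) = Polynomial.aeval x (p₀.map S.O.subtype) ∧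
      ((Algebra.norm ↥k⟮S.red ⟨x, hx⟩⟯ (S.red f) : ↥k⟮S.red ⟨x, hx⟩⟯) : Ft) =
        Polynomial.aeval (S.red ⟨x, hx⟩) (p₀.map S.resO) := by
  classical
  have hxC := transcendental_x hx hxt
  obtain ⟨βF, hβV, βt, hβt⟩ := exists_ortho_basis hx hxt hdeg
  obtain ⟨t, ht1, ht2⟩ := norm_red hx βF hβV βt hβt hxt (f : F) f.2
  have hpid : IsPrincipalIdealRing ↥(Algebra.adjoin C {x}) := isPrincipalIdealRing_adjoin hxC
  have hint : IsIntegral ↥(Algebra.adjoin C {x}) (Algebra.norm ↥C⟮x⟯ (f : F)) :=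
    Algebra.isIntegral_norm ↥C⟮x⟯ hfi
  obtain ⟨a, ha⟩ := IsIntegrallyClosed.isIntegral_iff.mp hint
  have haF : (a : F) = ((t : ↥C⟮x⟯) : F) := by
    rw [ht1, ← ha]
    rfl
  have haV : (a : F) ∈ S.V := by
    rw [haF]
    exact t.2
  obtain ⟨p₀, hp₀⟩ := exists_psiR_eq hx hxt hxC a haV
  have hpsi : ((psi hx p₀ : ↥S.V) : F) = ((t : ↥C⟮x⟯) : F) := by
    rw [← coe_psiR hx hxC, hp₀, haF]
  refine ⟨p₀, ?_, ?_⟩
  · rw [← ht1, ← hpsi, coe_psi]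
  · have h1 : (⟨f, f.2⟩ : ↥S.V) = f := rfl
    rw [h1] at ht2
    rw [← ht2, coe_redx, ← red_psi]
    congr 1
    exact Subtype.ext hpsi.symm

/-- Uniqueness of the value of a function at a place. -/
theorem value_unique_ordGe {K : Type uK} {E : Type uE} [Field K] [Field E] [Algebra K E] (P : Place K E) {g : E}
    {a b : K} (ha : OrdGe P 1 (g - algebraMap K E a)) (hb : OrdGe P 1 (g - algebraMap K E b)) :
    a = b := by
  rw [ordGe_one_iff_vanAt] at ha hb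
  exact H17.value_unique P ha hb

open Classical in
/-- **(C3)** fibre-wise conservation: for a Gauss unit `f ∈ R` and `γ ∈ k`, the zeros of `f` in
the residue discs over `xt = γ` are as many as the zeros of `red f` over `xt = γ`. -/
theorem fibre_conservation [IsAlgClosed C] [IsAlgClosed k] (hFF : IsFF C F) (hFFt : IsFF k Ft)
    (hxt : Transcendental k (S.red ⟨x, hx⟩)) [FiniteDimensional ↥C⟮x⟯ F]
    (hdeg : Module.finrank ↥k⟮S.red ⟨x, hx⟩⟯ Ft = Module.finrank ↥C⟮x⟯ F)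
    (f : ↥S.V) (hfu : IsUnit f) (hfi : IsIntegral ↥(Algebra.adjoin C {x}) (f : F))
    (D : Divisor C F) (hD : ∀ P, D P = P.ord (f : F)) (γ : k)
    (T' : Finset (Place k Ft))
    (hT' : ∀ Q, Q ∈ T' ↔ OrdGe Q 1 (S.red ⟨x, hx⟩ - algebraMap k Ft γ)) :
    ∑ P ∈ D.support.filter (fun P => ∃ a : ↥S.O, S.resO a = γ ∧
        OrdGe P 1 (x - algebraMap C F (a : C))), D P = ∑ Q ∈ T', Q.ord (S.red f) := by
  have hxC := transcendental_x hx hxt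
  have hfinT : FiniteDimensional ↥k⟮S.red ⟨x, hx⟩⟯ Ft :=
    Module.finite_of_finrank_pos (hdeg ▸ Module.finrank_pos)
  obtain ⟨p₀, hN, hNt⟩ := exists_norm_poly hx hxt hdeg f hfi
  have hf0 : (f : F) ≠ 0 := by
    intro h0
    have : f = 0 := Subtype.ext h0
    rw [this] at hfu
    exact not_isUnit_zero hfu
  have hrf0 : S.red f ≠ 0 := (hfu.map S.red).ne_zero
  -- the right hand side
  obtain ⟨T'', hT'', hsum''⟩ := fibre_norm hFFt (S.red ⟨x, hx⟩) hxt γ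
  have hTT : T'' = T' := Finset.ext fun Q => (hT'' Q).trans (hT' Q).symm
  have hR : ∑ Q ∈ T', Q.ord (S.red f) = ((p₀.map S.resO).rootMultiplicity γ : ℤ) := by
    rw [← hTT]
    exact hsum'' _ _ hrf0 hNt
  have hp₀ : p₀.map S.resO ≠ 0 := by
    intro h0
    rw [h0, map_zero] at hNt
    have h1 : Algebra.norm ↥k⟮S.red ⟨x, hx⟩⟯ (S.red f) = 0 := Subtype.ext hNt
    exact hrf0 (Algebra.norm_eq_zero_iff.mp h1)
  have hp₀0 : p₀ ≠ 0 := fun h => hp₀ (by rw [h, Polynomial.map_zero])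
  -- the fibres over `ρ ∈ O`
  choose T hT hsum using fun ρ : ↥S.O => fibre_norm hFF x hxC (ρ : C)
  have hTsum : ∀ ρ : ↥S.O, ∑ P ∈ T ρ, P.ord (f : F) = (p₀.rootMultiplicity ρ : ℤ) := by
    intro ρ
    rw [hsum ρ (f : F) (p₀.map S.O.subtype) hf0 hN,
      Polynomial.eq_rootMultiplicity_map (f := S.O.subtype) Subtype.val_injective ρ]
    rfl
  have hTnonneg : ∀ (ρ : ↥S.O) (P : Place C F), P ∈ T ρ → 0 ≤ P.ord (f : F) := by
    intro ρ P hP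
    have hxP : x ∈ P.toValuationSubring := mem_of_ordGe_one_sub P ((hT ρ P).mp hP)
    exact (mem_iff_ord_nonneg P hf0).mp (mem_of_isIntegral_adjoin P hxP _ hfi)
  rw [hR, rootMultiplicity_map_res S.O S.resO (fun a => S.resO_eq_zero_iff a) p₀ hp₀ γ]
  -- the value function
  set φ : Place C F → Prop := fun P => ∃ a : ↥S.O, S.resO a = γ ∧
    OrdGe P 1 (x - algebraMap C F (a : C)) with hφ
  let val : Place C F → ↥S.O := fun P => if h : φ P then Classical.choose h else 0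
  have hval : ∀ P, φ P → S.resO (val P) = γ ∧ OrdGe P 1 (x - algebraMap C F ((val P : ↥S.O) : C)) := by
    intro P h
    simp only [val, dif_pos h]
    exact Classical.choose_spec h
  have hvaleq : ∀ (P : Place C F) (ρ : ↥S.O), OrdGe P 1 (x - algebraMap C F (ρ : C)) →
      S.resO ρ = γ → φ P ∧ val P = ρ := by
    intro P ρ h1 h2
    have hφP : φ P := ⟨ρ, h2, h1⟩
    exact ⟨hφP, Subtype.ext (value_unique_ordGe P (hval P hφP).2 h1)⟩
  have hmaps : ∀ P ∈ D.support.filter φ, val P ∈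
      p₀.roots.toFinset.filter (fun ρ => S.resO ρ = γ) := by
    intro P hP
    rw [Finset.mem_filter] at hP
    obtain ⟨hPs, hPφ⟩ := hP
    obtain ⟨h1, h2⟩ := hval P hPφ
    rw [Finset.mem_filter, Multiset.mem_toFinset, Polynomial.mem_roots hp₀0]
    refine ⟨?_, h1⟩
    have hPT : P ∈ T (val P) := (hT _ P).mpr h2
    have hne : P.ord (f : F) ≠ 0 := by
      rw [← hD P]
      exact Finsupp.mem_support_iff.mp hPs
    have hpos : 0 < P.ord (f : F) := lt_of_le_of_ne (hTnonneg _ P hPT) (Ne.symm hne)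
    have hle : P.ord (f : F) ≤ ∑ P' ∈ T (val P), P'.ord (f : F) :=
      Finset.single_le_sum (f := fun P' : Place C F => P'.ord (f : F))
        (fun P' hP' => hTnonneg _ P' hP') hPT
    rw [hTsum] at hle
    have : 0 < p₀.rootMultiplicity (val P) := by
      have : (0 : ℤ) < (p₀.rootMultiplicity (val P) : ℤ) := lt_of_lt_of_le hpos hle
      exact_mod_cast this
    exact (Polynomial.rootMultiplicity_pos hp₀0).mp this
  rw [← Finset.sum_fiberwise_of_maps_to hmaps]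
  refine Finset.sum_congr rfl fun ρ hρ => ?_
  rw [Finset.mem_filter] at hρ
  rw [← hTsum ρ]
  have hsub : (D.support.filter φ).filter (fun P => val P = ρ) ⊆ T ρ := by
    intro P hP
    rw [Finset.mem_filter, Finset.mem_filter] at hP
    obtain ⟨⟨-, hPφ⟩, hPv⟩ := hP
    rw [hT, ← hPv]
    exact (hval P hPφ).2
  rw [Finset.sum_subset hsub]
  · exact Finset.sum_congr rfl fun P _ => hD P
  · intro P hPT hPn
    obtain ⟨h1, h2⟩ := hvaleq P ρ ((hT ρ P).mp hPT) hρ.2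
    by_contra hne
    apply hPn
    rw [Finset.mem_filter, Finset.mem_filter]
    exact ⟨⟨Finsupp.mem_support_iff.mpr hne, h1⟩, h2⟩

end Fermat.Agent.S27.REDu.H10

end
end
-- ==== END Fermat.Agent.S27.REDu.H10_ConsChart

-- ==== BEGIN Fermat.Agent.S27.REDu.H42_Gen7
section

/-!
# G-RED package GEN (helper42), part 7: `H¹ = 0` over `O` and the lifting theorem `gen_lift`

`S : RedSetting C F k Ft`, `x` a unit of `V` with transcendental reduction `xt`, both charts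
(`x` and `x⁻¹`) normal.  Then for all large `N` every `y ∈ Ft` with `y` integral over `k[xt]` and
`xt⁻¹ ^ N * y` integral over `k[xt⁻¹]` is the reduction of some `g ∈ V` with `g` integral over
`C[x]` and `x⁻¹ ^ N * g` integral over `C[x⁻¹]`:
`red : L(N (x)_∞) ∩ V → L~(N (xt)_∞)` is surjective.
-/

set_option autoImplicit false

universe uC uCf uK uR uF uL uE uk ukap uFp uFt uFtp uiot uEp uKp ux3b1

noncomputable section

open Polynomial IntermediateField Module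

namespace Fermat.Agent.S27.REDu.H42

open Fermat.Agent.S27.REDu.H34 Fermat.Agent.S27.REDu.H34.RedSetting

variable {C : Type uC} {F : Type uF} {k : Type uk} {Ft : Type uFt} [Field C] [Field F] [Algebra C F] [Field k] [Field Ft] [Algebra k Ft]
variable {S : RedSetting C F k Ft} {x : F} (hx : x ∈ S.V)

theorem isIntegral_coe_psi (p₀ : (↥S.O)[X]) :
    IsIntegral ↥(Algebra.adjoin C {x}) ((psi hx p₀ : ↥S.V) : F) := by
  rw [coe_psi]
  exact isIntegral_algebraMap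
    (x := (⟨_, Polynomial.aeval_mem_adjoin_singleton C x⟩ : ↥(Algebra.adjoin C {x})))

theorem coe_psi_X : ((psi hx Polynomial.X : ↥S.V) : F) = x := by
  rw [coe_psi]
  simp

theorem coe_psi_reflect (hx0 : x ≠ 0) (hx' : x⁻¹ ∈ S.V) (R : (↥S.O)[X]) (M : ℕ)
    (h : R.natDegree ≤ M) :
    ((psi hx' (Polynomial.reflect M R) : ↥S.V) : F) = ((psi hx R : ↥S.V) : F) * x⁻¹ ^ M := by
  rw [coe_psi, coe_psi, ← Polynomial.reflect_map,
    aeval_inv_reflect hx0 _ M (Polynomial.natDegree_map_le.trans h)]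

variable {ι : Type uiot} [Fintype ι]

/-- **`H¹ = 0` over `O`**: an element `t ∈ V` with `x ^ M * t ∈ B` splits as `a + x ^ N * b` with
`a ∈ B ∩ V` and `b ∈ B' ∩ V`, as soon as `x⁻¹ ^ N * e i ∈ B'` for a chart basis `e`. -/
theorem exists_split (hx0 : x ≠ 0) (hx' : x⁻¹ ∈ S.V) {e : ι → F} (heV : ∀ i, e i ∈ S.V)
    (heint : ∀ i, IsIntegral ↥(Algebra.adjoin C {x}) (e i))
    (hrep : ∀ f : F, f ∈ S.V → IsIntegral ↥(Algebra.adjoin C {x}) f →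
      ∃ p : ι → (↥S.O)[X], f = ∑ i, ((psi hx (p i) : ↥S.V) : F) * e i)
    (N : ℕ) (heN : ∀ i, IsIntegral ↥(Algebra.adjoin C {x⁻¹}) (x⁻¹ ^ N * e i))
    (t : F) (ht : t ∈ S.V) (M : ℕ) (hM : IsIntegral ↥(Algebra.adjoin C {x}) (x ^ M * t)) :
    ∃ a b : ↥S.V, IsIntegral ↥(Algebra.adjoin C {x}) (a : F) ∧
      IsIntegral ↥(Algebra.adjoin C {x⁻¹}) (b : F) ∧ t = (a : F) + x ^ N * (b : F) := by
  have hMV : x ^ M * t ∈ S.V := mul_mem (pow_mem hx M) ht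
  obtain ⟨p, hp⟩ := hrep _ hMV hM
  have hsplit : ∀ i, p i %ₘ (Polynomial.X ^ M) + Polynomial.X ^ M * (p i /ₘ (Polynomial.X ^ M))
      = p i := fun i => Polynomial.modByMonic_add_div (p i) _
  have hRdeg : ∀ i, (p i %ₘ (Polynomial.X ^ M)).natDegree ≤ M := by
    intro i
    have := Polynomial.natDegree_modByMonic_le (p i) (Polynomial.monic_X_pow (R := ↥S.O) M)
    rwa [Polynomial.natDegree_X_pow] at this
  have hpsi : ∀ i, ((psi hx (p i) : ↥S.V) : F) =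
      ((psi hx (p i %ₘ (Polynomial.X ^ M)) : ↥S.V) : F) +
        x ^ M * ((psi hx (p i /ₘ (Polynomial.X ^ M)) : ↥S.V) : F) := by
    intro i
    conv_lhs => rw [← hsplit i]
    rw [map_add, map_mul, map_pow, Subring.coe_add, Subring.coe_mul, SubmonoidClass.coe_pow,
      coe_psi_X]
  let a : ↥S.V := ∑ i, psi hx (p i /ₘ (Polynomial.X ^ M)) * ⟨e i, heV i⟩
  let b : ↥S.V := ∑ i, psi hx' (Polynomial.reflect M (p i %ₘ (Polynomial.X ^ M))) *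
    ⟨x⁻¹ ^ N * e i, mul_mem (pow_mem hx' N) (heV i)⟩
  have haF : (a : F) = ∑ i, ((psi hx (p i /ₘ (Polynomial.X ^ M)) : ↥S.V) : F) * e i := by
    simp only [a, AddSubmonoidClass.coe_finsetSum]
    rfl
  have hbF : (b : F) = ∑ i, ((psi hx' (Polynomial.reflect M (p i %ₘ (Polynomial.X ^ M))) :
      ↥S.V) : F) * (x⁻¹ ^ N * e i) := by
    simp only [b, AddSubmonoidClass.coe_finsetSum]
    rfl
  refine ⟨a, b, ?_, ?_, ?_⟩
  · rw [haF]
    exact IsIntegral.sum _ fun i _ => (isIntegral_coe_psi hx _).mul (heint i)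
  · rw [hbF]
    exact IsIntegral.sum _ fun i _ => (isIntegral_coe_psi hx' _).mul (heN i)
  · have hxM : x ^ M ≠ 0 := pow_ne_zero M hx0
    apply mul_left_cancel₀ hxM
    rw [hp, haF, hbF, mul_add, Finset.mul_sum, Finset.mul_sum, Finset.mul_sum,
      ← Finset.sum_add_distrib]
    refine Finset.sum_congr rfl fun i _ => ?_
    rw [hpsi i, coe_psi_reflect hx hx0 hx' _ M (hRdeg i)]
    have h1 : x ^ M * (x ^ N * (((psi hx (p i %ₘ (Polynomial.X ^ M)) : ↥S.V) : F) * x⁻¹ ^ M *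
        (x⁻¹ ^ N * e i))) = ((psi hx (p i %ₘ (Polynomial.X ^ M)) : ↥S.V) : F) * e i := by
      have h2 : x ^ M * x⁻¹ ^ M = 1 := by rw [← mul_pow, mul_inv_cancel₀ hx0, one_pow]
      have h3 : x ^ N * x⁻¹ ^ N = 1 := by rw [← mul_pow, mul_inv_cancel₀ hx0, one_pow]
      calc x ^ M * (x ^ N * (((psi hx (p i %ₘ (Polynomial.X ^ M)) : ↥S.V) : F) * x⁻¹ ^ M *
            (x⁻¹ ^ N * e i)))
          = (x ^ M * x⁻¹ ^ M) * (x ^ N * x⁻¹ ^ N) *
            (((psi hx (p i %ₘ (Polynomial.X ^ M)) : ↥S.V) : F) * e i) := by ring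
        _ = _ := by rw [h2, h3, one_mul, one_mul]
    rw [h1]
    ring

/-- **GEN-lift**: for all large `N`, `red : L(N (x)_∞) ∩ V → L~(N (xt)_∞)` is surjective. -/
theorem gen_lift [IsAlgClosed C] [CharZero C] (hx' : x⁻¹ ∈ S.V)
    (hxt : Transcendental k (S.red ⟨x, hx⟩)) [FiniteDimensional ↥C⟮x⟯ F]
    (hdeg : Module.finrank ↥k⟮S.red ⟨x, hx⟩⟯ Ft = Module.finrank ↥C⟮x⟯ F)
    [Algebra.IsSeparable ↥k⟮S.red ⟨x, hx⟩⟯ Ft]
    (hcn : ∀ y : Ft, IsIntegral ↥(Algebra.adjoin k {S.red ⟨x, hx⟩}) y →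
      ∃ f : ↥S.V, IsIntegral ↥(Algebra.adjoin C {x}) (f : F) ∧ S.red f = y)
    (hcn' : ∀ y : Ft, IsIntegral ↥(Algebra.adjoin k {S.red ⟨x⁻¹, hx'⟩}) y →
      ∃ f : ↥S.V, IsIntegral ↥(Algebra.adjoin C {x⁻¹}) (f : F) ∧ S.red f = y) :
    ∃ N₀ : ℕ, ∀ N, N₀ ≤ N → ∀ y : Ft, IsIntegral ↥(Algebra.adjoin k {S.red ⟨x, hx⟩}) y →
      IsIntegral ↥(Algebra.adjoin k {S.red ⟨x⁻¹, hx'⟩}) (S.red ⟨x⁻¹, hx'⟩ ^ N * y) →
      ∃ g : ↥S.V, S.red g = y ∧ IsIntegral ↥(Algebra.adjoin C {x}) (g : F) ∧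
        IsIntegral ↥(Algebra.adjoin C {x⁻¹}) (x⁻¹ ^ N * (g : F)) := by
  classical
  have hxC := transcendental_x hx hxt
  have hx0 : x ≠ 0 := fun h0 => hxC (h0 ▸ isAlgebraic_zero)
  obtain ⟨e, he, hrep⟩ := exists_chart_basis hx hxt hdeg hcn
  choose c hc using fun i => exists_scale_isIntegral (C := C) hx0 (he.int i)
  refine ⟨Finset.univ.sup c, fun N hN y hy hy' => ?_⟩
  have heN : ∀ i, IsIntegral ↥(Algebra.adjoin C {x⁻¹}) (x⁻¹ ^ N * e i) := fun i =>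
    hc i N ((Finset.le_sup (f := c) (Finset.mem_univ i)).trans hN)
  obtain ⟨f, hfint, hfred⟩ := hcn y hy
  obtain ⟨f', hf'int, hf'red⟩ := hcn' _ hy'
  have hxx : (⟨x, hx⟩ : ↥S.V) * ⟨x⁻¹, hx'⟩ = 1 := Subtype.ext (mul_inv_cancel₀ hx0)
  have hxxt : S.red ⟨x, hx⟩ * S.red ⟨x⁻¹, hx'⟩ = 1 := by
    rw [← map_mul, hxx, map_one]
  have hxN : x ^ N * x⁻¹ ^ N = 1 := by rw [← mul_pow, mul_inv_cancel₀ hx0, one_pow]
  have hzred : S.red (f - ⟨x, hx⟩ ^ N * f') = 0 := by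
    rw [map_sub, map_mul, map_pow, hfred, hf'red, ← mul_assoc, ← mul_pow, hxxt, one_pow,
      one_mul, sub_self]
  by_cases hz : f - (⟨x, hx⟩ : ↥S.V) ^ N * f' = 0
  · refine ⟨f, hfred, hfint, ?_⟩
    have h1 : (f : F) = x ^ N * (f' : F) := by
      have := congrArg (fun v : ↥S.V => (v : F)) (sub_eq_zero.1 hz)
      simpa using this
    have h2 : x⁻¹ ^ N * (f : F) = (f' : F) := by
      rw [h1, ← mul_assoc, mul_comm (x⁻¹ ^ N), hxN, one_mul]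
    rw [h2]
    exact hf'int
  · have hzF : ((f - (⟨x, hx⟩ : ↥S.V) ^ N * f' : ↥S.V) : F) ≠ 0 := fun h0 => hz (Subtype.ext h0)
    obtain ⟨π, hπ0, t, hπt⟩ := S.scale _ hzF
    have hπF : algebraMap C F π ≠ 0 := fun h0 => hπ0 ((map_eq_zero _).1 h0)
    have htinv : (((t⁻¹ : (↥S.V)ˣ) : ↥S.V) : F) * (((t : (↥S.V)ˣ) : ↥S.V) : F) = 1 := by
      rw [← Subring.coe_mul, ← Units.val_mul, inv_mul_cancel]
      rfl
    have hπV : algebraMap C F π =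
        (((f - (⟨x, hx⟩ : ↥S.V) ^ N * f') * ((t⁻¹ : (↥S.V)ˣ) : ↥S.V) : ↥S.V) : F) := by
      rw [Subring.coe_mul, hπt, mul_assoc, mul_comm ((((t : (↥S.V)ˣ) : ↥S.V) : F)), htinv,
        mul_one]
    have hπO : π ∈ S.O := by
      rw [ValuationSubring.mem_comap, hπV]
      exact Subtype.mem _
    have hπred : S.red (S.inclO ⟨π, hπO⟩) = 0 := by
      have : S.inclO ⟨π, hπO⟩ = (f - (⟨x, hx⟩ : ↥S.V) ^ N * f') * ((t⁻¹ : (↥S.V)ˣ) : ↥S.V) :=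
        Subtype.ext hπV
      rw [this, map_mul, hzred, zero_mul]
    -- the F-level equation `f = π t + x ^ N f'`
    have hfF : (f : F) = algebraMap C F π * (((t : (↥S.V)ˣ) : ↥S.V) : F) + x ^ N * (f' : F) := by
      rw [← hπt]
      simp
    -- `x ^ M * t` is integral over `C[x]`
    obtain ⟨M, hM⟩ : ∃ c : ℕ, ∀ m, c ≤ m →
        IsIntegral ↥(Algebra.adjoin C {x}) (x ^ m * (f' : F)) := by
      have h1 := exists_scale_isIntegral (C := C) (inv_ne_zero hx0) hf'int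
      rwa [inv_inv] at h1
    have hTint : IsIntegral ↥(Algebra.adjoin C {x}) (x ^ M * (((t : (↥S.V)ˣ) : ↥S.V) : F)) := by
      have h1 : x ^ M * (((t : (↥S.V)ˣ) : ↥S.V) : F) =
          Polynomial.aeval x (Polynomial.C π⁻¹ : C[X]) *
            (Polynomial.aeval x (Polynomial.X ^ M : C[X]) * (f : F) -
              Polynomial.aeval x (Polynomial.X ^ N : C[X]) * (x ^ M * (f' : F))) := by
        rw [hfF]
        simp only [Polynomial.aeval_C, map_pow, Polynomial.aeval_X, map_inv₀]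
        field_simp
        ring
      rw [h1]
      exact isIntegral_aeval_mul
        ((isIntegral_aeval_mul hfint _).sub (isIntegral_aeval_mul (hM M le_rfl) _)) _
    obtain ⟨a, b, haint, hbint, hab⟩ := exists_split hx hx0 hx' he.memV he.int hrep N heN
      _ (Subtype.mem ((t : (↥S.V)ˣ) : ↥S.V)) M hTint
    refine ⟨f - S.inclO ⟨π, hπO⟩ * a, ?_, ?_, ?_⟩
    · rw [map_sub, map_mul, hπred, zero_mul, sub_zero, hfred]
    · have h1 : ((f - S.inclO ⟨π, hπO⟩ * a : ↥S.V) : F) =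
          (f : F) - Polynomial.aeval x (Polynomial.C π : C[X]) * (a : F) := by
        simp
      rw [h1]
      exact hfint.sub (isIntegral_aeval_mul haint _)
    · have h1 : x⁻¹ ^ N * ((f - S.inclO ⟨π, hπO⟩ * a : ↥S.V) : F) =
          (f' : F) + Polynomial.aeval x⁻¹ (Polynomial.C π : C[X]) * (b : F) := by
        have h2 : ((f - S.inclO ⟨π, hπO⟩ * a : ↥S.V) : F) =
            x ^ N * ((f' : F) + algebraMap C F π * (b : F)) := by
          rw [AddSubgroupClass.coe_sub, Subring.coe_mul, coe_inclO, hfF, hab]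
          ring
        rw [h2, ← mul_assoc, mul_comm (x⁻¹ ^ N), hxN, one_mul, Polynomial.aeval_C]
      rw [h1]
      exact hf'int.add (isIntegral_aeval_mul hbint _)

end Fermat.Agent.S27.REDu.H42

end
end
-- ==== END Fermat.Agent.S27.REDu.H42_Gen7

-- ==== BEGIN Fermat.Agent.S59.CaseC.Geom.H78_Ihara2k
section

/-!
# S59 / PGEOM, leaf IHARA2k (helper78)

`stmt_IHARA2k : Geom.Stmt_IHARA2k` — Ihara's lemma for two degeneracy maps over a field of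
characteristic `p`, at any prime `q ∤ N` (`q = p` allowed): a corollary of
`NonMin.Geom.H78.ihara2_gen` (period functions; only `x₁` is used as an eigenvector).
This file contains no `sorry`.
-/

set_option autoImplicit false

namespace Fermat.Agent.S59.CaseC.Geom.H78

/-- **IHARA2k.** -/
theorem stmt_IHARA2k : Fermat.Agent.S59.CaseC.Geom.Stmt_IHARA2k := by
  intro k _ p _ _ _ N q hN hq hqN P a hP hex x₁ x₂ hx₁ hx₂ heig hrel
  exact Fermat.Agent.S59.NonMin.Geom.H78.ihara2_gen k p N q hN hq hqN P a hP hex x₁ x₂ hx₁ hx₂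
    heig hrel

end Fermat.Agent.S59.CaseC.Geom.H78

end
-- ==== END Fermat.Agent.S59.CaseC.Geom.H78_Ihara2k

-- ==== BEGIN Fermat.Agent.S59.NonMin.Geom.H61_IharaFld
section

/-!
# S59 / NMGEOM, leaf IHARA-FLD (helper61): Ihara's lemma on the Betti lattice

`stmt_IHARAFLD : Stmt_IHARAFLD`: for `φ₁, φ₂, φ₃` in the Betti lattice of `(N, S, θ, Sig)`, if
`A₁ φ₁ + A₂ φ₂ + A₃ φ₃` has values in `𝔪` then so have `φ₁, φ₂, φ₃`.

Proof: `V` := the finite free module of `Stmt_BM`; on `W = V³` the diagonal operators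
`T_ℓ - a_ℓ` (`ℓ ∤ N q p`, `ℓ ∉ S`) commute and are nilpotent modulo `𝔪`; the submodule
`K = {w : A₁ w₁ + A₂ w₂ + A₃ w₃ ≡ 0}` is stable (`Stmt_RELT`).  If `K ⊄ 𝔪 W` there is a common
eigenvector modulo `𝔪` in `K` outside `𝔪 W` (`H53.exists_common_eigen_mod`); its reduction is
killed by `H78.stmt_IHARA3v` (auxiliary primes: `chebk_core`), and the lattice is saturated:
contradiction.

No `sorry`.
-/

set_option autoImplicit false

open Polynomial CuspForm CongruenceSubgroup IsLocalRing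
open scoped MatrixGroups

namespace Fermat.Agent.S59.NonMin.Geom.H61

open Fermat.Agent.S41 Fermat.Agent.Betti Fermat.Agent.S59 Fermat.Agent.S59.Asm
  Fermat.Agent.S59.NonMin Fermat.Agent.S59.NonMin.Geom
open ModularCurve.Period

/-! ## 1. Reduction modulo the maximal ideal -/

section Red

variable (𝒪 : Type) [CommRing 𝒪] [IsLocalRing 𝒪]

theorem ihf_redB_TB {N : ℕ} {ℓ : ℕ} (hℓ : ℓ.Prime) (hℓN : ¬ ℓ ∣ N)
    (φ : Additive (Gamma0 N) →+ 𝒪) :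
    redB 𝒪 (TB N 𝒪 hℓ hℓN φ) = TB N (ResidueField 𝒪) hℓ hℓN (redB 𝒪 φ) :=
  (H48.TB_nat (residue 𝒪).toAddMonoidHom hℓ hℓN φ).symm

theorem ihf_redB_smul {G : Type} [AddGroup G] (c : 𝒪) (φ : G →+ 𝒪) :
    redB 𝒪 (c • φ) = residue 𝒪 c • redB 𝒪 φ := by
  refine AddMonoidHom.ext fun γ => ?_
  show residue 𝒪 (c * φ γ) = residue 𝒪 c * residue 𝒪 (φ γ)
  exact map_mul _ _ _

theorem ihf_redB_add {G : Type} [AddGroup G] (φ ψ : G →+ 𝒪) :
    redB 𝒪 (φ + ψ) = redB 𝒪 φ + redB 𝒪 ψ := by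
  refine AddMonoidHom.ext fun γ => ?_
  show residue 𝒪 (φ γ + ψ γ) = residue 𝒪 (φ γ) + residue 𝒪 (ψ γ)
  exact map_add _ _ _

theorem ihf_redB_sub {G : Type} [AddGroup G] (φ ψ : G →+ 𝒪) :
    redB 𝒪 (φ - ψ) = redB 𝒪 φ - redB 𝒪 ψ := by
  refine AddMonoidHom.ext fun γ => ?_
  show residue 𝒪 (φ γ - ψ γ) = residue 𝒪 (φ γ) - residue 𝒪 (ψ γ)
  exact map_sub _ _ _

theorem ihf_redB_eq_zero_iff {G : Type} [AddGroup G] (φ : G →+ 𝒪) :
    redB 𝒪 φ = 0 ↔ ∀ γ, φ γ ∈ maximalIdeal 𝒪 := by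
  constructor
  · intro h γ
    have := DFunLike.congr_fun h γ
    exact (residue_eq_zero_iff (φ γ)).1 this
  · intro h
    refine AddMonoidHom.ext fun γ => ?_
    exact (residue_eq_zero_iff (φ γ)).2 (h γ)

theorem ihf_redB_resA1 (N q : ℕ) (φ : Additive (Gamma0 N) →+ 𝒪) :
    redB 𝒪 (resA1 N q 𝒪 φ) = resA1 N q (ResidueField 𝒪) (redB 𝒪 φ) := rfl

theorem ihf_redB_resA2 (N q : ℕ) (φ : Additive (Gamma0 N) →+ 𝒪) :
    redB 𝒪 (resA2 N q 𝒪 φ) = resA2 N q (ResidueField 𝒪) (redB 𝒪 φ) := rfl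

theorem ihf_redB_resA3 (N q : ℕ) (φ : Additive (Gamma0 N) →+ 𝒪) :
    redB 𝒪 (resA3 N q 𝒪 φ) = resA3 N q (ResidueField 𝒪) (redB 𝒪 φ) := rfl

/-- A parabolic homomorphism with values in a torsion-free group is cuspidal. -/
theorem ihf_cuspidal_of_parabolic {A : Type} [AddCommGroup A] [IsAddTorsionFree A] {N : ℕ}
    {φ : Additive (Gamma0 N) →+ A} (h : IsParabolicHom (Gamma0 N) φ) :
    IsCuspidalHom (Gamma0 N) φ := by
  intro γ hγ
  rcases hγ.lt_or_eq with hlt | heq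
  · have h12 : (γ : SL(2, ℤ)) ^ 12 = 1 := Fermat.Agent.S16.H38.pow_twelve_eq_one_of_trace _ hlt
    have h12' : γ ^ 12 = 1 := Subtype.ext h12
    have h0 : (12 : ℕ) • φ (Additive.ofMul γ) = 0 := by
      rw [← map_nsmul, ← ofMul_pow, h12', ofMul_one, map_zero]
    exact (nsmul_eq_zero_iff_right (by norm_num : (12 : ℕ) ≠ 0)).1 h0
  · exact h γ heq

theorem ihf_cuspidal_redB [IsDomain 𝒪] [CharZero 𝒪] {N : ℕ}
    {φ : Additive (Gamma0 N) →+ 𝒪} (h : IsParabolicHom (Gamma0 N) φ) :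
    IsCuspidalHom (Gamma0 N) (redB 𝒪 φ) := by
  intro γ hγ
  show residue 𝒪 (φ (Additive.ofMul γ)) = 0
  rw [ihf_cuspidal_of_parabolic h γ hγ, map_zero]

end Red

/-! ## 2. The diagonal operators on `V³` -/

section Diag

variable {𝒪 : Type} [CommRing 𝒪] {V : Type} [AddCommGroup V] [Module 𝒪 V]

/-- the diagonal operator on `V³` -/
def ihfDiag (D : Module.End 𝒪 V) : Module.End 𝒪 (V × V × V) := D.prodMap (D.prodMap D)

theorem ihfDiag_apply (D : Module.End 𝒪 V) (w : V × V × V) :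
    ihfDiag D w = (D w.1, D w.2.1, D w.2.2) := rfl

theorem ihfDiag_pow (D : Module.End 𝒪 V) (n : ℕ) (w : V × V × V) :
    (ihfDiag D ^ n) w = ((D ^ n) w.1, (D ^ n) w.2.1, (D ^ n) w.2.2) := by
  induction n generalizing w with
  | zero => rfl
  | succ n ih =>
    rw [pow_succ, Module.End.mul_apply, ih, ihfDiag_apply]
    simp only [pow_succ, Module.End.mul_apply]

variable [IsDomain 𝒪] [IsDiscreteValuationRing 𝒪]

theorem ihf_mem_prod {ϖ : 𝒪} (hϖ : Irreducible ϖ) (w : V × V × V) :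
    w ∈ (maximalIdeal 𝒪 • ⊤ : Submodule 𝒪 (V × V × V)) ↔
      w.1 ∈ (maximalIdeal 𝒪 • ⊤ : Submodule 𝒪 V) ∧
      w.2.1 ∈ (maximalIdeal 𝒪 • ⊤ : Submodule 𝒪 V) ∧
      w.2.2 ∈ (maximalIdeal 𝒪 • ⊤ : Submodule 𝒪 V) := by
  rw [mem_smul_top_iff hϖ, mem_smul_top_iff hϖ, mem_smul_top_iff hϖ, mem_smul_top_iff hϖ]
  constructor
  · rintro ⟨y, rfl⟩
    exact ⟨⟨y.1, rfl⟩, ⟨y.2.1, rfl⟩, ⟨y.2.2, rfl⟩⟩
  · rintro ⟨⟨y₁, h₁⟩, ⟨y₂, h₂⟩, ⟨y₃, h₃⟩⟩
    refine ⟨(y₁, y₂, y₃), ?_⟩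
    exact Prod.ext h₁ (Prod.ext h₂ h₃)

end Diag

/-! ## 3. The core -/

section Core

variable (𝒪 : Type) [CommRing 𝒪] [IsDomain 𝒪] [IsDiscreteValuationRing 𝒪] [CharZero 𝒪]

/-- The eigenvalues: `a ℓ = θ(T_ℓ)` for the good primes, `0` otherwise. -/
noncomputable def ihfA (N : ℕ) [NeZero N] (S : Set ℕ)
    (θ : CuspForm.heckeAlgebra N 2 S →+* ResidueField 𝒪) (ℓ : ℕ) : ResidueField 𝒪 := by
  classical
  exact if h : ℓ.Prime ∧ ¬ ℓ ∣ N ∧ ℓ ∉ S then θ (CuspForm.heckeAlgebra.T h.1 h.2.1 h.2.2) else 0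

omit [CharZero 𝒪] in
theorem ihfA_eq (N : ℕ) [NeZero N] (S : Set ℕ)
    (θ : CuspForm.heckeAlgebra N 2 S →+* ResidueField 𝒪) {ℓ : ℕ} (hℓ : ℓ.Prime)
    (hℓN : ¬ ℓ ∣ N) (hℓS : ℓ ∉ S) :
    ihfA 𝒪 N S θ ℓ = θ (CuspForm.heckeAlgebra.T hℓ hℓN hℓS) := by
  unfold ihfA
  rw [dif_pos ⟨hℓ, hℓN, hℓS⟩]

/-- **IHARA-FLD**, core: for any realisation `ι : V → Hom(Γ₀(N), 𝒪)` of the Betti lattice by a
finite module with a `θ`-local Hecke action. -/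
theorem ihara_fld_core (p : ℕ) [Fact p.Prime] (hp2 : p ≠ 2) (hp𝒪 : (p : 𝒪) ∈ maximalIdeal 𝒪)
    (N : ℕ) [NeZero N] (S : Set ℕ) (θ : CuspForm.heckeAlgebra N 2 S →+* ResidueField 𝒪)
    (Sig : Finset ℕ) (q : ℕ) (hq : q.Prime) (hqp : q ≠ p) (hqN : ¬ q ∣ N)
    (hex : ∀ M : ℕ, 0 < M → p ∣ M →
      ∃ (ℓ : ℕ) (hℓ : ℓ.Prime) (hℓN : ¬ ℓ ∣ N) (hℓS : ℓ ∉ S), ℓ ≠ q ∧ ℓ ≠ p ∧
        ℓ % M = 1 % M ∧ (q : ZMod ℓ) ^ ((ℓ - 1) / p) ≠ 1 ∧
        θ (CuspForm.heckeAlgebra.T hℓ hℓN hℓS) ≠ 2)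
    (V : Type) [AddCommGroup V] [Module 𝒪 V] [Module.Finite 𝒪 V]
    (η : CuspForm.heckeAlgebra N 2 S →+* Module.End 𝒪 V)
    (hloc : ∀ (t : CuspForm.heckeAlgebra N 2 S) (a : 𝒪), residue 𝒪 a = θ t →
      ∃ m : ℕ, ∀ v : V, ((η t - a • (1 : Module.End 𝒪 V)) ^ m) v ∈
        (maximalIdeal 𝒪 • ⊤ : Submodule 𝒪 V))
    (ι : V →ₗ[𝒪] (Additive (Gamma0 N) →+ 𝒪)) (hinj : Function.Injective ι)
    (hrange : ∀ φ, φ ∈ Set.range ι ↔ InBetti 𝒪 N S θ Sig φ)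
    (hequiv : ∀ (ℓ : ℕ) (hℓ : ℓ.Prime) (hℓN : ¬ ℓ ∣ N) (hℓS : ℓ ∉ S) (v : V),
      ι (η (CuspForm.heckeAlgebra.T hℓ hℓN hℓS) v) = TB N 𝒪 hℓ hℓN (ι v))
    (v₁ v₂ v₃ : V)
    (hrel : ∀ γ, (resA1 N q 𝒪 (ι v₁) + resA2 N q 𝒪 (ι v₂) + resA3 N q 𝒪 (ι v₃)) γ ∈
      maximalIdeal 𝒪) :
    ((v₁, v₂, v₃) : V × V × V) ∈ (maximalIdeal 𝒪 • ⊤ : Submodule 𝒪 (V × V × V)) := by
  classical
  obtain ⟨ϖ, hϖ⟩ := IsDiscreteValuationRing.exists_irreducible 𝒪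
  have hp : p.Prime := Fact.out
  have hN : 0 < N := Nat.pos_of_ne_zero (NeZero.ne N)
  have hchar : CharP (ResidueField 𝒪) p := by
    refine (CharP.charP_iff_prime_eq_zero hp).2 ?_
    have h := (residue_eq_zero_iff (p : 𝒪)).2 hp𝒪
    rwa [map_natCast] at h
  -- saturation: a vector whose image has values in `𝔪` is in `𝔪 V`
  have hsat : ∀ v : V, redB 𝒪 (ι v) = 0 → v ∈ (maximalIdeal 𝒪 • ⊤ : Submodule 𝒪 V) := by
    intro v hv
    have h1 : ι v ∈ H48.Mval 𝒪 (Additive (Gamma0 N)) 1 := by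
      intro γ
      rw [pow_one]
      exact (ihf_redB_eq_zero_iff 𝒪 (ι v)).1 hv γ
    have h2 : InBetti 𝒪 N S θ Sig (ι v) := (hrange _).1 ⟨v, rfl⟩
    obtain ⟨φ', h3, h4⟩ := H48.exists_inBetti_smul hϖ h2 h1
    obtain ⟨y, rfl⟩ := (hrange φ').2 h4
    rw [pow_one, ← map_smul] at h3
    exact (mem_smul_top_iff hϖ v).2 ⟨y, (hinj h3).symm⟩
  -- the index set and the operators
  let P : ℕ → Prop := fun ℓ => ℓ.Prime ∧ ¬ ℓ ∣ N ∧ ℓ ∉ S ∧ ℓ ≠ q ∧ ℓ ≠ p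
  let tt : {ℓ : ℕ // P ℓ} → CuspForm.heckeAlgebra N 2 S :=
    fun i => CuspForm.heckeAlgebra.T i.2.1 i.2.2.1 i.2.2.2.1
  have hlift : ∀ i : {ℓ : ℕ // P ℓ}, ∃ a : 𝒪, residue 𝒪 a = θ (tt i) :=
    fun i => residue_surjective _
  choose a ha using hlift
  let D : {ℓ : ℕ // P ℓ} → Module.End 𝒪 V := fun i => η (tt i) - a i • (1 : Module.End 𝒪 V)
  let U : {ℓ : ℕ // P ℓ} → Module.End 𝒪 (V × V × V) := fun i => ihfDiag (D i)
  have hD : ∀ (i : {ℓ : ℕ // P ℓ}) (v : V),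
      ι (D i v) = TB N 𝒪 i.2.1 i.2.2.1 (ι v) - a i • ι v := by
    intro i v
    show ι ((η (tt i) - a i • (1 : Module.End 𝒪 V)) v) = _
    rw [LinearMap.sub_apply, LinearMap.smul_apply, Module.End.one_apply, map_sub, map_smul]
    exact congrArg (· - a i • ι v) (hequiv i.1 i.2.1 i.2.2.1 i.2.2.2.1 v)
  have hDc : ∀ (i j : {ℓ : ℕ // P ℓ}) (v : V), D i (D j v) = D j (D i v) := by
    intro i j v
    have h := (commute_sub_smul η (tt i) (tt j) (a i) (a j)).eq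
    exact LinearMap.congr_fun h v
  have hcomm : ∀ i j w, U i (U j w) - U j (U i w) ∈
      (maximalIdeal 𝒪 • ⊤ : Submodule 𝒪 (V × V × V)) := by
    intro i j w
    have h : U i (U j w) = U j (U i w) := by
      show ihfDiag (D i) (ihfDiag (D j) w) = ihfDiag (D j) (ihfDiag (D i) w)
      rw [ihfDiag_apply, ihfDiag_apply, ihfDiag_apply, ihfDiag_apply]
      exact Prod.ext (hDc i j _) (Prod.ext (hDc i j _) (hDc i j _))
    rw [h, sub_self]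
    exact Submodule.zero_mem _
  have hnil : ∀ i, ∃ m : ℕ, ∀ w, ((U i) ^ m) w ∈
      (maximalIdeal 𝒪 • ⊤ : Submodule 𝒪 (V × V × V)) := by
    intro i
    obtain ⟨m, hm⟩ := hloc (tt i) (a i) (ha i)
    refine ⟨m, fun w => ?_⟩
    show (ihfDiag (D i) ^ m) w ∈ _
    rw [ihfDiag_pow, ihf_mem_prod hϖ]
    exact ⟨hm _, hm _, hm _⟩
  -- the submodule `K`
  let Ψ : (V × V × V) →ₗ[𝒪] (Additive (Gamma0 (N * q ^ 2)) →+ 𝒪) :=
    (H48.resL 𝒪 (j1 N q)).comp (ι.comp (LinearMap.fst 𝒪 V (V × V))) +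
    (H48.resL 𝒪 (j2 N q)).comp
      (ι.comp ((LinearMap.fst 𝒪 V V).comp (LinearMap.snd 𝒪 V (V × V)))) +
    (H48.resL 𝒪 (j3 N q)).comp
      (ι.comp ((LinearMap.snd 𝒪 V V).comp (LinearMap.snd 𝒪 V (V × V))))
  have hΨ : ∀ w : V × V × V, Ψ w = H48.resL 𝒪 (j1 N q) (ι w.1) +
      H48.resL 𝒪 (j2 N q) (ι w.2.1) + H48.resL 𝒪 (j3 N q) (ι w.2.2) := fun w => rfl
  let K : Submodule 𝒪 (V × V × V) :=
    (H48.Mval 𝒪 (Additive (Gamma0 (N * q ^ 2))) 1).comap Ψ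
  have hKmem : ∀ w, w ∈ K ↔ Ψ w ∈ H48.Mval 𝒪 (Additive (Gamma0 (N * q ^ 2))) 1 :=
    fun w => Iff.rfl
  have hK : ∀ i, ∀ w ∈ K, U i w ∈ K := by
    intro i w hw
    rw [hKmem] at hw ⊢
    have hℓq : ¬ i.1 ∣ q ^ 2 := fun h =>
      i.2.2.2.2.1 ((Nat.prime_dvd_prime_iff_eq i.2.1 hq).1 (i.2.1.dvd_of_dvd_pow h))
    have hℓN' : ¬ i.1 ∣ N * q ^ 2 := fun h =>
      ((Nat.Prime.dvd_mul i.2.1).1 h).elim i.2.2.1 hℓq
    obtain ⟨hA, -⟩ := H13.stmt_RELT N q hq hqN i.1 i.2.1 i.2.2.1 hℓN' 𝒪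
    have key : Ψ (U i w) = H48.TBl 𝒪 (N * q ^ 2) i.2.1 hℓN' (Ψ w) - a i • Ψ w := by
      rw [hΨ, hΨ]
      show H48.resL 𝒪 (j1 N q) (ι (D i w.1)) + H48.resL 𝒪 (j2 N q) (ι (D i w.2.1)) +
        H48.resL 𝒪 (j3 N q) (ι (D i w.2.2)) = _
      rw [hD, hD, hD, map_sub, map_sub, map_sub, map_smul, map_smul, map_smul, map_add, map_add,
        smul_add, smul_add, H48.TBl_apply, H48.TBl_apply, H48.TBl_apply]
      have e1 := (hA (ι w.1)).1
      have e2 := (hA (ι w.2.1)).2.1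
      have e3 := (hA (ι w.2.2)).2.2
      have f1 : H48.resL 𝒪 (j1 N q) (TB N 𝒪 i.2.1 i.2.2.1 (ι w.1)) =
          TB (N * q ^ 2) 𝒪 i.2.1 hℓN' (H48.resL 𝒪 (j1 N q) (ι w.1)) := e1.symm
      have f2 : H48.resL 𝒪 (j2 N q) (TB N 𝒪 i.2.1 i.2.2.1 (ι w.2.1)) =
          TB (N * q ^ 2) 𝒪 i.2.1 hℓN' (H48.resL 𝒪 (j2 N q) (ι w.2.1)) := e2.symm
      have f3 : H48.resL 𝒪 (j3 N q) (TB N 𝒪 i.2.1 i.2.2.1 (ι w.2.2)) =
          TB (N * q ^ 2) 𝒪 i.2.1 hℓN' (H48.resL 𝒪 (j3 N q) (ι w.2.2)) := e3.symm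
      rw [f1, f2, f3]
      abel
    rw [key]
    exact Submodule.sub_mem _ (H48.map_mem_Mval _ hw) (Submodule.smul_mem _ _ hw)
  -- the vector is in `K`
  have hvK : ((v₁, v₂, v₃) : V × V × V) ∈ K := by
    rw [hKmem]
    intro γ
    rw [pow_one]
    exact hrel γ
  by_contra hne
  have hKne : ¬ K ≤ (maximalIdeal 𝒪 • ⊤ : Submodule 𝒪 (V × V × V)) := fun hle => hne (hle hvK)
  obtain ⟨w, hwK, hwn, hwU⟩ := H53.exists_common_eigen_mod U hcomm hnil K hK hKne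
  apply hwn
  -- the reductions
  have hpar : ∀ v : V, IsParabolicHom (Gamma0 N) (ι v) := fun v => ((hrange _).1 ⟨v, rfl⟩).1
  have heig : ∀ (v : V), (∀ i, D i v ∈ (maximalIdeal 𝒪 • ⊤ : Submodule 𝒪 V)) →
      ∀ (ℓ : ℕ) (hℓ : ℓ.Prime) (hℓN : ¬ ℓ ∣ N), P ℓ →
        TB N (ResidueField 𝒪) hℓ hℓN (redB 𝒪 (ι v)) = ihfA 𝒪 N S θ ℓ • redB 𝒪 (ι v) := by
    intro v hv ℓ hℓ hℓN hPℓ
    obtain ⟨y, hy⟩ := (mem_smul_top_iff hϖ _).1 (hv ⟨ℓ, hPℓ⟩)
    have h1 := hD ⟨ℓ, hPℓ⟩ v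
    rw [← hy, map_smul] at h1
    have h2 := congrArg (redB 𝒪) h1
    rw [ihf_redB_smul, ihf_redB_sub, ihf_redB_TB, ihf_redB_smul, ha,
      (residue_eq_zero_iff ϖ).2 hϖ.not_isUnit, zero_smul] at h2
    rw [ihfA_eq 𝒪 N S θ hℓ hℓN hPℓ.2.2.1]
    exact (sub_eq_zero.1 h2.symm)
  have hwU' : ∀ i, D i w.1 ∈ (maximalIdeal 𝒪 • ⊤ : Submodule 𝒪 V) ∧
      D i w.2.1 ∈ (maximalIdeal 𝒪 • ⊤ : Submodule 𝒪 V) ∧
      D i w.2.2 ∈ (maximalIdeal 𝒪 • ⊤ : Submodule 𝒪 V) := by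
    intro i
    have := hwU i
    rwa [show U i w = ihfDiag (D i) w from rfl, ihfDiag_apply, ihf_mem_prod hϖ] at this
  have hrelk : resA1 N q (ResidueField 𝒪) (redB 𝒪 (ι w.1)) +
      resA2 N q (ResidueField 𝒪) (redB 𝒪 (ι w.2.1)) +
      resA3 N q (ResidueField 𝒪) (redB 𝒪 (ι w.2.2)) = 0 := by
    rw [← ihf_redB_resA1, ← ihf_redB_resA2, ← ihf_redB_resA3, ← ihf_redB_add, ← ihf_redB_add,
      ihf_redB_eq_zero_iff]
    intro γ
    have := (hKmem w).1 hwK γ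
    rw [pow_one] at this
    exact this
  have hP : ∀ ℓ, P ℓ → ℓ.Prime ∧ ¬ ℓ ∣ N * q ∧ ℓ ≠ p := by
    intro ℓ hℓ
    refine ⟨hℓ.1, fun h => ?_, hℓ.2.2.2.2⟩
    rcases (Nat.Prime.dvd_mul hℓ.1).1 h with h | h
    · exact hℓ.2.1 h
    · exact hℓ.2.2.2.1 ((Nat.prime_dvd_prime_iff_eq hℓ.1 hq).1 h)
  have hexP : ∀ M : ℕ, 0 < M → p ∣ M →
      ∃ ℓ, P ℓ ∧ ℓ % M = 1 % M ∧ (q : ZMod ℓ) ^ ((ℓ - 1) / p) ≠ 1 ∧ ihfA 𝒪 N S θ ℓ ≠ 2 := by
    intro M hM hpM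
    obtain ⟨ℓ, hℓ, hℓN, hℓS, hℓq, hℓp, h1, h2, h3⟩ := hex M hM hpM
    refine ⟨ℓ, ⟨hℓ, hℓN, hℓS, hℓq, hℓp⟩, h1, h2, ?_⟩
    rw [ihfA_eq 𝒪 N S θ hℓ hℓN hℓS]
    exact h3
  obtain ⟨e₁, e₂, e₃⟩ := H78.stmt_IHARA3v (ResidueField 𝒪) p hp2 N q hN hq hqN hqp P
    (ihfA 𝒪 N S θ) hP hexP (redB 𝒪 (ι w.1)) (redB 𝒪 (ι w.2.1)) (redB 𝒪 (ι w.2.2))
    (ihf_cuspidal_redB 𝒪 (hpar _)) (ihf_cuspidal_redB 𝒪 (hpar _)) (ihf_cuspidal_redB 𝒪 (hpar _))
    (fun ℓ hℓ hℓN hPℓ => ⟨heig w.1 (fun i => (hwU' i).1) ℓ hℓ hℓN hPℓ,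
      heig w.2.1 (fun i => (hwU' i).2.1) ℓ hℓ hℓN hPℓ,
      heig w.2.2 (fun i => (hwU' i).2.2) ℓ hℓ hℓN hPℓ⟩) hrelk
  rw [ihf_mem_prod hϖ]
  exact ⟨hsat _ e₁, hsat _ e₂, hsat _ e₃⟩

end Core

/-! ## 4. The statement -/

/-- **IHARA-FLD**. -/
theorem stmt_IHARAFLD : Stmt_IHARAFLD := by
  intro 𝒪 _ _ _ _ _ _ p _ hp2 hp𝒪 ρbar Smin hres N₀ Sig N _ S hG θ hθ q hq hqp hqN hqS
    φ₁ φ₂ φ₃ h₁ h₂ h₃ hrel
  classical
  obtain ⟨ϖ, hϖ⟩ := IsDiscreteValuationRing.exists_irreducible 𝒪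
  have hS : ∀ r : ℕ, r.Prime → r ∣ N → r ∈ S := by
    intro s hs hsN
    rw [hG.hS, Finset.mem_union]
    rw [hG.hN] at hsN
    rcases (Nat.Prime.dvd_mul hs).mp hsN with h | h
    · exact Or.inl (hG.hN₀S s hs h)
    · right
      obtain ⟨r, hr, hsr⟩ := (Prime.dvd_finsetProd_iff (Nat.Prime.prime hs) _).mp h
      have h1 : s ∣ r := Nat.Prime.dvd_of_dvd_pow hs hsr
      have h2 : s = r := (Nat.prime_dvd_prime_iff_eq hs (hG.hSig r hr).1).mp h1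
      rw [h2]
      exact hr
  have hSig : ∀ r ∈ Sig, r.Prime := fun r hr => (hG.hSig r hr).1
  have hB : ∃ M : HMod 𝒪 N (↑S : Set ℕ) θ,
      ∃ ι : M.V →ₗ[𝒪] (Additive (Gamma0 N) →+ 𝒪), Function.Injective ι ∧
        (∀ φ, φ ∈ Set.range ι ↔ InBetti 𝒪 N (↑S : Set ℕ) θ Sig φ) ∧
        ∀ (ℓ : ℕ) (hℓ : ℓ.Prime) (hℓN : ¬ ℓ ∣ N) (hℓS : ℓ ∉ (↑S : Set ℕ)) (v : M.V),
          ι (M.η (CuspForm.heckeAlgebra.T hℓ hℓN hℓS) v) = TB N 𝒪 hℓ hℓN (ι v) :=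
    stmt_BM 𝒪 N S hS θ Sig hSig
  obtain ⟨M, ι, hinj, hrange, hequiv⟩ := hB
  obtain ⟨v₁, rfl⟩ := (hrange φ₁).2 h₁
  obtain ⟨v₂, rfl⟩ := (hrange φ₂).2 h₂
  obtain ⟨v₃, rfl⟩ := (hrange φ₃).2 h₃
  have hex : ∀ M' : ℕ, 0 < M' → p ∣ M' →
      ∃ (ℓ : ℕ) (hℓ : ℓ.Prime) (hℓN : ¬ ℓ ∣ N) (hℓS : ℓ ∉ (↑S : Set ℕ)), ℓ ≠ q ∧ ℓ ≠ p ∧
        ℓ % M' = 1 % M' ∧ (q : ZMod ℓ) ^ ((ℓ - 1) / p) ≠ 1 ∧
        θ (CuspForm.heckeAlgebra.T hℓ hℓN hℓS) ≠ 2 := by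
    intro M' hM' hpM'
    obtain ⟨ℓ, hℓ, hℓN, hℓS, hℓS', h1, h2, h3⟩ :=
      chebk_core 𝒪 p hp2 ρbar Smin hres N S θ hθ q hq M' hM' hpM' {q, p}
    refine ⟨ℓ, hℓ, hℓN, hℓS, ?_, ?_, h1, h2, h3⟩
    · rintro rfl
      exact hℓS' (Finset.mem_insert_self _ _)
    · rintro rfl
      exact hℓS' (Finset.mem_insert_of_mem (Finset.mem_singleton_self _))
  have hmem := ihara_fld_core 𝒪 p hp2 hp𝒪 N (↑S : Set ℕ) θ Sig q hq hqp hqN hex M.V M.η
    M.η_local ι hinj hrange hequiv v₁ v₂ v₃ hrel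
  rw [ihf_mem_prod hϖ, mem_smul_top_iff hϖ, mem_smul_top_iff hϖ, mem_smul_top_iff hϖ] at hmem
  obtain ⟨⟨y₁, e₁⟩, ⟨y₂, e₂⟩, ⟨y₃, e₃⟩⟩ := hmem
  have hval : ∀ (y v : M.V), ϖ • y = v → ∀ γ, ι v γ ∈ maximalIdeal 𝒪 := by
    intro y v e γ
    rw [← e, map_smul]
    show ϖ * ι y γ ∈ maximalIdeal 𝒪
    exact Ideal.mul_mem_right _ _ hϖ.not_isUnit
  intro γ
  exact ⟨hval y₁ v₁ e₁ γ, hval y₂ v₂ e₂ γ, hval y₃ v₃ e₃ γ⟩

end Fermat.Agent.S59.NonMin.Geom.H61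

end
-- ==== END Fermat.Agent.S59.NonMin.Geom.H61_IharaFld

-- ==== BEGIN Fermat.Agent.S59.NonMin.Geom.H72_DualKCore
section

/-!
# S59 / NMGEOM, leaf DUAL-k (helper72): the core

`dualk_core` : over a finite field `k` of characteristic `p ≠ 2`, for a system of eigenvalues `a`
on a set `P` of primes containing Chebotarev primes, `α' = C₁ - T_q C₂ + q C₃` maps the
generalized `a`-eigenvectors of level `N q²` killed by the `U_r` (`r ∈ Sig`) ONTO those of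
level `N`.  Inputs: the pairing `S41.H94.BL` (hypothesis `L : Leaves`), the adjointness `Stmt_ADJ3`
of `A_a` and `C_a`, `H78.stmt_IHARA3v`, `H13.stmt_RELT`, `H12.stmt_RELU`, `H98.keru`,
`H98.TB_comm_TB`, `H98.UB_comm_TB`, `H98.UB_comm_UB`, and the linear algebra `H72D.dual_onto`.
-/

set_option autoImplicit false
set_option linter.unusedSectionVars false
set_option linter.style.haveILetI false

open CuspForm CongruenceSubgroup IsLocalRing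
open scoped MatrixGroups

namespace Fermat.Agent.S59.NonMin.Geom.H72K

open Fermat.Agent.S41 Fermat.Agent.Betti Fermat.Agent.S59 Fermat.Agent.S59.NonMin.Geom
open ModularCurve.Period

/-- **ADJ3**: `A_a` and `C_a` are adjoint for the pairing `S41.H94.Bform`. -/
def Stmt_ADJ3 : Prop :=
  ∀ (k : Type) [Field k], (2 : k) ≠ 0 → ∀ (N q : ℕ), N ≠ 0 → q ≠ 0 →
    ∀ (φ : Additive (Gamma0 N) →+ k) (ψ : Additive (Gamma0 (N * q ^ 2)) →+ k),
    IsCuspidalHom (Gamma0 N) φ → IsCuspidalHom (Gamma0 (N * q ^ 2)) ψ →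
    H94.Bform k (N * q ^ 2) (resA1 N q k φ) ψ = H94.Bform k N φ (corC1 N q k ψ) ∧
    H94.Bform k (N * q ^ 2) (resA2 N q k φ) ψ = H94.Bform k N φ (corC2 N q k ψ) ∧
    H94.Bform k (N * q ^ 2) (resA3 N q k φ) ψ = H94.Bform k N φ (corC3 N q k ψ)

/-! ### The relations of `α'`, `α†` with the Hecke operators -/

section Rel

variable (N : ℕ) [NeZero N] {q : ℕ} (hq : q.Prime) (hqN : ¬ q ∣ N) (A : Type) [AddCommGroup A]

theorem alphaB'_TB {ℓ : ℕ} (hℓ : ℓ.Prime) (hℓN : ¬ ℓ ∣ N) (hℓN' : ¬ ℓ ∣ N * q ^ 2)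
    (ψ : Additive (Gamma0 (N * q ^ 2)) →+ A) :
    alphaB' N A hq hqN (TB (N * q ^ 2) A hℓ hℓN' ψ) = TB N A hℓ hℓN (alphaB' N A hq hqN ψ) := by
  obtain ⟨-, hC⟩ := H13.stmt_RELT N q hq hqN ℓ hℓ hℓN hℓN' A
  obtain ⟨c1, c2, c3⟩ := hC ψ
  unfold alphaB'
  rw [c1, c2, c3, map_add, map_sub, map_nsmul,
    H98.TB_comm_TB hq hqN hℓ hℓN (corC2 N q A ψ)]

theorem alphaD_TB {ℓ : ℕ} (hℓ : ℓ.Prime) (hℓN : ¬ ℓ ∣ N) (hℓN' : ¬ ℓ ∣ N * q ^ 2)
    (φ : Additive (Gamma0 N) →+ A) :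
    alphaD N A hq hqN (TB N A hℓ hℓN φ) = TB (N * q ^ 2) A hℓ hℓN' (alphaD N A hq hqN φ) := by
  obtain ⟨hA, -⟩ := H13.stmt_RELT N q hq hqN ℓ hℓ hℓN hℓN' A
  obtain ⟨a1, -, a3⟩ := hA φ
  obtain ⟨-, a2, -⟩ := hA (TB N A hq hqN φ)
  unfold alphaD
  rw [map_add, map_sub, map_nsmul, a1, a2, a3,
    H98.TB_comm_TB hq hqN hℓ hℓN φ]

theorem alphaB'_UB [NeZero (N * q ^ 2)] {r : ℕ} (hr : r.Prime) (hrN : r ∣ N)
    (hrN' : r ∣ N * q ^ 2) (ψ : Additive (Gamma0 (N * q ^ 2)) →+ A) :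
    alphaB' N A hq hqN (UB (N * q ^ 2) A hrN' ψ) = UB N A hrN (alphaB' N A hq hqN ψ) := by
  obtain ⟨-, hC⟩ := H12.stmt_RELU N q hq hqN r hr hrN hrN' A
  obtain ⟨c1, c2, c3⟩ := hC ψ
  unfold alphaB'
  rw [c1, c2, c3, map_add, map_sub, map_nsmul,
    H98.UB_comm_TB hrN hq hqN (corC2 N q A ψ)]

end Rel

/-! ### Characteristic `p` -/

section Char

variable {k : Type} [Field k] (p : ℕ) [Fact p.Prime] [CharP k p]

theorem two_ne_zero_of_charP (hp2 : p ≠ 2) : (2 : k) ≠ 0 := by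
  intro h
  have h' : ((2 : ℕ) : k) = 0 := by exact_mod_cast h
  have hd : p ∣ 2 := (CharP.cast_eq_zero_iff k p 2).mp h'
  exact hp2 ((Nat.prime_dvd_prime_iff_eq Fact.out Nat.prime_two).mp hd)

theorem nsmul_cancel_of_prime_ne {r : ℕ} (hr : r.Prime) (hrp : r ≠ p) (a : k)
    (h : r • a = 0) : a = 0 := by
  rw [nsmul_eq_mul] at h
  rcases mul_eq_zero.mp h with h1 | h1
  · exfalso
    have hd : p ∣ r := (CharP.cast_eq_zero_iff k p r).mp h1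
    exact hrp ((Nat.prime_dvd_prime_iff_eq Fact.out hr).mp hd).symm
  · exact h1

end Char

/-! ### The core -/

section Core

variable {k : Type} [Field k]

theorem TL_eq_TBc (L : H94.Leaves) (h2 : (2 : k) ≠ 0) (N ℓ : ℕ) (hN : 0 < N) (hℓ : ℓ.Prime)
    (hℓN : ¬ ℓ ∣ N) : H94.TL L h2 N ℓ hN.ne' hℓ.ne_zero = TBc k N hℓ hℓN := by
  apply LinearMap.ext
  intro x
  apply Subtype.ext
  rw [H94.TL_coe, TBc_coe]
  exact Fermat.Agent.S41.H20.Tcoh_eq_TB hN hℓ hℓN x.1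

theorem BL_TBc (L : H94.Leaves) (h2 : (2 : k) ≠ 0) (N ℓ : ℕ) [NeZero N] (hℓ : ℓ.Prime)
    (hℓN : ¬ ℓ ∣ N) (x y : H94.cuspSub k N) :
    H94.BL L h2 N x (TBc k N hℓ hℓN y) = H94.BL L h2 N (TBc k N hℓ hℓN x) y := by
  have hN : 0 < N := Nat.pos_of_ne_zero (NeZero.ne N)
  have h := H94.BL_TL L h2 N ℓ hN hℓ hℓN x y
  rw [TL_eq_TBc L h2 N ℓ hN hℓ hℓN] at h
  exact h

variable [Finite k]

set_option maxHeartbeats 2000000 in
theorem dualk_core (L : H94.Leaves) (hadj : Stmt_ADJ3) (p : ℕ) [Fact p.Prime] [CharP k p]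
    (hp2 : p ≠ 2) (N q : ℕ) [NeZero N] [NeZero (N * q ^ 2)] (hq : q.Prime) (hqN : ¬ q ∣ N)
    (hqp : q ≠ p)
    (P : ℕ → Prop) (a : ℕ → k) (hP : ∀ ℓ, P ℓ → ℓ.Prime ∧ ¬ ℓ ∣ N * q ∧ ℓ ≠ p)
    (hcheb : ∀ M : ℕ, 0 < M → p ∣ M →
      ∃ ℓ, P ℓ ∧ ℓ % M = 1 % M ∧ (q : ZMod ℓ) ^ ((ℓ - 1) / p) ≠ 1 ∧ a ℓ ≠ 2)
    (Sig : Finset ℕ)
    (hSig : ∀ r ∈ Sig, r.Prime ∧ r ≠ p ∧ ∃ M₀ : ℕ, N = M₀ * r ^ 2 ∧ ¬ r ∣ M₀)
    (φ : Additive (Gamma0 N) →+ k) (hφc : IsCuspidalHom (Gamma0 N) φ)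
    (hφU : ∀ r ∈ Sig, ∀ hr : r ∣ N, UB N k hr φ = 0)
    (hφT : ∀ (ℓ : ℕ) (hℓ : ℓ.Prime) (hℓN : ¬ ℓ ∣ N), P ℓ →
      ∃ n : ℕ, (fun χ : Additive (Gamma0 N) →+ k => TB N k hℓ hℓN χ - a ℓ • χ)^[n] φ = 0) :
    ∃ ψ : Additive (Gamma0 (N * q ^ 2)) →+ k, IsCuspidalHom (Gamma0 (N * q ^ 2)) ψ ∧
      (∀ r ∈ Sig, ∀ hr : r ∣ N * q ^ 2, UB (N * q ^ 2) k hr ψ = 0) ∧
      (∀ (ℓ : ℕ) (hℓ : ℓ.Prime) (hℓN' : ¬ ℓ ∣ N * q ^ 2), P ℓ →
        ∃ n : ℕ, (fun χ : Additive (Gamma0 (N * q ^ 2)) →+ k =>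
          TB (N * q ^ 2) k hℓ hℓN' χ - a ℓ • χ)^[n] ψ = 0) ∧
      alphaB' N k hq hqN ψ = φ := by
  classical
  have hN : 0 < N := Nat.pos_of_ne_zero (NeZero.ne N)
  have h2 : (2 : k) ≠ 0 := two_ne_zero_of_charP p hp2
  -- finiteness
  haveI : Group.FG (Gamma0 N) := H94.fg_Gamma0 N
  haveI : Group.FG (Gamma0 (N * q ^ 2)) := H94.fg_Gamma0 _
  haveI : Finite (Additive (Gamma0 N) →+ k) := H94.finite_addHom_of_fg _ _
  haveI : Finite (Additive (Gamma0 (N * q ^ 2)) →+ k) := H94.finite_addHom_of_fg _ _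
  haveI : Finite (H94.cuspSub k N) := Subtype.finite
  haveI : Finite (H94.cuspSub k (N * q ^ 2)) := Subtype.finite
  haveI : Module.Finite k (H94.cuspSub k N) := Module.Finite.of_finite
  haveI : Module.Finite k (H94.cuspSub k (N * q ^ 2)) := Module.Finite.of_finite
  -- the primes of `P`
  have hPN : ∀ ℓ, P ℓ → ¬ ℓ ∣ N := fun ℓ h hd => (hP ℓ h).2.1 (dvd_mul_of_dvd_left hd q)
  have hPq : ∀ ℓ, P ℓ → ℓ ≠ q := by
    intro ℓ h he
    apply (hP ℓ h).2.1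
    rw [he]
    exact dvd_mul_left q N
  have hPN' : ∀ ℓ, P ℓ → ¬ ℓ ∣ N * q ^ 2 := by
    intro ℓ h hd
    rcases (Nat.Prime.dvd_mul (hP ℓ h).1).mp hd with h1 | h1
    · exact hPN ℓ h h1
    · have h3 := (hP ℓ h).1.dvd_of_dvd_pow h1
      exact hPq ℓ h ((Nat.prime_dvd_prime_iff_eq (hP ℓ h).1 hq).mp h3)
  have hSigN : ∀ r ∈ Sig, r ∣ N := by
    intro r hr
    obtain ⟨-, -, M₀, hM, -⟩ := hSig r hr
    rw [hM]
    exact dvd_mul_of_dvd_right (dvd_pow_self r two_ne_zero) _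
  have hSigN' : ∀ r ∈ Sig, r ∣ N * q ^ 2 := fun r hr => dvd_mul_of_dvd_left (hSigN r hr) _
  -- the families
  set T : {ℓ : ℕ // P ℓ} → Module.End k (H94.cuspSub k N) :=
    fun i => TBc k N (hP i.1 i.2).1 (hPN i.1 i.2) with hT
  set T' : {ℓ : ℕ // P ℓ} → Module.End k (H94.cuspSub k (N * q ^ 2)) :=
    fun i => TBc k (N * q ^ 2) (hP i.1 i.2).1 (hPN' i.1 i.2) with hT'
  set U : {r : ℕ // r ∈ Sig} → Module.End k (H94.cuspSub k N) :=
    fun r => UBc k N (hSigN r.1 r.2) with hU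
  set U' : {r : ℕ // r ∈ Sig} → Module.End k (H94.cuspSub k (N * q ^ 2)) :=
    fun r => UBc k (N * q ^ 2) (hSigN' r.1 r.2) with hU'
  set Tq : Module.End k (H94.cuspSub k N) := TBc k N hq hqN with hTq
  have hTc : ∀ i j, Commute (T i) (T j) := by
    intro i j
    apply LinearMap.ext
    intro x
    apply Subtype.ext
    exact H98.TB_comm_TB _ _ _ _ x.1
  have hT'c : ∀ i j, Commute (T' i) (T' j) := by
    intro i j
    apply LinearMap.ext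
    intro x
    apply Subtype.ext
    exact H98.TB_comm_TB _ _ _ _ x.1
  have hTqc : ∀ i, Commute (T i) Tq := by
    intro i
    apply LinearMap.ext
    intro x
    apply Subtype.ext
    exact H98.TB_comm_TB _ _ _ _ x.1
  have hTsa : ∀ i x y, H94.BL L h2 N x (T i y) = H94.BL L h2 N (T i x) y :=
    fun i x y => BL_TBc L h2 N i.1 _ _ x y
  have hU'c : ∀ r s, Commute (U' r) (U' s) := by
    intro r s
    apply LinearMap.ext
    intro x
    apply Subtype.ext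
    exact H98.UB_comm_UB _ _ x.1
  have hT'U' : ∀ i r, Commute (T' i) (U' r) := by
    intro i r
    apply LinearMap.ext
    intro x
    apply Subtype.ext
    exact (H98.UB_comm_TB _ _ _ x.1).symm
  have hTU : ∀ i r, Commute (T i) (U r) := by
    intro i r
    apply LinearMap.ext
    intro x
    apply Subtype.ext
    exact (H98.UB_comm_TB _ _ _ x.1).symm
  have hU'ker : ∀ r y, U' r (U' r y) = 0 → U' r y = 0 := by
    intro r y h
    obtain ⟨hr, hrp, M₀, hM, hrM⟩ := hSig r.1 r.2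
    apply Subtype.ext
    have hrq : r.1 ≠ q := by
      intro he
      apply hqN
      rw [← he]
      exact hSigN r.1 r.2
    refine keru_cast (N * q ^ 2) (M₀ * q ^ 2) r.1 (by rw [hM]; ring) hr ?_ (hSigN' r.1 r.2)
      (nsmul_cancel_of_prime_ne p hr hrp) y.1 (congrArg Subtype.val h)
    intro hd
    rcases (Nat.Prime.dvd_mul hr).mp hd with h1 | h1
    · exact hrM h1
    · exact hrq ((Nat.prime_dvd_prime_iff_eq hr hq).mp (hr.dvd_of_dvd_pow h1))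
  -- adjointness
  have hadj' : ∀ x y, H94.BL L h2 (N * q ^ 2) (alphaDc k N hq hqN x) y
      = H94.BL L h2 N x (alphaPc k N hq hqN y) := by
    intro x y
    obtain ⟨e1, -, e3⟩ := hadj k h2 N q hN.ne' hq.ne_zero x.1 y.1 x.2 y.2
    obtain ⟨-, e2, -⟩ := hadj k h2 N q hN.ne' hq.ne_zero (Tq x).1 y.1 (Tq x).2 y.2
    have f1 : H94.BL L h2 (N * q ^ 2) (A1c k N q x) y = H94.BL L h2 N x (C1c k N q y) := e1
    have f2 : H94.BL L h2 (N * q ^ 2) (A2c k N q (Tq x)) y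
        = H94.BL L h2 N (Tq x) (C2c k N q y) := e2
    have f3 : H94.BL L h2 (N * q ^ 2) (A3c k N q x) y = H94.BL L h2 N x (C3c k N q y) := e3
    have f4 : H94.BL L h2 N x (Tq (C2c k N q y)) = H94.BL L h2 N (Tq x) (C2c k N q y) :=
      BL_TBc L h2 N q hq hqN x _
    unfold alphaDc alphaPc
    simp only [LinearMap.add_apply, LinearMap.sub_apply, LinearMap.smul_apply,
      LinearMap.comp_apply, map_add, map_sub, map_smul]
    rw [f1, f2, f3, f4]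
  have hα'T : ∀ i y, alphaPc k N hq hqN (T' i y) = T i (alphaPc k N hq hqN y) := by
    intro i y
    apply Subtype.ext
    rw [alphaPc_coe]
    show alphaB' N k hq hqN (TB (N * q ^ 2) k _ _ y.1) = TB N k _ _ (alphaPc k N hq hqN y).1
    rw [alphaPc_coe]
    exact alphaB'_TB N hq hqN k _ _ _ y.1
  have hαdT : ∀ i x, alphaDc k N hq hqN (T i x) = T' i (alphaDc k N hq hqN x) := by
    intro i x
    apply Subtype.ext
    rw [alphaDc_coe]
    show alphaD N k hq hqN (TB N k _ _ x.1) = TB (N * q ^ 2) k _ _ (alphaDc k N hq hqN x).1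
    rw [alphaDc_coe]
    exact alphaD_TB N hq hqN k _ _ _ x.1
  have hα'U : ∀ r y, alphaPc k N hq hqN (U' r y) = U r (alphaPc k N hq hqN y) := by
    intro r y
    apply Subtype.ext
    rw [alphaPc_coe]
    show alphaB' N k hq hqN (UB (N * q ^ 2) k _ y.1) = UB N k _ (alphaPc k N hq hqN y).1
    rw [alphaPc_coe]
    exact alphaB'_UB N hq hqN k (hSig r.1 r.2).1 _ _ y.1
  -- Ihara
  have hA : ∀ i (x : H94.cuspSub k N),
      A1c k N q (T i x) = T' i (A1c k N q x) ∧ A2c k N q (T i x) = T' i (A2c k N q x) ∧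
      A3c k N q (T i x) = T' i (A3c k N q x) := by
    intro i x
    obtain ⟨hA, -⟩ := H13.stmt_RELT N q hq hqN i.1 (hP i.1 i.2).1 (hPN i.1 i.2) (hPN' i.1 i.2) k
    obtain ⟨a1, a2, a3⟩ := hA x.1
    exact ⟨Subtype.ext a1.symm, Subtype.ext a2.symm, Subtype.ext a3.symm⟩
  have hI : ∀ x₁ x₂ x₃ : H94.cuspSub k N, (∀ i, T i x₁ = a i.1 • x₁) →
      (∀ i, T i x₂ = a i.1 • x₂) → (∀ i, T i x₃ = a i.1 • x₃) →
      A1c k N q x₁ + A2c k N q x₂ + A3c k N q x₃ = 0 → x₁ = 0 ∧ x₂ = 0 ∧ x₃ = 0 := by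
    intro x₁ x₂ x₃ h₁ h₂ h₃ hrel
    have key := H78.stmt_IHARA3v k p hp2 N q hN hq hqN hqp P a hP hcheb x₁.1 x₂.1 x₃.1
      x₁.2 x₂.2 x₃.2
      (fun ℓ hℓ hℓN hPℓ => ⟨congrArg Subtype.val (h₁ ⟨ℓ, hPℓ⟩),
        congrArg Subtype.val (h₂ ⟨ℓ, hPℓ⟩), congrArg Subtype.val (h₃ ⟨ℓ, hPℓ⟩)⟩)
      (congrArg Subtype.val hrel)
    exact ⟨Subtype.ext key.1, Subtype.ext key.2.1, Subtype.ext key.2.2⟩
  have hinj : ∀ x, H72D.LocNil (fun i => T i - a i.1 • (1 : Module.End k (H94.cuspSub k N))) x →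
      alphaDc k N hq hqN x = 0 → x = 0 := by
    intro x hx h0
    have hc : ∀ i, Commute (T i - a i.1 • (1 : Module.End k (H94.cuspSub k N))) Tq :=
      fun i => (hTqc i).sub_left ((Commute.one_left _).smul_left _)
    have hx₂ : H72D.LocNil (fun i => T i - a i.1 • (1 : Module.End k (H94.cuspSub k N)))
        (-(Tq x)) := by
      have := (hx.map Tq hc).smul (-1 : k)
      rwa [neg_one_smul] at this
    have hx₃ := hx.smul (q : k)
    have hrel : A1c k N q x + A2c k N q (-(Tq x)) + A3c k N q ((q : k) • x) = 0 := by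
      rw [← h0]
      unfold alphaDc
      simp only [LinearMap.add_apply, LinearMap.sub_apply, LinearMap.smul_apply,
        LinearMap.comp_apply, map_neg, map_smul]
      abel
    exact (H72D.inj3_of_eigen T T' (fun i => a i.1) hTc (A1c k N q) (A2c k N q) (A3c k N q)
      (fun i x => (hA i x).1) (fun i x => (hA i x).2.1) (fun i x => (hA i x).2.2) hI
      x (-(Tq x)) ((q : k) • x) hx hx₂ hx₃ hrel).1
  -- the vector
  have hx : H72D.LocNil (fun i => T i - a i.1 • (1 : Module.End k (H94.cuspSub k N)))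
      (⟨φ, hφc⟩ : H94.cuspSub k N) := by
    intro i
    obtain ⟨n, hn⟩ := hφT i.1 (hP i.1 i.2).1 (hPN i.1 i.2) i.2
    refine ⟨n, Subtype.ext ?_⟩
    rw [iter_coe]
    exact hn
  have hxU : ∀ r, U r (⟨φ, hφc⟩ : H94.cuspSub k N) = 0 :=
    fun r => Subtype.ext (hφU r.1 r.2 _)
  obtain ⟨y, hy, hyU, hyx⟩ := H72D.dual_onto (H94.BL L h2 N) (H94.BL L h2 (N * q ^ 2))
    (H94.BL_nondeg L h2 N) (H94.BL_nondeg L h2 (N * q ^ 2)) T T' (fun i => a i.1) hTc hT'c hTsa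
    U U' hU'c hT'U' hTU hU'ker (alphaPc k N hq hqN) (alphaDc k N hq hqN) hadj' hα'T hαdT hα'U
    hinj ⟨φ, hφc⟩ hx hxU
  refine ⟨y.1, y.2, ?_, ?_, ?_⟩
  · intro r hr hd
    exact congrArg Subtype.val (hyU ⟨r, hr⟩)
  · intro ℓ hℓ hℓN' hPℓ
    obtain ⟨n, hn⟩ := hy ⟨ℓ, hPℓ⟩
    refine ⟨n, ?_⟩
    have := congrArg Subtype.val hn
    rw [iter_coe] at this
    exact this
  · have h := congrArg Subtype.val hyx
    rw [alphaPc_coe] at h
    exact h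

end Core

end Fermat.Agent.S59.NonMin.Geom.H72K

end
-- ==== END Fermat.Agent.S59.NonMin.Geom.H72_DualKCore

-- ==== BEGIN Fermat.Agent.S59.NonMin.Geom.H80_SplitFldFinal
section

set_option autoImplicit false

namespace Fermat.Agent.S59.NonMin.Geom.H80

/-- **SPLIT-FLD**, unconditional. -/
theorem stmt_SPLITFLD : Fermat.Agent.S59.NonMin.Geom.Stmt_SPLITFLD :=
  splitfld_of Fermat.Agent.S59.NonMin.Geom.H98.stmt_RELSPLIT
    Fermat.Agent.S59.NonMin.Geom.H61.stmt_INBMAP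

end Fermat.Agent.S59.NonMin.Geom.H80

end
-- ==== END Fermat.Agent.S59.NonMin.Geom.H80_SplitFldFinal

-- ==== BEGIN Fermat.Agent.S59.NonMin.Geom.H94_Lift
section

/-!
# S59 / NMGEOM, leaf DUAL, part LIFT-B (helper94): the wiring

* `Stmt_UADJ` : the `U_r`-adjustment (a `θ`-local parabolic class whose reduction is killed by
  the `U_r`, `r ∈ Sig`, is congruent to a class of the Betti lattice);
* `liftB_of : Stmt_UADJ → Stmt_LIFTB` : TORSLIFT with values in `k` (`H94.exists_par_lift`), the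
  `θ`-limit step (`H94.exists_theta_lift`), then the adjustment.

No `sorry`.
-/

set_option autoImplicit false
set_option linter.unusedSectionVars false

open CuspForm CongruenceSubgroup IsLocalRing
open scoped MatrixGroups

namespace Fermat.Agent.S59.NonMin.Geom.H94

open Fermat.Agent.S41 Fermat.Agent.Betti Fermat.Agent.S59.NonMin.Geom
open ModularCurve.Period

/-- **U-ADJ**: the adjustment by the projectors `e_r` of `Stmt_RELSPLIT`. -/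
def Stmt_UADJ : Prop :=
  ∀ (𝒪 : Type) [CommRing 𝒪] [IsDomain 𝒪] [IsDiscreteValuationRing 𝒪] [CharZero 𝒪]
    (M : ℕ) [NeZero M] (S : Set ℕ) (θ : CuspForm.heckeAlgebra M 2 S →+* ResidueField 𝒪)
    (Sig : Finset ℕ),
    (∀ r ∈ Sig, r.Prime ∧ IsUnit (r : 𝒪) ∧ ∃ M₀ : ℕ, M = M₀ * r ^ 2 ∧ ¬ r ∣ M₀) →
    ∀ ψ₁ : Additive (Gamma0 M) →+ 𝒪, InBetti 𝒪 M S θ ∅ ψ₁ →
    (∀ r ∈ Sig, ∀ hr : r ∣ M, UB M (ResidueField 𝒪) hr (redB 𝒪 ψ₁) = 0) →
    ∃ ψ : Additive (Gamma0 M) →+ 𝒪, InBetti 𝒪 M S θ Sig ψ ∧ redB 𝒪 ψ = redB 𝒪 ψ₁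

/-- A prime `r ≠ p` is a unit in a local ring of residue characteristic `p`. -/
theorem isUnit_natCast_of_ne {A : Type} [CommRing A] [IsLocalRing A] {p r : ℕ}
    (hp : p.Prime) (hr : r.Prime) (hrp : r ≠ p) (hpA : (p : A) ∈ maximalIdeal A) :
    IsUnit (r : A) := by
  by_contra hu
  have hrA : (r : A) ∈ maximalIdeal A := (mem_maximalIdeal _).2 hu
  have hcop : IsCoprime (p : ℤ) (r : ℤ) :=
    Nat.isCoprime_iff_coprime.2 ((Nat.coprime_primes hp hr).2 (Ne.symm hrp))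
  obtain ⟨a, b, hab⟩ := hcop
  have h1 : ((a : A) * (p : A) + (b : A) * (r : A)) = 1 := by
    have := congrArg (Int.cast : ℤ → A) hab
    push_cast at this
    exact this
  have h2 : (1 : A) ∈ maximalIdeal A := by
    rw [← h1]
    exact Ideal.add_mem _ (Ideal.mul_mem_left _ _ hpA) (Ideal.mul_mem_left _ _ hrA)
  exact (Ideal.ne_top_iff_one _).mp (maximalIdeal.isMaximal A).ne_top h2

/-- **LIFT-B** from the `U_r`-adjustment. -/
theorem liftB_of (h : Stmt_UADJ) : Stmt_LIFTB := by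
  intro 𝒪 _ _ _ _ _ _ p _ hpm M _ S θ Sig hSig ψb hψb
  obtain ⟨hcusp, hU, hnil⟩ := hψb
  obtain ⟨ψ₀, hψ₀, hred₀⟩ := exists_par_lift p hpm M (NeZero.ne M) ψb hcusp
  obtain ⟨ψ₁, hψ₁, hred₁⟩ := exists_theta_lift M S θ ψ₀ (par_of_cusp hψ₀)
    (fun ℓ hℓ hℓN hℓS a ha => by
      obtain ⟨n, hn⟩ := hnil ℓ hℓ hℓN hℓS
      refine ⟨n, ?_⟩
      rw [← redB_eq_zero_iff, ← iterate_redB, ha, hred₀]
      exact hn)
  obtain ⟨ψ, hψ, hred⟩ := h 𝒪 M S θ Sig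
    (fun r hr => ⟨(hSig r hr).1,
      isUnit_natCast_of_ne Fact.out (hSig r hr).1 (hSig r hr).2.1 hpm, (hSig r hr).2.2⟩)
    ψ₁ hψ₁ (fun r hr hrM => by rw [hred₁, hred₀]; exact hU r hr hrM)
  exact ⟨ψ, hψ, by rw [hred, hred₁, hred₀]⟩

end Fermat.Agent.S59.NonMin.Geom.H94

end
-- ==== END Fermat.Agent.S59.NonMin.Geom.H94_Lift
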