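-- GENERATED (merged mirror, NOTES/tools/trim/merge3_helper67.py): 10 modules of the originals, bodies verbatim.
import Fermat.Agent.Zm.S59_L12_000
import Fermat.Agent.Zm.S59_L02_001
import Fermat.Agent.Zm.S59_L09_000
import Fermat.Agent.Zm.S59_L07_001
import Fermat.Agent.Zm.S59_L10_001
import Fermat.Agent.Zm.S59_L01_004
import Fermat.Agent.Zm.S59_L05_004
import Fermat.Agent.Zm.S59_L11_000
import Fermat.Agent.Zm.S59_L10_000
import Fermat.Agent.Zm.S59_L08_001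
import Fermat.Agent.Zm.S59_L01_001
import Fermat.Agent.Zm.S59_L06_002
import Fermat.Agent.Zm.S35_L03_003
import Fermat.Agent.Zm.S43_L01_003
import Fermat.Agent.Zm.S35_L21_000
import Fermat.Agent.Zm.S33_L01_001
import Fermat.Agent.Zm.S59_L09_001

-- ==== BEGIN Fermat.Agent.S27.CharP.H62_CountPu
section

set_option autoImplicit false

namespace Fermat.Agent.S27.CharP.H62F

open Fermat.Agent.S27

universe u v

/-- the abstract count -/
theorem stmt_Z_Main : Zeta.Stmt_Z_Main.{v} :=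
  stmt_Z_Main_of_logDer Zeta.H63.stmt_Z_LogDer

/-- the count over an algebraic closure of `𝔽_p`, with `FFHyp` as hypothesis -/
theorem stmt_CountP : CharP.Stmt_CountP.{u, v} :=
  stmt_CountP_of_logDer Zeta.H63.stmt_Z_LogDer

/-- **COUNT-P**: the interface of the characteristic-0 half. -/
theorem stmt_CountPu : Char0.Stmt_CountPu.{u, v} :=
  stmt_CountPu_of_logDer Zeta.H63.stmt_Z_LogDer

end Fermat.Agent.S27.CharP.H62F

end
-- ==== END Fermat.Agent.S27.CharP.H62_CountPu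

-- ==== BEGIN Fermat.Agent.S27.REDu.H10_ConsC6
section

/-!
# G-RED package CONS (helper10), part C6: conservation on a chart

`S : RedSetting C F k Ft`, `x` a good chart, `r` a map on places with `RedTo P (r P)` for the
places `P` of the chart.

* `chart_conservation_int` : for a Gauss unit `f ∈ R = B ∩ V` and `Q` finite over `xt`:
  `∑_{P in the chart, r P = Q} ord_P f = ord_Q (red f)`   (C3 + helper79's C5);
* `chart_conservation` : the same for every Gauss unit `f`.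
-/

set_option autoImplicit false

universe uC uCf uK uR uF uL uE uk ukap uFp uFt uFtp uiot uEp uKp ux3b1

noncomputable section

open AlgebraicCurve Polynomial IntermediateField

namespace Fermat.Agent.S27.REDu.H10

open Fermat.Agent.S27.REDu.H34 Fermat.Agent.S27.REDu.H34.RedSetting Fermat.Agent.S27.REDu.H51
  Fermat.Agent.S27.REDu.H79

open scoped IntermediateField.algebraAdjoinAdjoin

variable {C : Type uC} {F : Type uF} {k : Type uk} {Ft : Type uFt} [Field C] [Field F] [Algebra C F] [Field k] [Field Ft] [Algebra k Ft]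
variable {S : RedSetting C F k Ft} {x : F} (hx : x ∈ S.V)

/-- For a place of the chart, `RedTo` gives the value of `xt` at the reduction. -/
theorem RedTo.ordGe_x {P : Place C F} {Q : Place k Ft} (h : RedTo S x hx P Q) (a : ↥S.O)
    (ha : OrdGe P 1 (x - algebraMap C F (a : C))) :
    OrdGe Q 1 (S.red ⟨x, hx⟩ - algebraMap k Ft (S.resO a)) :=
  h.2 ⟨x, hx⟩ (isIntegral_gen x) a ha

open Classical in
/-- **(C6)** for Gauss units of `R = B ∩ V`. -/
theorem chart_conservation_int [IsAlgClosed C] [CharZero C] [IsAlgClosed k]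
    (hFF : IsFF C F) (hFFt : IsFF k Ft) (gc : GoodChart S x hx)
    (r : Place C F → Place k Ft) (hr : ∀ P, InChart S x P → RedTo S x hx P (r P))
    (f : ↥S.V) (hfu : IsUnit f) (hfi : IsIntegral ↥(Algebra.adjoin C {x}) (f : F))
    (D : Divisor C F) (hD : ∀ P, D P = P.ord (f : F))
    (Q : Place k Ft) (hQ : S.red ⟨x, hx⟩ ∈ Q.toValuationSubring) :
    ∑ P ∈ D.support.filter (fun P => InChart S x P ∧ r P = Q), D P = Q.ord (S.red f) := by
  have hxt := gc.transc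
  have hfin := gc.fin
  have hI : ChartIntegral S x hx := chartIntegral hx hFF gc
  have hQdeg : Q.deg = 1 := H51.stmt_FFB_deg k Ft hFFt Q
  set γ : k := valHom Q hQdeg ⟨S.red ⟨x, hx⟩, hQ⟩ with hγ
  have hQγ : OrdGe Q 1 (S.red ⟨x, hx⟩ - algebraMap k Ft γ) :=
    ordGe_sub_valHom Q hQdeg ⟨S.red ⟨x, hx⟩, hQ⟩
  have hfinT : FiniteDimensional ↥k⟮S.red ⟨x, hx⟩⟯ Ft :=
    Module.finite_of_finrank_pos (gc.deg ▸ Module.finrank_pos)
  obtain ⟨T', hT', -⟩ := fibre_norm hFFt (S.red ⟨x, hx⟩) hxt γ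
  have hC3 := fibre_conservation hx hFF hFFt hxt gc.deg f hfu hfi D hD γ T' hT'
  have hC5 : ∀ Q' ∈ T', Q'.ord (S.red f) ≤
      ∑ P ∈ D.support.filter (fun P => InChart S x P ∧ r P = Q'), D P := by
    intro Q' hQ'
    exact stmt_C5 C F k Ft S x hx gc hI r hr f hfu hfi D hD Q'
      (mem_of_ordGe_one_sub Q' ((hT' Q').mp hQ'))
  -- fibrewise decomposition of the left hand side of C3
  set φ : Place C F → Prop := fun P => ∃ a : ↥S.O, S.resO a = γ ∧
    OrdGe P 1 (x - algebraMap C F (a : C)) with hφ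
  have hφin : ∀ P, φ P → InChart S x P := fun P ⟨a, _, ha⟩ => ⟨(a : C), a.2, ha⟩
  have hmaps : ∀ P ∈ D.support.filter φ, r P ∈ T' := by
    intro P hP
    rw [Finset.mem_filter] at hP
    obtain ⟨a, ha1, ha2⟩ := hP.2
    rw [hT', ← ha1]
    exact RedTo.ordGe_x hx (hr P (hφin P hP.2)) a ha2
  have hfib : ∀ Q' ∈ T', (D.support.filter φ).filter (fun P => r P = Q') =
      D.support.filter (fun P => InChart S x P ∧ r P = Q') := by
    intro Q' hQ'
    ext P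
    simp only [Finset.mem_filter]
    constructor
    · rintro ⟨⟨h1, h2⟩, h3⟩
      exact ⟨h1, hφin P h2, h3⟩
    · rintro ⟨h1, h2, h3⟩
      refine ⟨⟨h1, ?_⟩, h3⟩
      obtain ⟨a, haV, ha⟩ := h2
      have h4 := RedTo.ordGe_x hx (hr P ⟨a, haV, ha⟩) ⟨a, haV⟩ ha
      rw [h3] at h4
      have h5 := value_unique_ordGe Q' h4 ((hT' Q').mp hQ')
      exact ⟨⟨a, haV⟩, h5, ha⟩
  have hsum : ∑ Q' ∈ T', ∑ P ∈ D.support.filter (fun P => InChart S x P ∧ r P = Q'), D P =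
      ∑ Q' ∈ T', Q'.ord (S.red f) := by
    rw [← hC3, ← Finset.sum_fiberwise_of_maps_to hmaps]
    exact Finset.sum_congr rfl fun Q' hQ' => by rw [hfib Q' hQ']
  have hQT : Q ∈ T' := (hT' Q).mpr hQγ
  have hzero : ∀ Q' ∈ T', (∑ P ∈ D.support.filter (fun P => InChart S x P ∧ r P = Q'), D P) -
      Q'.ord (S.red f) = 0 := by
    refine (Finset.sum_eq_zero_iff_of_nonneg ?_).mp ?_
    · intro Q' hQ'
      have := hC5 Q' hQ'
      omega
    · rw [Finset.sum_sub_distrib, hsum, sub_self]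
  have := hzero Q hQT
  omega

/-- Sums over the support of a divisor can be taken over any larger finite set. -/
theorem sum_support_filter_eq {α : Type ux3b1} (D : α →₀ ℤ) (U : Finset α) (hU : D.support ⊆ U)
    (ψ : α → Prop) [DecidablePred ψ] :
    ∑ P ∈ D.support.filter ψ, D P = ∑ P ∈ U.filter ψ, D P := by
  refine Finset.sum_subset (Finset.filter_subset_filter ψ hU) ?_
  intro P hP hPn
  rw [Finset.mem_filter] at hP hPn
  by_contra hne
  exact hPn ⟨Finsupp.mem_support_iff.mpr hne, hP.2⟩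

open Classical in
/-- **(C6)** conservation on a chart, for every Gauss unit. -/
theorem chart_conservation [IsAlgClosed C] [CharZero C] [IsAlgClosed k]
    (hFF : IsFF C F) (hFFt : IsFF k Ft) (gc : GoodChart S x hx)
    (r : Place C F → Place k Ft) (hr : ∀ P, InChart S x P → RedTo S x hx P (r P))
    (f : ↥S.V) (hfu : IsUnit f)
    (D : Divisor C F) (hD : ∀ P, D P = P.ord (f : F))
    (Q : Place k Ft) (hQ : S.red ⟨x, hx⟩ ∈ Q.toValuationSubring) :
    ∑ P ∈ D.support.filter (fun P => InChart S x P ∧ r P = Q), D P = Q.ord (S.red f) := by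
  have hxt := gc.transc
  have hfin := gc.fin
  have hxC := transcendental_x hx hxt
  -- a denominator
  have halgK : IsAlgebraic ↥C⟮x⟯ (f : F) := Algebra.IsAlgebraic.isAlgebraic _
  have halg : IsAlgebraic ↥(Algebra.adjoin C {x}) (f : F) :=
    (IsFractionRing.isAlgebraic_iff ↥(Algebra.adjoin C {x}) ↥C⟮x⟯ F).mpr halgK
  obtain ⟨y, hy0, hyint⟩ := halg.exists_integral_multiple
  obtain ⟨p, rfl⟩ := (polyEquiv hxC).surjective y
  have hp : p ≠ 0 := fun h => hy0 (by rw [h, map_zero])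
  obtain ⟨c, hc, p₀, hp₀, hu₂, -, he⟩ := exists_decomp hx hxt p hp
  set f₂ : ↥S.V := psi hx p₀ with hf₂
  have hf₂i : IsIntegral ↥(Algebra.adjoin C {x}) (f₂ : F) := by
    have h1 : (f₂ : F) = algebraMap ↥(Algebra.adjoin C {x}) F
        (polyEquiv hxC (p₀.map S.O.subtype)) := by
      rw [hf₂, coe_psi]
      exact (coe_polyEquiv hxC _).symm
    rw [h1]
    exact isIntegral_algebraMap
  have hyF : ((polyEquiv hxC p : ↥(Algebra.adjoin C {x})) : F) =
      algebraMap C F c * (f₂ : F) := by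
    rw [coe_polyEquiv, he]
  have hf₁u : IsUnit (f * f₂) := hfu.mul hu₂
  have hf₁i : IsIntegral ↥(Algebra.adjoin C {x}) ((f * f₂ : ↥S.V) : F) := by
    have h1 : ((f * f₂ : ↥S.V) : F) = algebraMap C F c⁻¹ * (polyEquiv hxC p • (f : F)) := by
      rw [Algebra.smul_def]
      show (f : F) * (f₂ : F) = algebraMap C F c⁻¹ *
        (((polyEquiv hxC p : ↥(Algebra.adjoin C {x})) : F) * (f : F))
      rw [hyF, map_inv₀]
      have hc' : algebraMap C F c ≠ 0 := (map_ne_zero (algebraMap C F)).mpr hc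
      field_simp
    rw [h1]
    exact (isIntegral_const x c⁻¹).mul hyint
  -- the divisors
  have hne : ∀ g : ↥S.V, IsUnit g → (g : F) ≠ 0 := by
    intro g hg h0
    have : g = 0 := Subtype.ext h0
    rw [this] at hg
    exact not_isUnit_zero hg
  have hP : HasPrincipalDivisors C F := stmt_FFB_principal C F hFF
  obtain ⟨D₁, hD₁, -⟩ := hP.exists_divisor _ (hne _ hf₁u)
  obtain ⟨D₂, hD₂, -⟩ := hP.exists_divisor _ (hne _ hu₂)
  have h1 := chart_conservation_int hx hFF hFFt gc r hr (f * f₂) hf₁u hf₁i D₁ hD₁ Q hQ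
  have h2 := chart_conservation_int hx hFF hFFt gc r hr f₂ hu₂ hf₂i D₂ hD₂ Q hQ
  have hDD : ∀ P, D P = D₁ P - D₂ P := by
    intro P
    rw [hD, hD₁, hD₂]
    show P.ord (f : F) = P.ord ((f : F) * (f₂ : F)) - P.ord (f₂ : F)
    rw [P.ord_mul (hne _ hfu) (hne _ hu₂)]
    ring
  set U : Finset (Place C F) := D.support ∪ D₁.support ∪ D₂.support with hU
  rw [sum_support_filter_eq D U (by rw [hU]; intro a ha; simp [ha])
    (fun P => InChart S x P ∧ r P = Q)]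
  rw [sum_support_filter_eq D₁ U (by rw [hU]; intro a ha; simp [ha])
    (fun P => InChart S x P ∧ r P = Q)] at h1
  rw [sum_support_filter_eq D₂ U (by rw [hU]; intro a ha; simp [ha])
    (fun P => InChart S x P ∧ r P = Q)] at h2
  have h3 : S.red (f * f₂) = S.red f * S.red f₂ := map_mul _ _ _
  have hr0 : S.red f ≠ 0 := (hfu.map S.red).ne_zero
  have hr2 : S.red f₂ ≠ 0 := (hu₂.map S.red).ne_zero
  rw [h3, Q.ord_mul hr0 hr2] at h1
  have h4 : ∑ P ∈ U.filter (fun P => InChart S x P ∧ r P = Q), D P =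
      ∑ P ∈ U.filter (fun P => InChart S x P ∧ r P = Q), D₁ P -
        ∑ P ∈ U.filter (fun P => InChart S x P ∧ r P = Q), D₂ P := by
    rw [← Finset.sum_sub_distrib]
    exact Finset.sum_congr rfl fun P _ => hDD P
  rw [h4, h1, h2]
  ring

end Fermat.Agent.S27.REDu.H10

end
end
-- ==== END Fermat.Agent.S27.REDu.H10_ConsC6

-- ==== BEGIN Fermat.Agent.S27.REDu.H42_Gen9
section

/-!
# G-RED package GEN (helper42), part 9: the genus does not drop

* `linearIndependent_of_red` : lifts of `k`-linearly independent elements are `C`-linearly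
  independent.
* `finrank_L_le_of_charts` : `l~(N (xt)_∞) ≤ l(N (x)_∞)` for `N` large.
* `genusLE_of_charts` : for EVERY map `r` of places, `l~(r_* D) ≤ l(D)` for `deg D` large.
-/

set_option autoImplicit false

universe uC uCf uK uR uF uL uE uk ukap uFp uFt uFtp uiot uEp uKp ux3b1

noncomputable section

open AlgebraicCurve IntermediateField WithZero Polynomial Module

namespace Fermat.Agent.S27.REDu.H42

open Fermat.Agent.S24 Fermat.Agent.S27.REDu.H34 Fermat.Agent.S27.REDu.H34.RedSetting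

variable {C : Type uC} {F : Type uF} {k : Type uk} {Ft : Type uFt} [Field C] [Field F] [Algebra C F] [Field k] [Field Ft] [Algebra k Ft]

local notation "L" => riemannRochSpace

/-- Lifts of `k`-linearly independent elements are `C`-linearly independent. -/
theorem linearIndependent_of_red (S : RedSetting C F k Ft) {ι : Type uiot} [Fintype ι]
    (g : ι → ↥S.V) (hli : LinearIndependent k (fun j => S.red (g j))) :
    LinearIndependent C (fun j => ((g j : ↥S.V) : F)) := by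
  classical
  rw [Fintype.linearIndependent_iff]
  intro c hc
  by_contra hno
  push Not at hno
  obtain ⟨j₁, hj₁⟩ := hno
  obtain ⟨j₀, -, hmax⟩ := Finset.exists_max_image (Finset.univ : Finset ι)
    (fun j => S.O.valuation (c j)) ⟨j₁, Finset.mem_univ j₁⟩
  have hv1 : S.O.valuation (c j₁) ≠ 0 := (Valuation.ne_zero_iff _).2 hj₁
  have hv0 : S.O.valuation (c j₀) ≠ 0 := by
    intro h0
    have := hmax j₁ (Finset.mem_univ j₁)
    rw [h0] at this
    exact hv1 (le_antisymm this zero_le)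
  have hc0 : c j₀ ≠ 0 := (Valuation.ne_zero_iff _).1 hv0
  have hall : ∀ j, c j / c j₀ ∈ S.O := by
    intro j
    rw [← S.O.valuation_le_one_iff, map_div₀, div_le_one₀ (zero_lt_iff.2 hv0)]
    exact hmax j (Finset.mem_univ j)
  have h1 : ∑ j, S.inclO ⟨c j / c j₀, hall j⟩ * g j = 0 := by
    apply Subtype.ext
    rw [AddSubmonoidClass.coe_finsetSum, ZeroMemClass.coe_zero]
    have h2 : ∑ j, algebraMap C F (c j / c j₀) * ((g j : ↥S.V) : F) =
        algebraMap C F (c j₀)⁻¹ * ∑ j, c j • ((g j : ↥S.V) : F) := by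
      rw [Finset.mul_sum]
      refine Finset.sum_congr rfl fun j _ => ?_
      rw [Algebra.smul_def, ← mul_assoc, ← map_mul, inv_mul_eq_div]
    rw [hc, mul_zero] at h2
    rw [← h2]
    rfl
  have h3 := congrArg S.red h1
  rw [map_sum, map_zero] at h3
  have h4 : ∑ j, S.resO ⟨c j / c j₀, hall j⟩ • S.red (g j) = 0 := by
    rw [← h3]
    refine Finset.sum_congr rfl fun j _ => ?_
    rw [map_mul, red_inclO, Algebra.smul_def]
  have h5 := Fintype.linearIndependent_iff.1 hli _ h4 j₀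
  have h6 : (⟨c j₀ / c j₀, hall j₀⟩ : ↥S.O) = 1 := Subtype.ext (div_self hc0)
  rw [h6, map_one] at h5
  exact one_ne_zero h5

theorem red_inv_eq (S : RedSetting C F k Ft) {x : F} (hx : x ∈ S.V) (hx' : x⁻¹ ∈ S.V)
    (hx0 : x ≠ 0) : S.red ⟨x⁻¹, hx'⟩ = (S.red ⟨x, hx⟩)⁻¹ := by
  apply eq_inv_of_mul_eq_one_left
  rw [← map_mul]
  have : (⟨x⁻¹, hx'⟩ : ↥S.V) * ⟨x, hx⟩ = 1 := Subtype.ext (inv_mul_cancel₀ hx0)
  rw [this, map_one]

/-- `l~(N (xt)_∞) ≤ l(N (x)_∞)` from the lifting property. -/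
theorem finrank_L_le_of_lift [IsAlgClosed C] [IsAlgClosed k] (hFF : IsFF C F) (hFFt : IsFF k Ft)
    (S : RedSetting C F k Ft) {x : F} (hx : x ∈ S.V) (hx' : x⁻¹ ∈ S.V) (hx0 : x ≠ 0)
    (hfin : {v : Place C F | 0 < v.ord x⁻¹}.Finite)
    (hfint : {v : Place k Ft | 0 < v.ord (S.red ⟨x, hx⟩)⁻¹}.Finite) (N : ℕ)
    (hlift : ∀ y : Ft, IsIntegral ↥(Algebra.adjoin k {S.red ⟨x, hx⟩}) y →
      IsIntegral ↥(Algebra.adjoin k {S.red ⟨x⁻¹, hx'⟩}) (S.red ⟨x⁻¹, hx'⟩ ^ N * y) →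
      ∃ g : ↥S.V, S.red g = y ∧ IsIntegral ↥(Algebra.adjoin C {x}) (g : F) ∧
        IsIntegral ↥(Algebra.adjoin C {x⁻¹}) (x⁻¹ ^ N * (g : F))) :
    Module.finrank k (L (N • zeroDivisor (S.red ⟨x, hx⟩)⁻¹ hfint)) ≤
      Module.finrank C (L (N • zeroDivisor x⁻¹ hfin)) := by
  classical
  have hxt0 : S.red ⟨x, hx⟩ ≠ 0 := by
    intro h0
    have h1 := red_inv_eq S hx hx' hx0
    have h2 : S.red ⟨x, hx⟩ * S.red ⟨x⁻¹, hx'⟩ = 1 := by
      rw [← map_mul]
      have : (⟨x, hx⟩ : ↥S.V) * ⟨x⁻¹, hx'⟩ = 1 := Subtype.ext (mul_inv_cancel₀ hx0)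
      rw [this, map_one]
    rw [h0, zero_mul] at h2
    exact zero_ne_one h2
  rw [red_inv_eq S hx hx' hx0] at hlift
  haveI : Module.Finite k (L (N • zeroDivisor (S.red ⟨x, hx⟩)⁻¹ hfint)) :=
    stmt_FFR_finite k Ft hFFt _
  haveI : Module.Finite C (L (N • zeroDivisor x⁻¹ hfin)) := stmt_FFR_finite C F hFF _
  let b := Module.finBasis k (L (N • zeroDivisor (S.red ⟨x, hx⟩)⁻¹ hfint))
  have hb : ∀ j, ∃ g : ↥S.V, S.red g = ((b j : ↥(L (N • zeroDivisor (S.red ⟨x, hx⟩)⁻¹ hfint))) :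
      Ft) ∧ IsIntegral ↥(Algebra.adjoin C {x}) (g : F) ∧
        IsIntegral ↥(Algebra.adjoin C {x⁻¹}) (x⁻¹ ^ N * (g : F)) := by
    intro j
    obtain ⟨h1, h2⟩ := isIntegral_of_mem_L hFFt hxt0 hfint N (b j).2
    exact hlift _ h1 h2
  choose g hgred hgint hgint' using hb
  have hli : LinearIndependent k (fun j => S.red (g j)) := by
    have h1 := b.linearIndependent.map' (L (N • zeroDivisor (S.red ⟨x, hx⟩)⁻¹ hfint)).subtype
      (Submodule.ker_subtype _)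
    have h2 : (fun j => S.red (g j)) =
        ⇑(L (N • zeroDivisor (S.red ⟨x, hx⟩)⁻¹ hfint)).subtype ∘ ⇑b := by
      funext j
      exact hgred j
    rw [h2]
    exact h1
  have hliF := linearIndependent_of_red S g hli
  have hliL : LinearIndependent C (fun j =>
      (⟨((g j : ↥S.V) : F), mem_L_of_isIntegral hx0 hfin N (hgint j) (hgint' j)⟩ :
        ↥(L (N • zeroDivisor x⁻¹ hfin)))) := by
    refine LinearIndependent.of_comp (L (N • zeroDivisor x⁻¹ hfin)).subtype ?_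
    exact hliF
  have := hliL.fintype_card_le_finrank
  simpa using this

theorem degree_mapDomain {K : Type uK} {E : Type uE} {K' : Type uKp} {E' : Type uEp} [Field K] [Field E] [Algebra K E] [Field K']
    [Field E'] [Algebra K' E'] (h1 : ∀ v : Place K E, v.deg = 1)
    (h1' : ∀ v : Place K' E', v.deg = 1) (r : Place K E → Place K' E') (D : Divisor K E) :
    Divisor.degree (Finsupp.mapDomain r D) = Divisor.degree D := by
  induction D using Finsupp.induction_linear with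
  | zero => simp
  | add D D' hD hD' => rw [Finsupp.mapDomain_add, map_add, map_add, hD, hD']
  | single v n =>
    rw [Finsupp.mapDomain_single, Divisor.degree_single, Divisor.degree_single, h1, h1']

/-- **The genus does not drop** (abstract form): from the lifting property, for every map `r`
of places `l~(r_* D) ≤ l(D)` for all divisors `D` of large degree. -/
theorem genusLE_of_lift [IsAlgClosed C] [IsAlgClosed k] (hFF : IsFF C F) (hFFt : IsFF k Ft)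
    (S : RedSetting C F k Ft) {x : F} (hx : x ∈ S.V) (hx' : x⁻¹ ∈ S.V)
    (hxt : Transcendental k (S.red ⟨x, hx⟩)) [FiniteDimensional ↥C⟮x⟯ F]
    (hdeg : Module.finrank ↥k⟮S.red ⟨x, hx⟩⟯ Ft = Module.finrank ↥C⟮x⟯ F)
    (hlift : ∃ N₀ : ℕ, ∀ N, N₀ ≤ N → ∀ y : Ft,
      IsIntegral ↥(Algebra.adjoin k {S.red ⟨x, hx⟩}) y →
      IsIntegral ↥(Algebra.adjoin k {S.red ⟨x⁻¹, hx'⟩}) (S.red ⟨x⁻¹, hx'⟩ ^ N * y) →
      ∃ g : ↥S.V, S.red g = y ∧ IsIntegral ↥(Algebra.adjoin C {x}) (g : F) ∧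
        IsIntegral ↥(Algebra.adjoin C {x⁻¹}) (x⁻¹ ^ N * (g : F)))
    (r : Place C F → Place k Ft) :
    ∃ c : ℤ, ∀ D : Divisor C F, c ≤ Divisor.degree D →
      Module.finrank k (L (Finsupp.mapDomain r D)) ≤ Module.finrank C (L D) := by
  classical
  have hxC := transcendental_x hx hxt
  have hx0 : x ≠ 0 := fun h0 => hxC (h0 ▸ isAlgebraic_zero)
  have hxt0 : S.red ⟨x, hx⟩ ≠ 0 := fun h0 => hxt (h0 ▸ isAlgebraic_zero)
  have hpos : 0 < Module.finrank ↥C⟮x⟯ F := Module.finrank_pos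
  have hfint' : FiniteDimensional ↥k⟮S.red ⟨x, hx⟩⟯ Ft :=
    Module.finite_of_finrank_pos (hdeg ▸ hpos)
  have h1 : ∀ v : Place C F, v.deg = 1 := fun v => ff_deg_eq_one x hxC v
  have h1t : ∀ v : Place k Ft, v.deg = 1 := fun v => ff_deg_eq_one _ hxt v
  -- pole divisors
  have htr : Transcendental C x⁻¹ := fun h => hxC (IsAlgebraic.inv_iff.mp h)
  have htrt : Transcendental k (S.red ⟨x, hx⟩)⁻¹ := fun h => hxt (IsAlgebraic.inv_iff.mp h)
  have hfd := ff_finite_of_transcendental x hxC x⁻¹ htr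
  have hfdt := ff_finite_of_transcendental _ hxt (S.red ⟨x, hx⟩)⁻¹ htrt
  obtain ⟨hfin, hsum⟩ := zerosAll C F hFF x⁻¹ htr
  obtain ⟨hfint, hsumt⟩ := zerosAll k Ft hFFt (S.red ⟨x, hx⟩)⁻¹ htrt
  rw [H59.finrank_adjoin_inv] at hsum hsumt
  have hdegD : Divisor.degree (zeroDivisor x⁻¹ hfin) = (Module.finrank ↥C⟮x⟯ F : ℤ) := by
    rw [degree_zeroDivisor h1, hsum]
  have hdegDt : Divisor.degree (zeroDivisor (S.red ⟨x, hx⟩)⁻¹ hfint) =
      (Module.finrank ↥C⟮x⟯ F : ℤ) := by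
    rw [degree_zeroDivisor h1t, hsumt, hdeg]
  -- Riemann
  obtain ⟨g, c, hR⟩ := stmt_FFR_riemann C F hFF
  obtain ⟨gt, ct, hRt⟩ := stmt_FFR_riemann k Ft hFFt
  obtain ⟨N₀, hN₀⟩ := hlift
  -- a large `N`
  let N : ℕ := max N₀ (max c ct).toNat
  have hNN₀ : N₀ ≤ N := le_max_left _ _
  have hNc : max c ct ≤ (N : ℤ) * (Module.finrank ↥C⟮x⟯ F : ℤ) := by
    have h2 : max c ct ≤ (N : ℤ) := by
      have h3 : (max c ct).toNat ≤ N := le_max_right _ _
      have h4 : max c ct ≤ ((max c ct).toNat : ℤ) := Int.self_le_toNat _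
      exact h4.trans (by exact_mod_cast h3)
    have h5 : (1 : ℤ) ≤ (Module.finrank ↥C⟮x⟯ F : ℤ) := by exact_mod_cast hpos
    have h6 : (0 : ℤ) ≤ (N : ℤ) := Int.natCast_nonneg N
    nlinarith
  have hle := finrank_L_le_of_lift hFF hFFt S hx hx' hx0 hfin hfint N (hN₀ N hNN₀)
  have hdN : Divisor.degree (N • zeroDivisor x⁻¹ hfin) =
      (N : ℤ) * (Module.finrank ↥C⟮x⟯ F : ℤ) := by
    rw [map_nsmul, hdegD, nsmul_eq_mul]
  have hdNt : Divisor.degree (N • zeroDivisor (S.red ⟨x, hx⟩)⁻¹ hfint) =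
      (N : ℤ) * (Module.finrank ↥C⟮x⟯ F : ℤ) := by
    rw [map_nsmul, hdegDt, nsmul_eq_mul]
  have e1 := (hR (N • zeroDivisor x⁻¹ hfin)).2 (by rw [hdN]; exact (le_max_left _ _).trans hNc)
  have e2 := (hRt (N • zeroDivisor (S.red ⟨x, hx⟩)⁻¹ hfint)).2
    (by rw [hdNt]; exact (le_max_right _ _).trans hNc)
  rw [hdN] at e1
  rw [hdNt] at e2
  have hgg : (g : ℤ) ≤ (gt : ℤ) := by
    have : ((Module.finrank k (L (N • zeroDivisor (S.red ⟨x, hx⟩)⁻¹ hfint)) : ℕ) : ℤ) ≤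
        ((Module.finrank C (L (N • zeroDivisor x⁻¹ hfin)) : ℕ) : ℤ) := by exact_mod_cast hle
    rw [e1, e2] at this
    linarith
  refine ⟨max c ct, fun D hD => ?_⟩
  have e3 := (hR D).2 ((le_max_left _ _).trans hD)
  have e4 := (hRt (Finsupp.mapDomain r D)).2
    (by rw [degree_mapDomain h1 h1t]; exact (le_max_right _ _).trans hD)
  rw [degree_mapDomain h1 h1t] at e4
  have : ((Module.finrank k (L (Finsupp.mapDomain r D)) : ℕ) : ℤ) ≤
      ((Module.finrank C (L D) : ℕ) : ℤ) := by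
    rw [e3, e4]
    linarith
  exact_mod_cast this

/-- **GEN** (abstract form): if both charts `x`, `x⁻¹` are normal, `Ft / k(xt)` is separable of
degree `[F : C(x)]` and `char C = 0`, the genus does not drop: for EVERY map `r` of places,
`l~(r_* D) ≤ l(D)` for all divisors `D` of large degree. -/
theorem genusLE_of_charts [IsAlgClosed C] [CharZero C] [IsAlgClosed k] (hFF : IsFF C F)
    (hFFt : IsFF k Ft) (S : RedSetting C F k Ft) {x : F} (hx : x ∈ S.V) (hx' : x⁻¹ ∈ S.V)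
    (hxt : Transcendental k (S.red ⟨x, hx⟩)) [FiniteDimensional ↥C⟮x⟯ F]
    (hdeg : Module.finrank ↥k⟮S.red ⟨x, hx⟩⟯ Ft = Module.finrank ↥C⟮x⟯ F)
    [Algebra.IsSeparable ↥k⟮S.red ⟨x, hx⟩⟯ Ft]
    (hcn : ∀ y : Ft, IsIntegral ↥(Algebra.adjoin k {S.red ⟨x, hx⟩}) y →
      ∃ f : ↥S.V, IsIntegral ↥(Algebra.adjoin C {x}) (f : F) ∧ S.red f = y)
    (hcn' : ∀ y : Ft, IsIntegral ↥(Algebra.adjoin k {S.red ⟨x⁻¹, hx'⟩}) y →
      ∃ f : ↥S.V, IsIntegral ↥(Algebra.adjoin C {x⁻¹}) (f : F) ∧ S.red f = y)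
    (r : Place C F → Place k Ft) :
    ∃ c : ℤ, ∀ D : Divisor C F, c ≤ Divisor.degree D →
      Module.finrank k (L (Finsupp.mapDomain r D)) ≤ Module.finrank C (L D) :=
  genusLE_of_lift hFF hFFt S hx hx' hxt hdeg (gen_lift hx hx' hxt hdeg hcn hcn') r

end Fermat.Agent.S27.REDu.H42

end
end
-- ==== END Fermat.Agent.S27.REDu.H42_Gen9

-- ==== BEGIN Fermat.Agent.S59.CaseC.Geom.H85_PDualK
section

/-!
# S59, case C, PGEOM leaf P-DUAL (helper85): the statement over the residue field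

`pdualk_core` : over a finite field `k` of characteristic `p ≠ 2`, for `p ∤ N`, the map
`(cor1, cor2)` from the `θ`-part of the cuspidal classes of level `N p` killed by the `U_r`
(`r ∈ Sig`) to the square of the same part of level `N` is ONTO.

Inputs: the pairing `S41.H94.BL` (perfect, `res_i ↔ cor_i` adjoint, `T_ℓ` self-adjoint), Ihara's
lemma `Stmt_IHARA2k` (helper78) with the primes of Chebotarev as a hypothesis, the commutation
relations (helper98, helper80), `KERU` (helper98) and the abstract `NonMin.Geom.H85.theta_surj`.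

No `sorry`.
-/

set_option autoImplicit false

open CuspForm CongruenceSubgroup
open scoped MatrixGroups

namespace Fermat.Agent.S59.CaseC.Geom.H85

open Fermat.Agent.S41 Fermat.Agent.S41.H94 Fermat.Agent.Betti Fermat.Agent.S59.NonMin.Geom

/-- the additive group structure of the cuspidal classes (instance search needs help here) -/
noncomputable local instance instACGcusp {k : Type} [Field k] (M : ℕ) :
    AddCommGroup (cuspSub k M) :=
  Submodule.addCommGroup _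

section Shift

variable {k : Type} [Field k]

/-- the shifted operator `T_ℓ - a` on the cuspidal classes -/
noncomputable def TSh (M : ℕ) {ℓ : ℕ} (hℓ : ℓ.Prime) (hℓM : ¬ ℓ ∣ M) (a : k) :
    Module.End k (cuspSub k M) :=
  TLk k M hℓ hℓM - algebraMap k (Module.End k (cuspSub k M)) a

theorem TSh_apply (M : ℕ) {ℓ : ℕ} (hℓ : ℓ.Prime) (hℓM : ¬ ℓ ∣ M) (a : k) (x : cuspSub k M) :
    TSh M hℓ hℓM a x = TLk k M hℓ hℓM x - a • x := by
  rw [TSh, LinearMap.sub_apply, Module.algebraMap_end_apply]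

theorem TSh_coe (M : ℕ) {ℓ : ℕ} (hℓ : ℓ.Prime) (hℓM : ¬ ℓ ∣ M) (a : k) (x : cuspSub k M) :
    (TSh M hℓ hℓM a x : Additive (Gamma0 M) →+ k) = TB M k hℓ hℓM x.1 - a • x.1 := by
  rw [TSh_apply]
  rfl

/-- powers of an operator on the subspace and iterates of the underlying map -/
theorem coe_pow_apply (M : ℕ) (E : Module.End k (cuspSub k M))
    (f : (Additive (Gamma0 M) →+ k) → (Additive (Gamma0 M) →+ k))
    (hE : ∀ x : cuspSub k M, (E x : Additive (Gamma0 M) →+ k) = f x.1) (n : ℕ)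
    (x : cuspSub k M) : ((E ^ n) x : Additive (Gamma0 M) →+ k) = f^[n] x.1 := by
  induction n generalizing x with
  | zero => rfl
  | succ n IH => rw [pow_succ, Module.End.mul_apply, IH, hE, Function.iterate_succ_apply]

theorem TSh_pow_coe (M : ℕ) {ℓ : ℕ} (hℓ : ℓ.Prime) (hℓM : ¬ ℓ ∣ M) (a : k) (n : ℕ)
    (x : cuspSub k M) :
    ((TSh M hℓ hℓM a ^ n) x : Additive (Gamma0 M) →+ k)
      = (fun χ : Additive (Gamma0 M) →+ k => TB M k hℓ hℓM χ - a • χ)^[n] x.1 :=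
  coe_pow_apply M _ _ (fun x => TSh_coe M hℓ hℓM a x) n x

theorem ULk_pow_coe (M : ℕ) [NeZero M] {r : ℕ} (hr : r ∣ M) (n : ℕ) (x : cuspSub k M) :
    ((ULk k M hr ^ n) x : Additive (Gamma0 M) →+ k) = (⇑(UB M k hr))^[n] x.1 :=
  coe_pow_apply M _ _ (fun _ => rfl) n x

theorem commute_sub_algebraMap {E : Type*} [Ring E] [Algebra k E] {f g : E} (h : Commute f g)
    (a b : k) : Commute (f - algebraMap k E a) (g - algebraMap k E b) :=
  (h.sub_right (Algebra.commute_algebraMap_right b f)).sub_left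
    ((Algebra.commute_algebraMap_left a g).sub_right (Algebra.commute_algebraMap_left a _))

theorem commute_sub_algebraMap_left {E : Type*} [Ring E] [Algebra k E] {f g : E}
    (h : Commute f g) (a : k) : Commute (f - algebraMap k E a) g :=
  h.sub_left (Algebra.commute_algebraMap_left a g)

theorem commute_sub_algebraMap_right {E : Type*} [Ring E] [Algebra k E] {f g : E}
    (h : Commute f g) (b : k) : Commute f (g - algebraMap k E b) :=
  h.sub_right (Algebra.commute_algebraMap_right b f)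

variable {W : Type*} [AddCommGroup W] [Module k W]

theorem prodMap_pow_apply (f : Module.End k W) (n : ℕ) (x : W × W) :
    ((LinearMap.prodMap f f : Module.End k (W × W)) ^ n) x = ((f ^ n) x.1, (f ^ n) x.2) := by
  induction n generalizing x with
  | zero => rfl
  | succ n IH =>
    rw [pow_succ, Module.End.mul_apply, IH, LinearMap.prodMap_apply, pow_succ,
      Module.End.mul_apply, Module.End.mul_apply]

theorem prodMap_commute {f g : Module.End k W} (h : Commute f g) :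
    Commute (LinearMap.prodMap f f : Module.End k (W × W)) (LinearMap.prodMap g g) := by
  refine LinearMap.ext fun x => ?_
  have e1 : f (g x.1) = g (f x.1) := congrArg (fun e : Module.End k W => e x.1) h.eq
  have e2 : f (g x.2) = g (f x.2) := congrArg (fun e : Module.End k W => e x.2) h.eq
  simp only [Module.End.mul_apply, LinearMap.prodMap_apply, e1, e2]

end Shift

/-! ## The data of the abstract theorem -/

section Data

variable (k : Type) [Field k] (h2 : (2 : k) ≠ 0) (N p : ℕ) [NeZero N] [NeZero (N * p)]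
  (S : Set ℕ) (θ : CuspForm.heckeAlgebra N 2 S →+* k) (Sig : Finset ℕ)

/-- the good primes -/
abbrev IdxT : Type := {ℓ : ℕ // ℓ.Prime ∧ ¬ ℓ ∣ N * p ∧ ℓ ∉ S}

variable {N p S}

omit [NeZero N] [NeZero (N * p)] in
theorem IdxT.not_dvd (i : IdxT N p S) : ¬ i.1 ∣ N := fun h => i.2.2.1 (dvd_mul_of_dvd_left h _)

variable {k}

/-- the eigenvalue `θ(T_ℓ)` -/
noncomputable def aT (i : IdxT N p S) : k :=
  θ (CuspForm.heckeAlgebra.T i.2.1 i.not_dvd i.2.2.2)

/-- `T_ℓ - θ(T_ℓ)` at the level `N` -/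
noncomputable def TN (i : IdxT N p S) : Module.End k (cuspSub k N) :=
  TSh N i.2.1 i.not_dvd (aT θ i)

/-- `T_ℓ - θ(T_ℓ)` at the level `N p` -/
noncomputable def TN' (i : IdxT N p S) : Module.End k (cuspSub k (N * p)) :=
  TSh (N * p) i.2.1 i.2.2.1 (aT θ i)

/-- the diagonal operator on pairs -/
noncomputable def dg {W : Type*} [AddCommGroup W] [Module k W] (f : Module.End k W) :
    Module.End k (W × W) := LinearMap.prodMap f f

theorem dg_apply {W : Type*} [AddCommGroup W] [Module k W] (f : Module.End k W) (x : W × W) :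
    dg f x = (f x.1, f x.2) := rfl

theorem dg_pow_apply {W : Type*} [AddCommGroup W] [Module k W] (f : Module.End k W) (n : ℕ)
    (x : W × W) : ((dg f) ^ n) x = ((f ^ n) x.1, (f ^ n) x.2) :=
  prodMap_pow_apply f n x

theorem dg_commute {W : Type*} [AddCommGroup W] [Module k W] {f g : Module.End k W}
    (h : Commute f g) : Commute (dg f) (dg g) := prodMap_commute h

variable (N) in
/-- the pairing on pairs -/
noncomputable def B2 : (cuspSub k N × cuspSub k N) →ₗ[k] (cuspSub k N × cuspSub k N) →ₗ[k] k :=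
  (BL leaves h2 N).compl₁₂ (LinearMap.fst k _ _) (LinearMap.fst k _ _)
    + (BL leaves h2 N).compl₁₂ (LinearMap.snd k _ _) (LinearMap.snd k _ _)

theorem B2_apply (x y : cuspSub k N × cuspSub k N) :
    B2 h2 N x y = BL leaves h2 N x.1 y.1 + BL leaves h2 N x.2 y.2 := rfl

theorem B2_nondeg (x : cuspSub k N × cuspSub k N) (hx : ∀ y, B2 h2 N x y = 0) : x = 0 := by
  obtain ⟨x₁, x₂⟩ := x
  have e1 : x₁ = 0 := BL_nondeg leaves h2 N x₁ (fun y => by
    have := hx (y, 0)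
    rw [B2_apply] at this
    simpa using this)
  have e2 : x₂ = 0 := BL_nondeg leaves h2 N x₂ (fun y => by
    have := hx (0, y)
    rw [B2_apply] at this
    simpa using this)
  rw [e1, e2]
  rfl

variable (N p) in
/-- `(x₁, x₂) ↦ res1 x₁ + res2 x₂` -/
noncomputable def rr (hN : N ≠ 0) (hp : p ≠ 0) :
    (cuspSub k N × cuspSub k N) →ₗ[k] cuspSub k (N * p) :=
  (resL1 leaves h2 N p hN hp).coprod (resL2 leaves h2 N p hN hp)

variable (N p) in
/-- `y ↦ (cor1 y, cor2 y)` -/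
noncomputable def cc (hN : N ≠ 0) (hp : p ≠ 0) :
    cuspSub k (N * p) →ₗ[k] (cuspSub k N × cuspSub k N) :=
  (corL1 leaves h2 N p hN hp).prod (corL2 leaves h2 N p hN hp)

omit [NeZero N] [NeZero (N * p)] in
theorem rr_apply (hN : N ≠ 0) (hp : p ≠ 0) (x : cuspSub k N × cuspSub k N) :
    rr h2 N p hN hp x = resL1 leaves h2 N p hN hp x.1 + resL2 leaves h2 N p hN hp x.2 := rfl

omit [NeZero N] [NeZero (N * p)] in
theorem cc_apply (hN : N ≠ 0) (hp : p ≠ 0) (y : cuspSub k (N * p)) :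
    cc h2 N p hN hp y = (corL1 leaves h2 N p hN hp y, corL2 leaves h2 N p hN hp y) := rfl

theorem adj2 (hN : N ≠ 0) (hp : p ≠ 0) (x : cuspSub k N × cuspSub k N)
    (y : cuspSub k (N * p)) :
    BL leaves h2 (N * p) (rr h2 N p hN hp x) y = B2 h2 N x (cc h2 N p hN hp y) := by
  rw [rr_apply, cc_apply, B2_apply, map_add, LinearMap.add_apply, BL_adj1, BL_adj2]

omit [NeZero (N * p)] in
theorem B2_TN (i : IdxT N p S) (x y : cuspSub k N × cuspSub k N) :
    B2 h2 N x (dg (TN θ i) y) = B2 h2 N (dg (TN θ i) x) y := by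
  simp only [B2_apply, dg_apply, TN, TSh_apply, map_sub, map_smul, LinearMap.sub_apply,
    LinearMap.smul_apply, BL_TLk leaves h2 N]

omit [NeZero (N * p)] in
theorem TN_comm (i j : IdxT N p S) : Commute (TN θ i) (TN θ j) :=
  commute_sub_algebraMap (TLk_comm_TLk N _ _ _ _) _ _

theorem TN'_comm (i j : IdxT N p S) : Commute (TN' θ i) (TN' θ j) :=
  commute_sub_algebraMap (TLk_comm_TLk (N * p) _ _ _ _) _ _

omit [NeZero (N * p)] in
theorem cc_TN' (hp : p.Prime) (hpN : ¬ p ∣ N) (i : IdxT N p S) (y : cuspSub k (N * p)) :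
    cc h2 N p (NeZero.ne N) hp.ne_zero (TN' θ i y)
      = dg (TN θ i) (cc h2 N p (NeZero.ne N) hp.ne_zero y) := by
  refine Prod.ext ?_ ?_
  · show corL1 leaves h2 N p (NeZero.ne N) hp.ne_zero (TN' θ i y)
      = TN θ i (corL1 leaves h2 N p (NeZero.ne N) hp.ne_zero y)
    rw [TN', TN, TSh_apply, TSh_apply, map_sub, map_smul,
      corL1_TLk leaves h2 (NeZero.ne N) hp hpN i.2.1 i.not_dvd i.2.2.1]
  · show corL2 leaves h2 N p (NeZero.ne N) hp.ne_zero (TN' θ i y)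
      = TN θ i (corL2 leaves h2 N p (NeZero.ne N) hp.ne_zero y)
    rw [TN', TN, TSh_apply, TSh_apply, map_sub, map_smul,
      corL2_TLk leaves h2 (NeZero.ne N) hp hpN i.2.1 i.not_dvd i.2.2.1]

/-- the primes of `Sig` -/
abbrev IdxU (Sig : Finset ℕ) : Type := {r : ℕ // r ∈ Sig}

/-- the whole family at the level `N` -/
noncomputable def NJ (hSigN : ∀ r ∈ Sig, r ∣ N) :
    IdxT N p S ⊕ IdxU Sig → Module.End k (cuspSub k N × cuspSub k N) :=
  Sum.elim (fun i => dg (TN θ i)) (fun r => dg (ULk k N (hSigN r.1 r.2)))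

/-- the whole family at the level `N p` -/
noncomputable def NJ' (hSigN' : ∀ r ∈ Sig, r ∣ N * p) :
    IdxT N p S ⊕ IdxU Sig → Module.End k (cuspSub k (N * p)) :=
  Sum.elim (fun i => TN' θ i) (fun r => ULk k (N * p) (hSigN' r.1 r.2))

theorem NJ'_comm (hSigN' : ∀ r ∈ Sig, r ∣ N * p) (i j : IdxT N p S ⊕ IdxU Sig) :
    Commute (NJ' θ Sig hSigN' i) (NJ' θ Sig hSigN' j) := by
  rcases i with i | r <;> rcases j with j | s
  · exact TN'_comm θ i j
  · exact commute_sub_algebraMap_left (ULk_comm_TLk (N * p) _ _ _).symm _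
  · exact commute_sub_algebraMap_right (ULk_comm_TLk (N * p) _ _ _) _
  · exact ULk_comm_ULk (N * p) _ _

theorem cc_NJ' (hp : p.Prime) (hpN : ¬ p ∣ N) (hSigP : ∀ r ∈ Sig, r.Prime)
    (hSigN : ∀ r ∈ Sig, r ∣ N) (hSigN' : ∀ r ∈ Sig, r ∣ N * p)
    (j : IdxT N p S ⊕ IdxU Sig) (y : cuspSub k (N * p)) :
    cc h2 N p (NeZero.ne N) hp.ne_zero (NJ' θ Sig hSigN' j y)
      = NJ θ Sig hSigN j (cc h2 N p (NeZero.ne N) hp.ne_zero y) := by
  rcases j with i | r
  · exact cc_TN' h2 θ hp hpN i y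
  · simp only [NJ, NJ', Sum.elim_inr, cc_apply, dg_apply,
      corL1_ULk leaves h2 (NeZero.ne N) hp hpN (hSigP r.1 r.2) (hSigN r.1 r.2) (hSigN' r.1 r.2),
      corL2_ULk leaves h2 (NeZero.ne N) hp hpN (hSigP r.1 r.2) (hSigN r.1 r.2) (hSigN' r.1 r.2)]

end Data

/-! ## The statement over a finite field -/

section Core

theorem pow_apply_eq_zero_of_le {k : Type} [Field k] {W : Type*} [AddCommGroup W] [Module k W]
    (f : Module.End k W) {x : W} {n m : ℕ} (h : (f ^ n) x = 0) (hnm : n ≤ m) :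
    (f ^ m) x = 0 := by
  obtain ⟨d, rfl⟩ := Nat.exists_eq_add_of_le hnm
  rw [add_comm, pow_add, Module.End.mul_apply, h, map_zero]

/-- **P-DUAL over a finite field.** -/
theorem pdualk_core (k : Type) [Field k] [Finite k] (p : ℕ) [Fact p.Prime] [CharP k p]
    (hp2 : p ≠ 2) (N : ℕ) [NeZero N] [NeZero (N * p)] (hpN : ¬ p ∣ N) (S : Set ℕ)
    (θ : CuspForm.heckeAlgebra N 2 S →+* k)
    (rest : CuspForm.heckeAlgebra (N * p) 2 S →+* CuspForm.heckeAlgebra N 2 S)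
    (hrest : ∀ (ℓ : ℕ) (hℓ : ℓ.Prime) (hℓN' : ¬ ℓ ∣ N * p) (hℓS : ℓ ∉ S) (hℓN : ¬ ℓ ∣ N),
      rest (CuspForm.heckeAlgebra.T hℓ hℓN' hℓS) = CuspForm.heckeAlgebra.T hℓ hℓN hℓS)
    (Sig : Finset ℕ)
    (hSig : ∀ r ∈ Sig, r.Prime ∧ r ≠ p ∧ ∃ M₀ : ℕ, N = M₀ * r ^ 2 ∧ ¬ r ∣ M₀)
    (hcheb : ∀ M : ℕ, 0 < M → p ∣ M →
      ∃ (ℓ : ℕ) (hℓ : ℓ.Prime) (hℓN : ¬ ℓ ∣ N) (hℓS : ℓ ∉ S),
        ℓ ≠ p ∧ ℓ % M = 1 % M ∧ (p : ZMod ℓ) ^ ((ℓ - 1) / p) ≠ 1 ∧
        θ (CuspForm.heckeAlgebra.T hℓ hℓN hℓS) ≠ 2)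
    (φ₁ φ₂ : Additive (Gamma0 N) →+ k)
    (h₁ : InBettik k N S θ Sig φ₁) (h₂ : InBettik k N S θ Sig φ₂) :
    ∃ ψ : Additive (Gamma0 (N * p)) →+ k, InBettik k (N * p) S (θ.comp rest) Sig ψ ∧
      cor1 N p k ψ = φ₁ ∧ cor2 N p k ψ = φ₂ := by
  classical
  have hp : p.Prime := Fact.out
  have hN : 0 < N := Nat.pos_of_ne_zero (NeZero.ne N)
  have h2 : (2 : k) ≠ 0 := by
    intro h
    have h' : ((2 : ℕ) : k) = 0 := by exact_mod_cast h
    rw [CharP.cast_eq_zero_iff k p] at h'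
    exact hp2 ((Nat.prime_dvd_prime_iff_eq hp Nat.prime_two).mp h')
  have hrk : ∀ r ∈ Sig, ((r : ℕ) : k) ≠ 0 := by
    intro r hr h
    rw [CharP.cast_eq_zero_iff k p] at h
    exact (hSig r hr).2.1 ((Nat.prime_dvd_prime_iff_eq hp (hSig r hr).1).mp h).symm
  have hSigP : ∀ r ∈ Sig, r.Prime := fun r hr => (hSig r hr).1
  have hSigN : ∀ r ∈ Sig, r ∣ N := by
    intro r hr
    obtain ⟨_, _, M₀, hM, _⟩ := hSig r hr
    rw [hM]
    exact dvd_mul_of_dvd_right (dvd_pow_self r two_ne_zero) M₀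
  have hSigN' : ∀ r ∈ Sig, r ∣ N * p := fun r hr => dvd_mul_of_dvd_left (hSigN r hr) p
  -- finiteness
  have : Group.FG (Gamma0 N) := _root_.Fermat.Agent.S41.H94.fg_Gamma0 N
  have : Group.FG (Gamma0 (N * p)) := _root_.Fermat.Agent.S41.H94.fg_Gamma0 (N * p)
  have : Finite (Additive (Gamma0 N) →+ k) := finite_addHom_of_fg _ _
  have : Finite (Additive (Gamma0 (N * p)) →+ k) := finite_addHom_of_fg _ _
  have : Finite (cuspSub k N) := Subtype.finite
  have : Finite (cuspSub k (N * p)) := Subtype.finite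
  have : Module.Finite k (cuspSub k N) := Module.Finite.of_finite
  have : Module.Finite k (cuspSub k (N * p)) := Module.Finite.of_finite
  -- Ihara's lemma
  have ih : ∀ z : cuspSub k N × cuspSub k N, (∀ i : IdxT N p S, dg (TN θ i) z = 0) →
      rr h2 N p (NeZero.ne N) hp.ne_zero z = 0 → z = 0 := by
    rintro ⟨x₁, x₂⟩ hz hr
    have hx : x₁.1 = 0 ∧ x₂.1 = 0 := by
      refine H78.stmt_IHARA2k k p hp2 N p hN hp hpN
        (fun ℓ => ℓ.Prime ∧ ¬ ℓ ∣ N * p ∧ ℓ ∉ S)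
        (fun ℓ => if h : ℓ.Prime ∧ ¬ ℓ ∣ N ∧ ℓ ∉ S then
          θ (CuspForm.heckeAlgebra.T h.1 h.2.1 h.2.2) else 0)
        (fun ℓ hℓ => ⟨hℓ.1, hℓ.2.1, fun e => hℓ.2.1 (e ▸ dvd_mul_left p N)⟩)
        ?_ x₁.1 x₂.1 x₁.2 x₂.2 ?_ ?_
      · intro M hM hpM
        obtain ⟨ℓ, hℓ, hℓN, hℓS, hℓp, hmod, hpow, hne⟩ := hcheb M hM hpM
        refine ⟨ℓ, ⟨hℓ, ?_, hℓS⟩, hmod, hpow, ?_⟩
        · intro hd
          rcases (Nat.Prime.dvd_mul hℓ).mp hd with h | h
          · exact hℓN h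
          · exact hℓp ((Nat.prime_dvd_prime_iff_eq hℓ hp).mp h)
        · rw [dif_pos ⟨hℓ, hℓN, hℓS⟩]
          exact hne
      · intro ℓ hℓ hℓN hP
        rw [dif_pos ⟨hℓ, hℓN, hP.2.2⟩]
        have h0 := hz ⟨ℓ, hP⟩
        have h1 : (TN θ ⟨ℓ, hP⟩ x₁ : Additive (Gamma0 N) →+ k) = 0 :=
          congrArg (fun z : cuspSub k N × cuspSub k N =>
            (z.1 : Additive (Gamma0 N) →+ k)) h0
        rw [TN, TSh_coe] at h1
        exact sub_eq_zero.mp h1
      · exact congrArg (fun z : cuspSub k (N * p) =>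
          (z : Additive (Gamma0 (N * p)) →+ k)) hr
    exact Prod.ext (Subtype.ext hx.1) (Subtype.ext hx.2)
  -- nilpotence at `x`
  have hnil : ∀ (φ : Additive (Gamma0 N) →+ k) (hφ : InBettik k N S θ Sig φ) (i : IdxT N p S),
      ∃ n : ℕ, ((TN θ i) ^ n) (⟨φ, hφ.1⟩ : cuspSub k N) = 0 := by
    intro φ hφ i
    obtain ⟨n, hn⟩ := hφ.2.2 i.1 i.2.1 i.not_dvd i.2.2.2
    refine ⟨n, Subtype.ext ?_⟩
    rw [TN, TSh_pow_coe]
    exact hn
  have hxT : ∀ i : IdxT N p S, ∃ n : ℕ,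
      ((dg (TN θ i)) ^ n) ((⟨φ₁, h₁.1⟩, ⟨φ₂, h₂.1⟩) : cuspSub k N × cuspSub k N) = 0 := by
    intro i
    obtain ⟨n₁, hn₁⟩ := hnil φ₁ h₁ i
    obtain ⟨n₂, hn₂⟩ := hnil φ₂ h₂ i
    refine ⟨n₁ + n₂, ?_⟩
    rw [dg_pow_apply]
    exact Prod.ext (pow_apply_eq_zero_of_le _ hn₁ (Nat.le_add_right _ _))
      (pow_apply_eq_zero_of_le _ hn₂ (Nat.le_add_left _ _))
  have hxN : ∀ j : IdxT N p S ⊕ IdxU Sig, ∃ n : ℕ,
      ((NJ θ Sig hSigN j) ^ n) ((⟨φ₁, h₁.1⟩, ⟨φ₂, h₂.1⟩) : cuspSub k N × cuspSub k N) = 0 := by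
    rintro (i | r)
    · exact hxT i
    · refine ⟨1, ?_⟩
      rw [pow_one]
      exact Prod.ext (Subtype.ext (h₁.2.1 r.1 r.2 (hSigN r.1 r.2)))
        (Subtype.ext (h₂.2.1 r.1 r.2 (hSigN r.1 r.2)))
  obtain ⟨y, hy, hyn⟩ := Fermat.Agent.S59.NonMin.Geom.H85.theta_surj
    (B2 h2 N) (BL leaves h2 (N * p)) (B2_nondeg h2) (BL_nondeg leaves h2 (N * p))
    (rr h2 N p (NeZero.ne N) hp.ne_zero) (cc h2 N p (NeZero.ne N) hp.ne_zero)
    (adj2 h2 (NeZero.ne N) hp.ne_zero)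
    (fun i : IdxT N p S => dg (TN θ i)) (fun i j => dg_commute (TN_comm θ i j))
    (B2_TN h2 θ) (TN' θ) (cc_TN' h2 θ hp hpN) ih
    (NJ θ Sig hSigN) (NJ' θ Sig hSigN') (NJ'_comm θ Sig hSigN')
    (cc_NJ' h2 θ Sig hp hpN hSigP hSigN hSigN')
    ((⟨φ₁, h₁.1⟩, ⟨φ₂, h₂.1⟩) : cuspSub k N × cuspSub k N) hxT hxN
  refine ⟨y.1, ⟨y.2, ?_, ?_⟩, ?_, ?_⟩
  · -- `U_r y = 0`
    intro r hr hd
    obtain ⟨n, hn⟩ := hyn (Sum.inr ⟨r, hr⟩)
    have hn' : (⇑(UB (N * p) k hd))^[n] y.1 = 0 := by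
      have := congrArg (fun z : cuspSub k (N * p) =>
        (z : Additive (Gamma0 (N * p)) →+ k)) hn
      simp only [NJ', Sum.elim_inr] at this
      rw [ULk_pow_coe] at this
      exact this
    obtain ⟨_, hrp, M₀, hM, hrM₀⟩ := hSig r hr
    rcases n with _ | n
    · have hy0 : y.1 = 0 := hn'
      rw [hy0, map_zero]
    · refine keru_iterate (N * p) (hSigP r hr) (M₀ * p) (by rw [hM]; ring) ?_ (hrk r hr) hd n
        y.1 hn'
      intro hd'
      rcases (Nat.Prime.dvd_mul (hSigP r hr)).mp hd' with h | h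
      · exact hrM₀ h
      · exact hrp ((Nat.prime_dvd_prime_iff_eq (hSigP r hr) hp).mp h)
  · -- `θ`-nilpotence
    intro ℓ hℓ hℓN' hℓS
    obtain ⟨n, hn⟩ := hyn (Sum.inl ⟨ℓ, hℓ, hℓN', hℓS⟩)
    refine ⟨n, ?_⟩
    have e : (θ.comp rest) (CuspForm.heckeAlgebra.T hℓ hℓN' hℓS)
        = aT θ (⟨ℓ, hℓ, hℓN', hℓS⟩ : IdxT N p S) := by
      rw [RingHom.comp_apply, hrest ℓ hℓ hℓN' hℓS
        (IdxT.not_dvd (⟨ℓ, hℓ, hℓN', hℓS⟩ : IdxT N p S))]
      rfl
    rw [e]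
    have := congrArg (fun z : cuspSub k (N * p) =>
      (z : Additive (Gamma0 (N * p)) →+ k)) hn
    simp only [NJ', Sum.elim_inl] at this
    rw [TN', TSh_pow_coe] at this
    exact this
  · exact congrArg (fun z : cuspSub k N × cuspSub k N =>
      (z.1 : Additive (Gamma0 N) →+ k)) hy
  · exact congrArg (fun z : cuspSub k N × cuspSub k N =>
      (z.2 : Additive (Gamma0 N) →+ k)) hy

end Core

end Fermat.Agent.S59.CaseC.Geom.H85

end
-- ==== END Fermat.Agent.S59.CaseC.Geom.H85_PDualK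

-- ==== BEGIN Fermat.Agent.S59.NonMin.Geom.H72_DualK
section

/-!
# S59 / NMGEOM, leaf DUAL-k (helper72)

`dualk_of : Stmt_ADJ3 → Stmt_DUALk` : the dual Ihara statement over the residue field, from the
core `H72K.dualk_core`, with the Chebotarev primes of `H61.stmt_CHEBk` and the pairing of
`S41.H94.leaves`.  (`Stmt_ADJ3`, the adjointness of `A_a` and `C_a`, is helper98's `H98.adj3`.)
-/

set_option autoImplicit false
set_option linter.unusedSectionVars false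
set_option linter.style.haveILetI false

open CuspForm CongruenceSubgroup IsLocalRing
open scoped MatrixGroups

namespace Fermat.Agent.S59.NonMin.Geom.H72K

open Fermat.Agent.S41 Fermat.Agent.Betti Fermat.Agent.S59 Fermat.Agent.S59.NonMin.Geom
open ModularCurve.Period

/-- the level of a state: every `r ∈ Sig` divides the level exactly twice -/
theorem sig_level {p : ℕ} {Smin : Finset ℕ} {N₀ : ℕ} {Sig : Finset ℕ} {N : ℕ} {S : Finset ℕ}
    (hG : GeomHyp p Smin N₀ Sig N S) :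
    ∀ r ∈ Sig, r.Prime ∧ r ≠ p ∧ ∃ M₀ : ℕ, N = M₀ * r ^ 2 ∧ ¬ r ∣ M₀ := by
  intro r hr
  obtain ⟨hrp, hrne, hrS⟩ := hG.hSig r hr
  refine ⟨hrp, hrne, N₀ * ∏ s ∈ Sig.erase r, s ^ 2, ?_, ?_⟩
  · rw [hG.hN, ← Finset.mul_prod_erase Sig (fun s => s ^ 2) hr]
    ring
  · intro hd
    rcases (Nat.Prime.dvd_mul hrp).mp hd with h | h
    · exact hrS (hG.hN₀S r hrp h)
    · obtain ⟨s, hs, hrs⟩ := (Prime.dvd_finsetProd_iff hrp.prime _).mp h
      have h1 : r ∣ s := hrp.dvd_of_dvd_pow hrs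
      have hsp := (hG.hSig s (Finset.mem_of_mem_erase hs)).1
      have h2 : r = s := (Nat.prime_dvd_prime_iff_eq hrp hsp).mp h1
      exact (Finset.ne_of_mem_erase hs) h2.symm

/-- **DUAL-k** modulo the adjointness `Stmt_ADJ3`. -/
theorem dualk_of (hadj : Stmt_ADJ3) : Stmt_DUALk := by
  intro 𝒪 _ _ _ _ _ _ p _ hp2 hpO ρbar Smin hres N₀ Sig N _ S hG θ hθ q hq hqp hqN hqS _ rest
    hrest φ hφ
  have hp : p.Prime := Fact.out
  haveI hchar : CharP (ResidueField 𝒪) p := by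
    refine (CharP.charP_iff_prime_eq_zero hp).2 ?_
    have h := (residue_eq_zero_iff (p : 𝒪)).2 hpO
    rwa [map_natCast] at h
  obtain ⟨hφc, hφU, hφT⟩ := hφ
  have hpS : p ∈ S := by
    rw [hG.hS]
    exact Finset.mem_union_left _ hres.hpSmin
  classical
  set P : ℕ → Prop := fun ℓ => ℓ.Prime ∧ ¬ ℓ ∣ N ∧ ℓ ≠ q ∧ ℓ ∉ (↑S : Set ℕ) with hPdef
  set a : ℕ → ResidueField 𝒪 :=
    fun ℓ => if h : P ℓ then θ (CuspForm.heckeAlgebra.T h.1 h.2.1 h.2.2.2) else 0 with hadef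
  have ha : ∀ (ℓ : ℕ) (hℓ : ℓ.Prime) (hℓN : ¬ ℓ ∣ N) (hℓS : ℓ ∉ (↑S : Set ℕ)), ℓ ≠ q →
      a ℓ = θ (CuspForm.heckeAlgebra.T hℓ hℓN hℓS) := by
    intro ℓ hℓ hℓN hℓS hℓq
    have h : P ℓ := ⟨hℓ, hℓN, hℓq, hℓS⟩
    simp only [hadef, dif_pos h]
  have hP : ∀ ℓ, P ℓ → ℓ.Prime ∧ ¬ ℓ ∣ N * q ∧ ℓ ≠ p := by
    rintro ℓ ⟨hℓ, hℓN, hℓq, hℓS⟩
    refine ⟨hℓ, ?_, ?_⟩
    · intro hd
      rcases (Nat.Prime.dvd_mul hℓ).mp hd with h | h
      · exact hℓN h
      · exact hℓq ((Nat.prime_dvd_prime_iff_eq hℓ hq).mp h)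
    · intro h
      apply hℓS
      rw [h]
      exact Finset.mem_coe.mpr hpS
  have hcheb : ∀ M : ℕ, 0 < M → p ∣ M →
      ∃ ℓ, P ℓ ∧ ℓ % M = 1 % M ∧ (q : ZMod ℓ) ^ ((ℓ - 1) / p) ≠ 1 ∧ a ℓ ≠ 2 := by
    intro M hM hpM
    obtain ⟨ℓ, hℓ, hℓN, hℓS, hℓS', h1, h2, h3⟩ :=
      H61.stmt_CHEBk 𝒪 p hp2 hpO ρbar Smin hres N S θ hθ q hq hqp M hM hpM {q}
    have hℓq : ℓ ≠ q := fun h => hℓS' (by rw [h]; exact Finset.mem_singleton_self q)
    refine ⟨ℓ, ⟨hℓ, hℓN, hℓq, hℓS⟩, h1, h2, ?_⟩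
    rw [ha ℓ hℓ hℓN hℓS hℓq]
    exact h3
  obtain ⟨ψ, hψc, hψU, hψT, hψφ⟩ := dualk_core H94.leaves hadj p hp2 N q hq hqN hqp P a hP hcheb
    Sig (sig_level hG) φ hφc hφU (by
      rintro ℓ hℓ hℓN ⟨-, -, hℓq, hℓS⟩
      obtain ⟨n, hn⟩ := hφT ℓ hℓ hℓN hℓS
      refine ⟨n, ?_⟩
      rw [ha ℓ hℓ hℓN hℓS hℓq]
      exact hn)
  refine ⟨ψ, ⟨hψc, hψU, ?_⟩, hψφ⟩
  intro ℓ hℓ hℓN' hℓS'
  have hℓN : ¬ ℓ ∣ N := fun h => hℓN' (dvd_mul_of_dvd_left h _)
  have hℓq : ℓ ≠ q := by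
    intro h
    apply hℓS'
    rw [h]
    exact Finset.mem_coe.mpr (Finset.mem_insert_self q S)
  have hℓS : ℓ ∉ (↑S : Set ℕ) := by
    intro h
    apply hℓS'
    exact Finset.mem_coe.mpr (Finset.mem_insert_of_mem (Finset.mem_coe.mp h))
  obtain ⟨n, hn⟩ := hψT ℓ hℓ hℓN' ⟨hℓ, hℓN, hℓq, hℓS⟩
  refine ⟨n, ?_⟩
  have e : (θ.comp rest) (CuspForm.heckeAlgebra.T hℓ hℓN' hℓS') = a ℓ := by
    rw [RingHom.comp_apply, hrest ℓ hℓ hℓN' hℓS' hℓN hℓS, ha ℓ hℓ hℓN hℓS hℓq]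
  rw [e]
  exact hn

end Fermat.Agent.S59.NonMin.Geom.H72K

end
-- ==== END Fermat.Agent.S59.NonMin.Geom.H72_DualK

-- ==== BEGIN Fermat.Agent.S59.NonMin.Geom.H94_UAdj
section

/-!
# S59 / NMGEOM, leaf DUAL, part LIFT-B (helper94): the `U_r`-adjustment and LIFT-B

* `uadj_step` : one prime `r`, by the projector `e` of `Stmt_RELSPLIT` and `Stmt_KERU`;
* `stmt_UADJ : Stmt_UADJ` (induction on `Sig`);
* `stmt_LIFTB : Stmt_LIFTB`.

No `sorry`.
-/

set_option autoImplicit false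
set_option linter.unusedSectionVars false
set_option linter.style.haveILetI false

open CuspForm CongruenceSubgroup IsLocalRing
open scoped MatrixGroups

namespace Fermat.Agent.S59.NonMin.Geom.H94

open Fermat.Agent.S41 Fermat.Agent.Betti Fermat.Agent.S59.NonMin.Geom
open ModularCurve.Period

variable {𝒪 : Type} [CommRing 𝒪] [IsDomain 𝒪] [IsDiscreteValuationRing 𝒪] [CharZero 𝒪]

/-- An additive operator commuting with `T` and the scalars commutes with the iterates of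
`T - a`. -/
theorem iterate_comm {N : ℕ}
    (e T : (Additive (Gamma0 N) →+ 𝒪) →+ (Additive (Gamma0 N) →+ 𝒪))
    (he : ∀ (c : 𝒪) ψ, e (c • ψ) = c • e ψ) (hT : ∀ ψ, e (T ψ) = T (e ψ)) (a : 𝒪) (n : ℕ)
    (ψ : Additive (Gamma0 N) →+ 𝒪) :
    (fun χ : Additive (Gamma0 N) →+ 𝒪 => T χ - a • χ)^[n] (e ψ)
      = e ((fun χ : Additive (Gamma0 N) →+ 𝒪 => T χ - a • χ)^[n] ψ) := by
  induction n with
  | zero => rfl
  | succ n ih =>
    rw [Function.iterate_succ_apply', ih, Function.iterate_succ_apply', map_sub, he, hT]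

/-- An additive operator commuting with the scalars preserves the homomorphisms with values in
`𝔪^m`. -/
theorem mem_pow_of_linear {N : ℕ}
    (e : (Additive (Gamma0 N) →+ 𝒪) →+ (Additive (Gamma0 N) →+ 𝒪))
    (he : ∀ (c : 𝒪) ψ, e (c • ψ) = c • e ψ) (m : ℕ) (χ : Additive (Gamma0 N) →+ 𝒪)
    (h : ∀ γ, χ γ ∈ maximalIdeal 𝒪 ^ m) (γ : Additive (Gamma0 N)) :
    e χ γ ∈ maximalIdeal 𝒪 ^ m := by
  obtain ⟨ϖ, hϖ⟩ := IsDiscreteValuationRing.exists_irreducible 𝒪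
  obtain ⟨χ', rfl⟩ := H61.hom_div hϖ m χ h
  rw [he]
  show ϖ ^ m • (e χ' γ) ∈ _
  rw [smul_eq_mul]
  exact Ideal.mul_mem_right _ _ (Ideal.pow_mem_pow (hϖ.maximalIdeal_eq ▸
    Ideal.mem_span_singleton_self ϖ) m)

/-- The adjustment at one prime. -/
theorem uadj_step (M₀ r : ℕ) [NeZero (M₀ * r ^ 2)] (hr : r.Prime) (hrM₀ : ¬ r ∣ M₀)
    (hru : IsUnit (r : 𝒪)) (S : Set ℕ)
    (θ : CuspForm.heckeAlgebra (M₀ * r ^ 2) 2 S →+* ResidueField 𝒪) (Sig' : Finset ℕ)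
    (hSig' : ∀ r' ∈ Sig', r'.Prime) (hr' : r ∉ Sig')
    (ψ : Additive (Gamma0 (M₀ * r ^ 2)) →+ 𝒪) (hψ : InBetti 𝒪 (M₀ * r ^ 2) S θ Sig' ψ)
    (hU : ∀ hd : r ∣ M₀ * r ^ 2, UB (M₀ * r ^ 2) (ResidueField 𝒪) hd (redB 𝒪 ψ) = 0) :
    ∃ ψ' : Additive (Gamma0 (M₀ * r ^ 2)) →+ 𝒪,
      InBetti 𝒪 (M₀ * r ^ 2) S θ (insert r Sig') ψ' ∧ redB 𝒪 ψ' = redB 𝒪 ψ := by
  have hM₀ : M₀ ≠ 0 := fun h0 => NeZero.ne (M₀ * r ^ 2) (by rw [h0, zero_mul])
  haveI : NeZero M₀ := ⟨hM₀⟩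
  have hd : r ∣ M₀ * r ^ 2 := Dvd.intro_left (M₀ * r) (by ring)
  obtain ⟨e, g, hlin, hUe, hsplit, hpar, hTB, hUB⟩ :=
    H98.stmt_RELSPLIT 𝒪 M₀ r hr hrM₀ hru hd
  obtain ⟨hψpar, hψU, hψloc⟩ := hψ
  refine ⟨e ψ, ⟨(hpar ψ hψpar).1, ?_, ?_⟩, ?_⟩
  · intro r'' hr'' hr''M
    rcases Finset.mem_insert.mp hr'' with h | h
    · subst h
      exact hUe ψ
    · have hne : r'' ≠ r := fun h' => hr' (h' ▸ h)
      rw [← (hUB r'' hr''M (hSig' r'' h) hne ψ).1, hψU r'' h hr''M, map_zero]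
  · intro ℓ hℓ hℓN hℓS a ha m
    obtain ⟨n, hn⟩ := hψloc ℓ hℓ hℓN hℓS a ha m
    refine ⟨n, fun γ => ?_⟩
    rw [iterate_comm e (TB (M₀ * r ^ 2) 𝒪 hℓ hℓN) (fun c ψ => (hlin c ψ).1)
      (fun ψ => (hTB ℓ hℓ hℓN ψ).1) a n ψ]
    exact mem_pow_of_linear e (fun c ψ => (hlin c ψ).1) m _ hn γ
  · -- the reduction
    have hrk : ((r : ℕ) : ResidueField 𝒪) ≠ 0 := by
      have h1 : residue 𝒪 (r : 𝒪) ≠ 0 := by
        intro h0
        exact ((mem_maximalIdeal _).mp ((residue_eq_zero_iff _).mp h0)) hru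
      rwa [map_natCast] at h1
    have h3 : redB 𝒪 ψ = redB 𝒪 (e ψ)
        + UB (M₀ * r ^ 2) (ResidueField 𝒪) hd (redB 𝒪 (g ψ)) := by
      rw [UB_redB, ← redB_add, ← hsplit ψ]
    have h4 : UB (M₀ * r ^ 2) (ResidueField 𝒪) hd
        (UB (M₀ * r ^ 2) (ResidueField 𝒪) hd (redB 𝒪 (g ψ))) = 0 := by
      have h5 := congrArg (UB (M₀ * r ^ 2) (ResidueField 𝒪) hd) h3
      rw [hU hd, map_add, UB_redB hd (e ψ), hUe ψ, redB_zero, zero_add] at h5
      exact h5.symm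
    have h6 := H98.stmt_KERU (ResidueField 𝒪) M₀ r hr hrM₀ hrk hd _ h4
    rw [h3, h6, add_zero]

/-- **U-ADJ**. -/
theorem stmt_UADJ : Stmt_UADJ := by
  intro 𝒪 _ _ _ _ M _ S θ Sig hSig ψ₁ h₁ hU
  induction Sig using Finset.induction_on with
  | empty => exact ⟨ψ₁, h₁, rfl⟩
  | insert r Sig' hr ih =>
    obtain ⟨ψ, hψ, hred⟩ := ih (fun r' hr' => hSig r' (Finset.mem_insert_of_mem hr'))
      (fun r' hr' => hU r' (Finset.mem_insert_of_mem hr'))
    obtain ⟨hrp, hru, M₀, hM, hrM₀⟩ := hSig r (Finset.mem_insert_self r Sig')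
    subst hM
    obtain ⟨ψ', hψ', hred'⟩ := uadj_step M₀ r hrp hrM₀ hru S θ Sig'
      (fun r' hr' => (hSig r' (Finset.mem_insert_of_mem hr')).1) hr ψ hψ
      (fun hd => by rw [hred]; exact hU r (Finset.mem_insert_self r Sig') hd)
    exact ⟨ψ', hψ', hred'.trans hred⟩

/-- **LIFT-B**. -/
theorem stmt_LIFTB : Stmt_LIFTB := liftB_of stmt_UADJ

end Fermat.Agent.S59.NonMin.Geom.H94

end
-- ==== END Fermat.Agent.S59.NonMin.Geom.H94_UAdj

-- ==== BEGIN Fermat.Agent.S27.REDu.DRabs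
section

/-!
# S27 / REDu: the abstract assembly of CONS (universe polymorphic copy of the section `Abs` of
`RED/H79_DRabs.lean`, helper79), and the three exports of the copy

* `exists_isRedAbs` : two good charts `x`, `x'` with `x' (x - c₀) = 1` give a reduction map of
  places with the conservation law;
* `REDu.H82.stmt_chartNormal` : helper34's chart theorem;
* `REDu.H42.genusLE_of_charts` : helper42's GEN.
-/

set_option autoImplicit false
set_option linter.style.haveILetI false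
set_option synthInstance.maxHeartbeats 400000
set_option maxHeartbeats 1000000

noncomputable section

open AlgebraicCurve IntermediateField

universe uC uF uk uFt

namespace Fermat.Agent.S27.REDu.H79

open Fermat.Agent.S27.REDu.H34 Fermat.Agent.S27.REDu.H51 Fermat.Agent.S27.REDu.H34.RedSetting

variable {C : Type uC} {F : Type uF} {k : Type uk} {Ft : Type uFt} [Field C] [Field F]
  [Algebra C F] [Field k] [Field Ft] [Algebra k Ft]

/-- **CONS** (abstract): two good charts `x`, `x'` with `x' (x - c₀) = 1`, `c₀ ∈ O`, give a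
reduction map of places with the conservation law. -/
theorem exists_isRedAbs [IsAlgClosed C] [CharZero C] [IsAlgClosed k]
    (hFF : IsFF C F) (hFFt : IsFF k Ft)
    (S : RedSetting C F k Ft) (x x' : F) (hx : x ∈ S.V) (hx' : x' ∈ S.V) (c₀ : ↥S.O)
    (hxx' : x' * (x - algebraMap C F (c₀ : C)) = 1)
    (G : GoodChart S x hx) (G' : GoodChart S x' hx') :
    ∃ r : Place C F → Place k Ft, IsRedAbs S r := by
  classical
  haveI := G.fin
  have hxC : Transcendental C x := transcendental_x hx G.transc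
  have hI : ChartIntegral S x hx := Fermat.Agent.S27.REDu.H10.chartIntegral hx hFF G
  have hI' : ChartIntegral S x' hx' := Fermat.Agent.S27.REDu.H10.chartIntegral hx' hFF G'
  -- a place of `Ft`
  obtain ⟨P₀, hP₀⟩ := Fermat.Agent.S27.REDu.H12.exists_place_ord_pos
    (fun y hy => Fermat.Agent.S24.ff_finite_of_transcendental x hxC y hy) x hxC
  have hP₀in : InChart S x P₀ := by
    refine ⟨0, ?_, ?_⟩
    · rw [map_zero]; exact zero_mem _
    · rw [map_zero, sub_zero]; exact Or.inr hP₀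
  obtain ⟨Q₀, -⟩ := stmt_C4 C F k Ft S x hx G hI P₀ hP₀in
  haveI : Nonempty (Place k Ft) := ⟨Q₀⟩
  choose! r₁ hr₁ using stmt_C4 C F k Ft S x hx G hI
  choose! r₂ hr₂ using stmt_C4 C F k Ft S x' hx' G' hI'
  refine ⟨_, isRedAbs_glue S hx hx' c₀ hxC hxx' r₁ r₂ hr₁ hr₂ ?_ ?_⟩
  · intro f hfu D hD Q hQ
    exact Fermat.Agent.S27.REDu.H10.chart_conservation hx hFF hFFt G r₁ hr₁ f hfu D hD Q hQ
  · intro f hfu D hD Q hQ
    exact Fermat.Agent.S27.REDu.H10.chart_conservation hx' hFF hFFt G' r₂ hr₂ f hfu D hD Q hQ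

end Fermat.Agent.S27.REDu.H79

end
end
-- ==== END Fermat.Agent.S27.REDu.DRabs

-- ==== BEGIN Fermat.Agent.S59.CaseC.Geom.H85_PDual
section

/-!
# S59, case C, PGEOM leaf P-DUAL (helper85): the assembly

* `inBettik_redB` (RED): the reduction of a class of the Betti lattice is in the `k`-level part;
* `stmt_PDUALk` : `Stmt_PDUALk`, the statement over the residue field (unconditional);
* `pdual_of : NonMin.Geom.Stmt_LIFTB → Stmt_PDUAL`.

`Stmt_LIFTB` is helper94's leaf (lifting of the `k`-level part to the Betti lattice).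
No `sorry`.
-/

set_option autoImplicit false
set_option linter.unusedSectionVars false
set_option linter.style.haveILetI false

open CuspForm CongruenceSubgroup IsLocalRing
open scoped MatrixGroups

namespace Fermat.Agent.S59.CaseC.Geom.H85

open Fermat.Agent.S41 Fermat.Agent.S41.H94 Fermat.Agent.Betti Fermat.Agent.S59
  Fermat.Agent.S59.NonMin Fermat.Agent.S59.NonMin.Geom Fermat.Agent.S59.CaseC
  Fermat.Agent.S59.CaseC.Geom
open ModularCurve.Period

/-! ## RED -/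

section Red

variable {𝒪 : Type} [CommRing 𝒪] [IsDomain 𝒪] [CharZero 𝒪]

/-- a parabolic homomorphism with values in a domain of characteristic zero is cuspidal -/
theorem isCuspidalHom_of_isParabolicHom {N : ℕ} {φ : Additive (Gamma0 N) →+ 𝒪}
    (hφ : IsParabolicHom (Gamma0 N) φ) : IsCuspidalHom (Gamma0 N) φ := by
  intro γ hγ
  rcases eq_or_lt_of_le hγ with h4 | h4
  · exact hφ γ h4
  · have h12 : (γ : SL(2, ℤ)) ^ 12 = 1 := Fermat.Agent.S16.H38.pow_twelve_eq_one_of_trace _ h4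
    have h12' : γ ^ 12 = 1 := Subtype.ext h12
    have h1 : (12 : ℕ) • φ (Additive.ofMul γ) = 0 := by
      rw [← map_nsmul, ← ofMul_pow, h12', ofMul_one, map_zero]
    rw [nsmul_eq_mul] at h1
    rcases mul_eq_zero.mp h1 with h | h
    · exact absurd h (by exact_mod_cast (by norm_num : (12 : ℕ) ≠ 0))
    · exact h

variable [IsLocalRing 𝒪]

theorem TB_redB {N : ℕ} {ℓ : ℕ} (hℓ : ℓ.Prime) (hℓN : ¬ ℓ ∣ N) (φ : Additive (Gamma0 N) →+ 𝒪) :
    TB N (ResidueField 𝒪) hℓ hℓN (redB 𝒪 φ) = redB 𝒪 (TB N 𝒪 hℓ hℓN φ) := by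
  have : Fact ℓ.Prime := ⟨hℓ⟩
  exact (isHeckeFamily_T N hℓN).heckeOp_comp (incl_injective N)
    (residue 𝒪).toAddMonoidHom φ

theorem UB_redB {N : ℕ} [NeZero N] {r : ℕ} (hr : r ∣ N) (φ : Additive (Gamma0 N) →+ 𝒪) :
    UB N (ResidueField 𝒪) hr (redB 𝒪 φ) = redB 𝒪 (UB N 𝒪 hr φ) := by
  have : NeZero r := neZero_of_dvd hr
  exact (isHeckeFamily_U N hr).heckeOp_comp (incl_injective N)
    (residue 𝒪).toAddMonoidHom φ

theorem cor1_redB (N q : ℕ) (ψ : Additive (Gamma0 (N * q)) →+ 𝒪) :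
    cor1 N q (ResidueField 𝒪) (redB 𝒪 ψ) = redB 𝒪 (cor1 N q 𝒪 ψ) :=
  Fermat.Agent.S41.H77.corAlong_map (inclG N q) (residue 𝒪).toAddMonoidHom ψ

theorem cor2_redB (N q : ℕ) (ψ : Additive (Gamma0 (N * q)) →+ 𝒪) :
    cor2 N q (ResidueField 𝒪) (redB 𝒪 ψ) = redB 𝒪 (cor2 N q 𝒪 ψ) :=
  Fermat.Agent.S41.H77.corAlong_map (conjG N q) (residue 𝒪).toAddMonoidHom ψ

theorem shift_redB {N : ℕ} {ℓ : ℕ} (hℓ : ℓ.Prime) (hℓN : ¬ ℓ ∣ N) (a : 𝒪) (n : ℕ)
    (φ : Additive (Gamma0 N) →+ 𝒪) :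
    (fun χ : Additive (Gamma0 N) →+ ResidueField 𝒪 =>
        TB N (ResidueField 𝒪) hℓ hℓN χ - residue 𝒪 a • χ)^[n] (redB 𝒪 φ)
      = redB 𝒪 ((fun χ : Additive (Gamma0 N) →+ 𝒪 => TB N 𝒪 hℓ hℓN χ - a • χ)^[n] φ) := by
  induction n generalizing φ with
  | zero => rfl
  | succ n IH =>
    rw [Function.iterate_succ_apply, Function.iterate_succ_apply, ← IH]
    congr 1
    rw [TB_redB]
    refine AddMonoidHom.ext fun γ => ?_
    simp [redB]

/-- **RED**: the reduction of a class of the Betti lattice lies in the `k`-level part. -/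
theorem inBettik_redB (N : ℕ) [NeZero N] (S : Set ℕ)
    (θ : CuspForm.heckeAlgebra N 2 S →+* ResidueField 𝒪) (Sig : Finset ℕ)
    (φ : Additive (Gamma0 N) →+ 𝒪) (h : InBetti 𝒪 N S θ Sig φ) :
    InBettik (ResidueField 𝒪) N S θ Sig (redB 𝒪 φ) := by
  obtain ⟨hpar, hU, hT⟩ := h
  refine ⟨?_, ?_, ?_⟩
  · intro γ hγ
    rw [redB_apply, isCuspidalHom_of_isParabolicHom hpar γ hγ, map_zero]
  · intro r hr hrN
    rw [UB_redB, hU r hr hrN]
    rfl
  · intro ℓ hℓ hℓN hℓS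
    obtain ⟨a, ha⟩ := residue_surjective (θ (CuspForm.heckeAlgebra.T hℓ hℓN hℓS))
    obtain ⟨n, hn⟩ := hT ℓ hℓ hℓN hℓS a ha 1
    refine ⟨n, ?_⟩
    rw [← ha, shift_redB]
    refine AddMonoidHom.ext fun γ => ?_
    rw [redB_apply, AddMonoidHom.zero_apply, residue_eq_zero_iff]
    have := hn γ
    rwa [pow_one] at this

end Red

/-! ## The statement over the residue field -/

/-- the level of a state: every `r ∈ Sig` divides the level exactly twice
(as `NonMin.Geom.H72K.sig_level`, helper72) -/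
theorem sig_level_h85 {p : ℕ} {Smin : Finset ℕ} {N₀ : ℕ} {Sig : Finset ℕ} {N : ℕ}
    {S : Finset ℕ} (hG : GeomHyp p Smin N₀ Sig N S) :
    ∀ r ∈ Sig, r.Prime ∧ r ≠ p ∧ ∃ M₀ : ℕ, N = M₀ * r ^ 2 ∧ ¬ r ∣ M₀ := by
  intro r hr
  obtain ⟨hrp, hrne, hrS⟩ := hG.hSig r hr
  refine ⟨hrp, hrne, N₀ * ∏ s ∈ Sig.erase r, s ^ 2, ?_, ?_⟩
  · rw [hG.hN, ← Finset.mul_prod_erase Sig (fun s => s ^ 2) hr]
    ring
  · intro hd
    rcases (Nat.Prime.dvd_mul hrp).mp hd with h | h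
    · exact hrS (hG.hN₀S r hrp h)
    · obtain ⟨s, hs, hrs⟩ := (Prime.dvd_finsetProd_iff hrp.prime _).mp h
      have h1 : r ∣ s := hrp.dvd_of_dvd_pow hrs
      have hsp := (hG.hSig s (Finset.mem_of_mem_erase hs)).1
      have h2 : r = s := (Nat.prime_dvd_prime_iff_eq hrp hsp).mp h1
      exact (Finset.ne_of_mem_erase hs) h2.symm

/-- **P-DUAL-k**: `Stmt_PDUAL` over the residue field. -/
def Stmt_PDUALk : Prop :=
  ∀ (𝒪 : Type) [CommRing 𝒪] [IsDomain 𝒪] [IsDiscreteValuationRing 𝒪]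
    [IsAdicComplete (maximalIdeal 𝒪) 𝒪] [Finite (ResidueField 𝒪)] [CharZero 𝒪]
    (p : ℕ) [Fact p.Prime], p ≠ 2 → (p : 𝒪) ∈ maximalIdeal 𝒪 →
    ∀ (ρbar : ResidualGaloisRep (ResidueField 𝒪)) (Smin : Finset ℕ), ResHyp p ρbar Smin →
    ∀ (N₀ : ℕ) (Sig : Finset ℕ) (N : ℕ) [NeZero N] (S : Finset ℕ), GeomHyp p Smin N₀ Sig N S →
    ¬ p ∣ N →
    ∀ (θ : CuspForm.heckeAlgebra N 2 (↑S : Set ℕ) →+* ResidueField 𝒪),
    Fermat.Agent.S59.Datum.FrobHyp ρbar N S θ →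
    ∀ [NeZero (N * p)]
      (rest : CuspForm.heckeAlgebra (N * p) 2 (↑S : Set ℕ) →+*
        CuspForm.heckeAlgebra N 2 (↑S : Set ℕ)),
    (∀ (ℓ : ℕ) (hℓ : ℓ.Prime) (hℓN' : ¬ ℓ ∣ N * p) (hℓS : ℓ ∉ (↑S : Set ℕ)) (hℓN : ¬ ℓ ∣ N),
      rest (CuspForm.heckeAlgebra.T hℓ hℓN' hℓS) = CuspForm.heckeAlgebra.T hℓ hℓN hℓS) →
    ∀ φ₁ φ₂ : Additive (Gamma0 N) →+ ResidueField 𝒪,
    InBettik (ResidueField 𝒪) N (↑S : Set ℕ) θ Sig φ₁ →
    InBettik (ResidueField 𝒪) N (↑S : Set ℕ) θ Sig φ₂ →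
      ∃ ψ : Additive (Gamma0 (N * p)) →+ ResidueField 𝒪,
        InBettik (ResidueField 𝒪) (N * p) (↑S : Set ℕ) (θ.comp rest) Sig ψ ∧
        cor1 N p (ResidueField 𝒪) ψ = φ₁ ∧ cor2 N p (ResidueField 𝒪) ψ = φ₂

/-- **P-DUAL-k** (unconditional). -/
theorem stmt_PDUALk : Stmt_PDUALk := by
  intro 𝒪 _ _ _ _ _ _ p _ hp2 hp𝒪 ρbar Smin hres N₀ Sig N _ S hG hpN θ hθ _ rest hrest φ₁ φ₂
    h₁ h₂
  have hp : p.Prime := Fact.out
  haveI hchar : CharP (ResidueField 𝒪) p := by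
    refine (CharP.charP_iff_prime_eq_zero hp).2 ?_
    have h := (residue_eq_zero_iff (p : 𝒪)).2 hp𝒪
    rwa [map_natCast] at h
  refine pdualk_core (ResidueField 𝒪) p hp2 N hpN (↑S : Set ℕ) θ rest hrest Sig
    (sig_level_h85 hG) ?_ φ₁ φ₂ h₁ h₂
  intro M hM hpM
  obtain ⟨ℓ, hℓ, hℓN, hℓS, hℓS', hmod, hpow, hne⟩ :=
    H61.stmt_CHEBkp 𝒪 p hp2 hp𝒪 ρbar Smin hres N S θ hθ M hM hpM {p}
  exact ⟨ℓ, hℓ, hℓN, hℓS, fun e => hℓS' (by rw [e]; exact Finset.mem_singleton_self p), hmod,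
    hpow, hne⟩

/-! ## The assembly -/

/-- **P-DUAL** from the lifting `Stmt_LIFTB` (helper94). -/
theorem pdual_of (hL : Stmt_LIFTB) : Stmt_PDUAL := by
  intro 𝒪 _ _ _ _ _ _ p _ hp2 hp𝒪 ρbar Smin hres N₀ Sig N _ S hG hpN θ hθ _ rest hrest φ₁ φ₂
    h₁ h₂
  have hp : p.Prime := Fact.out
  obtain ⟨ψb, hψb, e1, e2⟩ := stmt_PDUALk 𝒪 p hp2 hp𝒪 ρbar Smin hres N₀ Sig N S hG hpN θ hθ
    rest hrest (redB 𝒪 φ₁) (redB 𝒪 φ₂) (inBettik_redB N _ θ Sig φ₁ h₁)
    (inBettik_redB N _ θ Sig φ₂ h₂)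
  have hSig' : ∀ r ∈ Sig, r.Prime ∧ r ≠ p ∧ ∃ M₀ : ℕ, N * p = M₀ * r ^ 2 ∧ ¬ r ∣ M₀ := by
    intro r hr
    obtain ⟨hrp, hrne, M₀, hM, hrM₀⟩ := sig_level_h85 hG r hr
    refine ⟨hrp, hrne, M₀ * p, by rw [hM]; ring, ?_⟩
    intro hd
    rcases (Nat.Prime.dvd_mul hrp).mp hd with h | h
    · exact hrM₀ h
    · exact hrne ((Nat.prime_dvd_prime_iff_eq hrp hp).mp h)
  obtain ⟨ψ, hψ, hred⟩ := hL 𝒪 p hp𝒪 (N * p) (↑S : Set ℕ) (θ.comp rest) Sig hSig' ψb hψb
  refine ⟨ψ, hψ, fun γ => ⟨?_, ?_⟩⟩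
  · rw [← residue_eq_zero_iff, AddMonoidHom.sub_apply, map_sub, sub_eq_zero,
      ← redB_apply 𝒪 (cor1 N p 𝒪 ψ), ← cor1_redB, hred, e1]
    rfl
  · rw [← residue_eq_zero_iff, AddMonoidHom.sub_apply, map_sub, sub_eq_zero,
      ← redB_apply 𝒪 (cor2 N p 𝒪 ψ), ← cor2_redB, hred, e2]
    rfl

end Fermat.Agent.S59.CaseC.Geom.H85

end
-- ==== END Fermat.Agent.S59.CaseC.Geom.H85_PDual

-- ==== BEGIN Fermat.Agent.S59.LL.SQ.H91_CountF1
section
attribute [local instance 10000] SubalgebraClass.toAlgebra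
attribute [local instance 10000] HahnSeries.powerSeriesAlgebra

/-!
# S59 / LL / SQ, leaf ST-RANK, COUNT-F1 (helper91): torsion of `Pic⁰` of the reduced curve

`A` a valuation ring of `ℚ̄` over the prime `q`, `k = kV A` its residue field.

* `kV_isAlgOverFp` : `k` is algebraic over `𝔽_q` (every element is fixed by a power of the
  Frobenius);
* `card_torsion_kV` : for a function field `Ft / k` of one variable of Riemann genus `g` and a
  prime `p ≠ q`:  `#Pic⁰(Ft)[p ^ e] = p ^ (2 g e)`  (helper62's count `S27.CharP.H62F.stmt_CountPu`);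
* `stmt_CountF1` : the case `Ft = F₁` (the residue field of the Gauss valuation of level `M q`,
  `q ∤ M` tame): **COUNT-F1**;
* `stmt_CountRedM` : the same for the reduced field `redM A M` of level `M`.
-/

set_option autoImplicit false
set_option linter.style.haveILetI false
set_option linter.unusedSectionVars false
set_option synthInstance.maxHeartbeats 400000
set_option maxHeartbeats 1000000

noncomputable section

open HahnSeries IntermediateField AlgebraicCurve ModularCurve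
open Fermat.Agent.S28.H73 Fermat.Agent.RED.H73 Fermat.Agent.RED Fermat.Agent.S24
open Fermat.Agent.BAD.H88 Fermat.Agent.BAD

namespace Fermat.Agent.S59.LL.SQ.H91

/-- The residue field of a valuation ring of `ℚ̄` over `q` is algebraic over `𝔽_q`. -/
theorem kV_isAlgOverFp (A : ValuationSubring Kbar) {q : ℕ} (hq : q.Prime)
    (hA : A.LiesOverPrime q) : Fermat.Agent.S27.Char0.IsAlgOverFp (kV A) q := by
  classical
  intro c
  haveI : Fact q.Prime := ⟨hq⟩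
  haveI := Fermat.Agent.FL.H38.charP_residue A hq hA
  letI : Algebra (ZMod q) (IsLocalRing.ResidueField A) := ZMod.algebra _ q
  obtain ⟨x, rfl⟩ := IsLocalRing.residue_surjective c
  have halg : IsAlgebraic (ZMod q) (IsLocalRing.residue A x) := by
    obtain ⟨R, hR0, hR⟩ := Fermat.Agent.FL.H38.isAlgebraic_residue A (ℓ := q) x
    exact ⟨R, hR0, hR⟩
  have hint : IsIntegral (ZMod q) (IsLocalRing.residue A x) := halg.isIntegral
  haveI : FiniteDimensional (ZMod q) (ZMod q)⟮IsLocalRing.residue A x⟯ :=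
    IntermediateField.adjoin.finiteDimensional hint
  haveI : Finite (ZMod q)⟮IsLocalRing.residue A x⟯ := Module.finite_of_finite (ZMod q)
  letI : Fintype (ZMod q)⟮IsLocalRing.residue A x⟯ := Fintype.ofFinite _
  set y : (ZMod q)⟮IsLocalRing.residue A x⟯ :=
    ⟨IsLocalRing.residue A x, IntermediateField.mem_adjoin_simple_self _ _⟩ with hy
  obtain ⟨n, -, hn⟩ := FiniteField.card (ZMod q)⟮IsLocalRing.residue A x⟯ q
  have h1 := FiniteField.pow_card y
  rw [hn] at h1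
  refine ⟨n, n.pos, ?_⟩
  have h2 := congrArg Subtype.val h1
  simpa using h2

/-- **The count over the residue field**: `#Pic⁰(Ft)[p ^ e] = p ^ (2 g e)` for a function field
`Ft` of one variable over `k = kV A`, of Riemann genus `g`, `p ≠ q`. -/
theorem card_torsion_kV (A : ValuationSubring Kbar) {q : ℕ} (hq : q.Prime)
    (hA : A.LiesOverPrime q) (Ft : Type) [Field Ft] [Algebra (kV A) Ft]
    (hFF : IsFF (kV A) Ft) (g : ℕ) (c : ℤ) (hg : RED.H17.IsGenus (kV A) Ft g c)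
    (p : ℕ) (hp : p.Prime) (hpq : p ≠ q) (e : ℕ) :
    Nat.card (Pic0.torsion (kV A) Ft (p ^ e)) = p ^ (2 * g * e) := by
  haveI : IsAlgClosed (kV A) := isAlgClosed_kV A
  haveI : CharP (kV A) q := Fermat.Agent.FL.H38.charP_residue A hq hA
  exact Fermat.Agent.S27.CharP.H62F.stmt_CountPu.{0, 0} (kV A) Ft q hq (kV_isAlgOverFp A hq hA)
    hFF g c hg p hp hpq e

section Mod

variable {A : ValuationSubring Kbar} {q M : ℕ} (a b : ℤ) (hab : a * q + b * M = 1)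
  (hq : q.Prime) [NeZero M] [NeZero (M * q)] (hA : A.LiesOverPrime q)
  (hqM : ¬ q ∣ M) (ht : H91.TameAt M q)

include hab hq hA hqM ht in
/-- **COUNT-F1**: `#Pic⁰(F₁)[p ^ e] = p ^ (2 g₁ e)`, `g₁` the Riemann genus of `F₁`. -/
theorem stmt_CountF1 (g₁ : ℕ) (c₁ : ℤ) (hg₁ : RED.H17.IsGenus (kV A) (F1 A q M) g₁ c₁)
    (p : ℕ) (hp : p.Prime) (hpq : p ≠ q) (e : ℕ) :
    Nat.card (Pic0.torsion (kV A) (F1 A q M) (p ^ e)) = p ^ (2 * g₁ * e) :=
  card_torsion_kV A hq hA (F1 A q M) (H91.isFF_F1 a b hab hq hA hqM ht) g₁ c₁ hg₁ p hp hpq e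

include hq hA hqM ht in
/-- The same count for the reduced field of level `M`. -/
theorem stmt_CountRedM (g₁ : ℕ) (c₁ : ℤ) (hg₁ : RED.H17.IsGenus (kV A) ↥(H91.redM A M) g₁ c₁)
    (p : ℕ) (hp : p.Prime) (hpq : p ≠ q) (e : ℕ) :
    Nat.card (Pic0.torsion (kV A) ↥(H91.redM A M) (p ^ e)) = p ^ (2 * g₁ * e) :=
  card_torsion_kV A hq hA ↥(H91.redM A M) (H91.isFF_redM hq hqM ht hA) g₁ c₁ hg₁ p hp hpq e

end Mod

end Fermat.Agent.S59.LL.SQ.H91

end
end
-- ==== END Fermat.Agent.S59.LL.SQ.H91_CountF1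

-- ==== BEGIN Fermat.Agent.S59.NonMin.Geom.H72_DualKFinal
section

/-!
# S59 / NMGEOM, leaf DUAL-k (helper72): the unconditional statement

`stmt_DUALk : Stmt_DUALk`, from `H72K.dualk_of` and helper98's adjointness `H98.adj3`.
-/

set_option autoImplicit false

open CuspForm CongruenceSubgroup IsLocalRing
open scoped MatrixGroups

namespace Fermat.Agent.S59.NonMin.Geom.H72K

open Fermat.Agent.S41 Fermat.Agent.Betti Fermat.Agent.S59 Fermat.Agent.S59.NonMin.Geom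

/-- **ADJ3** (helper98). -/
theorem stmt_ADJ3 : Stmt_ADJ3 :=
  fun _ _ h2 N q hN hq _ _ hφ hψ => H98.adj3 H94.leaves h2 N q hN hq hφ hψ

/-- **DUAL-k**: dual Ihara over the residue field. -/
theorem stmt_DUALk : Stmt_DUALk := dualk_of stmt_ADJ3

end Fermat.Agent.S59.NonMin.Geom.H72K

end
-- ==== END Fermat.Agent.S59.NonMin.Geom.H72_DualKFinal
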