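-- GENERATED (merged mirror, NOTES/tools/trim/merge3_helper67.py): 14 modules of the originals, bodies verbatim.
import Fermat.Agent.Zm.S59_L07_000
import Fermat.Agent.Zm.S59_L11_000
import Fermat.Agent.Zm.S59_L13_000
import Fermat.Agent.Zm.S59_L03_004
import Fermat.Agent.Zm.S59_L12_000
import Fermat.Agent.Zm.S59_L08_000
import Fermat.Agent.Zm.S59_L02_000
import Fermat.Agent.Zm.S59_L10_000
import Fermat.Agent.Zm.S59_L04_005
import Fermat.Agent.Zm.S59_L04_004
import Fermat.Agent.Zm.S59_L03_003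
import Fermat.Agent.Zm.S59_L02_004
import Fermat.Agent.Zm.S43_L15_001
import Fermat.Agent.Zm.S59_L10_001
import Fermat.Agent.Zm.S59_L03_002
import Fermat.Agent.Zm.S59_L04_003
import Fermat.Agent.Zm.S59_L02_002
import Fermat.Agent.Zm.S59_L06_002
import Fermat.Agent.Zm.S59_L05_003
import Fermat.Agent.Zm.S59_L07_002
import Fermat.Agent.Zm.S59_L07_001
import Fermat.Agent.Zm.S43_L16_002
import Fermat.Agent.S33
import Fermat.Agent.Zm.S59_L05_004
import Fermat.Agent.Zm.S35_L11_001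
import Fermat.Agent.S58
import Fermat.Agent.Zm.S59_L01_003
import Fermat.Agent.Zm.S36_L02_002
import Fermat.Agent.Zm.S59_L01_000
import Fermat.Agent.Zm.S15_L04_005
import Fermat.Agent.Zm.S35_L08_000
import Fermat.Agent.Zm.S43_L02_003
import Fermat.Agent.Zm.S59_L02_003

-- ==== BEGIN Fermat.Agent.S27.Char0.H20_RedExAsm
section

/-!
# S27 char-0 half, package RED-EX: the assembly (helper20)

* `stmt_ResK` : the residue field of a valuation ring of an algebraically closed field is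
  algebraically closed (after helper73's `isAlgClosed_kV`);
* `goodChart_of`, `goodChart_inv_of` : polymorphic copies of helper76's abstract lemmas;
* `redex_of` : `Stmt_REDEX` from the leaves `Stmt_EisEx`, `Stmt_BranchFin`, `Stmt_VAL`,
  `Stmt_GaussExt`, `Stmt_Bridge`.
-/

set_option autoImplicit false
set_option linter.style.haveILetI false
set_option synthInstance.maxHeartbeats 400000
set_option maxHeartbeats 1000000

noncomputable section

open AlgebraicCurve IntermediateField Polynomial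

namespace Fermat.Agent.S27.Char0.H20

open Fermat.Agent.RED.H17 Fermat.Agent.S27.REDu.H34 Fermat.Agent.S27.REDu.H79

universe u v u' v'

/-! ### RES-K -/

/-- **RES-K**. -/
theorem stmt_ResK : Stmt_ResK.{u, u'} := by
  intro K k _ _ _ O res hres
  apply IsAlgClosed.of_exists_root
  intro p hp hirr
  obtain ⟨q, hq, hqdeg, hqm⟩ := lifts_and_natDegree_eq_and_monic
    (mem_lifts_of_surjective hres p) hp
  have hdeg : (q.map (algebraMap O K)).degree ≠ 0 := by
    rw [degree_map_eq_of_injective (FaithfulSMul.algebraMap_injective O K),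
      degree_eq_natDegree hqm.ne_zero, hqdeg]
    have := hirr.natDegree_pos
    exact_mod_cast this.ne'
  obtain ⟨x, hx⟩ := IsAlgClosed.exists_root (q.map (algebraMap O K)) hdeg
  have hxA : x ∈ O := by
    have hint : IsIntegral O x := ⟨q, hqm, by rw [eval₂_eq_eval_map]; exact hx⟩
    obtain ⟨a, ha⟩ := IsIntegrallyClosed.isIntegral_iff.mp hint
    rw [← ha]
    exact a.2
  refine ⟨res ⟨x, hxA⟩, ?_⟩
  have h1 : q.eval (⟨x, hxA⟩ : O) = 0 := by
    apply FaithfulSMul.algebraMap_injective O K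
    rw [map_zero, ← hx, eval_map, ← eval₂_hom]
    rfl
  rw [← hq, eval_map, eval₂_hom, h1, map_zero]

/-! ### Good charts (polymorphic copies of `RED/H76_GoodChartJ.lean`, section `Abs`) -/

theorem adjoin_simple_inv_u {K : Type u} {E : Type v} [Field K] [Field E] [Algebra K E] (x : E) :
    K⟮x⁻¹⟯ = K⟮x⟯ := by
  apply le_antisymm
  · rw [IntermediateField.adjoin_simple_le_iff]
    exact inv_mem (IntermediateField.mem_adjoin_simple_self K x)
  · rw [IntermediateField.adjoin_simple_le_iff]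
    have h := inv_mem (IntermediateField.mem_adjoin_simple_self K x⁻¹)
    rwa [inv_inv] at h

theorem transcendental_inv_u {K : Type u} {E : Type v} [Field K] [Field E] [Algebra K E] {x : E}
    (hx : Transcendental K x) : Transcendental K x⁻¹ := fun h =>
  hx (IsAlgebraic.inv_iff.mp h)

section Abs

variable {C : Type u} {F : Type v} {k : Type u'} {Ft : Type v'} [Field C] [Field F]
  [Algebra C F] [Field k] [Field Ft] [Algebra k Ft]

theorem red_inv (S : RedSetting C F k Ft) {x : F} (hx : x ∈ S.V) (hx' : x⁻¹ ∈ S.V)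
    (hx0 : x ≠ 0) : S.red ⟨x⁻¹, hx'⟩ = (S.red ⟨x, hx⟩)⁻¹ := by
  have h1 : (⟨x, hx⟩ : ↥S.V) * ⟨x⁻¹, hx'⟩ = 1 := Subtype.ext (mul_inv_cancel₀ hx0)
  have h2 := congrArg S.red h1
  rw [map_mul, map_one] at h2
  exact eq_inv_of_mul_eq_one_right h2

theorem ne_zero_of_transcendental_red (S : RedSetting C F k Ft) {x : F} (hx : x ∈ S.V)
    (h : Transcendental k (S.red ⟨x, hx⟩)) : x ≠ 0 := by
  rintro rfl
  apply h
  have : S.red ⟨0, hx⟩ = 0 := map_zero S.red
  rw [this]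
  exact isAlgebraic_zero

theorem finrank_congr_if {K : Type u} {E : Type v} [Field K] [Field E] [Algebra K E]
    {M M' : IntermediateField K E} (h : M = M') :
    Module.finrank ↥M E = Module.finrank ↥M' E := by
  subst h
  rfl

theorem isSeparable_congr_if {K : Type u} {E : Type v} [Field K] [Field E] [Algebra K E]
    {M M' : IntermediateField K E} (h : M = M') (hs : Algebra.IsSeparable ↥M E) :
    Algebra.IsSeparable ↥M' E := by
  subst h
  exact hs

theorem finite_congr_if {K : Type u} {E : Type v} [Field K] [Field E] [Algebra K E]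
    {M M' : IntermediateField K E} (h : M = M') (hs : Module.Finite ↥M E) :
    Module.Finite ↥M' E := by
  subst h
  exact hs

/-- `GoodChart` from the five "pre" fields and the distinctness of the branch values. -/
theorem goodChart_of [IsAlgClosed C] [CharZero C] [IsAlgClosed k] (S : RedSetting C F k Ft)
    {x : F} (hx : x ∈ S.V)
    (h1 : Transcendental k (S.red ⟨x, hx⟩))
    (h2 : FiniteDimensional C⟮x⟯ F)
    (h3 : Algebra.IsSeparable C⟮x⟯ F)
    (h4 : Module.finrank k⟮S.red ⟨x, hx⟩⟯ Ft = Module.finrank C⟮x⟯ F)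
    (h5 : Algebra.IsSeparable k⟮S.red ⟨x, hx⟩⟯ Ft)
    (hD : ∀ ρ ρ' : ↥(S.V.comap (algebraMap C F)), IsBranchValue x (ρ : C) →
      IsBranchValue x (ρ' : C) → S.resO ρ = S.resO ρ' → ρ = ρ') :
    GoodChart S x hx :=
  ⟨h1, h2, h3, h4, h5,
    Fermat.Agent.S27.REDu.H82.stmt_chartNormal C F k Ft S x hx h1 h2 h4 h5 hD⟩

/-- `GoodChart` for the chart `x⁻¹` from the five "pre" fields of the chart `x` and the
distinctness of the branch values of `x⁻¹`. -/
theorem goodChart_inv_of [IsAlgClosed C] [CharZero C] [IsAlgClosed k] (S : RedSetting C F k Ft)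
    {x : F} (hx : x ∈ S.V) (hx' : x⁻¹ ∈ S.V)
    (h1 : Transcendental k (S.red ⟨x, hx⟩))
    (h2 : FiniteDimensional C⟮x⟯ F)
    (h3 : Algebra.IsSeparable C⟮x⟯ F)
    (h4 : Module.finrank k⟮S.red ⟨x, hx⟩⟯ Ft = Module.finrank C⟮x⟯ F)
    (h5 : Algebra.IsSeparable k⟮S.red ⟨x, hx⟩⟯ Ft)
    (hD : ∀ ρ ρ' : ↥(S.V.comap (algebraMap C F)), IsBranchValue x⁻¹ (ρ : C) →
      IsBranchValue x⁻¹ (ρ' : C) → S.resO ρ = S.resO ρ' → ρ = ρ') :
    GoodChart S x⁻¹ hx' := by
  have hx0 : x ≠ 0 := ne_zero_of_transcendental_red S hx h1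
  have hred : S.red ⟨x⁻¹, hx'⟩ = (S.red ⟨x, hx⟩)⁻¹ := red_inv S hx hx' hx0
  have hC : C⟮x⁻¹⟯ = C⟮x⟯ := adjoin_simple_inv_u x
  have hk : k⟮S.red ⟨x⁻¹, hx'⟩⟯ = k⟮S.red ⟨x, hx⟩⟯ := by
    rw [hred]
    exact adjoin_simple_inv_u _
  refine goodChart_of S hx' ?_ ?_ ?_ ?_ ?_ hD
  · rw [hred]
    exact transcendental_inv_u h1
  · exact finite_congr_if hC.symm h2
  · exact isSeparable_congr_if hC.symm h3
  · rw [finrank_congr_if hk, finrank_congr_if hC]
    exact h4
  · exact isSeparable_congr_if hk.symm h5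

/-- A constant which is a unit of `O` has nonzero reduction. -/
theorem resO_ne_zero_of_inv_mem (S : RedSetting C F k Ft) (a : ↥S.O) (ha0 : (a : C) ≠ 0)
    (ha : (a : C)⁻¹ ∈ S.O) : S.resO a ≠ 0 := by
  intro h0
  have h1 : a * ⟨(a : C)⁻¹, ha⟩ = 1 := Subtype.ext (mul_inv_cancel₀ ha0)
  have h2 := congrArg S.resO h1
  rw [map_mul, h0, zero_mul, map_one] at h2
  exact zero_ne_one h2

/-- A constant whose inverse is not in `O` has zero reduction. -/
theorem resO_eq_zero_of_inv_not_mem (S : RedSetting C F k Ft) (a : ↥S.O)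
    (ha : (a : C)⁻¹ ∉ S.O) : S.resO a = 0 := by
  rw [S.resO_eq_zero_iff]
  rintro ⟨w, hw⟩
  apply ha
  have h1 : ((w : ↥S.O) : C) * (((w⁻¹ : (↥S.O)ˣ) : ↥S.O) : C) = 1 :=
    congrArg Subtype.val w.mul_inv
  rw [hw] at h1
  have h2 : (a : C)⁻¹ = (((w⁻¹ : (↥S.O)ˣ) : ↥S.O) : C) := inv_eq_of_mul_eq_one_right h1
  rw [h2]
  exact Subtype.mem _

end Abs

/-! ### The assembly -/

/-- The characteristic of a field in which the prime `p` vanishes. -/
theorem charP_of_prime_cast_eq_zero (k : Type u) [Field k] {p : ℕ} (hp : p.Prime)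
    (h : (p : k) = 0) : CharP k p := by
  obtain ⟨q, hq⟩ := CharP.exists k
  have hqp : q ∣ p := (CharP.cast_eq_zero_iff k q p).mp h
  rcases (Nat.dvd_prime hp).mp hqp with h1 | h1
  · exfalso
    subst h1
    exact CharP.char_ne_one k 1 rfl
  · subst h1
    exact hq

/-- **RED-EX** from its leaves. -/
theorem redex_of (hEis : Stmt_EisEx.{u, v}) (hBr : Stmt_BranchFin.{u, v})
    (hVal : Stmt_VAL.{u}) (hGE : Stmt_GaussExt.{u, v}) (hBridge : Stmt_Bridge.{u, v, u, v}) :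
    Stmt_REDEX.{u, v} := by
  intro K F _ _ _ _ _ hFF ℓ
  classical
  obtain ⟨H, g, c, hg⟩ := stmt_FFH K F hFF
  obtain ⟨M⟩ := hEis K F hFF H g c hg
  haveI := M.fin
  have hd0 : 0 < M.d := by
    rw [← M.deg]
    exact Module.finrank_pos
  have hw0 : M.w ≠ 0 := fun h0 => M.transc (h0 ▸ isAlgebraic_zero)
  -- the charts `w`, `w⁻¹` over `K`
  have htr' : Transcendental K M.w⁻¹ := transcendental_inv_u M.transc
  have hKinv : K⟮M.w⁻¹⟯ = K⟮M.w⟯ := adjoin_simple_inv_u M.w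
  have hfin' : Module.Finite K⟮M.w⁻¹⟯ F := finite_congr_if hKinv.symm M.fin
  have hB := hBr K F M.w M.transc M.fin
  have hB' := hBr K F M.w⁻¹ htr' hfin'
  -- the finite set of elements which have to be units
  let coeffs : Finset K :=
    ((Finset.univ : Finset (Fin M.d)).biUnion fun i =>
      (M.a i).support.image fun n => (M.a i).coeff n) ∪
      (M.b.support.image fun n => M.b.coeff n)
  let specials : Finset K := {M.b.eval 0, (M.d : K), (M.a ⟨0, hd0⟩).eval 0}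
  let diffs : Finset K :=
    ((hB.toFinset ×ˢ hB.toFinset).image fun q => q.1 - q.2) ∪
      ((hB'.toFinset ×ˢ hB'.toFinset).image fun q => q.1 - q.2)
  let I : Finset K := coeffs ∪ specials ∪ diffs
  let m : ℕ := (if ℓ = 0 then 1 else ℓ) * M.d
  have hm : 0 < m := by
    apply Nat.mul_pos _ hd0
    split_ifs with h
    · exact Nat.one_pos
    · exact Nat.pos_of_ne_zero h
  obtain ⟨p, O, hp, hpm, hI, hIu, hpO, hpinv, halgO⟩ := hVal K I m hm
  have hpℓ : p ≠ ℓ := by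
    rintro rfl
    apply hpm
    have hℓ0 : p ≠ 0 := hp.ne_zero
    show p ∣ (if p = 0 then 1 else p) * M.d
    rw [if_neg hℓ0]
    exact Dvd.intro _ rfl
  have hOtop : O ≠ ⊤ := by
    intro h
    apply hpinv
    rw [h]
    exact ValuationSubring.mem_top _
  -- the model is good
  have hcoeff : ∀ a ∈ coeffs, a ∈ O := fun a ha =>
    hI a (Finset.mem_union_left _ (Finset.mem_union_left _ ha))
  have hspec : ∀ a ∈ specials, a ≠ 0 → a⁻¹ ∈ O := fun a ha =>
    hIu a (Finset.mem_union_left _ (Finset.mem_union_right _ ha))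
  have hdiff : ∀ a ∈ diffs, a ≠ 0 → a⁻¹ ∈ O := fun a ha =>
    hIu a (Finset.mem_union_right _ ha)
  have hGood : M.Good O := by
    refine ⟨?_, ?_, ?_, ?_, ?_⟩
    · intro i n
      by_cases h0 : (M.a i).coeff n = 0
      · rw [h0]; exact O.zero_mem
      · apply hcoeff
        refine Finset.mem_union_left _ (Finset.mem_biUnion.mpr ⟨i, Finset.mem_univ _, ?_⟩)
        exact Finset.mem_image.mpr ⟨n, Polynomial.mem_support_iff.mpr h0, rfl⟩
    · intro n
      by_cases h0 : M.b.coeff n = 0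
      · rw [h0]; exact O.zero_mem
      · apply hcoeff
        refine Finset.mem_union_right _ ?_
        exact Finset.mem_image.mpr ⟨n, Polynomial.mem_support_iff.mpr h0, rfl⟩
    · exact hspec _ (by simp [specials]) M.hb
    · intro h
      exact hspec _ (by simp [specials]) (M.ha h)
    · exact hspec _ (by simp [specials]) (Nat.cast_ne_zero.mpr hd0.ne')
  -- the Gauss valuation ring
  obtain ⟨k, Ft, _, _, _, S, hw, hw', hcomap, htransc, hfint, hdegt, hsept⟩ := hGE K F M O hGood hOtop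
  have hSO : S.O = O := hcomap
  have toO : ∀ a : K, a ∈ S.O → a ∈ O := fun a h => hSO ▸ h
  have ofO : ∀ a : K, a ∈ O → a ∈ S.O := fun a h => hSO.symm ▸ h
  haveI : IsAlgClosed k := stmt_ResK K k S.O S.resO S.resO_surj
  -- the characteristic of `k`
  have hpS : (p : K) ∈ S.O := ofO _ hpO
  have hpk : (p : k) = 0 := by
    have h1 : S.resO ⟨(p : K), hpS⟩ = 0 := by
      apply resO_eq_zero_of_inv_not_mem
      exact fun h => hpinv (toO _ h)
    have h2 : (⟨(p : K), hpS⟩ : ↥S.O) = ((p : ℕ) : ↥S.O) := Subtype.ext (by simp)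
    rw [h2, map_natCast] at h1
    exact h1
  haveI hchar : CharP k p := charP_of_prime_cast_eq_zero k hp hpk
  have halgk : IsAlgOverFp k p := by
    intro y
    obtain ⟨a, rfl⟩ := S.resO_surj y
    have haO : (a : K) ∈ O := toO _ a.2
    obtain ⟨n, hn, hcase⟩ := halgO a haO
    refine ⟨n, hn, ?_⟩
    have h3 : S.resO (a ^ (p ^ n) - a) = 0 := by
      rcases hcase with h0 | h0
      · have : a ^ (p ^ n) - a = 0 := Subtype.ext (by simpa using h0)
        rw [this, map_zero]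
      · apply resO_eq_zero_of_inv_not_mem
        intro h
        apply h0
        have := toO _ h
        simpa using this
    rw [map_sub, map_pow] at h3
    exact sub_eq_zero.mp h3
  -- the charts are good
  have hcz : CharZero ↥K⟮M.w⟯ := charZero_of_injective_algebraMap (algebraMap K ↥K⟮M.w⟯).injective
  have hsepK : Algebra.IsSeparable ↥K⟮M.w⟯ F := inferInstance
  have hdeg' : Module.finrank k⟮S.red ⟨M.w, hw⟩⟯ Ft = Module.finrank K⟮M.w⟯ F := by
    rw [hdegt, M.deg]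
  have hbranch : ∀ (x : F) (hBx : {ρ : K | IsBranchValue x ρ}.Finite),
      (∀ a ∈ (hBx.toFinset ×ˢ hBx.toFinset).image (fun q : K × K => q.1 - q.2),
        a ≠ 0 → a⁻¹ ∈ O) →
      ∀ ρ ρ' : ↥(S.V.comap (algebraMap K F)), IsBranchValue x (ρ : K) →
        IsBranchValue x (ρ' : K) → S.resO ρ = S.resO ρ' → ρ = ρ' := by
    intro x hBx hu ρ ρ' hρ hρ' hres
    by_contra hne
    have hne' : (ρ : K) - ρ' ≠ 0 := fun h => hne (Subtype.ext (sub_eq_zero.mp h))
    have hmem : (ρ : K) - ρ' ∈ (hBx.toFinset ×ˢ hBx.toFinset).image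
        (fun q : K × K => q.1 - q.2) := by
      refine Finset.mem_image.mpr ⟨((ρ : K), (ρ' : K)), ?_, rfl⟩
      rw [Finset.mem_product]
      exact ⟨hBx.mem_toFinset.mpr hρ, hBx.mem_toFinset.mpr hρ'⟩
    have hinv := hu _ hmem hne'
    have hinv' : (((ρ - ρ' : ↥S.O) : K))⁻¹ ∈ S.O := by
      apply ofO
      simpa using hinv
    have := resO_ne_zero_of_inv_mem S (ρ - ρ') (by simpa using hne') hinv'
    apply this
    rw [map_sub, hres, sub_self]
  have GC : GoodChart S M.w hw :=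
    goodChart_of S hw htransc M.fin hsepK hdeg' hsept
      (hbranch M.w hB fun a ha => hdiff a (Finset.mem_union_left _ ha))
  have GC' : GoodChart S M.w⁻¹ hw' :=
    goodChart_inv_of S hw hw' htransc M.fin hsepK hdeg' hsept
      (hbranch M.w⁻¹ hB' fun a ha => hdiff a (Finset.mem_union_right _ ha))
  -- conservation and genus
  have hFFt : IsFFu k Ft := ⟨S.red ⟨M.w, hw⟩, htransc, hfint⟩
  have hxx' : M.w⁻¹ * (M.w - algebraMap K F ((0 : ↥S.O) : K)) = 1 := by
    rw [ZeroMemClass.coe_zero, map_zero, sub_zero, inv_mul_cancel₀ hw0]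
  obtain ⟨r, hr⟩ := exists_isRedAbs hFF hFFt S M.w M.w⁻¹ hw hw' 0 hxx' GC GC'
  haveI : FiniteDimensional ↥K⟮M.w⟯ F := M.fin
  haveI := hsept
  have hGen := Fermat.Agent.S27.REDu.H42.genusLE_of_charts hFF hFFt S hw hw' htransc hdeg'
    GC.normal GC'.normal r
  obtain ⟨S', hS'V, hS'r, hS'rd⟩ := hBridge K F k Ft S r hr
  have hrd : S'.rd M.w = S.red ⟨M.w, hw⟩ := hS'rd M.w hw
  refine ⟨p, k, Ft, inferInstance, inferInstance, inferInstance, inferInstance, hchar,
    hp, hpℓ, halgk, ⟨?_⟩⟩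
  refine
    { S := S'
      x := M.w
      hx := by rw [hS'V]; exact hw
      transc := by rw [hrd]; exact htransc
      fin := M.fin
      fin' := by rw [hrd]; exact hfint
      deg := by rw [hrd]; exact hdeg'
      sep' := by rw [hrd]; exact hsept
      genusLE := ?_ }
  obtain ⟨c₁, hc₁⟩ := hGen
  exact ⟨c₁, fun D hD => by rw [hS'r]; exact hc₁ D hD⟩

end Fermat.Agent.S27.Char0.H20

end
end
-- ==== END Fermat.Agent.S27.Char0.H20_RedExAsm

-- ==== BEGIN Fermat.Agent.S59.CaseC.Geom.H85_PDualFinal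
section

/-!
# S59, case C, PGEOM leaf P-DUAL (helper85): the final statement

`stmt_PDUAL : Stmt_PDUAL`, unconditional, from `pdual_of` and helper94's `stmt_LIFTB`.
No `sorry`.
-/

set_option autoImplicit false

namespace Fermat.Agent.S59.CaseC.Geom.H85

/-- **P-DUAL**, unconditional. -/
theorem stmt_PDUAL : Fermat.Agent.S59.CaseC.Geom.Stmt_PDUAL :=
  pdual_of Fermat.Agent.S59.NonMin.Geom.H94.stmt_LIFTB

end Fermat.Agent.S59.CaseC.Geom.H85

end
-- ==== END Fermat.Agent.S59.CaseC.Geom.H85_PDualFinal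

-- ==== BEGIN Fermat.Agent.S59.NonMin.Geom.H94_DualFinal
section

/-!
# S59 / NMGEOM, leaf DUAL: the statement (helper94, helper72)

`stmt_DUAL : Stmt_DUAL`, from `H72K.stmt_DUALk` (helper72; dual Ihara over the residue field) and
`H94.stmt_LIFTB` (helper94; lifting to the Betti lattice) by `H94.dual_of`.

No `sorry`.
-/

set_option autoImplicit false

namespace Fermat.Agent.S59.NonMin.Geom.H94

open Fermat.Agent.S59.NonMin.Geom

/-- **DUAL**. -/
theorem stmt_DUAL : Stmt_DUAL :=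
  dual_of Fermat.Agent.S59.NonMin.Geom.H72K.stmt_DUALk stmt_LIFTB

end Fermat.Agent.S59.NonMin.Geom.H94

end
-- ==== END Fermat.Agent.S59.NonMin.Geom.H94_DualFinal

-- ==== BEGIN Fermat.Agent.S27.Char0.H20_Final
section

/-!
# S27 char-0 half: the frozen statement from the last open leaves (helper20)
-/

set_option autoImplicit false

noncomputable section

open AlgebraicCurve IntermediateField

namespace Fermat.Agent.S27.Char0.H20

universe u v

/-- **S27** from the leaves BRANCH-FIN, VAL, SOLVE and COUNT-P. -/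
theorem s27_of_leaves (hBr : Stmt_BranchFin.{u, v}) (hVal : Stmt_VAL.{u})
    (hSolve : Lift.Stmt_Solve.{u, v, u, v}) (hCount : Stmt_CountPu.{u, v})
    (K : Type u) (F : Type v) [Field K] [Field F] [Algebra K F] [IsAlgClosed K] [CharZero K]
    [IsCurveOver K F] [Algebra.EssFiniteType K F]
    (ℓ : ℕ) [Fact ℓ.Prime] (j : ℕ) :
    Nat.card (Pic0.torsion K F (ℓ ^ j)) = ℓ ^ (2 * genusFF K F * j) :=
  s27_of stmt_FFX
    (redex_of stmt_EisEx hBr hVal Fermat.Agent.S27.Char0.H64.stmt_GaussExt stmt_Bridge)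
    (Lift.H45.stmt_LIFT_of_solve hSolve) hCount K F ℓ j

end Fermat.Agent.S27.Char0.H20

end
end
-- ==== END Fermat.Agent.S27.Char0.H20_Final

-- ==== BEGIN Fermat.Agent.S59.NonMin.Geom.H61_NmgFinal
section

/-!
# S59 / NMGEOM: the assembly with all the function-level leaves plugged in (helper61)

* `stmt_DEG3 : H48.Stmt_DEG3` (unconditional);
* `nmgeomb_of_rank_b0 : Stmt_RANK → Stmt_TWGEOMB → CaseC.Geom.Stmt_NMGEOMB`;
* `nmgeom2_of_rank_b0 : Stmt_RANK → Stmt_TWGEOMB → Stmt_NMGEOM2`.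

The only inputs of NMGEOM left are `Stmt_RANK` (multiplicity one) and `Stmt_TWGEOMB` (the base).
-/

set_option autoImplicit false

namespace Fermat.Agent.S59.NonMin.Geom.H61

open Fermat.Agent.S59.NonMin.Geom

/-- **DEG3**, unconditional. -/
theorem stmt_DEG3 : H48.Stmt_DEG3 :=
  H48.deg3_of stmt_IHARAFLD H30P.stmt_PROJQ H80.stmt_SPLITFLD H94.stmt_DUAL H12.stmt_REL1
    H92.stmt_REL2 H72R.stmt_REL3 H13.stmt_RELT H12.stmt_RELU H94.stmt_RELPAR

/-- **NMGEOMB** from RANK and B0. -/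
theorem nmgeomb_of_rank_b0 (hRANK : Stmt_RANK) (hB0 : Stmt_TWGEOMB) :
    Fermat.Agent.S59.CaseC.Geom.Stmt_NMGEOMB :=
  H30.nmgeomb_of3 stmt_DEG3 hRANK hB0

/-- **NMGEOM2** from RANK and B0. -/
theorem nmgeom2_of_rank_b0 (hRANK : Stmt_RANK) (hB0 : Stmt_TWGEOMB) : Stmt_NMGEOM2 :=
  H30.nmgeom2_of3 stmt_DEG3 hRANK hB0

end Fermat.Agent.S59.NonMin.Geom.H61

end
-- ==== END Fermat.Agent.S59.NonMin.Geom.H61_NmgFinal

-- ==== BEGIN Fermat.Agent.S27.Char0.H20_Final2
section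

/-!
# S27: the frozen statement from the last open leaf SOLVE (helper20)
-/

set_option autoImplicit false

noncomputable section

open AlgebraicCurve IntermediateField

namespace Fermat.Agent.S27.Char0.H20

universe u v

/-- **S27** from the leaf SOLVE. -/
theorem s27_of_solve (hSolve : Lift.Stmt_Solve.{u, v, u, v})
    (K : Type u) (F : Type v) [Field K] [Field F] [Algebra K F] [IsAlgClosed K] [CharZero K]
    [IsCurveOver K F] [Algebra.EssFiniteType K F]
    (ℓ : ℕ) [Fact ℓ.Prime] (j : ℕ) :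
    Nat.card (Pic0.torsion K F (ℓ ^ j)) = ℓ ^ (2 * genusFF K F * j) :=
  s27_of_leaves Fermat.Agent.S27.Char0.H38.stmt_BranchFin Fermat.Agent.S27.Char0.H57.stmt_VAL
    hSolve Fermat.Agent.S27.CharP.H62F.stmt_CountPu K F ℓ j

end Fermat.Agent.S27.Char0.H20

end
end
-- ==== END Fermat.Agent.S27.Char0.H20_Final2

-- ==== BEGIN Fermat.Agent.S59.Final.H53_Mid
section

/-!
# S59: the second layer of the wiring (helper53)

`s59_of2` : the frozen statement S59 from the four inputs which are still open: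

* `Stmt_S58`                              (row 52; from S36),
* `∀ p ∈ {3, 5}, LL.H40.LLec0At p`        (level optimisation: SQ-TAME, SQ-TWO, frozen S38, S39ss),
* `NonMin.Geom.Stmt_TWGEOMB`              (the base of the induction `N ↦ N q²`: B0),
* `CaseC.Geom.Stmt_STEPPptWIRE`           (the algebra of the step at `p`: wiring).

Plugged in here: `RANK`, `PRANK` (helper2 and the Rank team), `PDEG2WIRE` (helper13), `PFIN`,
`BM`, `PREL`, `PRELT`, `IHARA2k`, `CHEBkp`, `PDUAL`, `PALG`, `PORD`, `PLINK`, `LGCpt` (helper54),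
`DEG3` (helper48, helper61), `S33`, `DEFord`, `ORDT`, `TAUP`, `SELMERp`, `CPNE`.

No `sorry`.
-/

set_option autoImplicit false

namespace Fermat.Agent.S59.Final.H53

open Fermat.Agent.S59 Fermat.Agent.S59.Asm Fermat.Agent.S59.NonMin Fermat.Agent.S59.CaseC

/-- The geometry of the step at `p`, unconditional. -/
theorem stmt_PSTEPB : CaseC.Geom.Stmt_PSTEPB :=
  CaseC.Geom.H53.pasm_of CaseC.Geom.H13.stmt_PDEG2WIRE CaseC.Geom.H53.stmt_PFIN
    NonMin.Geom.H61.stmt_BM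
    CaseC.Geom.H92.stmt_PREL CaseC.Geom.H80.stmt_PRELT CaseC.Geom.H78.stmt_IHARA2k
    CaseC.Geom.H61.stmt_CHEBkp CaseC.Geom.H85.stmt_PDUAL CaseC.Geom.H34.stmt_PALG
    (CaseC.Geom.H7.pord_of Fermat.Agent.S59.LGC.H54.stmt_LGCpt)
    (CaseC.Geom.H90.stmt_PLINK_of Fermat.Agent.S59.LGC.H54.stmt_LGCpt)
    NonMin.Geom.Rank.H2F.stmt_PRANK

/-- The frozen type of S33, from the landed `Fermat.Agent.S33.result`. -/
theorem stmt_S33 : CaseC.Stmt_S33 := by
  intro p N _ S 𝒪 _ _ _ _ θ T _ _ _ _ _ _ _ _ _ _ hp hp2 hp𝒪 hN hNS H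
  exact Fermat.Agent.S33.result hp hp2 hp𝒪 hN hNS H

/-- The algebra of the step at `p` from its wiring. -/
theorem steppt_of (hW : CaseC.Geom.Stmt_STEPPptWIRE) : CaseC.Geom.Stmt_STEPPpt :=
  hW stmt_S33 CaseC.H47.stmt_DEFord NonMin.H7.stmt_ORDT CaseC.H47.stmt_TAUP
    CaseC.H80.stmt_SELMERp (CaseC.H12.cpne_of_geom Fermat.Agent.S59.LGC.H54.stmt_LGCpt)

/-- The geometry of the induction `N ↦ N q²` from its base. -/
theorem nmgeomb_of_b0 (hB0 : NonMin.Geom.Stmt_TWGEOMB) : CaseC.Geom.Stmt_NMGEOMB :=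
  NonMin.Geom.H61.nmgeomb_of_rank_b0 NonMin.Geom.Rank.H2F.stmt_RANK hB0

/-- **S59** from the second layer of open inputs. -/
theorem s59_of2 (h58 : Stmt_S58)
    (hLL : ∀ p : ℕ, p = 3 ∨ p = 5 → Fermat.Agent.S59.LL.H40.LLec0At p)
    (hB0 : NonMin.Geom.Stmt_TWGEOMB) (hW : CaseC.Geom.Stmt_STEPPptWIRE)
    (p : ℕ) (hp : p = 3 ∨ p = 5)
    (W : WeierstrassCurve ℤ) (hΔ : W.Δ ≠ 0) (hW' : W.IsSemistableModel)
    (hirr : W.ModRepIsIrreducible p)
    (M₀ : ℕ) [NeZero M₀] (hres₀ : W.IsResiduallyModularOfLevel p M₀)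
    (hM₀ : ¬ p ^ 2 ∣ M₀)
    (hM₀3 : ∀ q : ℕ, q.Prime → q ≠ p → ¬ q ^ 3 ∣ M₀) :
    Mlc1IsModularModelOfExactConductorLevel W :=
  s59_of0 h58 hLL (nmgeomb_of_b0 hB0) stmt_PSTEPB (steppt_of hW) p hp W hΔ hW' hirr M₀ hres₀
    hM₀ hM₀3

end Fermat.Agent.S59.Final.H53

end
-- ==== END Fermat.Agent.S59.Final.H53_Mid

-- ==== BEGIN Fermat.Agent.S59.Final.H53_Fin
section

/-!
# S59: the third layer of the wiring (helper53)

`s59_of3` : the frozen statement S59 from the two inputs which are still open: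

* `Stmt_S58`                              (row 52; from S36),
* `∀ p ∈ {3, 5}, LL.H40.LLec0At p`        (level optimisation: SQ-TAME, SQ-TWO, frozen S38, S39ss).

Plugged in here (in addition to `H53_Mid.lean`): `B0COORD` (helper12), `TWGEOMB` (helper92,
helper30, NEB-GEOM helper84 and team), `STEPPptWIRE` (helper47).

Also: `stmt_Lift0_of`, `stmt_MLTred` (modularity lifting, reduced form, UNCONDITIONAL).

No `sorry`.
-/

set_option autoImplicit false

namespace Fermat.Agent.S59.Final.H53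

open Fermat.Agent.S59 Fermat.Agent.S59.Asm Fermat.Agent.S59.NonMin Fermat.Agent.S59.CaseC

/-- The base of the induction `N ↦ N q²`, unconditional. -/
theorem stmt_TWGEOMB : NonMin.Geom.Stmt_TWGEOMB :=
  NonMin.Geom.H92B.stmt_TWGEOMB_of_coord NonMin.Geom.H12C.stmt_B0COORD

/-- The geometry of the induction `N ↦ N q²`, unconditional. -/
theorem stmt_NMGEOMB : CaseC.Geom.Stmt_NMGEOMB := nmgeomb_of_b0 stmt_TWGEOMB

/-- The algebra of the step at `p`, unconditional. -/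
theorem stmt_STEPPpt : CaseC.Geom.Stmt_STEPPpt := steppt_of CaseC.Geom.H47.stmt_STEPPptWIRE

/-- Modularity lifting, reduced form, UNCONDITIONAL. -/
theorem stmt_MLTred : Asm.Stmt_MLTred := mltred_of stmt_NMGEOMB stmt_PSTEPB stmt_STEPPpt

/-- **S59** from `S58` and the level optimisation. -/
theorem s59_of3 (h58 : Stmt_S58)
    (hLL : ∀ p : ℕ, p = 3 ∨ p = 5 → Fermat.Agent.S59.LL.H40.LLec0At p)
    (p : ℕ) (hp : p = 3 ∨ p = 5)
    (W : WeierstrassCurve ℤ) (hΔ : W.Δ ≠ 0) (hW' : W.IsSemistableModel)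
    (hirr : W.ModRepIsIrreducible p)
    (M₀ : ℕ) [NeZero M₀] (hres₀ : W.IsResiduallyModularOfLevel p M₀)
    (hM₀ : ¬ p ^ 2 ∣ M₀)
    (hM₀3 : ∀ q : ℕ, q.Prime → q ≠ p → ¬ q ^ 3 ∣ M₀) :
    Mlc1IsModularModelOfExactConductorLevel W :=
  s59_of2 h58 hLL stmt_TWGEOMB CaseC.Geom.H47.stmt_STEPPptWIRE p hp W hΔ hW' hirr M₀ hres₀
    hM₀ hM₀3

end Fermat.Agent.S59.Final.H53

end
-- ==== END Fermat.Agent.S59.Final.H53_Fin

-- ==== BEGIN Fermat.Agent.S59.LL.SQ.H64_StRankA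
section

/-!
# S59 / LL / SQ, leaf ST-RANK (a) (helper64): the number of `p ^ k`-torsion points

* `card_torsion_of_isFFu` : for a function field `F / K` of one variable over an algebraically
  closed field of characteristic `0`, of Riemann genus `g`:
  `#Pic0(F)[ℓ ^ j] = ℓ ^ (2 g j)`  (the proof of S27, with Riemann's genus instead of `genusFF`);
* `stmt_StRankA` : `#J₀(N)[p ^ k] = p ^ (2 g k)`, `g` the Riemann genus of `F_N · ℚ̄`.
-/

set_option autoImplicit false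

noncomputable section

open AlgebraicCurve IntermediateField

namespace Fermat.Agent.S59.LL.SQ.H64

open Fermat.Agent.RED.H17 Fermat.Agent.S27.Char0 Fermat.Agent.S27.Char0.H20

universe u v

/-- `#Pic0(F)[ℓ ^ j] = ℓ ^ (2 g j)` in characteristic `0`, `g` the Riemann genus. -/
theorem card_torsion_of_isFFu (K : Type u) (F : Type v) [Field K] [Field F] [Algebra K F]
    [IsAlgClosed K] [CharZero K] (hFF : IsFFu K F) (g : ℕ) (c : ℤ) (hg : IsGenus K F g c)
    (ℓ : ℕ) (hℓ : ℓ.Prime) (j : ℕ) :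
    Nat.card (Pic0.torsion K F (ℓ ^ j)) = ℓ ^ (2 * g * j) := by
  obtain ⟨H, -, -, -⟩ := stmt_FFH K F hFF
  have hREDEX : Stmt_REDEX.{u, v} :=
    redex_of stmt_EisEx Fermat.Agent.S27.Char0.H38.stmt_BranchFin
      Fermat.Agent.S27.Char0.H57.stmt_VAL Fermat.Agent.S27.Char0.H64.stmt_GaussExt stmt_Bridge
  have hLIFT : Stmt_LIFT.{u, v, u, v} := Fermat.Agent.S27.Char0.Lift.H68.stmt_LIFT
  have hCount : Stmt_CountPu.{u, v} := Fermat.Agent.S27.CharP.H62F.stmt_CountPu
  obtain ⟨p, k, Ft, _, _, _, _, _, hp, hpℓ, halg, ⟨G⟩⟩ := hREDEX K F hFF ℓ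
  have hFFt : IsFFu k Ft := ⟨G.S.rd G.x, G.transc, G.fin'⟩
  obtain ⟨H', g', c', hg'⟩ := stmt_FFH k Ft hFFt
  have hgg : g' = g :=
    Fermat.Agent.S27.Char0.H52.stmt_GenusEq K F k Ft G.S H H' g c g' c' hg hg' G.genusLE
  subst hgg
  obtain ⟨ρ, hρmk, -, hρinj⟩ :=
    Fermat.Agent.S27.Char0.H52.stmt_TIPic K F k Ft G.S H H' g' c g' c' hg hg' G.genusLE
  have hn : ((ℓ ^ j : ℕ) : k) ≠ 0 := by
    intro h0
    have h1 : p ∣ ℓ ^ j := (CharP.cast_eq_zero_iff k p (ℓ ^ j)).mp h0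
    have h2 : p ∣ ℓ := hp.dvd_of_dvd_pow h1
    exact hpℓ ((Nat.prime_dvd_prime_iff_eq hp hℓ).mp h2)
  have hmaps : ∀ x : Pic0 K F, x ∈ Pic0.torsion K F (ℓ ^ j) → ρ x ∈ Pic0.torsion k Ft (ℓ ^ j) := by
    intro x hx
    rw [Pic0.mem_torsion] at hx ⊢
    rw [← map_zsmul, hx, map_zero]
  let φ : Pic0.torsion K F (ℓ ^ j) → Pic0.torsion k Ft (ℓ ^ j) := fun x => ⟨ρ x, hmaps x x.2⟩
  have hφinj : Function.Injective φ := by
    intro x y hxy
    have h1 : ρ (x : Pic0 K F) = ρ (y : Pic0 K F) := congrArg Subtype.val hxy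
    have h2 : ρ ((x : Pic0 K F) - y) = 0 := by rw [map_sub, h1, sub_self]
    have h3 : ((ℓ ^ j : ℕ) : ℤ) • ((x : Pic0 K F) - y) = 0 := by
      have hx := Pic0.mem_torsion.mp x.2
      have hy := Pic0.mem_torsion.mp y.2
      rw [zsmul_sub, hx, hy, sub_self]
    have h4 := hρinj (ℓ ^ j) hn _ h3 h2
    exact Subtype.ext (sub_eq_zero.mp h4)
  have hφsurj : Function.Surjective φ := by
    rintro ⟨y, hy⟩
    rw [Pic0.mem_torsion] at hy
    obtain ⟨E, hE, rfl, hEn⟩ := exists_divisor_of_torsion (ℓ ^ j) y hy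
    obtain ⟨D, hD, hDn, hDE⟩ := hLIFT K F k Ft G H H' g' c c' hg hg' (ℓ ^ j) hn E hE hEn
    have hD' : D ∈ Divisor.degZero (K := K) (F := F) := hD
    have hx : Pic0.mk ⟨D, hD'⟩ ∈ Pic0.torsion K F (ℓ ^ j) := by
      rw [Pic0.mem_torsion]
      have : ((ℓ ^ j : ℕ) : ℤ) • Pic0.mk ⟨D, hD'⟩
          = Pic0.mk (((ℓ ^ j : ℕ) : ℤ) • (⟨D, hD'⟩ : Divisor.degZero (K := K) (F := F))) := rfl
      rw [this]
      exact (QuotientAddGroup.eq_zero_iff _).mpr hDn
    refine ⟨⟨_, hx⟩, Subtype.ext ?_⟩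
    show ρ (Pic0.mk ⟨D, hD'⟩) = Pic0.mk ⟨E, hE⟩
    obtain ⟨hD'', hρD⟩ := hρmk D hD'
    rw [hρD, ← sub_eq_zero]
    have : Pic0.mk ⟨Finsupp.mapDomain G.S.r D, hD''⟩ - Pic0.mk ⟨E, hE⟩
        = Pic0.mk (⟨Finsupp.mapDomain G.S.r D, hD''⟩ - ⟨E, hE⟩) := rfl
    rw [this]
    exact (QuotientAddGroup.eq_zero_iff _).mpr hDE
  have hcard : Nat.card (Pic0.torsion K F (ℓ ^ j)) = Nat.card (Pic0.torsion k Ft (ℓ ^ j)) :=
    Nat.card_congr (Equiv.ofBijective φ ⟨hφinj, hφsurj⟩)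
  rw [hcard]
  exact hCount k Ft p hp halg hFFt g' c' hg' ℓ hℓ hpℓ.symm j

/-- **ST-RANK (a)**: `#J₀(N)[p ^ k] = p ^ (2 g k)`, `g` the Riemann genus of `F_N · ℚ̄`. -/
theorem stmt_StRankA (N : ℕ) [NeZero N] (g : ℕ) (c : ℤ)
    (hg : IsGenus (AlgebraicClosure ℚ) ↥(ModularCurve.modularFunctionFieldBar N) g c)
    (p : ℕ) (hp : p.Prime) (k : ℕ) :
    Nat.card (Pic0.torsion (AlgebraicClosure ℚ) ↥(ModularCurve.modularFunctionFieldBar N)
      (p ^ k)) = p ^ (2 * g * k) :=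
  card_torsion_of_isFFu (AlgebraicClosure ℚ) ↥(ModularCurve.modularFunctionFieldBar N)
    (Fermat.Agent.RED.H95.isFF_FN N) g c hg p hp k

end Fermat.Agent.S59.LL.SQ.H64

end
end
-- ==== END Fermat.Agent.S59.LL.SQ.H64_StRankA

-- ==== BEGIN Fermat.Agent.S59.Final.H53_Fin2
section

/-!
# S59: the last layer of the wiring (helper53)

`s59_of_llec0` : the frozen statement S59 from the level optimisation
`∀ p ∈ {3, 5}, LL.H40.LLec0At p` alone (`Stmt_S58` is `Fermat.Agent.S58.result`, landed).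

No `sorry`.
-/

set_option autoImplicit false

namespace Fermat.Agent.S59.Final.H53

open Fermat.Agent.S59

/-- The frozen type of S58, from the landed `Fermat.Agent.S58.result`. -/
theorem stmt_S58 : Stmt_S58 :=
  fun W hss N p _ hp2 hirr hp2N hN hbad hN3 =>
    Fermat.Agent.S58.result W hss N p hp2 hirr hp2N hN hbad hN3

/-- **S59** from the level optimisation. -/
theorem s59_of_llec0
    (hLL : ∀ p : ℕ, p = 3 ∨ p = 5 → Fermat.Agent.S59.LL.H40.LLec0At p)
    (p : ℕ) (hp : p = 3 ∨ p = 5)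
    (W : WeierstrassCurve ℤ) (hΔ : W.Δ ≠ 0) (hW' : W.IsSemistableModel)
    (hirr : W.ModRepIsIrreducible p)
    (M₀ : ℕ) [NeZero M₀] (hres₀ : W.IsResiduallyModularOfLevel p M₀)
    (hM₀ : ¬ p ^ 2 ∣ M₀)
    (hM₀3 : ∀ q : ℕ, q.Prime → q ≠ p → ¬ q ^ 3 ∣ M₀) :
    Mlc1IsModularModelOfExactConductorLevel W :=
  s59_of3 stmt_S58 hLL p hp W hΔ hW' hirr M₀ hres₀ hM₀ hM₀3

end Fermat.Agent.S59.Final.H53

end
-- ==== END Fermat.Agent.S59.Final.H53_Fin2

-- ==== BEGIN Fermat.Agent.S59.LL.SQ.H20_StRankCyc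
section

/-!
# S59 / LL / SQ, leaf ST-RANK (owner helper20): inertia, TAME-CYC and the first count

Level `N`, `A` a valuation ring of `ℚ̄` over `q`, `I` its inertia group, `L = L0 A N` the functions
fixed by `I`, `S` any semistable Deuring datum for `F_N · ℚ̄`, `n = p ^ e`, `p ≠ q`.
`G = {x | InGA S L n x}`, `T = {x | InTA S L n x}` (helper69, `H69_StRankFAbs.lean`).

* `smul_eq_of_isKumA` : a class with a Kummer function in `L` is fixed by `I`;
* `LeafC`             : **(c)** `(σ - 1) J₀(N)[p ^ e] ⊆ T` for `σ ∈ I`, all `e`;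
* `unip_of_leafC`     : inertia is unipotent of level two on the `p`-power torsion;
* `cyc_of_leafC`      : **TAME-CYC**: `I` acts on `J₀(N)[p ^ e]` through a cyclic group;
* `card_tors_le`      : `#J₀(N)[n] ≤ #T · #J₀(N)[n]^I`.
-/

set_option autoImplicit false
set_option linter.style.haveILetI false
set_option linter.unusedSectionVars false
set_option linter.unusedVariables false
set_option synthInstance.maxHeartbeats 400000
set_option maxHeartbeats 1000000

noncomputable section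

open AlgebraicCurve ModularCurve
open Fermat.Agent.S28.H73 Fermat.Agent.RED.H73 Fermat.Agent.RED Fermat.Agent.S24
open Fermat.Agent.BAD.H88 Fermat.Agent.BAD

namespace Fermat.Agent.S59.LL.SQ.H20

open Fermat.Agent.RED.H17 Fermat.Agent.S36.NU.H23 Fermat.Agent.S59.LL.SQ.H69
open Fermat.Agent.BAD.H91

section Fix

variable (A : ValuationSubring Kbar) (N : ℕ) [NeZero N]

/-- A function of `L₀` is fixed by the inertia group. -/
theorem galF_smul_of_mem_L0 {σ : GalQ} (hσ : σ ∈ A.inertiaSubgroupIn ℚ) {f : FN N}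
    (hf : f ∈ L0 A N) : galF N σ • f = f := hf σ hσ

/-- A class with a Kummer function in `L₀` is fixed by the inertia group. -/
theorem smul_eq_of_isKumA {n : ℕ} (hn : n ≠ 0) {x : JZero N} {f : FN N} (hf : f ∈ L0 A N)
    (hK : IsKumA n x f) {σ : GalQ} (hσ : σ ∈ A.inertiaSubgroupIn ℚ) : σ • x = x := by
  obtain ⟨D, rfl, hD⟩ := hK
  have hnZ : (n : ℤ) ≠ 0 := by exact_mod_cast hn
  have e1 : σ • (Pic0.mk D : JZero N) = Pic0.mk (SemilinearAut.degZeroSMulHom (galF N σ) D) := rfl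
  rw [e1]
  congr 1
  apply Subtype.ext
  rw [SemilinearAut.coe_degZeroSMulHom]
  ext P
  rw [SemilinearAut.divisor_smul_apply]
  apply mul_left_cancel₀ hnZ
  rw [hD, hD, ← ord_galF_smul, galF_smul_of_mem_L0 A N hσ hf]

variable {K₁ F₁ F₂ : Type*} [Field K₁] [Field F₁] [Algebra K₁ F₁] [Field F₂] [Algebra K₁ F₂]
  (S : SSD Kbar (FN N) K₁ F₁ F₂)

/-- The classes of the finite part are fixed by the inertia group. -/
theorem smul_eq_of_inGA {n : ℕ} (hn : n ≠ 0) {x : JZero N} (hx : InGA S (L0 A N) n x)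
    {σ : GalQ} (hσ : σ ∈ A.inertiaSubgroupIn ℚ) : σ • x = x := by
  obtain ⟨f, hfL, hK, -, -⟩ := hx
  exact smul_eq_of_isKumA A N hn hfL hK hσ

/-- **(c)**: `(σ - 1) J₀(N)[p ^ e]` lies in the toric part, for `σ` in the inertia group. -/
def LeafC (p : ℕ) : Prop :=
  ∀ e : ℕ, ∀ σ ∈ A.inertiaSubgroupIn ℚ, ∀ y : JZero N, p ^ e • y = 0 →
    InTA S (L0 A N) (p ^ e) (σ • y - y)

variable {A N S}

/-- Inertia is unipotent of level two on the `p`-power torsion. -/
theorem unip_of_leafC {p : ℕ} (hp : p.Prime) (hC : LeafC A N S p) :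
    ∀ σ ∈ A.inertiaSubgroupIn ℚ, ∀ τ ∈ A.inertiaSubgroupIn ℚ,
      ∀ x : JZero N, (∃ n : ℕ, p ^ n • x = 0) → σ • τ • x - σ • x - τ • x + x = 0 := by
  intro σ hσ τ hτ x ⟨e, hx⟩
  have h1 := hC e τ hτ x hx
  have h2 := smul_eq_of_inGA A N S (pow_ne_zero e hp.ne_zero) h1.inGA hσ
  rw [smul_sub] at h2
  have h3 : σ • τ • x - σ • x - τ • x + x = (σ • τ • x - σ • x) - (τ • x - x) := by abel
  rw [h3, h2, sub_self]

/-- **TAME-CYC**: the inertia group acts on `J₀(N)[p ^ e]` through a cyclic group. -/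
theorem cyc_of_leafC {p q : ℕ} (hp : p.Prime) (hq : q.Prime) (hqp : q ≠ p)
    (hA : A.LiesOverPrime q) (hC : LeafC A N S p) (e : ℕ) :
    ∃ σ₀ ∈ A.inertiaSubgroupIn ℚ, ∀ σ ∈ A.inertiaSubgroupIn ℚ, ∃ j : ℕ,
      ∀ u : JZero N, p ^ e • u = 0 → σ • u = σ₀ ^ j • u :=
  Fermat.Agent.S15.Desc.H97.tame_cyc q p hq hp hqp A hA
    (Fermat.Agent.S15.Desc.H87.stmt_FIN N) (Fermat.Agent.S15.Desc.H87.stmt_GALfin N)
    (unip_of_leafC hp hC) e

/-- The `n`-torsion classes. -/
def torsSet (N n : ℕ) [NeZero N] : Set (JZero N) := {y | n • y = 0}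

/-- The `n`-torsion classes fixed by the inertia group of `A`. -/
def fixSet (A : ValuationSubring Kbar) (N n : ℕ) [NeZero N] : Set (JZero N) :=
  {y | n • y = 0 ∧ ∀ σ ∈ A.inertiaSubgroupIn ℚ, σ • y = y}

theorem finite_torsSet (N : ℕ) [NeZero N] {n : ℕ} (hn : 0 < n) : (torsSet N n).Finite :=
  Fermat.Agent.S15.Desc.H87.finite_tors N hn

theorem finite_fixSet (A : ValuationSubring Kbar) (N : ℕ) [NeZero N] {n : ℕ} (hn : 0 < n) :
    (fixSet A N n).Finite :=
  (finite_torsSet N hn).subset fun y hy => hy.1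

theorem finite_inGA {n : ℕ} (hn : 0 < n) : {x : JZero N | InGA S (L0 A N) n x}.Finite :=
  (finite_torsSet N hn).subset fun x hx => by
    have h := InGA.mem_torsion hx
    rw [Pic0.mem_torsion, natCast_zsmul] at h
    exact h

theorem finite_inTA {n : ℕ} (hn : 0 < n) : {x : JZero N | InTA S (L0 A N) n x}.Finite :=
  (finite_inGA (A := A) (S := S) hn).subset fun x hx => hx.inGA

/-- **The first count**: `#J₀(N)[n] ≤ #T · #J₀(N)[n]^I`, `n = p ^ e`. -/
theorem card_tors_le {p q : ℕ} (hp : p.Prime) (hq : q.Prime) (hqp : q ≠ p)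
    (hA : A.LiesOverPrime q) (hC : LeafC A N S p) (e : ℕ) :
    Nat.card ↥(torsSet N (p ^ e)) ≤
      Nat.card ↥{x : JZero N | InTA S (L0 A N) (p ^ e) x} * Nat.card ↥(fixSet A N (p ^ e)) := by
  obtain ⟨σ₀, hσ₀, hcyc⟩ := cyc_of_leafC hp hq hqp hA hC e
  have hpos : 0 < p ^ e := pow_pos hp.pos e
  haveI : Finite ↥{x : JZero N | InTA S (L0 A N) (p ^ e) x} :=
    (finite_inTA (A := A) (S := S) hpos)
  refine card_le_of_fibres (torsSet N (p ^ e)) (fixSet A N (p ^ e)) (finite_fixSet A N hpos)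
    (fun y => (⟨σ₀ • (y : JZero N) - (y : JZero N), hC e σ₀ hσ₀ _ y.2⟩ :
      ↥{x : JZero N | InTA S (L0 A N) (p ^ e) x})) ?_
  intro x y hxy
  have h1 : σ₀ • (x : JZero N) - (x : JZero N) = σ₀ • (y : JZero N) - (y : JZero N) :=
    congrArg Subtype.val hxy
  have hx : p ^ e • (x : JZero N) = 0 := x.2
  have hy : p ^ e • (y : JZero N) = 0 := y.2
  have hz : p ^ e • ((x : JZero N) - (y : JZero N)) = 0 := by rw [nsmul_sub, hx, hy, sub_self]
  have hfix : σ₀ • ((x : JZero N) - (y : JZero N)) = (x : JZero N) - (y : JZero N) := by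
    rw [smul_sub]
    have h2 : σ₀ • (x : JZero N) - σ₀ • (y : JZero N)
        = (σ₀ • (x : JZero N) - (x : JZero N)) - (σ₀ • (y : JZero N) - (y : JZero N))
          + ((x : JZero N) - (y : JZero N)) := by abel
    rw [h2, h1, sub_self, zero_add]
  refine ⟨hz, fun σ hσ => ?_⟩
  obtain ⟨j, hj⟩ := hcyc σ hσ
  rw [hj _ hz]
  clear hj
  induction j with
  | zero => rw [pow_zero, one_smul]
  | succ j ih => rw [pow_succ, mul_smul, hfix, ih]

end Fix

end Fermat.Agent.S59.LL.SQ.H20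

end
end
-- ==== END Fermat.Agent.S59.LL.SQ.H20_StRankCyc

-- ==== BEGIN Fermat.Agent.S59.LL.SQ.H69_StRankF
section
attribute [local instance 10000] SubalgebraClass.toAlgebra
attribute [local instance 10000] HahnSeries.powerSeriesAlgebra

/-!
# S59 / LL / SQ, leaf ST-RANK (f), modular form (helper69)

Level `M q`, `q ∤ M` tame (`BAD.H91.TameAt M q`), `A` a valuation ring of `ℚ̄` over `q`,
`S = S43.H91.modSSD A q M a b hab hq hA hqM ht` the modular semistable Deuring datum (valuation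
rings `V1`, `V2`, reductions `red1`, `red2`, residue fields `F1 A q M`), `L = L0 A (M q)` the
functions fixed by the inertia group, `δ = S.nodes.card`, `n = p ^ k`.

* `theS_eq_modSSD` : helper21's `BADP.H21.theS` **is** helper91's `S43.H91.modSSD`;
* `modSSD_mem₁`, `modSSD_inertial`, `modSSD_coord` : the first valuation ring is the Gauss one,
  the inertia group is inertial for the datum, annulus coordinates of thickness `q ^ e`,
  `e ∣ 12`, fixed by the inertia group, at all nodes;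
* `reg12_modSSD` : **REG12**: `p` odd, `f ∈ L` a unit for both valuations, `p ^ k ∣ div f`
  `⟹  p ^ (k - 1) ∣ ord_{s.1} (rd₁ f)` at every node `s`;
* `reg_modSSD` : **REG** for `p ≥ 5`: `p ^ k ∣ div (rd₁ f)`, `p ^ k ∣ div (rd₂ f)`;
* `finite_inGA_modSSD` : the finite part is finite;
* `stRankF2` : **(f2)**  `#G_reg ≤ p ^ (4 g₁ k) · #T`;
* `stRankF1` : **(f1)**  `#G ≤ p ^ δ · #G_reg`   (`p` odd);
* `stRankF_weak` : **ST-RANK (f)**  `#G ≤ p ^ δ · (p ^ (4 g₁ k) · #T)`   (`p` odd, `p ≠ q`);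
* `stRankF` : `#G ≤ p ^ (4 g₁ k) · #T`   (`p ≥ 5`, `p ≠ q`).

This file contains no unproved statement.
-/

set_option autoImplicit false
set_option linter.style.haveILetI false
set_option linter.unusedSectionVars false
set_option synthInstance.maxHeartbeats 400000
set_option maxHeartbeats 1000000

noncomputable section

open HahnSeries IntermediateField AlgebraicCurve ModularCurve
open Fermat.Agent.S28.H73 Fermat.Agent.RED.H73 Fermat.Agent.RED Fermat.Agent.S24
open Fermat.Agent.BAD.H88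

namespace Fermat.Agent.S59.LL.SQ.H69

open Fermat.Agent.BAD Fermat.Agent.BAD.H91 Fermat.Agent.BADP Fermat.Agent.BADP.H21
open Fermat.Agent.S36.NU.H23

section Mod

variable (A : ValuationSubring Kbar) (q M : ℕ) (a b : ℤ) (hab : a * q + b * M = 1)
  (hq : q.Prime) [NeZero M] [NeZero (M * q)] [NeZero q] (hA : A.LiesOverPrime q)
  (hqM : ¬ q ∣ M) (ht : TameAt M q)

/-- helper21's modular datum is helper91's. -/
theorem theS_eq_modSSD :
    theS A q M a b hab hq hA hqM ht = Fermat.Agent.S43.H91.modSSD A q M a b hab hq hA hqM ht :=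
  rfl

/-- The first valuation ring of the modular datum is the Gauss valuation ring. -/
theorem modSSD_mem₁ (f : FN (M * q)) :
    f ∈ (Fermat.Agent.S43.H91.modSSD A q M a b hab hq hA hqM ht).c₁.V ↔
      f ∈ gaussV A (M * q) := Iff.rfl

/-- The inertia group is inertial for the modular datum. -/
theorem modSSD_inertial (σ : GalQ) (hσ : σ ∈ A.inertiaSubgroupIn ℚ) :
    (Fermat.Agent.S43.H91.modSSD A q M a b hab hq hA hqM ht).IsInertial (galF (M * q) σ) := by
  rw [← theS_eq_modSSD]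
  exact modS_inertial A q M a b hab hq hA hqM ht (totModAt A q M a b hab hq hA hqM ht) hσ

/-- **COORD** at the nodes of the modular datum. -/
theorem modSSD_coord {s : Place (kV A) (F1 A q M) × Place (kV A) (F1 A q M)}
    (hs : s ∈ (Fermat.Agent.S43.H91.modSSD A q M a b hab hq hA hqM ht).nodes) :
    ∃ (e : ℕ) (t : FN (M * q)), 0 < e ∧ e ∣ 12 ∧
      (Fermat.Agent.S43.H91.modSSD A q M a b hab hq hA hqM ht).IsAnnCoord s t ((q : Kbar) ^ e) ∧
      ∀ σ ∈ A.inertiaSubgroupIn ℚ, galF (M * q) σ • t = t := by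
  rw [← theS_eq_modSSD] at hs ⊢
  exact coord_final A q M a b hab hq hA hqM ht hs

/-- **REG12** (modular): for `p` odd, `f` fixed by the inertia group, a unit for both valuations,
with `p ^ k ∣ div f`: `p ^ (k - 1) ∣ ord_{s.1} (rd₁ f)` at every node `s`. -/
theorem reg12_modSSD (p : ℕ) (hp : p.Prime) (hp2 : p ≠ 2) (k : ℕ) {f : FN (M * q)}
    (hfL : f ∈ L0 A (M * q))
    (G₁ : (Fermat.Agent.S43.H91.modSSD A q M a b hab hq hA hqM ht).c₁.IsGU f)
    (G₂ : (Fermat.Agent.S43.H91.modSSD A q M a b hab hq hA hqM ht).c₂.IsGU f)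
    (hdiv : ∀ P : Place Kbar (FN (M * q)), ((p ^ k : ℕ) : ℤ) ∣ P.ord f) :
    ∀ s ∈ (Fermat.Agent.S43.H91.modSSD A q M a b hab hq hA hqM ht).nodes,
      ((p ^ (k - 1) : ℕ) : ℤ) ∣
        s.1.ord ((Fermat.Agent.S43.H91.modSSD A q M a b hab hq hA hqM ht).c₁.rd f) :=
  weak_of_coord (Fermat.Agent.S43.H91.modSSD A q M a b hab hq hA hqM ht) hq hA
    (modSSD_mem₁ A q M a b hab hq hA hqM ht) (modSSD_inertial A q M a b hab hq hA hqM ht)
    p hp hp2 (fun _ hs => modSSD_coord A q M a b hab hq hA hqM ht hs) k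
    (fun σ hσ => hfL σ hσ) G₁ G₂ hdiv

/-- **REG** (modular) for `p ≥ 5`. -/
theorem reg_modSSD (p : ℕ) (hp : p.Prime) (h5 : 5 ≤ p) (k : ℕ) {f : FN (M * q)}
    (hfL : f ∈ L0 A (M * q))
    (G₁ : (Fermat.Agent.S43.H91.modSSD A q M a b hab hq hA hqM ht).c₁.IsGU f)
    (G₂ : (Fermat.Agent.S43.H91.modSSD A q M a b hab hq hA hqM ht).c₂.IsGU f)
    (hdiv : ∀ P : Place Kbar (FN (M * q)), ((p ^ k : ℕ) : ℤ) ∣ P.ord f) :
    (∀ Q : Place (kV A) (F1 A q M), ((p ^ k : ℕ) : ℤ) ∣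
        Q.ord ((Fermat.Agent.S43.H91.modSSD A q M a b hab hq hA hqM ht).c₁.rd f)) ∧
      (∀ Q : Place (kV A) (F1 A q M), ((p ^ k : ℕ) : ℤ) ∣
        Q.ord ((Fermat.Agent.S43.H91.modSSD A q M a b hab hq hA hqM ht).c₂.rd f)) :=
  reg_of_coord (Fermat.Agent.S43.H91.modSSD A q M a b hab hq hA hqM ht) hq hA
    (modSSD_mem₁ A q M a b hab hq hA hqM ht) (modSSD_inertial A q M a b hab hq hA hqM ht)
    p hp
    (fun _ hs => by
      obtain ⟨e, t, he, h12, hc, hfix⟩ := modSSD_coord A q M a b hab hq hA hqM ht hs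
      exact ⟨e, t, not_dvd_of_dvd_twelve hp h5 he h12, hc, hfix⟩) k
    (fun σ hσ => hfL σ hσ) G₁ G₂ hdiv

omit [NeZero M] [NeZero q] in
/-- The `p ^ k`-torsion of `J₀(M q)` is finite. -/
theorem finite_torsion_FN (p : ℕ) (hp : p.Prime) (k : ℕ) :
    Finite (Pic0.torsion Kbar (FN (M * q)) (p ^ k)) := by
  obtain ⟨g, c, hg⟩ := RED.H17.exists_isGenus _ _ (H95.stmt_HKA_isFF (M * q))
  have hcardJ := Fermat.Agent.S59.LL.SQ.H64.stmt_StRankA (M * q) g c hg p hp k
  apply Nat.finite_of_card_ne_zero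
  rw [hcardJ]
  exact pow_ne_zero _ hp.ne_zero

/-- The finite part is finite. -/
theorem finite_inGA_modSSD (p : ℕ) (hp : p.Prime) (k : ℕ) :
    {x : JZero (M * q) | InGA (Fermat.Agent.S43.H91.modSSD A q M a b hab hq hA hqM ht)
      (L0 A (M * q)) (p ^ k) x}.Finite := by
  haveI := finite_torsion_FN q M p hp k
  have h1 : ((Pic0.torsion Kbar (FN (M * q)) (p ^ k) : AddSubgroup (JZero (M * q))) :
      Set (JZero (M * q))).Finite := Set.toFinite _
  exact h1.subset (fun x hx => InGA.mem_torsion hx)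

include hab hq hA hqM ht in
/-- The `p ^ k`-torsion of `Pic⁰(F₁)` is finite (`p ≠ q`). -/
theorem finite_torsion_F1 (p : ℕ) (hp : p.Prime) (hpq : p ≠ q) (k : ℕ) :
    Finite (Pic0.torsion (kV A) (F1 A q M) (p ^ k)) := by
  haveI : IsAlgClosed (kV A) := isAlgClosed_kV A
  obtain ⟨g₁, c₁, hg₁⟩ := RED.H17.exists_isGenus _ _ (isFF_F1 a b hab hq hA hqM ht)
  have hcard₁ := Fermat.Agent.S59.LL.SQ.H91.stmt_CountF1 a b hab hq hA hqM ht g₁ c₁ hg₁
    p hp hpq k
  apply Nat.finite_of_card_ne_zero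
  rw [hcard₁]
  exact pow_ne_zero _ hp.ne_zero

/-- **(f2)** (modular): `#G_reg ≤ p ^ (4 g₁ k) · #T`. -/
theorem stRankF2 (p : ℕ) (hp : p.Prime) (hpq : p ≠ q)
    {g₁ : ℕ} {c₁ : ℤ} (hg₁ : RED.H17.IsGenus (kV A) (F1 A q M) g₁ c₁) (k : ℕ) :
    Nat.card {x : JZero (M * q) | InGregA (Fermat.Agent.S43.H91.modSSD A q M a b hab hq hA hqM ht)
        (L0 A (M * q)) (p ^ k) x} ≤
      p ^ (4 * g₁ * k) *
        Nat.card {x : JZero (M * q) | InTA (Fermat.Agent.S43.H91.modSSD A q M a b hab hq hA hqM ht)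
          (L0 A (M * q)) (p ^ k) x} := by
  haveI : IsAlgClosed (kV A) := isAlgClosed_kV A
  have hn : p ^ k ≠ 0 := pow_ne_zero _ hp.ne_zero
  have hcard₁ := Fermat.Agent.S59.LL.SQ.H91.stmt_CountF1 a b hab hq hA hqM ht g₁ c₁ hg₁
    p hp hpq k
  haveI hfin₁ := finite_torsion_F1 A q M a b hab hq hA hqM ht p hp hpq k
  have hT : {x : JZero (M * q) | InTA (Fermat.Agent.S43.H91.modSSD A q M a b hab hq hA hqM ht)
      (L0 A (M * q)) (p ^ k) x}.Finite :=
    (finite_inGA_modSSD A q M a b hab hq hA hqM ht p hp k).subset (fun x hx => InTA.inGA hx)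
  have key := card_inGregA_le (Fermat.Agent.S43.H91.modSSD A q M a b hab hq hA hqM ht)
    (L0 A (M * q)) (ff1 A q M a b hab hq hA hqM ht) (ff1 A q M a b hab hq hA hqM ht) (p ^ k) hn hT
  rw [hcard₁] at key
  have e : p ^ (2 * g₁ * k) * p ^ (2 * g₁ * k) = p ^ (4 * g₁ * k) := by
    rw [← _root_.pow_add]
    congr 1
    ring
  rw [e] at key
  exact key

/-- **(f1)** (modular): `#G ≤ p ^ δ · #G_reg` for `p` odd. -/
theorem stRankF1 (p : ℕ) (hp : p.Prime) (hp2 : p ≠ 2) (k : ℕ) :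
    Nat.card {x : JZero (M * q) | InGA (Fermat.Agent.S43.H91.modSSD A q M a b hab hq hA hqM ht)
        (L0 A (M * q)) (p ^ k) x} ≤
      p ^ (Fermat.Agent.S43.H91.modSSD A q M a b hab hq hA hqM ht).nodes.card *
        Nat.card {x : JZero (M * q) |
          InGregA (Fermat.Agent.S43.H91.modSSD A q M a b hab hq hA hqM ht)
            (L0 A (M * q)) (p ^ k) x} :=
  card_inGA_le_inGregA (Fermat.Agent.S43.H91.modSSD A q M a b hab hq hA hqM ht)
    (L0 A (M * q)) (ffL q M).principal p k hp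
    (fun _ hfL G₁ G₂ hdiv => reg12_modSSD A q M a b hab hq hA hqM ht p hp hp2 k hfL G₁ G₂ hdiv)
    ((finite_inGA_modSSD A q M a b hab hq hA hqM ht p hp k).subset
      (fun _ hx => InGregA.inGA hx))

/-- **ST-RANK (f)** (modular, all odd `p ≠ q`): `#G ≤ p ^ δ · (p ^ (4 g₁ k) · #T)`. -/
theorem stRankF_weak (p : ℕ) (hp : p.Prime) (hp2 : p ≠ 2) (hpq : p ≠ q)
    {g₁ : ℕ} {c₁ : ℤ} (hg₁ : RED.H17.IsGenus (kV A) (F1 A q M) g₁ c₁) (k : ℕ) :
    Nat.card {x : JZero (M * q) | InGA (Fermat.Agent.S43.H91.modSSD A q M a b hab hq hA hqM ht)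
        (L0 A (M * q)) (p ^ k) x} ≤
      p ^ (Fermat.Agent.S43.H91.modSSD A q M a b hab hq hA hqM ht).nodes.card *
        (p ^ (4 * g₁ * k) *
          Nat.card {x : JZero (M * q) |
            InTA (Fermat.Agent.S43.H91.modSSD A q M a b hab hq hA hqM ht)
              (L0 A (M * q)) (p ^ k) x}) :=
  (stRankF1 A q M a b hab hq hA hqM ht p hp hp2 k).trans
    (Nat.mul_le_mul_left _ (stRankF2 A q M a b hab hq hA hqM ht p hp hpq hg₁ k))

/-- **ST-RANK (f)** for `p ≥ 5`, `p ≠ q`: `#G ≤ p ^ (4 g₁ k) · #T`. -/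
theorem stRankF (p : ℕ) (hp : p.Prime) (h5 : 5 ≤ p) (hpq : p ≠ q)
    {g₁ : ℕ} {c₁ : ℤ} (hg₁ : RED.H17.IsGenus (kV A) (F1 A q M) g₁ c₁) (k : ℕ) :
    Nat.card {x : JZero (M * q) | InGA (Fermat.Agent.S43.H91.modSSD A q M a b hab hq hA hqM ht)
        (L0 A (M * q)) (p ^ k) x} ≤
      p ^ (4 * g₁ * k) *
        Nat.card {x : JZero (M * q) | InTA (Fermat.Agent.S43.H91.modSSD A q M a b hab hq hA hqM ht)
          (L0 A (M * q)) (p ^ k) x} := by
  haveI : IsAlgClosed (kV A) := isAlgClosed_kV A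
  have hn : p ^ k ≠ 0 := pow_ne_zero _ hp.ne_zero
  have hcard₁ := Fermat.Agent.S59.LL.SQ.H91.stmt_CountF1 a b hab hq hA hqM ht g₁ c₁ hg₁
    p hp hpq k
  haveI hfin₁ := finite_torsion_F1 A q M a b hab hq hA hqM ht p hp hpq k
  have hT : {x : JZero (M * q) | InTA (Fermat.Agent.S43.H91.modSSD A q M a b hab hq hA hqM ht)
      (L0 A (M * q)) (p ^ k) x}.Finite :=
    (finite_inGA_modSSD A q M a b hab hq hA hqM ht p hp k).subset (fun x hx => InTA.inGA hx)
  have key := card_inGA_le (Fermat.Agent.S43.H91.modSSD A q M a b hab hq hA hqM ht)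
    (L0 A (M * q)) (ff1 A q M a b hab hq hA hqM ht) (ff1 A q M a b hab hq hA hqM ht) (p ^ k) hn
    (fun _ hfL G₁ G₂ hdiv => reg_modSSD A q M a b hab hq hA hqM ht p hp h5 k hfL G₁ G₂ hdiv) hT
  rw [hcard₁] at key
  have e : p ^ (2 * g₁ * k) * p ^ (2 * g₁ * k) = p ^ (4 * g₁ * k) := by
    rw [← _root_.pow_add]
    congr 1
    ring
  rw [e] at key
  exact key

end Mod

end Fermat.Agent.S59.LL.SQ.H69

end
end
-- ==== END Fermat.Agent.S59.LL.SQ.H69_StRankF

-- ==== BEGIN Fermat.Agent.S59.LL.SQ.H20_StRankAsm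
section
attribute [local instance 10000] SubalgebraClass.toAlgebra
attribute [local instance 10000] HahnSeries.powerSeriesAlgebra

/-!
# S59 / LL / SQ, leaf ST-RANK (owner helper20): the modular assembly

Level `M q`, `q ∤ M` tame, `A` a valuation ring of `ℚ̄` over `q`, `S = S43.H91.modSSD ..` the
modular semistable Deuring datum, `L = L0 A (M q)` the inertia-fixed functions, `δ` the number of
nodes, `p` an odd prime `≠ q`, `n = p ^ e`, `e > δ`.

* `StRankOut` : the output of ST-RANK for the exponent `p ^ e`: every vector `θ : nodes → μ_p` is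
  the glue vector of a toric function `f y ^ n` in good position, `f ∈ L` a unit for the two
  valuations;
* `stRank_of_leafC` : **ST-RANK**, from (c) `LeafC` (`(σ - 1) J₀(M q)[p ^ e] ⊆ T`):
  (a) helper64, (b) `H20.card_tors_le`, (d) helper56, (f) helper69, COUNT-F1 helper91,
  NUM and (g) helper83, the toric family `H20.exists_glue_of_counts`.

This file contains no unproved statement.
-/

set_option autoImplicit false
set_option linter.style.haveILetI false
set_option linter.unusedSectionVars false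
set_option linter.unusedVariables false
set_option synthInstance.maxHeartbeats 400000
set_option maxHeartbeats 1000000

noncomputable section

open HahnSeries IntermediateField AlgebraicCurve ModularCurve
open Fermat.Agent.S28.H73 Fermat.Agent.RED.H73 Fermat.Agent.RED Fermat.Agent.S24
open Fermat.Agent.BAD.H88 Fermat.Agent.BAD

namespace Fermat.Agent.S59.LL.SQ.H20

open Fermat.Agent.BAD.H91 Fermat.Agent.S43.H91 Fermat.Agent.S35.H89
open Fermat.Agent.RED.H17 Fermat.Agent.S36.NU.H23 Fermat.Agent.S59.LL.SQ.H69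
open Fermat.Agent.S15.Desc.H83

section Mod

variable (A : ValuationSubring Kbar) (q M : ℕ) (a b : ℤ) (hab : a * q + b * M = 1)
  (hq : q.Prime) [NeZero M] [NeZero (M * q)] [NeZero q] (hA : A.LiesOverPrime q)
  (hqM : ¬ q ∣ M) (ht : TameAt M q)

/-- **The output of ST-RANK** at the exponent `n`: every vector `θ : nodes → μ_p` is the glue
vector of a toric function `f y ^ n` in good position, `f` inertia-fixed and a unit for the two
valuations. -/
def StRankOut (p n : ℕ) : Prop :=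
  ∀ θ : Place (kV A) (F1 A q M) × Place (kV A) (F1 A q M) → kV A,
    (∀ s ∈ (modSSD A q M a b hab hq hA hqM ht).nodes, θ s ^ p = 1) →
    ∃ (f y : FN (M * q)) (ψ₁ ψ₂ : F1 A q M), f ∈ L0 A (M * q) ∧
      (modSSD A q M a b hab hq hA hqM ht).c₁.IsGU f ∧
      (modSSD A q M a b hab hq hA hqM ht).c₂.IsGU f ∧
      IsTor (modSSD A q M a b hab hq hA hqM ht) n (f * y ^ n) ψ₁ ψ₂ ∧
      ∀ s ∈ (modSSD A q M a b hab hq hA hqM ht).nodes, ∃ u v : kV A, v ≠ 0 ∧
        VanAt s.1 (ψ₁ - algebraMap (kV A) (F1 A q M) u) ∧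
        VanAt s.2 (ψ₂ - algebraMap (kV A) (F1 A q M) v) ∧ u = θ s * v

/-- The `n`-torsion classes, as a set and as a subgroup. -/
theorem card_torsSet_eq (N n : ℕ) [NeZero N] :
    Nat.card ↥(torsSet N n) = Nat.card ↥(Pic0.torsion Kbar (FN N) n) := by
  apply Nat.card_congr
  refine Equiv.subtypeEquivRight (fun x => ?_)
  rw [Pic0.mem_torsion, natCast_zsmul]
  rfl

include hab hq hA hqM ht in
/-- **ST-RANK** at level `M q` from the leaf (c). -/
theorem stRank_of_leafC (p : ℕ) (hp : p.Prime) (hp2 : p ≠ 2) (hpq : p ≠ q)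
    (hC : LeafC A (M * q) (modSSD A q M a b hab hq hA hqM ht) p)
    (e : ℕ) (he : (modSSD A q M a b hab hq hA hqM ht).nodes.card < e) :
    StRankOut A q M a b hab hq hA hqM ht p (p ^ e) := by
  intro θ hθ
  haveI : IsAlgClosed (kV A) := isAlgClosed_kV A
  haveI : CharP (kV A) q := Fermat.Agent.FL.H38.charP_residue A hq hA
  obtain ⟨g, g₁, c, c₁, hg, hg₁, -, -, hnum⟩ :=
    Fermat.Agent.S59.LL.SQ.H83.modSSD_exact A q M a b hab hq hA hqM ht
  have hpk : (p : kV A) ≠ 0 := by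
    intro h0
    have h1 : q ∣ p := (CharP.cast_eq_zero_iff (kV A) q p).mp h0
    exact hpq ((Nat.prime_dvd_prime_iff_eq hq hp).mp h1).symm
  have hpos : 0 < p ^ e := pow_pos hp.pos e
  have hA1 := Fermat.Agent.S59.LL.SQ.H64.stmt_StRankA (M * q) g c hg p hp e
  have hB := card_tors_le (A := A) (N := M * q) (S := modSSD A q M a b hab hq hA hqM ht)
    hp hq (Ne.symm hpq) hA hC e
  rw [card_torsSet_eq, hA1] at hB
  have hD := Fermat.Agent.S59.LL.SQ.H56.stRankD A q M a b hab hq hA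
    (modSSD A q M a b hab hq hA hqM ht) rfl rfl (p ^ e) hpos
  have hF := Fermat.Agent.S59.LL.SQ.H69.stRankF_weak A q M a b hab hq hA hqM ht p hp hp2 hpq
    hg₁ e
  have e4 : p ^ (4 * g₁ * e) = p ^ (2 * g₁ * e) * p ^ (2 * g₁ * e) := by
    rw [← _root_.pow_add]
    congr 1
    ring
  rw [e4] at hF
  exact exists_glue_of_counts (modSSD A q M a b hab hq hA hqM ht)
    (Fermat.Agent.S43.H91.ffHyp_FN q M) (Fermat.Agent.S43.H91.ffHyp_F1 A q M a b hab hq hA hqM ht)
    (Fermat.Agent.S43.H91.ffHyp_F1 A q M a b hab hq hA hqM ht) g g₁ g₁ c c₁ c₁ hg hg₁ hg₁ hnum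
    p e hp hpk he (L0 A (M * q))
    (finite_inTA (A := A) (S := modSSD A q M a b hab hq hA hqM ht) hpos)
    (Nat.card ↥(fixSet A (M * q) (p ^ e)))
    (Nat.card ↥{x : JZero (M * q) | InGA (modSSD A q M a b hab hq hA hqM ht) (L0 A (M * q))
      (p ^ e) x})
    hB hD hF θ hθ

end Mod

end Fermat.Agent.S59.LL.SQ.H20

end
end
-- ==== END Fermat.Agent.S59.LL.SQ.H20_StRankAsm

-- ==== BEGIN Fermat.Agent.S59.LL.SQ.H20_StRankC
section
attribute [local instance 10000] SubalgebraClass.toAlgebra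
attribute [local instance 10000] HahnSeries.powerSeriesAlgebra

/-!
# S59 / LL / SQ, leaf ST-RANK (c), modular wiring (helper20, in parallel to helper64)

`leafC_mod` : for the modular datum `S = S43.H91.modSSD ..` at level `M q` (`q ∤ M` tame), `p ≠ q`:
`(σ - 1) J₀(M q)[p ^ e]` lies in the toric part `T = {x | InTA S (L0 A (M q)) (p ^ e) x}` for every
`σ` in the inertia group (`H20.LeafC`).

Inputs: helper64's abstract theorem `H64.inTA_abs`, helper69's `H69K.stmt_KumRel` (W) and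
`H69.modSSD_inertial`, helper56's `H56.m3a`, `m3b`, `m3c`, `lowVal₁`, `lowVal₂` (M2, M3),
helper83's `H83C.stmt_ApproxL0` (M1) and `H83.modSSD_exact` (NUM).

This file contains no unproved statement.
-/

set_option autoImplicit false
set_option linter.style.haveILetI false
set_option linter.unusedSectionVars false
set_option linter.unusedVariables false
set_option synthInstance.maxHeartbeats 400000
set_option maxHeartbeats 1000000

noncomputable section

open HahnSeries IntermediateField AlgebraicCurve ModularCurve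
open Fermat.Agent.S28.H73 Fermat.Agent.RED.H73 Fermat.Agent.RED Fermat.Agent.S24
open Fermat.Agent.BAD.H88 Fermat.Agent.BAD

namespace Fermat.Agent.S59.LL.SQ.H20

open Fermat.Agent.BAD.H91 Fermat.Agent.S43.H91 Fermat.Agent.S35.H89
open Fermat.Agent.RED.H17 Fermat.Agent.S36.NU.H23 Fermat.Agent.S59.LL.SQ.H69
open Fermat.Agent.S59.LL.SQ.H64

section Kum2

variable {K F : Type*} [Field K] [Field F] [Algebra K F]

/-- A Kummer function may be multiplied by a non-zero constant. -/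
theorem isKumA_const_mul {n : ℕ} {x : Pic0 K F} {f : F} (h : IsKumA n x f) (hf : f ≠ 0)
    {b : K} (hb : b ≠ 0) : IsKumA n x (algebraMap K F b * f) := by
  obtain ⟨D, rfl, hD⟩ := h
  refine ⟨D, rfl, fun P => ?_⟩
  have hb' : algebraMap K F b ≠ 0 := (map_ne_zero (algebraMap K F)).2 hb
  rw [P.ord_mul hb' hf, ord_algebraMap, zero_add]
  exact hD P

end Kum2

section Mod

variable (A : ValuationSubring Kbar) (q M : ℕ) (a b : ℤ) (hab : a * q + b * M = 1)
  (hq : q.Prime) [NeZero M] [NeZero (M * q)] [NeZero q] (hA : A.LiesOverPrime q)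
  (hqM : ¬ q ∣ M) (ht : TameAt M q)

include hab hq hA hqM ht in
/-- **ST-RANK (c)** at level `M q`: `(σ - 1) J₀(M q)[p ^ e] ⊆ T` for `σ` in the inertia group. -/
theorem leafC_mod (p : ℕ) (hp : p.Prime) (hpq : p ≠ q) :
    LeafC A (M * q) (modSSD A q M a b hab hq hA hqM ht) p := by
  intro e σ hσ y hy
  haveI : IsAlgClosed (kV A) := isAlgClosed_kV A
  haveI : CharP (kV A) q := Fermat.Agent.FL.H38.charP_residue A hq hA
  obtain ⟨g, g₁, c, c₁, hg, hg₁, -, -, hnum⟩ :=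
    Fermat.Agent.S59.LL.SQ.H83.modSSD_exact A q M a b hab hq hA hqM ht
  have hP : HasPrincipalDivisors Kbar (FN (M * q)) :=
    (Fermat.Agent.S43.H91.ffHyp_FN q M).principal
  have hpk : (p : kV A) ≠ 0 := by
    intro h0
    have h1 : q ∣ p := (CharP.cast_eq_zero_iff (kV A) q p).mp h0
    exact hpq ((Nat.prime_dvd_prime_iff_eq hq hp).mp h1).symm
  have hnk : ((p ^ e : ℕ) : kV A) ≠ 0 := by
    rw [Nat.cast_pow]
    exact pow_ne_zero _ hpk
  have hqn : ¬ q ∣ p ^ e := fun h =>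
    hpq ((Nat.prime_dvd_prime_iff_eq hq hp).mp (hq.dvd_of_dvd_pow h)).symm
  have hq0 : ((q : ℕ) : Kbar) ≠ 0 := Nat.cast_ne_zero.2 hq.ne_zero
  -- the Kummer relation
  obtain ⟨h₀, h, w, a', E, hh₀, hdiv₀, hhL, hh, hw, ha', hrel, hxE, hEh⟩ :=
    Fermat.Agent.S59.LL.SQ.H69K.stmt_KumRel A q M hq hA hqM σ hσ (p ^ e) hqn y hy
  -- the set of inertial automorphisms
  obtain ⟨I, hIdef⟩ : ∃ I : Set (SemilinearAut Kbar (FN (M * q))),
      I = {τ | ∃ σ' ∈ A.inertiaSubgroupIn ℚ, τ = galF (M * q) σ'} := ⟨_, rfl⟩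
  have hImem : ∀ σ' ∈ A.inertiaSubgroupIn ℚ, galF (M * q) σ' ∈ I := by
    intro σ' hσ'
    rw [hIdef]
    exact ⟨σ', hσ', rfl⟩
  have hbase : ∀ σ' : GalQ, ∀ z : Kbar,
      SemilinearAut.baseAut (galF (M * q) σ') z = σ' z := by
    intro σ' z
    rw [baseAut_arithmeticGalois]
    rfl
  have hI : ∀ τ ∈ I, (modSSD A q M a b hab hq hA hqM ht).IsInertial τ := by
    intro τ hτ
    rw [hIdef] at hτ
    obtain ⟨σ', hσ', rfl⟩ := hτ
    exact modSSD_inertial A q M a b hab hq hA hqM ht σ' hσ'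
  have hcu : ∀ τ ∈ I, ∀ z : Kbar, z ≠ 0 →
      (modSSD A q M a b hab hq hA hqM ht).IsCU (SemilinearAut.baseAut τ z / z) := by
    intro τ hτ z hz
    rw [hIdef] at hτ
    obtain ⟨σ', hσ', rfl⟩ := hτ
    rw [hbase]
    exact Fermat.Agent.S59.LL.SQ.H56.m3a A q M (modSSD A q M a b hab hq hA hqM ht) rfl σ' hσ' z hz
  have hπI : ∀ τ ∈ I, SemilinearAut.baseAut τ ((q : ℕ) : Kbar) = ((q : ℕ) : Kbar) := by
    intro τ hτ
    rw [hIdef] at hτ
    obtain ⟨σ', -, rfl⟩ := hτ
    rw [hbase]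
    exact map_natCast σ' q
  have hπ : ∀ m : ℤ, (modSSD A q M a b hab hq hA hqM ht).IsCU (((q : ℕ) : Kbar) ^ m) → m = 0 :=
    fun m hm => Fermat.Agent.S59.LL.SQ.H56.m3c A q M a b hab hq hA
      (modSSD A q M a b hab hq hA hqM ht) rfl rfl m hm
  have hunr : ∀ Y : Kbar, Y ≠ 0 → (∀ τ ∈ I, SemilinearAut.baseAut τ Y = Y) →
      ∃ m : ℤ, (modSSD A q M a b hab hq hA hqM ht).IsCU (Y / ((q : ℕ) : Kbar) ^ m) := by
    intro Y hY0 hYI
    have hfix : ∀ σ' ∈ A.inertiaSubgroupIn ℚ, σ' Y = Y := by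
      intro σ' hσ'
      have := hYI _ (hImem σ' hσ')
      rwa [hbase] at this
    exact Fermat.Agent.S59.LL.SQ.H56.m3b A q M (modSSD A q M a b hab hq hA hqM ht) rfl hq hA Y
      hY0 hfix
  have hLI : ∀ f ∈ L0 A (M * q), ∀ τ ∈ I, τ • f = f := by
    intro f hf τ hτ
    rw [hIdef] at hτ
    obtain ⟨σ', hσ', rfl⟩ := hτ
    exact hf σ' hσ'
  have hlow₁ : ∀ f ∈ L0 A (M * q), f ≠ 0 → ∃ m : ℤ,
      (modSSD A q M a b hab hq hA hqM ht).c₁.IsGU
        (f / algebraMap Kbar (FN (M * q)) ((q : ℕ) : Kbar) ^ m) :=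
    fun f hf hf0 => Fermat.Agent.S59.LL.SQ.H56.lowVal₁ A q M a b hab hq hA
      (modSSD A q M a b hab hq hA hqM ht) rfl rfl f hf hf0
  have hlow₂ : ∀ f ∈ L0 A (M * q), f ≠ 0 → ∃ m : ℤ,
      (modSSD A q M a b hab hq hA hqM ht).c₂.IsGU
        (f / algebraMap Kbar (FN (M * q)) ((q : ℕ) : Kbar) ^ m) :=
    fun f hf hf0 => Fermat.Agent.S59.LL.SQ.H56.lowVal₂ A q M a b hab hq hA
      (modSSD A q M a b hab hq hA hqM ht) rfl rfl f hf hf0
  have hπL : algebraMap Kbar (FN (M * q)) ((q : ℕ) : Kbar) ∈ L0 A (M * q) := by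
    rw [map_natCast]
    exact natCast_mem _ q
  have happ : ∃ g₀ ∈ L0 A (M * q), (modSSD A q M a b hab hq hA hqM ht).c₁.IsGU g₀ ∧
      (modSSD A q M a b hab hq hA hqM ht).c₂.IsGU
        (g₀ / algebraMap Kbar (FN (M * q)) ((q : ℕ) : Kbar)) := by
    obtain ⟨g₀, h1, h2, h3⟩ :=
      Fermat.Agent.S59.LL.SQ.H83C.stmt_ApproxL0 A q M a b hab hq hA hqM ht
    exact ⟨g₀, h1, h2, h3⟩
  -- the abstract theorem
  obtain ⟨f, v, b', hfL, hvL, hv0, hb0, hfeq, hNP₁, hNP₂⟩ :=
    inTA_abs (modSSD A q M a b hab hq hA hqM ht) (Fermat.Agent.S43.H91.ffHyp_FN q M)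
      (Fermat.Agent.S43.H91.ffHyp_F1 A q M a b hab hq hA hqM ht)
      (Fermat.Agent.S43.H91.ffHyp_F1 A q M a b hab hq hA hqM ht) g g₁ g₁ c c₁ c₁ hg hg₁ hg₁
      hnum.le (p ^ e) hnk I hI hcu ((q : ℕ) : Kbar) hq0 hπI hπ hunr (L0 A (M * q)) hLI hlow₁
      hlow₂ hπL happ (galF (M * q) σ) (hImem σ hσ) h₀ hh₀ hdiv₀ h hhL hh w hw a' ha' hrel
  -- conclusion
  have hK : IsKumA (p ^ e) (σ • y - y) h := ⟨E, hxE, hEh⟩
  have hbh : algebraMap Kbar (FN (M * q)) b' * h ≠ 0 :=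
    mul_ne_zero ((map_ne_zero (algebraMap Kbar (FN (M * q)))).2 hb0) hh
  have hKf : IsKumA (p ^ e) (σ • y - y) f := by
    rw [hfeq]
    exact isKumA_mul_pow hP (isKumA_const_mul hK hh hb0) hbh hv0
  obtain ⟨hG₁, ψ₁, hψ₁⟩ := hNP₁
  obtain ⟨hG₂, ψ₂, hψ₂⟩ := hNP₂
  exact ⟨f, hfL, hKf, hG₁, hG₂, ψ₁, ψ₂, hψ₁, hψ₂⟩

end Mod

end Fermat.Agent.S59.LL.SQ.H20

end
end
-- ==== END Fermat.Agent.S59.LL.SQ.H20_StRankC
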