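-- GENERATED (merged mirror, NOTES/tools/trim/merge3_helper67.py): 3 modules of the originals, bodies verbatim.
import Fermat.Agent.Zm.S59_L08_002
import Fermat.Agent.Zm.S59_L08_001
import Fermat.Agent.Zm.S59_L04_004
import Fermat.Agent.Zm.S59_L05_003
import Fermat.Agent.Zm.S59_L09_001
import Fermat.Agent.Zm.S59_L03_003
import Fermat.Agent.Zm.S59_L15_000
import Fermat.Agent.Zm.S59_L09_000
import Fermat.Agent.Zm.S59_L07_002
import Fermat.Agent.Zm.S59_L06_002
import Fermat.Agent.Zm.S59_L11_000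
import Fermat.Agent.Zm.S59_L10_001
import Fermat.Agent.Zm.S43_L18_001
import Fermat.Agent.Zm.S58_L02_000
import Fermat.Agent.Zm.S36_L18_000
import Fermat.Agent.Zm.S43_L19_000
import Fermat.Agent.Zm.S59_L07_000

-- ==== BEGIN Fermat.Agent.S59.LL.SQ.H58_TorFinal
section
attribute [local instance 10000] SubalgebraClass.toAlgebra
attribute [local instance 10000] HahnSeries.powerSeriesAlgebra

/-!
# S59, package LL / SQ, step (T′): the final wiring at the tame levels (helper58)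

At a tame level `M q²` (`S36.NU.H81.TameNU (M * q) q`), for the modular datum `H79.nuMod`:

* `torSpanSqAt_tame` : **(T′)** from the two remaining leaves
  - I1 `H58.GlueOfT3At … nuMod p` (helper46, T3-GLUE),
  - (c) `H20.LeafC` at the level `M q` (helper64);
  everything else is plugged: TI3 (`H96.ti3Mod_top`), GEN-MOD (`H84.genMod`), the pull-back table
  (`H86.pullTable_mod`), GENLOW (`H89LG.genLowAtA_mod`, `H92.nalpha_pull`), ST-RANK
  (`H20.stRank_of_leafC`), LOW→GLUE (`H89LG.exists_glueLowA_mod`), KUM-SPAN (in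
  `H58.torSpanSqAt_of`);
* `stmt_TorSpanSqTame_of`, `sqNewTameAt_of_leaves`, `sqNewTwoTame_of_leaves` : the package SQ at
  the tame levels from I1 and (c) (REG of helper16 and B2 of helper87 plugged).
-/

set_option autoImplicit false
set_option synthInstance.maxHeartbeats 400000
set_option maxHeartbeats 1000000
set_option linter.unusedSectionVars false
set_option linter.unusedVariables false
set_option linter.style.haveILetI false

noncomputable section

open ModularCurve AlgebraicCurve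

attribute [local instance] Classical.propDecidable

namespace Fermat.Agent.S59.LL.SQ.H58

open Fermat.Agent.S24 Fermat.Agent.BAD Fermat.Agent.BAD.H88 Fermat.Agent.S28 Fermat.Agent.S28.H73
  Fermat.Agent.RED.H73 Fermat.Agent.RED.H17 Fermat.Agent.RED
  Fermat.Agent.S36.NU.H23 Fermat.Agent.S36.NU.H79 Fermat.Agent.S36.H44
  Fermat.Agent.S36.NU.H74 Fermat.Agent.S36.NU.H81 Fermat.Agent.S36.NU.H10
  Fermat.Agent.S43.H91 Fermat.Agent.Lib.HeckeComm

section Final

variable (A : ValuationSubring Kbar) (q M : ℕ) (B k : ℤ) (hB : B * M + k * q = 1) (hq : q.Prime)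
  [NeZero M] [NeZero q] [NeZero (M * q)] [NeZero (M * q * q)]
  (hqM : ¬ q ∣ M) (hA : A.LiesOverPrime q) (ht : H91.TameAt M q)

attribute [local instance] algkM

/-- **(T′) at one tame level**, from I1 and (c). -/
theorem torSpanSqAt_tame (hc : (5 ≤ q ∧ 4 ∣ M) ∨ (q = 3 ∧ 4 ∣ M) ∨ (q = 2 ∧ 9 ∣ M))
    (p : ℕ) (hp : p.Prime) (hp2 : p ≠ 2) (hqp : q ≠ p)
    (hI1 : GlueOfT3At A q M B k hB hq (nuMod A q M B k hB hq hqM hA ht) p)
    (hC : Fermat.Agent.S59.LL.SQ.H20.LeafC A (M * q)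
      (modSSD A q M k B (hab_nuM q M B k hB) hq hA hqM ht) p) :
    TorSpanSqAt A q M B k hB hq p := by
  have hD := isNuM_nuMod A q M B k hB hq hqM hA ht
  have hI : TopInputs A q M B k hB hq hqM hA ht (nuMod A q M B k hB hq hqM hA ht) :=
    stmt_TopAll_of (stmt_Pt0All_of stmt_MidSmall stmt_PtHypsAll) (stmt_PtooAll_of stmt_BrooAll)
      A q M B k hB hq hqM hA ht hc _ hD
  have hTI := Fermat.Agent.S59.LL.SQ.H96.ti3Mod_top A q M B k hB hq hqM hA ht _ hD hI
  have hgen := Fermat.Agent.S59.LL.SQ.H84.genMod A q M B k hB hq hqM hA ht hc _ hD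
  -- the exponent
  obtain ⟨e, he⟩ : ∃ e : ℕ,
      (modSSD A q M k B (hab_nuM q M B k hB) hq hA hqM ht).nodes.card < e := ⟨_, Nat.lt_succ_self _⟩
  have he0 : 0 < e := lt_of_le_of_lt (Nat.zero_le _) he
  have hn0 : p ^ e ≠ 0 := pow_ne_zero _ hp.ne_zero
  have hcop : Nat.Coprime q (p ^ e) :=
    Nat.Coprime.pow_right e ((Nat.coprime_primes hq hp).2 hqp)
  have hout : Fermat.Agent.S59.LL.SQ.H89LG.StRankOutAt A q M B k hB hq hqM hA ht p (p ^ e) :=
    Fermat.Agent.S59.LL.SQ.H20.stRank_of_leafC A q M k B (hab_nuM q M B k hB) hq hA hqM ht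
      p hp hp2 (Ne.symm hqp) hC e he
  have hgA : Fermat.Agent.S59.LL.SQ.H89LG.GenLowAt A q M B k hB hq hqM hA ht
      (zA A q M B k hB hq hA) (p ^ e) :=
    Fermat.Agent.S59.LL.SQ.H89LG.genLowAtA_mod A q M B k hB hq hqM hA ht hcop
      (fun g => Fermat.Agent.S59.LL.SQ.H92.nalpha_pull A q M hq g)
      (fun h => Fermat.Agent.S59.LL.SQ.H92.nalpha_mem A q M h)
      (fun H hu hdiv z hz => hgen (p ^ e) (Nat.pos_of_ne_zero hn0) H hu hdiv z hz)
  have hgB : Fermat.Agent.S59.LL.SQ.H89LG.GenLowAt A q M B k hB hq hqM hA ht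
      (zB A q M B k hB hq hqM hA) (p ^ e) :=
    Fermat.Agent.S59.LL.SQ.H89LG.genLowAtB_mod A q M B k hB hq hqM hA ht hcop
      (fun g => Fermat.Agent.S59.LL.SQ.H92.nbeta_pull A q M hq hqM g)
      (fun h => Fermat.Agent.S59.LL.SQ.H92.nbeta_mem A q M h)
      (fun H hu hdiv z hz => hgen (p ^ e) (Nat.pos_of_ne_zero hn0) H hu hdiv z hz)
  have hI2 : StRankGlueAt A q M (nuMod A q M B k hB hq hqM hA ht) p (p ^ e) := by
    intro θ hθ
    obtain ⟨f, -, -, hfd, hf⟩ := Fermat.Agent.S59.LL.SQ.H89LG.exists_glueLowA_mod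
      A q M B k hB hq hqM hA ht hn0 hout hgA θ hθ
    obtain ⟨f', -, -, hf'd, hf'⟩ := Fermat.Agent.S59.LL.SQ.H89LG.exists_glueLowB_mod
      A q M B k hB hq hqM hA ht hn0 hout hgB θ hθ
    exact ⟨⟨f, hfd, hf⟩, ⟨f', hf'd, hf'⟩⟩
  exact torSpanSqAt_of A q M B k hB hq hqM hA ht _ hD p hp hqp
    (inclL0 A (Fermat.Agent.S36.NU.H87.hleA q M)) (Fermat.Agent.S36.NU.H69.bL0 A q M)
    (fun f => Fermat.Agent.S36.NU.H87.coe_inclL0_alphaA A q M f)
    (fun f => Fermat.Agent.S36.NU.H69.coe_bL0 A q M f)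
    (Fermat.Agent.S59.LL.SQ.H86.pullTable_mod A q M B k hB hq hqM hA ht) hTI hI1 e he0 hI2

end Final

/-! ## The statements at the tame levels -/

/-- **I1 at the tame levels** (helper46). -/
def Stmt_GlueOfT3Tame : Prop :=
  ∀ (p : ℕ), p.Prime → p ≠ 2 → ∀ (q M : ℕ) (B k : ℤ) (hB : B * M + k * q = 1) (hq : q.Prime)
    [NeZero M] [NeZero q] [NeZero (M * q)] [NeZero (M * q * q)], q ≠ p →
    ∀ (htame : TameNU (M * q) q) (hqM : ¬ q ∣ M) (A : ValuationSubring Kbar)
      (hA : A.LiesOverPrime q),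
      GlueOfT3At A q M B k hB hq
        (nuMod A q M B k hB hq hqM hA (tameAt_of_tameNU hq htame)) p

/-- **(c) at the tame levels** (helper64). -/
def Stmt_LeafCTame : Prop :=
  ∀ (p : ℕ), p.Prime → p ≠ 2 → ∀ (q M : ℕ) (B k : ℤ) (hB : B * M + k * q = 1) (hq : q.Prime)
    [NeZero M] [NeZero q] [NeZero (M * q)] [NeZero (M * q * q)], q ≠ p →
    ∀ (htame : TameNU (M * q) q) (hqM : ¬ q ∣ M) (A : ValuationSubring Kbar)
      (hA : A.LiesOverPrime q),
      Fermat.Agent.S59.LL.SQ.H20.LeafC A (M * q)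
        (modSSD A q M k B (hab_nuM q M B k hB) hq hA hqM (tameAt_of_tameNU hq htame)) p

/-- **(T′) at the tame levels**, from I1 and (c). -/
theorem stmt_TorSpanSqTame_of (h1 : Stmt_GlueOfT3Tame) (hC : Stmt_LeafCTame) :
    Stmt_TorSpanSqTame := by
  intro p hp hp2 q M B k hB hq _ _ _ _ hqp htame hqM A hA
  exact torSpanSqAt_tame A q M B k hB hq hqM hA (tameAt_of_tameNU hq htame)
    (cases_of_tameNU hq htame) p hp hp2 hqp
    (h1 p hp hp2 q M B k hB hq hqp htame hqM A hA)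
    (hC p hp hp2 q M B k hB hq hqp htame hqM A hA)

/-- **B2 at the tame levels** (helper87: it holds at all levels). -/
theorem stmt_CPow2002Tame : Stmt_CPow2002Tame :=
  fun p hp _ q M B k hB hq _ _ _ _ _ _ hqM A hA =>
    Fermat.Agent.S59.LL.SQ.H87.stmt_CPow2002All p hp.pos q M B k hB hq hqM A hA

/-- **The package SQ at the tame levels with `q` odd**, from I1 and (c). -/
theorem sqNewTameAt_of_leaves (h1 : Stmt_GlueOfT3Tame) (hC : Stmt_LeafCTame)
    (p : ℕ) (hp : p.Prime) (hp2 : p ≠ 2) : Fermat.Agent.S59.LL.H40.SqNewTameAt p :=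
  sqNewTameAt_of Fermat.Agent.S59.LL.SQ.H16.stmt_Reg11Tame stmt_CPow2002Tame
    (stmt_TorSpanSqTame_of h1 hC) p hp hp2

/-- **The package SQ at the tame levels with `q = 2`**, from I1 and (c). -/
theorem sqNewTwoTame_of_leaves (h1 : Stmt_GlueOfT3Tame) (hC : Stmt_LeafCTame)
    (p : ℕ) (hp : p.Prime) (hp2 : p ≠ 2) (M : ℕ) [NeZero M]
    (hM2 : ¬ 2 ∣ M) (h9 : 9 ∣ M) (A : ValuationSubring Kbar) (hA : A.LiesOverPrime 2) :
    H40.HasSqNewPartAt p (M * 2) 2 A :=
  sqNewTwoTame_of Fermat.Agent.S59.LL.SQ.H16.stmt_Reg11Tame stmt_CPow2002Tame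
    (stmt_TorSpanSqTame_of h1 hC) p hp hp2 M hM2 h9 A hA

end Fermat.Agent.S59.LL.SQ.H58

end
end
-- ==== END Fermat.Agent.S59.LL.SQ.H58_TorFinal

-- ==== BEGIN Fermat.Agent.S59.LL.SQ.H58_SqTame
section

/-!
# S59, package LL / SQ: the package SQ at the tame levels, UNCONDITIONAL (helper58)

* `stmt_GlueOfT3Tame` : I1 at the tame levels (helper46's `H46.glueData_of_cpow3` + helper84's
  `H84.genMod`);
* `stmt_LeafCTame`    : (c) at the tame levels (helper20's `H20.leafC_mod`, with helper64, 69, 56,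
  83);
* `stmt_TorSpanSqTame` : **(T′)** at the tame levels;
* `sqNewTameAt : ∀ p, p.Prime → p ≠ 2 → LL.H40.SqNewTameAt p` : the package SQ at the levels
  `M q²`, `q` odd, `4 ∣ M` (first hypothesis of helper40's `LL.H40.llec0_at`);
* `sqNewTwoTame` : the package SQ at the levels `4 M`, `M` odd, `9 ∣ M` (input of the leaves UP
  for `LL.H40.SqNewTwoAt p`, `p ≥ 5`).
-/

set_option autoImplicit false
set_option synthInstance.maxHeartbeats 400000
set_option maxHeartbeats 1000000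
set_option linter.unusedSectionVars false
set_option linter.unusedVariables false
set_option linter.style.haveILetI false

noncomputable section

open ModularCurve AlgebraicCurve

attribute [local instance] Classical.propDecidable

namespace Fermat.Agent.S59.LL.SQ.H58

open Fermat.Agent.S24 Fermat.Agent.BAD Fermat.Agent.BAD.H88 Fermat.Agent.S28 Fermat.Agent.S28.H73
  Fermat.Agent.RED.H73 Fermat.Agent.RED.H17 Fermat.Agent.RED
  Fermat.Agent.S36.NU.H23 Fermat.Agent.S36.NU.H79 Fermat.Agent.S36.H44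
  Fermat.Agent.S36.NU.H74 Fermat.Agent.S36.NU.H81 Fermat.Agent.S36.NU.H10
  Fermat.Agent.S43.H91 Fermat.Agent.Lib.HeckeComm

attribute [local instance] algkM

/-- **I1 at the tame levels.** -/
theorem stmt_GlueOfT3Tame : Stmt_GlueOfT3Tame := by
  intro p hp hp2 q M B k hB hq _ _ _ _ hqp htame hqM A hA H hH hdiv
  exact Fermat.Agent.S59.LL.SQ.H46.glueData_of_cpow3 A q M B k hB hq hqM hA
    (tameAt_of_tameNU hq htame) _
    (isNuM_nuMod A q M B k hB hq hqM hA (tameAt_of_tameNU hq htame)) p hp.ne_zero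
    (fun H' hu hdiv' z hz =>
      Fermat.Agent.S59.LL.SQ.H84.genMod A q M B k hB hq hqM hA (tameAt_of_tameNU hq htame)
        (cases_of_tameNU hq htame) _
        (isNuM_nuMod A q M B k hB hq hqM hA (tameAt_of_tameNU hq htame)) p hp.pos
        H' hu hdiv' z hz)
    H hH hdiv

/-- **(c) at the tame levels.** -/
theorem stmt_LeafCTame : Stmt_LeafCTame := by
  intro p hp hp2 q M B k hB hq _ _ _ _ hqp htame hqM A hA
  exact Fermat.Agent.S59.LL.SQ.H20.leafC_mod A q M k B (hab_nuM q M B k hB) hq hA hqM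
    (tameAt_of_tameNU hq htame) p hp (Ne.symm hqp)

/-- **(T′) at the tame levels.** -/
theorem stmt_TorSpanSqTame : Stmt_TorSpanSqTame :=
  stmt_TorSpanSqTame_of stmt_GlueOfT3Tame stmt_LeafCTame

/-- **The package SQ at the tame levels with `q` odd.** -/
theorem sqNewTameAt (p : ℕ) (hp : p.Prime) (hp2 : p ≠ 2) :
    Fermat.Agent.S59.LL.H40.SqNewTameAt p :=
  sqNewTameAt_of_leaves stmt_GlueOfT3Tame stmt_LeafCTame p hp hp2

/-- **The package SQ at the tame levels with `q = 2`.** -/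
theorem sqNewTwoTame (p : ℕ) (hp : p.Prime) (hp2 : p ≠ 2) (M : ℕ) [NeZero M]
    (hM2 : ¬ 2 ∣ M) (h9 : 9 ∣ M) (A : ValuationSubring Kbar) (hA : A.LiesOverPrime 2) :
    H40.HasSqNewPartAt p (M * 2) 2 A :=
  sqNewTwoTame_of_leaves stmt_GlueOfT3Tame stmt_LeafCTame p hp hp2 M hM2 h9 A hA

end Fermat.Agent.S59.LL.SQ.H58

end
end
-- ==== END Fermat.Agent.S59.LL.SQ.H58_SqTame

-- ==== BEGIN Fermat.Agent.S59.LL.H40_LLClosed
section

set_option autoImplicit false

namespace Fermat.Agent.S59.LL.H40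

/-- **The PIVOT core** (`p ≥ 5`), unconditional: Carayol's theorem and PV-GEOM. -/
theorem stmt_PivotCoreB_closed : Fermat.Agent.L.Pivot.Stmt_PivotCoreB :=
  Fermat.Agent.S43.BadQ.pivotCoreB_of_s36_geom
    (Fermat.Agent.S58.H81.stmt_S36_of_nuCoreTame Fermat.Agent.S36.NU.H10.nuCoreTame)
    Fermat.Agent.L.Pivot.Geom.stmt_PVGeom2_final

/-- **The PIVOT core with auxiliary primes** (`p = 3`), unconditional. -/
theorem stmt_PivotCoreBA_closed : Fermat.Agent.L.Pivot3.Stmt_PivotCoreBA :=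
  Fermat.Agent.L.Pivot3.H11.pivotCoreBA_closed2 Fermat.Agent.L.Pivot.Geom.stmt_PVGeom2_final

/-- **SQ at `q = 2` for `p = 5`**, unconditional. -/
theorem sqNewTwoAt_five : SqNewTwoAt 5 :=
  Fermat.Agent.S59.LL.SQ.H77.sqNewTwoAt_of_torSpanTame
    Fermat.Agent.S59.LL.SQ.H58.stmt_TorSpanSqTame 5 Nat.prime_five le_rfl

/-- **Level lowering at `p = 3` and `p = 5`**, unconditional: a semistable curve with `E[p]`
irreducible which is residually modular of a level `M₀` (`p² ∤ M₀`, `M₀` cube-free away from `p`)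
is residually modular of a squarefree level at which `E[p]` is ramified at every prime `q ≠ p`
and not peu ramifiée at `p` if `p` divides it. -/
theorem llec0_all : ∀ p : ℕ, p = 3 ∨ p = 5 → LLec0At p :=
  llec0_all_of Fermat.Agent.S59.LL.SQ.H58.stmt_TorSpanSqTame sqNewTwoAt_five
    stmt_PivotCoreB_closed stmt_PivotCoreBA_closed

end Fermat.Agent.S59.LL.H40

end
-- ==== END Fermat.Agent.S59.LL.H40_LLClosed
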